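import Fermat.Agent.LTG.KerAct
import Fermat.Agent.LT.AutAct

/-!
# Field automorphisms acting on the points

`Pt.amap` is the map of points; it is semilinear (`Pt.amap_smul`) and preserves the measure
(`measurePreserving_amap`).
-/

set_option autoImplicit false
open IsDedekindDomain NumberField MeasureTheory Filter Set
open scoped Matrix

namespace Fermat.LTG

open Fermat.LT

variable {F : Type*} [Field F] [NumberField F] {S : Lev F}

/-- The automorphism preserves the level. -/
def Stable (τ : F ≃+* F) (S : Lev F) : Prop := ∀ v, S.depth (mapPlace τ v) = S.depth v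

omit [NumberField F] in
/-- Every level is stable under the identity. -/
lemma stable_refl (S : Lev F) : Stable (RingEquiv.refl F) S := fun v => by rw [mapPlace_refl]

/-- An automorphism carries congruence subgroups to those of the image place. -/
lemma mapGL_mem_congN {τ : F ≃+* F} {v u : Place F} (hu : mapPlace τ v = u) {n : ℕ}
    {g : GL (Fin 2) F} (hg : g ∈ congN (v.valuation F) n) :
    mapGL τ g ∈ congN (u.valuation F) n := by
  refine ⟨mapGL_mem_intGL hu hg.1, fun i j => ?_⟩
  subst hu
  have h := hg.2 i j
  rw [← valuation_mapPlace τ v] at h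
  rw [coe_mapGL, Matrix.map_apply]
  convert h using 2
  rw [map_sub]
  congr 1
  fin_cases i <;> fin_cases j <;> simp

/-- A stable level is carried to the level at the image place. -/
lemma mapGL_mem_lev {τ : F ≃+* F} (hS : Stable τ S) {v u : Place F} (hu : mapPlace τ v = u)
    {g : GL (Fin 2) F} (hg : g ∈ lev S v) : mapGL τ g ∈ lev S u := by
  have hd : S.depth u = S.depth v := hu ▸ hS v
  obtain ⟨c, hc⟩ := hg
  refine ⟨Units.map (τ : F →+* F).toMonoidHom c, ?_⟩
  rw [← mapGL_scal, ← map_mul, hd]
  exact mapGL_mem_congN hu hc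

/-- An automorphism on local cosets. -/
noncomputable def Vert.amap {τ : F ≃+* F} (hS : Stable τ S) {v u : Place F}
    (hu : mapPlace τ v = u) :
    Vert S v → Vert S u :=
  Quotient.map' (mapGL τ) fun a b h => by
    rw [QuotientGroup.leftRel_apply] at h ⊢
    rw [← map_inv, ← map_mul]
    exact mapGL_mem_lev hS hu h

/-- The action of `τ` on a coset is the action on a representative. -/
@[simp] lemma Vert.amap_mk {τ : F ≃+* F} (hS : Stable τ S) {v u : Place F} (hu : mapPlace τ v = u)
    (g : GL (Fin 2) F) : Vert.amap hS hu (g : Vert S v) = (mapGL τ g : Vert S u) := rfl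

/-- An automorphism on finite points. -/
noncomputable def FinPt.amap {τ : F ≃+* F} (hS : Stable τ S) (ν : FinPt F S) : FinPt F S :=
  ⟨fun u => Vert.amap hS ((mapPlace τ).apply_symm_apply u) (ν.1 ((mapPlace τ).symm u)), by
    have h := (mapPlace τ).symm.injective.tendsto_cofinite.eventually ν.2
    filter_upwards [h] with u hu
    rw [hu, Vert.amap_mk, map_one]⟩

/-- The component at the image place of a moved finite point is the image of the component at
`v`. -/
lemma FinPt.amap_apply {τ : F ≃+* F} (hS : Stable τ S) (ν : FinPt F S) {v u : Place F}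
    (hu : mapPlace τ v = u) {g : GL (Fin 2) F} (hg : ν.1 v = (g : Vert S v)) :
    (FinPt.amap hS ν).1 u = (mapGL τ g : Vert S u) := by
  obtain rfl : v = (mapPlace τ).symm u := by rw [← hu, Equiv.symm_apply_apply]
  change Vert.amap hS hu _ = _
  rw [hg, Vert.amap_mk]

variable [IsTotallyComplex F]

/-- An automorphism on points. -/
noncomputable def Pt.amap {τ : F ≃+* F} (hS : Stable τ S) (p : Pt F S) : Pt F S :=
  (FinPt.amap hS p.1, fun w => extH p.2 (w.embedding.comp (τ : F →+* F)))

/-- The action on the archimedean points precomposes the embedding with `τ`. -/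
lemma extH_amap {τ : F ≃+* F} (hS : Stable τ S) (p : Pt F S) (φ : F →+* ℂ) :
    extH (Pt.amap hS p).2 φ = extH p.2 (φ.comp (τ : F →+* F)) :=
  extH_comp_amap τ p.2 φ

/-- The actions of automorphisms on points compose. -/
lemma Pt.amap_amap {τ ρ : F ≃+* F} (hS : Stable τ S) (hS' : Stable ρ S)
    (hS'' : Stable (ρ.trans τ) S) (p : Pt F S) :
    Pt.amap hS (Pt.amap hS' p) = Pt.amap hS'' p := by
  refine Prod.ext (Subtype.ext (funext fun u => ?_)) (funext fun w => ?_)
  · set v := (mapPlace (ρ.trans τ)).symm u
    obtain ⟨g, hg⟩ := QuotientGroup.mk_surjective (p.1.1 v)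
    have hv : mapPlace (ρ.trans τ) v = u := Equiv.apply_symm_apply _ _
    have hv' : mapPlace τ (mapPlace ρ v) = u := by rw [mapPlace_mapPlace, hv]
    change (FinPt.amap hS (FinPt.amap hS' p.1)).1 u = (FinPt.amap hS'' p.1).1 u
    rw [FinPt.amap_apply hS'' p.1 hv hg.symm,
      FinPt.amap_apply hS _ hv' (FinPt.amap_apply hS' p.1 rfl hg.symm), mapGL_mapGL]
  · change extH (Pt.amap hS' p).2 _ = extH p.2 _
    rw [extH_amap]
    rfl

omit [IsTotallyComplex F] in
/-- The identity automorphism fixes every point. -/
lemma Pt.amap_refl (hS : Stable (RingEquiv.refl F) S) (p : Pt F S) : Pt.amap hS p = p := by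
  refine Prod.ext (Subtype.ext (funext fun u => ?_)) (funext fun w => ?_)
  · obtain ⟨g, hg⟩ := QuotientGroup.mk_surjective (p.1.1 u)
    have hu : mapPlace (RingEquiv.refl F) u = u := mapPlace_refl u
    change (FinPt.amap hS p.1).1 u = p.1.1 u
    rw [FinPt.amap_apply hS p.1 hu hg.symm, ← hg]
    rfl
  · exact extH_embedding p.2 w

/-- The action of an automorphism on points is semilinear for the action of `GL₂`. -/
lemma Pt.amap_smul {τ : F ≃+* F} (hS : Stable τ S) (g : GL (Fin 2) F) (p : Pt F S) :
    Pt.amap hS (g • p) = mapGL τ g • Pt.amap hS p := by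
  refine Prod.ext (Subtype.ext (funext fun u => ?_)) (funext fun w => ?_)
  · set v := (mapPlace τ).symm u
    obtain ⟨h, hh⟩ := QuotientGroup.mk_surjective (p.1.1 v)
    have hv : mapPlace τ v = u := Equiv.apply_symm_apply _ _
    change (FinPt.amap hS (g • p).1).1 u = mapGL τ g • (FinPt.amap hS p.1).1 u
    rw [FinPt.amap_apply hS p.1 hv hh.symm, FinPt.amap_apply hS _ hv (g := g * h) (by
      rw [Pt.smul_fst, FinPt.smul_apply, ← hh, MulAction.Quotient.smul_coe, smul_eq_mul]),
      MulAction.Quotient.smul_coe, smul_eq_mul, map_mul]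
  · change extH (g • p).2 _ = atInf w (mapGL τ g) • extH p.2 _
    rw [show (g • p).2 = fun w => atInf w g • p.2 w from rfl, extH_smul]
    rfl

/-- An automorphism preserving the level preserves the measure on points. -/
lemma measurePreserving_amap {τ : F ≃+* F} (hS : Stable τ S) :
    MeasurePreserving (Pt.amap hS) (ptMeasure (F := F) (S := S)) ptMeasure := by
  have : DiscreteMeasurableSpace (FinPt F S) := ⟨fun _ => trivial⟩
  have hS' : Stable τ.symm S := fun v => by rw [← hS (mapPlace τ.symm v), mapPlace_symm_right]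
  have hid := stable_refl S
  have h1 : ∀ p : Pt F S, Pt.amap hS (Pt.amap hS' p) = p := fun p => by
    rw [Pt.amap_amap hS hS' (by rwa [RingEquiv.symm_trans_self])]
    simp only [RingEquiv.symm_trans_self, Pt.amap_refl hid]
  have h2 : ∀ p : Pt F S, Pt.amap hS' (Pt.amap hS p) = p := fun p => by
    rw [Pt.amap_amap hS' hS (by rwa [RingEquiv.self_trans_symm])]
    simp only [RingEquiv.self_trans_symm, Pt.amap_refl hid]
  exact measurePreserving_amap_gen τ (g := FinPt.amap hS')
    (fun ν => congrArg Prod.fst (h2 (ν, fun _ => ((1 : GL (Fin 2) ℂ) : H3))))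
    (fun ν => congrArg Prod.fst (h1 (ν, fun _ => ((1 : GL (Fin 2) ℂ) : H3))))

end Fermat.LTG
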