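import Fermat.Agent.LTG.Height
import Fermat.Agent.LT.BorelOrbits

/-!
# Finitely many orbits of the upper triangular matrices on finite points

`exists_borel_reps` gives representatives of these orbits, for a level of arbitrary depth.
-/

set_option autoImplicit false
open scoped Classical

namespace Fermat.LTG

open Fermat.LT

variable {F : Type*} [Field F] [NumberField F]

variable {S : Lev F}

/-- **Finitely many orbits of `(* *; 0 1)` on finite points.** -/
theorem exists_borel_reps : ∃ Ω : Finset (FinPt F S), ∀ ω : FinPt F S,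
    ∃ (a : Fˣ) (x : F), ∃ ω₀ ∈ Ω, upMat a x • ω₀ = ω := by
  obtain ⟨Ω, hΩ, hcov⟩ := exists_borel_reps_gen (F := F) (lev S) (lev_le_U0 S)
    (S.eventually_notMem.mono fun v hv => lev_of_not_mem hv)
    fun v => (exists_finset_U0_cosetN v (S.depth v)).imp fun s h => h.2
  refine ⟨Ω.attach.image fun f => ⟨f.1, hΩ _ f.2⟩, fun ω => ?_⟩
  obtain ⟨a, x, f, hf, h⟩ := hcov ω.1 ω.2
  exact ⟨a, x, ⟨f, hΩ _ hf⟩, Finset.mem_image.2 ⟨⟨f, hf⟩, Finset.mem_attach _ _, rfl⟩,
    Subtype.ext (funext h)⟩

end Fermat.LTG
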