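import Fermat.Agent.LT.Approx
import Fermat.Agent.LT.EntryBound

/-!
# Congruence subgroups of arbitrary depth at one place

`congN` is the principal congruence subgroup `K(n)` and `UN` is `Fˣ K(n)`, of finite index by
`exists_finset_U0_cosetN`.
-/

set_option autoImplicit false
open NumberField
open scoped Classical Matrix

namespace Fermat.LTG

open Fermat.LT

section Local

variable {F : Type*} [Field F] (v : Valuation F (WithZero (Multiplicative ℤ)))

/-- The entries of an integral element are integral. -/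
lemma v_entry_le_one {g : GL (Fin 2) F} (hg : g ∈ intGL v) (i j : Fin 2) :
    v ((g : Matrix (Fin 2) (Fin 2) F) i j) ≤ 1 := by
  obtain ⟨g0, rfl⟩ := hg
  exact ((g0 : Matrix (Fin 2) (Fin 2) v.integer) i j).2

/-- The entries of `1` are integral. -/
lemma v_one_entry_le (i j : Fin 2) : v ((1 : Matrix (Fin 2) (Fin 2) F) i j) ≤ 1 := by
  fin_cases i <;> fin_cases j <;> simp

/-- `exp (-n) ≤ 1`. -/
lemma exp_neg_nat_le_one (n : ℕ) :
    WithZero.exp (-(n : ℤ)) ≤ (1 : WithZero (Multiplicative ℤ)) := by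
  rw [← WithZero.exp_zero, WithZero.exp_le_exp]; omega

/-- The principal congruence subgroup `K(n)`; `K(0) = GL₂(O_v)`. -/
def congN (n : ℕ) : Subgroup (GL (Fin 2) F) where
  carrier := {g | g ∈ intGL v ∧ ∀ i j, v ((g : Matrix (Fin 2) (Fin 2) F) i j
      - (1 : Matrix (Fin 2) (Fin 2) F) i j) ≤ WithZero.exp (-(n : ℤ))}
  one_mem' := ⟨(intGL v).one_mem, fun i j => by simp⟩
  mul_mem' := by
    rintro a b ⟨ha, ha'⟩ ⟨hb, hb'⟩
    refine ⟨(intGL v).mul_mem ha hb, fun i j => ?_⟩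
    have e : ((a * b : GL (Fin 2) F) : Matrix (Fin 2) (Fin 2) F) i j
          - (1 : Matrix (Fin 2) (Fin 2) F) i j
        = ∑ k, ((a : Matrix (Fin 2) (Fin 2) F) i k - (1 : Matrix (Fin 2) (Fin 2) F) i k)
            * (b : Matrix (Fin 2) (Fin 2) F) k j
          + ((b : Matrix (Fin 2) (Fin 2) F) i j - (1 : Matrix (Fin 2) (Fin 2) F) i j) := by
      simp only [Units.val_mul, Matrix.mul_apply, sub_mul, Finset.sum_sub_distrib]
      simp [Matrix.one_apply]
    rw [e]
    refine (v.map_add _ _).trans (max_le (v.map_sum_le fun k _ => ?_) (hb' i j))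
    rw [map_mul]
    exact (mul_le_of_le_one_right' (v_entry_le_one v hb k j)).trans (ha' i k)
  inv_mem' := by
    rintro a ⟨ha, ha'⟩
    refine ⟨(intGL v).inv_mem ha, fun i j => ?_⟩
    have e : ((a⁻¹ : GL (Fin 2) F) : Matrix (Fin 2) (Fin 2) F) i j
          - (1 : Matrix (Fin 2) (Fin 2) F) i j
        = - ∑ k, ((a : Matrix (Fin 2) (Fin 2) F) i k - (1 : Matrix (Fin 2) (Fin 2) F) i k)
            * ((a⁻¹ : GL (Fin 2) F) : Matrix (Fin 2) (Fin 2) F) k j := by
      have h : ∑ k, (a : Matrix (Fin 2) (Fin 2) F) i k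
          * ((a⁻¹ : GL (Fin 2) F) : Matrix (Fin 2) (Fin 2) F) k j
          = (1 : Matrix (Fin 2) (Fin 2) F) i j := by
        rw [← Matrix.mul_apply, ← Units.val_mul, mul_inv_cancel]; simp
      simp only [sub_mul, Finset.sum_sub_distrib, h]
      simp [Matrix.one_apply]
    rw [e, Valuation.map_neg]
    refine v.map_sum_le fun k _ => ?_
    rw [map_mul]
    exact (mul_le_of_le_one_right' (v_entry_le_one v ((intGL v).inv_mem ha) k j)).trans (ha' i k)

/-- Congruence subgroups consist of integral elements. -/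
lemma congN_le_intGL (n : ℕ) : congN v n ≤ intGL v := fun _ h => h.1

/-- Deeper congruence subgroups are smaller. -/
lemma congN_anti {m n : ℕ} (h : m ≤ n) : congN v n ≤ congN v m := fun _ hg =>
  ⟨hg.1, fun i j => (hg.2 i j).trans (WithZero.exp_le_exp.2 (by omega))⟩

/-- Depth zero is `GL₂(O)`. -/
lemma congN_zero : congN v 0 = intGL v :=
  le_antisymm (congN_le_intGL v 0) fun g hg => ⟨hg, fun i j => by
    simpa using (v.map_sub _ _).trans (max_le (v_entry_le_one v hg i j) (v_one_entry_le v i j))⟩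

/-- Membership from bounds on the element and its inverse. -/
lemma mem_congN_of_le [NumberField F] {n : ℕ} {g : GL (Fin 2) F}
    (h : ∀ i j, v ((g : Matrix (Fin 2) (Fin 2) F) i j - (1 : Matrix (Fin 2) (Fin 2) F) i j)
      ≤ WithZero.exp (-(n : ℤ)))
    (h' : ∀ i j, v (((g⁻¹ : GL (Fin 2) F) : Matrix (Fin 2) (Fin 2) F) i j
      - (1 : Matrix (Fin 2) (Fin 2) F) i j) ≤ WithZero.exp (-(n : ℤ))) : g ∈ congN v n := by
  refine ⟨mem_intGL_of_le (fun i j => ?_) fun i j => ?_, h⟩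
  · rw [← sub_add_cancel ((g : Matrix (Fin 2) (Fin 2) F) i j) ((1 : Matrix (Fin 2) (Fin 2) F) i j)]
    exact (v.map_add _ _).trans (max_le ((h i j).trans (exp_neg_nat_le_one n))
      (v_one_entry_le v i j))
  · rw [← sub_add_cancel (((g⁻¹ : GL (Fin 2) F) : Matrix (Fin 2) (Fin 2) F) i j)
      ((1 : Matrix (Fin 2) (Fin 2) F) i j)]
    exact (v.map_add _ _).trans (max_le ((h' i j).trans (exp_neg_nat_le_one n))
      (v_one_entry_le v i j))

section Det

variable [NumberField F] {v}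

omit [NumberField F] in
/-- Integral with unit determinant. -/
lemma mem_intGL_of_det {g : GL (Fin 2) F}
    (h : ∀ i j, v ((g : Matrix (Fin 2) (Fin 2) F) i j) ≤ 1)
    (hd : v (g : Matrix (Fin 2) (Fin 2) F).det = 1) : g ∈ intGL v := by
  refine mem_intGL_of_le h fun i j => ?_
  rw [Matrix.coe_units_inv, Matrix.inv_def, Ring.inverse_eq_inv', Matrix.smul_apply,
    smul_eq_mul, map_mul, map_inv₀, hd, inv_one, one_mul, Matrix.adjugate_fin_two]
  fin_cases i <;> fin_cases j <;> simp [Valuation.map_neg, h _ _]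

omit [NumberField F] in
/-- The determinant of an integral matrix is a unit. -/
lemma v_det_intGL {g : GL (Fin 2) F}
    (hg : g ∈ intGL v) : v g.val.det = 1 := by
  have h1 : ∀ x : GL (Fin 2) F, x ∈ intGL v → v x.val.det ≤ 1 := fun x hx => by
    rw [Matrix.det_fin_two]
    refine (v.map_sub _ _).trans (max_le ?_ ?_) <;> rw [map_mul] <;>
      exact mul_le_one' (v_entry_le_one v hx _ _) (v_entry_le_one v hx _ _)
  refine le_antisymm (h1 g hg) ?_
  have h2 := h1 g⁻¹ ((intGL v).inv_mem hg)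
  have h3 : g.val.det * (g⁻¹).val.det = 1 := by
    rw [← Matrix.det_mul, ← Units.val_mul, mul_inv_cancel, Units.val_one, Matrix.det_one]
  have h4 := congrArg v h3
  rw [map_mul, map_one] at h4
  rw [← h4]
  exact mul_le_of_le_one_right' h2

variable (v) in
/-- Matrices entrywise close to `1` are deep. -/
lemma mem_congN_of_sub {n : ℕ} (hn : 1 ≤ n) {g : GL (Fin 2) F}
    (h : ∀ i j, v ((g : Matrix (Fin 2) (Fin 2) F) i j - (1 : Matrix (Fin 2) (Fin 2) F) i j)
      ≤ WithZero.exp (-(n : ℤ))) : g ∈ congN v n := by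
  set A := (g : Matrix (Fin 2) (Fin 2) F)
  have hlt : WithZero.exp (-(n : ℤ)) < (1 : WithZero (Multiplicative ℤ)) := by
    rw [← WithZero.exp_zero, WithZero.exp_lt_exp]; omega
  have h1 : ∀ i j, v (A i j) ≤ 1 := fun i j => by
    rw [← sub_add_cancel (A i j) ((1 : Matrix (Fin 2) (Fin 2) F) i j)]
    exact (v.map_add _ _).trans (max_le ((h i j).trans hlt.le) (v_one_entry_le v i j))
  refine ⟨mem_intGL_of_det h1 ?_, h⟩
  have e : A.det = 1 + ((A 0 0 - 1) * A 1 1 + ((A 1 1 - 1) - A 0 1 * A 1 0)) := by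
    rw [Matrix.det_fin_two]; ring
  have h00 := h 0 0
  have h11 := h 1 1
  have h01 := h 0 1
  simp only [Matrix.one_apply_eq, Matrix.one_apply_ne zero_ne_one, sub_zero] at h00 h11 h01
  rw [e]
  refine v.map_one_add_of_lt (lt_of_le_of_lt ((v.map_add _ _).trans (max_le ?_
    ((v.map_sub _ _).trans (max_le h11 ?_)))) hlt)
  · rw [map_mul]; exact (mul_le_of_le_one_right' (h1 1 1)).trans h00
  · rw [map_mul]; exact (mul_le_of_le_one_right' (h1 1 0)).trans h01

end Det

/-- Conjugates of deep elements are deep. -/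
lemma conj_mem_congN [NumberField F] {g δ : GL (Fin 2) F} {m n : ℕ}
    (hm : ∀ i j, v ((g : Matrix (Fin 2) (Fin 2) F) i j) ≤ WithZero.exp (m : ℤ) ∧
      v (((g⁻¹ : GL (Fin 2) F) : Matrix (Fin 2) (Fin 2) F) i j) ≤ WithZero.exp (m : ℤ))
    (h : ∀ i j, v ((δ : Matrix (Fin 2) (Fin 2) F) i j - (1 : Matrix (Fin 2) (Fin 2) F) i j)
      ≤ WithZero.exp (-((2 * m + n : ℕ) : ℤ)))
    (h' : ∀ i j, v (((δ⁻¹ : GL (Fin 2) F) : Matrix (Fin 2) (Fin 2) F) i j
      - (1 : Matrix (Fin 2) (Fin 2) F) i j) ≤ WithZero.exp (-((2 * m + n : ℕ) : ℤ))) :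
    g⁻¹ * δ * g ∈ congN v n := by
  refine mem_congN_of_le v (v_conj_sub_one_le v hm h) ?_
  rw [show (g⁻¹ * δ * g)⁻¹ = g⁻¹ * δ⁻¹ * g by group]
  exact v_conj_sub_one_le v hm h'

/-- `K(n)` is normal in `GL₂(O_v)`. -/
lemma conj_congN_mem [NumberField F] {n : ℕ} {g k : GL (Fin 2) F} (hg : g ∈ intGL v)
    (hk : k ∈ congN v n) :
    g⁻¹ * k * g ∈ congN v n := by
  refine conj_mem_congN (m := 0) v (fun i j => ?_) (fun i j => ?_) fun i j => ?_
  · exact ⟨by simpa using v_entry_le_one v hg i j,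
      by simpa using v_entry_le_one v ((intGL v).inv_mem hg) i j⟩
  · simpa using hk.2 i j
  · simpa using ((congN v n).inv_mem hk).2 i j

/-- The level subgroup `Fˣ K(n)`. -/
def UN (n : ℕ) : Subgroup (GL (Fin 2) F) := withScalars (congN v n)

/-- The level subgroups lie in `Fˣ GL₂(O)`. -/
lemma UN_le_U0 (n : ℕ) : UN v n ≤ U0 v := fun _ ⟨c, hc⟩ => ⟨c, hc.1⟩

/-- Deeper level subgroups are smaller. -/
lemma UN_anti {m n : ℕ} (h : m ≤ n) : UN v n ≤ UN v m := fun _ ⟨c, hc⟩ => ⟨c, congN_anti v h hc⟩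

/-- Level zero is `Fˣ GL₂(O)`. -/
lemma UN_zero : UN v 0 = U0 v := by rw [UN, congN_zero]; rfl

/-- Scalars lie in every level subgroup. -/
lemma scal_mem_UN (n : ℕ) (c : Fˣ) : scal c ∈ UN v n := scal_mem_withScalars _ c

/-- A congruence element lies in the level subgroup. -/
lemma mem_UN_of_congN {n : ℕ} {g : GL (Fin 2) F} (h : g ∈ congN v n) : g ∈ UN v n :=
  le_withScalars _ h

/-- `Fˣ K(n)` is normal in `Fˣ GL₂(O_v)`. -/
lemma conj_UN_mem [NumberField F] {n : ℕ} {g k : GL (Fin 2) F} (hg : g ∈ U0 v) (hk : k ∈ UN v n) :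
    g⁻¹ * k * g ∈ UN v n := by
  obtain ⟨c, hc⟩ := hg
  obtain ⟨d, hd⟩ := hk
  refine ⟨d, ?_⟩
  have e : scal d * (g⁻¹ * k * g) = (scal c * g)⁻¹ * (scal d * k) * (scal c * g) := by
    calc scal d * (g⁻¹ * k * g) = g⁻¹ * (scal d * k) * g := by
          rw [← mul_assoc, ← mul_assoc, scal_comm d g⁻¹]; simp [mul_assoc]
      _ = g⁻¹ * ((scal c)⁻¹ * (scal d * k) * scal c) * g := by
          congr 2
          rw [mul_assoc, ← scal_comm c (scal d * k), inv_mul_cancel_left]
      _ = _ := by group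
  rw [e]
  exact conj_congN_mem v hc hd

end Local

variable {F : Type*} [Field F] [NumberField F]

/-- Finitely many cosets of `Fˣ K(n)` in `Fˣ GL₂(O_v)`. -/
theorem exists_finset_U0_cosetN (v : Place F) (n : ℕ) :
    ∃ s : Finset (GL (Fin 2) F), (∀ g ∈ s, g ∈ U0 (v.valuation F)) ∧
      ∀ k ∈ U0 (v.valuation F), ∃ g ∈ s, k⁻¹ * g ∈ UN (v.valuation F) n := by
  have : Finite (𝓞 F ⧸ v.asIdeal ^ n) :=
    Ideal.finiteQuotientOfFreeOfNeBot _ (pow_ne_zero _ v.ne_bot)
  choose app happ using fun x : {x : F // v.valuation F x ≤ 1} => exists_int_near v x.2 n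
  let red : intGL (v.valuation F) → (Fin 2 → Fin 2 → 𝓞 F ⧸ v.asIdeal ^ n) := fun g i j =>
    Ideal.Quotient.mk _ (app ⟨_, v_entry_le_one _ g.2 i j⟩)
  -- equal reductions give the same coset
  have key : ∀ a b : intGL (v.valuation F), red a = red b →
      (a : GL (Fin 2) F)⁻¹ * b ∈ congN (v.valuation F) n := by
    intro a b hab
    refine ⟨(intGL _).mul_mem ((intGL _).inv_mem a.2) b.2, fun i j => ?_⟩
    have hainv :=
      fun k l => v_entry_le_one (v.valuation F) ((intGL (v.valuation F)).inv_mem a.2) k l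
    have hd : ∀ k l, v.valuation F (((b : GL (Fin 2) F) : Matrix (Fin 2) (Fin 2) F) k l
        - ((a : GL (Fin 2) F) : Matrix (Fin 2) (Fin 2) F) k l) ≤ WithZero.exp (-(n : ℤ)) := by
      intro k l
      set x : {x : F // v.valuation F x ≤ 1} := ⟨_, v_entry_le_one _ b.2 k l⟩
      set y : {x : F // v.valuation F x ≤ 1} := ⟨_, v_entry_le_one _ a.2 k l⟩
      have h : app x - app y ∈ v.asIdeal ^ n :=
        Ideal.Quotient.eq.1 (congrFun (congrFun hab k) l).symm
      rw [← valuation_le_exp_neg_iff] at h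
      push_cast at h
      rw [show (x : F) - y = ((x : F) - app x) + ((app x : F) - app y) - ((y : F) - app y) by ring]
      exact ((v.valuation F).map_sub _ _).trans (max_le
        (((v.valuation F).map_add _ _).trans (max_le (happ x) h)) (happ y))
    have e : (((a : GL (Fin 2) F)⁻¹ * b : GL (Fin 2) F) : Matrix (Fin 2) (Fin 2) F) i j
        - (1 : Matrix (Fin 2) (Fin 2) F) i j = ∑ k, (((a : GL (Fin 2) F)⁻¹ : GL (Fin 2) F).val i k)
          * (((b : GL (Fin 2) F) : Matrix (Fin 2) (Fin 2) F) k j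
            - ((a : GL (Fin 2) F) : Matrix (Fin 2) (Fin 2) F) k j) := by
      have h1 : ∑ k, (((a : GL (Fin 2) F)⁻¹ : GL (Fin 2) F).val i k)
          * ((a : GL (Fin 2) F) : Matrix (Fin 2) (Fin 2) F) k j
          = (1 : Matrix (Fin 2) (Fin 2) F) i j := by
        rw [← Matrix.mul_apply, ← Units.val_mul, inv_mul_cancel]; simp
      simp only [mul_sub, Finset.sum_sub_distrib, h1, Units.val_mul, Matrix.mul_apply]
    rw [e]
    refine (v.valuation F).map_sum_le fun k _ => ?_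
    rw [map_mul]
    exact (mul_le_of_le_one_left' (hainv i k)).trans (hd k j)
  -- pick a representative of each reduction
  have hfin : (Set.range red).Finite := Set.toFinite _
  choose pick hpick using fun z : hfin.toFinset => hfin.mem_toFinset.1 z.2
  refine ⟨Finset.univ.image fun z => (pick z : GL (Fin 2) F), fun g hg => ?_, ?_⟩
  · obtain ⟨z, -, rfl⟩ := Finset.mem_image.1 hg
    exact le_withScalars _ (pick z).2
  · rintro k ⟨c, hc⟩
    set z : hfin.toFinset := ⟨red ⟨_, hc⟩, hfin.mem_toFinset.2 ⟨_, rfl⟩⟩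
    refine ⟨(pick z : GL (Fin 2) F), Finset.mem_image.2 ⟨z, Finset.mem_univ _, rfl⟩, ?_⟩
    have h := key ⟨_, hc⟩ (pick z) (hpick z).symm
    refine ⟨c⁻¹, ?_⟩
    have e : scal c⁻¹ * (k⁻¹ * (pick z : GL (Fin 2) F)) = (scal c * k)⁻¹ * pick z := by
      rw [scal_comm c k, mul_inv_rev, show (scal c)⁻¹ = scal c⁻¹ from (map_inv _ _).symm, mul_assoc]
    rw [e]
    exact h

end Fermat.LTG
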