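import Fermat.Agent.LTG.SKer
import Fermat.Agent.LTG.BorelOrbits

/-!
# Constant terms of kernels

At a finite place `lint k α β` is `∫ k(α, n(x)β) dx` (the integers have mass
one), written as the sum over the orbit of `β` times the mass of the stabiliser.  At a complex place
`aint k t t'` is the integral over the translations.  `constTerm` sums their product over the torus
classes `diag(a,1)`.
-/

set_option autoImplicit false
open MeasureTheory Filter Set NumberField

namespace Fermat.LTG

open Fermat.LT

variable {F : Type*} [Field F] [NumberField F] {S : Lev F}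

/-- The translations fixing the coset `β` form the ball of radius `exp (-stabExp β)`. -/
noncomputable def stabExp {v : Place F} (β : Vert S v) : ℤ :=
  (S.depth v : ℤ) + ord (v.valuation F)
    ((exists_upMat_mod_U0 (v.valuation F) β.out).choose : F)

/-- The local integral over unipotent translations. -/
noncomputable def lint {v : Place F} (k : LKer S v) (α β : Vert S v) : ℂ :=
  (∑ᶠ c ∈ Set.range (fun x : F => upMat (1 : Fˣ) x • β), k α c) * (pnorm v : ℂ) ^ (-stabExp β)

/-- The sum of a kernel over the orbit of `β` under translations. -/
noncomputable def orbSum {v : Place F} (k : LKer S v) (α β : Vert S v) : ℂ :=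
  ∑ᶠ c ∈ Set.range (fun x : F => upMat (1 : Fˣ) x • β), k α c

/-- The local integral is the orbit sum times the mass of the stabiliser. -/
lemma lint_eq_orbSum {v : Place F} (k : LKer S v) (α β : Vert S v) :
    lint k α β = orbSum k α β * (pnorm v : ℂ) ^ (-stabExp β) := rfl

/-- The horospherical transform of a radial function at distance `l`. -/
noncomputable def gT (f : ℝ → ℝ) (l : ℝ) : ℂ :=
  ∫ u : ℂ, (f (Complex.normSq u + Real.cosh l) : ℂ)

/-- The integral over translations at an infinite place, between heights `t` and `t'`. -/
noncomputable def aint (k : AKer) (t t' : ℝ) : ℂ := ∫ z : ℂ, k (H3.mk 0 t) (H3.mk z t')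

namespace PKer

/-- The finite part of the integral over translations. -/
noncomputable def nfinInt (K : PKer F S) (ν u : FinPt F S) : ℂ :=
  ∏ᶠ v, lint (K.loc v) (ν.1 v) (u.1 v)

/-- The infinite part of the integral over translations. -/
noncomputable def ninfInt (K : PKer F S) (t t' : InfinitePlace F → ℝ) : ℂ :=
  ∏ w, aint (K.arch w) (t w) (t' w)

/-- The constant term: the sum over the torus classes of the integrals over translations. -/
noncomputable def constTerm (K : PKer F S) (ν u : FinPt F S) (t t' : InfinitePlace F → ℝ) : ℂ :=
  ∑' a : Fˣ, K.nfinInt ν (upMat a 0 • u) * K.ninfInt t (fun w => w (a : F) * t' w)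

end PKer

namespace SKer

/-- The constant term of a combination. -/
noncomputable def constTerm (K : SKer F S) (ν u : FinPt F S) (t t' : InfinitePlace F → ℝ) : ℂ :=
  ∑ i, K.coef i * (K.ker i).constTerm ν u t t'

/-- The constant term vanishes. -/
def HasZeroCT (K : SKer F S) : Prop :=
  ∀ (ν u : FinPt F S) (t t' : InfinitePlace F → ℝ), (∀ w, 0 < t w) → (∀ w, 0 < t' w) →
    K.constTerm ν u t t' = 0

/-- The vanishing of the constant term through orbit sums and horospherical transforms, for a
combination whose infinite factors are given by the radial functions `f`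
(`∏ w, w a` is the square root of the absolute norm of `a`). -/
def HasZeroCTO (K : SKer F S) (f : Fin K.n → InfinitePlace F → ℝ → ℝ) : Prop :=
  ∀ (ω u₀ : FinPt F S) (l : InfinitePlace F → ℝ),
    ∑ᶠ a : Fˣ, (((∏ w : InfinitePlace F, w (a : F))⁻¹ : ℝ) : ℂ) *
      (∑ i, K.coef i *
        (∏ᶠ v, orbSum ((K.ker i).loc v) (ω.1 v) ((upMat a 0 • u₀).1 v)) *
        ∏ w, gT (f i w) (l w - Real.log (w (a : F)))) = 0

end SKer

end Fermat.LTG
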