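import Fermat.Agent.LT.CuspBound
import Fermat.Agent.LT.Mult.Mean

/-!
# Lattice sums on a horosphere are the integral up to a bounded error

`lattice_sum_approx` is the bound, with `setIntegral_lattice_sum` unfolding the sums.
-/

set_option autoImplicit false
open NumberField MeasureTheory Module Set Filter
open scoped Classical ContDiff Pointwise

namespace Fermat.LTG

open Fermat.LT Fermat.LT.Mult

variable {F : Type*} [Field F] [NumberField F]

/-- The product of radial functions read on a horosphere. -/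
noncomputable def horoProd (f : InfinitePlace F → ℝ → ℝ) (zx zy : InfinitePlace F → ℂ)
    (t t' : InfinitePlace F → ℝ) (z : InfinitePlace F → ℂ) : ℂ :=
  ∏ w, (f w (cd (zx w, t w) (zy w + z w, t' w)) : ℂ)

/-- The product of the horospherical integrals. -/
noncomputable def horoInt (f : InfinitePlace F → ℝ → ℝ) (t t' : InfinitePlace F → ℝ) : ℂ :=
  ∏ w, ∫ z : ℂ, (f w (cd (0, t w) (z, t' w)) : ℂ)

/-- The integral over translations does not depend on the base points. -/
lemma integral_horoProd (f : InfinitePlace F → ℝ → ℝ) (zx zy : InfinitePlace F → ℂ)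
    (t t' : InfinitePlace F → ℝ) : ∫ z, horoProd f zx zy t t' z = horoInt f t t' := by
  unfold horoProd horoInt
  rw [integral_fintype_prod_volume_eq_prod
    fun w (z : ℂ) => (f w (cd (zx w, t w) (zy w + z, t' w)) : ℂ)]
  refine Finset.prod_congr rfl fun w _ => ?_
  rw [← integral_add_right_eq_self (μ := (volume : Measure ℂ))
    (fun z => (f w (cd (zx w, t w) (zy w + z, t' w)) : ℂ)) (zx w - zy w)]
  refine integral_congr_ae (Eventually.of_forall fun z => ?_)
  change (f w _ : ℂ) = (f w _ : ℂ)
  rw [cd, cd, show zx w - (zy w + (z + (zx w - zy w))) = (0 : ℂ) - z by ring]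

variable [IsTotallyComplex F]

variable (F) in
/-- The volume of the period parallelotope of the integers. -/
noncomputable def covol : ℝ := volume.real (ZSpan.fundamentalDomain (basisR (F := F)))

variable (F) in
/-- The covolume is nonzero. -/
lemma covol_ne_zero : covol F ≠ 0 :=
  (ENNReal.toReal_pos (ZSpan.measure_fundamentalDomain_ne_zero (basisR (F := F)))
    ((ZSpan.fundamentalDomain_isBounded (basisR (F := F))).measure_lt_top.ne)).ne'

/-- The basis scaled by a natural number. -/
noncomputable def scaledBasis {N : ℕ} (hN : N ≠ 0) : Basis (BIdx F) ℝ (InfinitePlace F → ℂ) :=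
  (basisR (F := F)).map (LinearEquiv.smulOfNeZero ℝ (InfinitePlace F → ℂ) (N : ℝ)
    (Nat.cast_ne_zero.2 hN))

/-- The scaled basis consists of the embeddings of `N` times the integral basis. -/
lemma scaledBasis_apply {N : ℕ} (hN : N ≠ 0) (i : BIdx F) :
    scaledBasis hN i = emb ((N : F) * (RingOfIntegers.basis F i : F)) := by
  rw [scaledBasis, Basis.map_apply, map_mul, map_natCast, ← basisR_apply]
  funext w
  change ((N : ℝ) • (basisR i : InfinitePlace F → ℂ)) w = _
  simp [Complex.real_smul]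

/-- Scaling the basis by `N` multiplies the covolume by a power of `N`. -/
lemma volume_scaled {N : ℕ} (hN : N ≠ 0) :
    volume.real (ZSpan.fundamentalDomain (scaledBasis (F := F) hN))
      = (N : ℝ) ^ finrank ℚ F * covol F := by
  have hN' : (N : ℝ) ≠ 0 := Nat.cast_ne_zero.2 hN
  have hset : ZSpan.fundamentalDomain (scaledBasis (F := F) hN)
      = (N : ℝ) • ZSpan.fundamentalDomain (basisR (F := F)) := by
    ext z
    rw [Set.mem_smul_set_iff_inv_smul_mem₀ hN', ZSpan.mem_fundamentalDomain,
      ZSpan.mem_fundamentalDomain]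
    refine forall_congr' fun i => ?_
    rw [scaledBasis, Basis.map_repr, LinearEquiv.trans_apply]
    congr! 3
  have hd : finrank ℝ (InfinitePlace F → ℂ) = finrank ℚ F := by
    rw [finrank_eq_card_basis (basisR (F := F)), ← RingOfIntegers.rank F,
      finrank_eq_card_chooseBasisIndex]
  rw [hset, covol, Measure.real, Measure.real, Measure.addHaar_smul_of_nonneg _ (Nat.cast_nonneg N),
    ENNReal.toReal_mul, ENNReal.toReal_ofReal (by positivity), hd]

/-- Normalised coordinates of a point on a horosphere. -/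
noncomputable def horoPoint (zx zy : InfinitePlace F → ℂ) (t t' : InfinitePlace F → ℝ)
    (z : InfinitePlace F → ℂ) : InfinitePlace F → ℂ × ℝ := fun w =>
  ((zy w + z w - zx w) / (horoScale t t' w : ℂ),
    Real.sqrt ((t w ^ 2 + t' w ^ 2) / (2 * (t w * t' w))))

section HoroPoint

variable {zx zy : InfinitePlace F → ℂ} {t t' : InfinitePlace F → ℝ}
variable (ht0 : ∀ w, 0 < t w) (ht0' : ∀ w, 0 < t' w)
include ht0 ht0'

omit [IsTotallyComplex F] in
/-- Lattice translations in normalised coordinates. -/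
lemma horoPoint_add (N : ℕ) (z : InfinitePlace F → ℂ) (l : 𝓞 F) (s : ℝ) (l₀ : 𝓞 F) :
    horoPoint zx zy t t' (z + emb ((N : F) * (l : F)) + s • emb ((N : F) * (l₀ : F)))
      = horoPoint zx zy t t' z + horoShift N t t' l + s • horoShift N t t' l₀ := by
  funext w
  have hσ' : (horoScale t t' w : ℂ) ≠ 0 := Complex.ofReal_ne_zero.2 (horoScale_pos ht0 ht0' w).ne'
  refine Prod.ext ?_ ?_
  · simp [horoPoint, horoShift_apply, Complex.real_smul]; field_simp; ring
  · simp [horoPoint, horoShift_apply]

omit [IsTotallyComplex F] in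
/-- One lattice translation in normalised coordinates. -/
lemma horoPoint_add_emb (N : ℕ) (z : InfinitePlace F → ℂ) (l : 𝓞 F) :
    horoPoint zx zy t t' (z + emb ((N : F) * (l : F)))
      = horoPoint zx zy t t' z + horoShift N t t' l := by
  simpa using horoPoint_add (zx := zx) (zy := zy) ht0 ht0' N z l 0 0

omit [IsTotallyComplex F] in
/-- The horospherical product in normalised coordinates. -/
lemma horoProd_eq_prodBump (f : InfinitePlace F → ℝ → ℝ) (z : InfinitePlace F → ℂ) :
    horoProd f zx zy t t' z = prodBump f (horoPoint zx zy t t' z) := by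
  refine Finset.prod_congr rfl fun w _ => ?_
  have hpos : 0 < 2 * (t w * t' w) := mul_pos two_pos (mul_pos (ht0 w) (ht0' w))
  simp only [horoPoint, cd]
  rw [Real.sq_sqrt (by positivity), Complex.normSq_div, Complex.normSq_ofReal, ← sq, horoScale,
    Real.sq_sqrt hpos.le, ← add_div, ← Complex.normSq_neg (zx w - _), add_assoc]
  simp

omit [IsTotallyComplex F] in
/-- The horospherical product is continuous. -/
lemma continuous_horoProd {f : InfinitePlace F → ℝ → ℝ} (hfs : ∀ w, ContDiff ℝ ∞ (f w)) :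
    Continuous (horoProd f zx zy t t') := by
  rw [show horoProd f zx zy t t' = prodBump f ∘ horoPoint zx zy t t' from
    funext (horoProd_eq_prodBump ht0 ht0' f)]
  exact (contDiff_prodBump f hfs).continuous.comp (continuous_pi fun w => by
    simp only [horoPoint]; fun_prop)

omit [IsTotallyComplex F] in
/-- The horospherical product has compact support. -/
lemma hasCompactSupport_horoProd {f : InfinitePlace F → ℝ → ℝ}
    (hfc : ∀ w, HasCompactSupport (f w)) : HasCompactSupport (horoProd f zx zy t t') := by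
  obtain ⟨B, hB⟩ := (hasCompactSupport_prodBump f hfc).isCompact.isBounded.exists_norm_le
  refine HasCompactSupport.intro (isCompact_univ_pi fun w =>
    isCompact_closedBall (zx w - zy w) (|B| * horoScale t t' w)) fun z hz => ?_
  by_contra hne
  refine hz fun w _ => ?_
  rw [horoProd_eq_prodBump ht0 ht0'] at hne
  have hσ0 := horoScale_pos ht0 ht0' w
  have h1 := (norm_le_pi_norm (horoPoint zx zy t t' z) w).trans (hB _ (subset_tsupport _ hne))
  have h2 := (norm_fst_le (horoPoint zx zy t t' z w)).trans h1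
  simp only [horoPoint, norm_div, Complex.norm_of_nonneg hσ0.le] at h2
  rw [div_le_iff₀ hσ0] at h2
  rw [Metric.mem_closedBall, dist_eq_norm, show z w - (zx w - zy w) = zy w + z w - zx w by ring]
  exact h2.trans (mul_le_mul_of_nonneg_right (le_abs_self B) hσ0.le)

/-- Only finitely many translates of a horospherical product meet a bounded set. -/
lemma exists_finset_horoProd_eq_zero {f : InfinitePlace F → ℝ → ℝ}
    (hfc : ∀ w, HasCompactSupport (f w)) {N : ℕ} (hN : N ≠ 0) (z₀ : InfinitePlace F → ℂ)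
    {P : Set (InfinitePlace F → ℂ)} (hP : Bornology.IsBounded P) :
    ∃ L : Finset (𝓞 F), ∀ z ∈ P, ∀ l ∉ L,
      horoProd f zx zy t t' (z₀ + z + emb ((N : F) * (l : F))) = 0 := by
  obtain ⟨B, hB⟩ := (hasCompactSupport_prodBump f hfc).isCompact.isBounded.exists_norm_le
  obtain ⟨R, hR⟩ := hP.exists_norm_le
  have hσ0 := horoScale_pos ht0 ht0'
  set pr := horoPoint zx zy t t'
  obtain ⟨B', hB'⟩ : ∃ B' : ℝ, ∀ z ∈ P, ‖pr (z₀ + z) - pr z₀‖ ≤ B' := by
    refine ⟨∑ w, |R| / horoScale t t' w, fun z hz => (pi_norm_le_iff_of_nonneg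
      (Finset.sum_nonneg fun w _ => div_nonneg (abs_nonneg _) (hσ0 w).le)).2 fun w => ?_⟩
    refine le_trans ?_ (Finset.single_le_sum (f := fun w => |R| / horoScale t t' w)
      (fun u _ => div_nonneg (abs_nonneg _) (hσ0 u).le) (Finset.mem_univ w))
    have e : (pr (z₀ + z) - pr z₀) w = (z w / (horoScale t t' w : ℂ), 0) := by
      simp [pr, horoPoint, ← sub_div]
    rw [e, Prod.norm_def, norm_zero, max_eq_left (norm_nonneg _), norm_div,
      Complex.norm_of_nonneg (hσ0 w).le]
    exact div_le_div_of_nonneg_right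
      ((norm_le_pi_norm z w).trans ((hR z hz).trans (le_abs_self R))) (hσ0 w).le
  refine ⟨(finite_horoShift_sublevel ht0 ht0' hN (pr z₀) (B + B')).toFinset, fun z hz l hl => ?_⟩
  by_contra hne
  refine hl ((Set.Finite.mem_toFinset _).2 ?_)
  rw [horoProd_eq_prodBump ht0 ht0', horoPoint_add_emb ht0 ht0'] at hne
  have h1 := hB _ (subset_tsupport _ hne)
  have h2 := norm_sub_le (pr (z₀ + z) + horoShift N t t' l) (pr (z₀ + z) - pr z₀)
  rw [show pr (z₀ + z) + horoShift N t t' l - (pr (z₀ + z) - pr z₀)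
    = pr z₀ + horoShift N t t' l by abel] at h2
  exact h2.trans (add_le_add h1 (hB' z hz))

end HoroPoint

/-- Small steps along a basis bound the variation over its parallelotope. -/
lemma norm_sub_le_of_basis_steps {ι V E : Type*} [Fintype ι] [AddCommGroup V] [Module ℝ V]
    [SeminormedAddCommGroup E] (b : Basis ι ℝ V) {S : V → E} {bd : ι → ℝ}
    (h : ∀ z i, ∀ s ∈ Icc (0 : ℝ) 1, ‖S (z + s • b i) - S z‖ ≤ bd i) (z₀ z : V)
    (hz : ∀ i, b.repr z i ∈ Icc (0 : ℝ) 1) : ‖S (z₀ + z) - S z₀‖ ≤ ∑ i, bd i := by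
  suffices hs : ∀ s : Finset ι,
      ‖S (z₀ + ∑ i ∈ s, b.repr z i • b i) - S z₀‖ ≤ ∑ i ∈ s, bd i by
    have h' := hs Finset.univ
    rwa [b.sum_repr] at h'
  intro s
  induction s using Finset.induction_on with
  | empty => simp
  | insert i s hi ih =>
    rw [Finset.sum_insert hi, Finset.sum_insert hi,
      show z₀ + (b.repr z i • b i + ∑ j ∈ s, b.repr z j • b j)
        = z₀ + ∑ j ∈ s, b.repr z j • b j + b.repr z i • b i by abel]
    exact (norm_sub_le_norm_sub_add_norm_sub _ (S (z₀ + ∑ j ∈ s, b.repr z j • b j)) _).trans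
      (add_le_add (h _ i _ (hz i)) ih)

/-- The lattice of the scaled basis is `N` times the integers. -/
lemma exists_equiv_span_scaledBasis {N : ℕ} (hN : N ≠ 0) :
    ∃ e : 𝓞 F ≃ Submodule.span ℤ (Set.range (scaledBasis (F := F) hN)),
      ∀ l, (e l : InfinitePlace F → ℂ) = emb ((N : F) * (l : F)) := by
  set b := scaledBasis (F := F) hN with hb
  have hmem : ∀ l : 𝓞 F, emb ((N : F) * (l : F)) ∈ Submodule.span ℤ (Set.range b) := by
    intro l
    have e := par_int (F := F) N (fun i => (RingOfIntegers.basis F).repr l i)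
    rw [(RingOfIntegers.basis F).sum_repr, par_apply] at e
    rw [← e]
    refine Submodule.sum_mem _ fun i _ => ?_
    have e3 : b i = (N : ℝ) • basisR i := by
      rw [hb, scaledBasis_apply, map_mul, map_natCast, ← basisR_apply]
      funext w; simp [Complex.real_smul]
    rw [mul_comm, ← smul_smul, ← e3, Int.cast_smul_eq_zsmul ℝ]
    exact Submodule.smul_mem _ _ (Submodule.subset_span ⟨i, rfl⟩)
  let φ : 𝓞 F → Submodule.span ℤ (Set.range b) := fun l => ⟨_, hmem l⟩
  have hφi : Function.Injective φ := fun a a' h => by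
    have h2 := (emb (F := F)).injective (congrArg Subtype.val h)
    exact RingOfIntegers.ext (mul_left_cancel₀ (Nat.cast_ne_zero.2 hN) h2)
  have hφs : Function.Surjective φ := fun y => by
    obtain ⟨k, hk⟩ := (Submodule.mem_span_range_iff_exists_fun ℤ).1 y.2
    refine ⟨∑ i, k i • RingOfIntegers.basis F i, Subtype.ext ?_⟩
    change emb _ = (y : InfinitePlace F → ℂ)
    rw [← hk, ← par_int, par_apply]
    refine Finset.sum_congr rfl fun i _ => ?_
    rw [hb, scaledBasis_apply, map_mul, map_natCast, ← basisR_apply, mul_comm, ← smul_smul,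
      Int.cast_smul_eq_zsmul ℝ]
    congr 1
  exact ⟨Equiv.ofBijective φ ⟨hφi, hφs⟩, fun _ => rfl⟩

/-- Lattice sums unfold: over the parallelotope they integrate to the integral over the space. -/
lemma setIntegral_lattice_sum {N : ℕ} (hN : N ≠ 0) {G : (InfinitePlace F → ℂ) → ℂ}
    (hGc : Continuous G) (hGs : HasCompactSupport G) (z₀ : InfinitePlace F → ℂ) (L : Finset (𝓞 F))
    (hL : ∀ z ∈ ZSpan.fundamentalDomain (scaledBasis (F := F) hN), ∀ l ∉ L,
      G (z₀ + z + emb ((N : F) * (l : F))) = 0) :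
    IntegrableOn (fun z => ∑' l : 𝓞 F, G (z₀ + z + emb ((N : F) * (l : F))))
        (ZSpan.fundamentalDomain (scaledBasis (F := F) hN)) volume ∧
      ∫ z in ZSpan.fundamentalDomain (scaledBasis (F := F) hN),
        ∑' l : 𝓞 F, G (z₀ + z + emb ((N : F) * (l : F))) = ∫ z, G z := by
  set b := scaledBasis (F := F) hN
  set P := ZSpan.fundamentalDomain b
  -- on the parallelotope only the translates by `L` contribute
  have hSP : ∀ z ∈ P, ∑' l : 𝓞 F, G (z₀ + z + emb ((N : F) * (l : F)))
      = ∑ l ∈ L, G (z₀ + z + emb ((N : F) * (l : F))) := fun z hz =>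
    tsum_eq_sum fun l hl => hL z hz l hl
  have hintl : ∀ l : 𝓞 F, IntegrableOn
      (fun z => G (z₀ + z + emb ((N : F) * (l : F)))) P volume := fun l => by
    have hc' : Continuous fun z => G (z₀ + z + emb ((N : F) * (l : F))) :=
      hGc.comp (by fun_prop)
    exact (hc'.continuousOn.integrableOn_compact
      (ZSpan.fundamentalDomain_isBounded b).isCompact_closure).mono_set subset_closure
  have hPm : MeasurableSet P := ZSpan.fundamentalDomain_measurableSet b
  refine ⟨(integrable_finsetSum L fun l _ => hintl l).congr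
    ((ae_restrict_mem hPm).mono fun z hz => (hSP z hz).symm), ?_⟩
  rw [setIntegral_congr_fun hPm hSP, integral_finsetSum L fun l _ => hintl l,
    ← integral_add_left_eq_self (μ := volume) G z₀]
  -- unfold the integral over the space along the lattice of the parallelotope
  have hdom := ZSpan.isAddFundamentalDomain b (volume : Measure (InfinitePlace F → ℂ))
  have hgi : Integrable (fun z => G (z₀ + z)) volume :=
    (hGc.integrable_of_hasCompactSupport hGs).comp_add_left z₀
  have : VAddInvariantMeasure (Submodule.span ℤ (Set.range b)) (InfinitePlace F → ℂ) volume :=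
    ⟨fun x s _ => measure_preimage_add volume (x : InfinitePlace F → ℂ) s⟩
  obtain ⟨e, he⟩ := exists_equiv_span_scaledBasis (F := F) hN
  rw [hdom.integral_eq_tsum'' _ hgi, ← e.tsum_eq, tsum_eq_sum (s := L) fun l hl => ?_]
  · refine Finset.sum_congr rfl fun l _ => ?_
    refine integral_congr_ae (Eventually.of_forall fun z => ?_)
    change G _ = G (z₀ + ((e l : InfinitePlace F → ℂ) + z))
    rw [he]
    congr 1
    abel
  -- the translates outside `L` vanish on the parallelotope
  · refine setIntegral_eq_zero_of_forall_eq_zero fun z hz => ?_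
    change G (z₀ + ((e l : InfinitePlace F → ℂ) + z)) = 0
    rw [he, add_comm (emb _) z, ← add_assoc]
    exact hL z hz l hl

/-- A value is within the variation of the mean. -/
lemma norm_sub_mean_le {X : Type*} [MeasurableSpace X] {μ : Measure X} {P : Set X} (hP : μ P < ⊤)
    (hP0 : μ.real P ≠ 0) {S : X → ℂ} {a I : ℂ} (hint : IntegrableOn S P μ)
    (hI : ∫ x in P, S x ∂μ = I) {D : ℝ} (hD : ∀ x ∈ P, ‖S x - a‖ ≤ D) :
    ‖a - (((μ.real P)⁻¹ : ℝ) : ℂ) * I‖ ≤ D := by
  have hdiff : ‖∫ x in P, (S x - a) ∂μ‖ ≤ D * μ.real P :=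
    norm_setIntegral_le_of_norm_le_const hP hD
  rw [integral_sub hint (integrableOn_const hP.ne), setIntegral_const, hI] at hdiff
  have hVpos : 0 < μ.real P := lt_of_le_of_ne measureReal_nonneg (Ne.symm hP0)
  have hVc : ((μ.real P : ℝ) : ℂ) ≠ 0 := Complex.ofReal_ne_zero.2 hP0
  have e : a - (((μ.real P)⁻¹ : ℝ) : ℂ) * I
      = -((((μ.real P)⁻¹ : ℝ) : ℂ) * (I - μ.real P • a)) := by
    rw [Complex.real_smul, Complex.ofReal_inv]
    field_simp
    ring
  rw [e, norm_neg, norm_mul, Complex.norm_of_nonneg (inv_nonneg.2 hVpos.le), inv_mul_le_iff₀ hVpos,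
    mul_comm (μ.real P)]
  exact hdiff

/-- **Lattice sums are integrals up to a bounded error.** -/
theorem lattice_sum_approx (f : InfinitePlace F → ℝ → ℝ) (hfs : ∀ w, ContDiff ℝ ∞ (f w))
    (hfc : ∀ w, HasCompactSupport (f w)) {N : ℕ} (hN : N ≠ 0) (ρ c : ℝ) (hρ : 1 ≤ ρ) (hc : 0 < c) :
    ∃ C, ∀ (zx zy : InfinitePlace F → ℂ) (t t' : InfinitePlace F → ℝ),
      (∀ w, 0 < t w) → (∀ w, 0 < t' w) → (∀ w, c ≤ t w) → (∀ w u, t w ≤ ρ * t u) →
      (∀ w, t w ≤ ρ * t' w ∧ t' w ≤ ρ * t w) → ∀ z₀ : InfinitePlace F → ℂ,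
      {l : 𝓞 F | horoProd f zx zy t t' (z₀ + emb ((N : F) * (l : F))) ≠ 0}.Finite ∧
      ‖(∑' l : 𝓞 F, horoProd f zx zy t t' (z₀ + emb ((N : F) * (l : F))))
        - ((((N : ℝ) ^ finrank ℚ F * covol F)⁻¹ : ℝ) : ℂ) * horoInt f t t'‖ ≤ C := by
  obtain ⟨Bd, hBd⟩ := exists_horoShift_variation (contDiff_prodBump f hfs)
    (hasCompactSupport_prodBump f hfc) hN ρ c hρ hc
  refine ⟨∑ i : BIdx F, Bd (RingOfIntegers.basis F i),
    fun zx zy t t' ht0 ht0' hxc hbal hxy z₀ => ?_⟩
  refine ⟨(finite_support_horoShift ht0 ht0' hN (hasCompactSupport_prodBump f hfc)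
    (horoPoint zx zy t t' z₀)).subset fun l hl => ?_, ?_⟩
  · rw [mem_ofPred_eq, horoProd_eq_prodBump ht0 ht0', horoPoint_add_emb ht0 ht0'] at hl
    exact hl
  set b := scaledBasis (F := F) hN with hb
  set S₀ : (InfinitePlace F → ℂ) → ℂ :=
    fun z => ∑' l : 𝓞 F, horoProd f zx zy t t' (z + emb ((N : F) * (l : F))) with hS₀
  -- one step along the basis
  have hstep : ∀ z (i : BIdx F), ∀ s ∈ Icc (0 : ℝ) 1,
      ‖S₀ (z + s • b i) - S₀ z‖ ≤ Bd (RingOfIntegers.basis F i) := by
    intro z i s hs
    have hv := hBd t t' ht0 ht0' hxc hbal hxy (horoPoint zx zy t t' z)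
      (RingOfIntegers.basis F i) s hs
    have e1 : ∀ l : 𝓞 F, horoProd f zx zy t t' (z + s • b i + emb ((N : F) * (l : F)))
        = prodBump f (horoPoint zx zy t t' z + horoShift N t t' l
          + s • horoShift N t t' (RingOfIntegers.basis F i)) := fun l => by
      rw [horoProd_eq_prodBump ht0 ht0', add_right_comm, hb, scaledBasis_apply,
        horoPoint_add ht0 ht0']
    have e2 : ∀ l : 𝓞 F, horoProd f zx zy t t' (z + emb ((N : F) * (l : F)))
        = prodBump f (horoPoint zx zy t t' z + horoShift N t t' l) := fun l => by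
      rw [horoProd_eq_prodBump ht0 ht0', horoPoint_add_emb ht0 ht0']
    simp only [hS₀, e1, e2]
    exact hv
  -- averaging over the parallelotope
  set P := ZSpan.fundamentalDomain b
  have hall : ∀ z ∈ P, ‖S₀ (z₀ + z) - S₀ z₀‖ ≤ ∑ i, Bd (RingOfIntegers.basis F i) := fun z hz =>
    norm_sub_le_of_basis_steps b hstep z₀ z fun i =>
      ⟨((ZSpan.mem_fundamentalDomain b).1 hz i).1, ((ZSpan.mem_fundamentalDomain b).1 hz i).2.le⟩
  have hvol : volume.real P = (N : ℝ) ^ finrank ℚ F * covol F := volume_scaled hN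
  obtain ⟨L, hL⟩ := exists_finset_horoProd_eq_zero (zx := zx) (zy := zy) ht0 ht0' hfc hN z₀
    (ZSpan.fundamentalDomain_isBounded b)
  obtain ⟨hint, hI⟩ := setIntegral_lattice_sum hN (continuous_horoProd ht0 ht0' hfs)
    (hasCompactSupport_horoProd ht0 ht0' hfc) z₀ L hL
  rw [← hvol]
  exact norm_sub_mean_le (ZSpan.fundamentalDomain_isBounded b).measure_lt_top
    (by rw [hvol]; exact mul_ne_zero (pow_ne_zero _ (Nat.cast_ne_zero.2 hN)) (covol_ne_zero F))
    hint (hI.trans (integral_horoProd f zx zy t t')) hall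

end Fermat.LTG
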