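import Fermat.Agent.LTG.KapBound

/-!
# The orbit-sum form of the vanishing of the constant term

`HasZeroCTO.hasZeroCT`: the orbit-sum form implies the vanishing, and `bdd_of_zeroCTO` deduces
boundedness.
-/

set_option autoImplicit false
open IsDedekindDomain NumberField Filter Set MeasureTheory
open scoped Classical ContDiff

namespace Fermat.LTG

open Fermat.LT

/-- The integral over translations is a horospherical transform. -/
lemma aint_eq_gT (k : AKer) (f : ℝ → ℝ) (hf : ∀ x y, k x y = (f (coshd x y) : ℂ)) {t t' : ℝ}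
    (ht : 0 < t) (ht' : 0 < t') :
    aint k t t' = ((2 * (t * t') : ℝ) : ℂ) * gT f (Real.log t - Real.log t') := by
  set σ : ℝ := Real.sqrt (2 * (t * t')) with hσ
  have hσ2 : σ ^ 2 = 2 * (t * t') := Real.sq_sqrt (by positivity)
  have h1 : aint k t t' = ∫ z : ℂ, (f (cd (0, t) (z, t')) : ℂ) :=
    integral_congr_ae (Eventually.of_forall fun z => by
      change k _ _ = (f _ : ℂ)
      rw [hf, coshd_eq_cd, H3.coord_mk_of_pos _ ht, H3.coord_mk_of_pos _ ht'])
  have h2 := Measure.integral_comp_smul (μ := (volume : Measure ℂ))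
    (fun z : ℂ => (f (cd (0, t) (z, t')) : ℂ)) σ
  have h3 : ∀ u : ℂ, cd ((0 : ℂ), t) (σ • u, t')
      = Complex.normSq u + Real.cosh (Real.log t - Real.log t') := fun u => by
    rw [← Real.log_div ht.ne' ht'.ne', Real.cosh_log (div_pos ht ht'), cd, zero_sub,
      Complex.normSq_neg, Complex.real_smul, Complex.normSq_mul, Complex.normSq_ofReal, ← sq, hσ2,
      inv_div]
    field_simp
    ring
  simp only [h3] at h2
  rw [Complex.finrank_real_complex, abs_of_nonneg (by positivity), hσ2] at h2
  rw [h1, gT, h2, Complex.real_smul, Complex.ofReal_inv, mul_inv_cancel_left₀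
    (Complex.ofReal_ne_zero.2 (by positivity))]

variable {F : Type*} [Field F] [NumberField F] {S : Lev F}

/-- The masses of the stabilisers, off the exceptional places one. -/
lemma eventually_stabExp_eq_zero (u : FinPt F S) : ∀ᶠ v in cofinite, stabExp (u.1 v) = 0 := by
  filter_upwards [u.2, S.eventually_notMem] with v h1 h2
  rw [h1, stabExp_base h2]

namespace PKer

/-- The product of the orbit sums. -/
noncomputable def orbProd (K : PKer F S) (ν u : FinPt F S) : ℂ :=
  ∏ᶠ v, orbSum (K.loc v) (ν.1 v) (u.1 v)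

/-- The finite constant term in terms of orbit sums, stabiliser sizes and the absolute value. -/
lemma nfinInt_upMat (K : PKer F S) (ν u : FinPt F S) (a : Fˣ) :
    K.nfinInt ν (upMat a 0 • u) = K.orbProd ν (upMat a 0 • u)
      * (∏ᶠ v, (pnorm v : ℂ) ^ (-stabExp (u.1 v)))
      * ((∏ w : InfinitePlace F, w (a : F) ^ w.mult)⁻¹ : ℝ) := by
  set u' := upMat a 0 • u
  have hfin1 : (Function.mulSupport fun v => orbSum (K.loc v) (ν.1 v) (u'.1 v)).Finite := by
    refine eventually_cofinite.1 ?_
    filter_upwards [K.ae_one, ν.2, u'.2, S.eventually_notMem] with v h0 h1 h2 h3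
    have := lint_one_base h3
    rw [lint_eq_orbSum, stabExp_base h3, neg_zero, zpow_zero, mul_one] at this
    rw [h0, h1, h2, this]
  have hfin2 : (Function.mulSupport fun v : Place F => (pnorm v : ℂ) ^ (-stabExp (u.1 v))).Finite :=
    (eventually_cofinite.1 (eventually_stabExp_eq_zero u)).subset fun v hv h => hv (by simp [h])
  have hfin3 : (Function.mulSupport fun v : Place F => ((vabs v (a : F) : ℝ) : ℂ)).Finite :=
    (finite_vabs_ne_one a.ne_zero).subset fun v hv h => hv (by simp [h])
  have hpf := product_formula a.ne_zero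
  have hprod : ((∏ᶠ v : Place F, vabs v (a : F) : ℝ) : ℂ)
      = ∏ᶠ v : Place F, ((vabs v (a : F) : ℝ) : ℂ) :=
    Complex.ofRealHom.toMonoidHom.map_finprod_of_injective Complex.ofReal_injective _
  rw [← eq_inv_of_mul_eq_one_right hpf, hprod, nfinInt, orbProd, ← finprod_mul_distrib hfin1 hfin2,
    ← finprod_mul_distrib _ hfin3]
  · refine finprod_congr fun v => ?_
    have hq0 : (pnorm v : ℂ) ≠ 0 := Nat.cast_ne_zero.2 (Nat.pos_iff_ne_zero.1
      (zero_lt_one.trans (HeightOneSpectrum.one_lt_absNorm v)))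
    rw [lint_eq_orbSum, FinPt.smul_apply, stabExp_upMat_smul, vabs_eq v a.ne_zero, neg_add,
      zpow_add₀ hq0, ← mul_assoc]
    push_cast
    rfl
  · exact (hfin1.union hfin2).subset (Function.mulSupport_mul _ _)

/-- Finitely many torus classes contribute. -/
lemma finite_constTerm_support (K : PKer F S) (ν u : FinPt F S)
    {t t' : InfinitePlace F → ℝ} (ht : ∀ w, 0 < t w) (ht' : ∀ w, 0 < t' w) :
    {a : Fˣ | K.nfinInt ν (upMat a 0 • u) *
    K.ninfInt t (fun w => w (a : F) * t' w) ≠ 0}.Finite := by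
  -- `L` bounds the denominators and is zero at almost every place
  set L : Place F → ℕ := fun v => lvl (v.valuation F) (u.1 v).out
    + ∑ y ∈ (K.loc v).row (ν.1 v), lvl (v.valuation F) y.out with hL
  have hLfin : {v | L v ≠ 0}.Finite := by
    refine eventually_cofinite.1 ?_
    filter_upwards [K.ae_one, ν.2, u.2] with v h0 h1 h2
    simp only [hL, h2, lvl_base_out, zero_add]
    refine Finset.sum_eq_zero fun y hy => ?_
    rw [LKer.mem_row, h0, h1, LKer.one_apply] at hy
    by_cases he : ((1 : GL (Fin 2) F) : Vert S v) = y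
    · rw [← he, lvl_base_out]
    · exact absurd (if_neg he) hy
  -- such `a` have bounded valuations and absolute values
  refine ((finite_bounded_elements L hLfin (∑ w, 2 * |K.range| * t w / t' w)).preimage
    Units.val_injective.injOn).subset fun a h => ?_
  rw [mem_ofPred_eq, mul_ne_zero_iff] at h
  refine ⟨fun v => ?_, fun φ => ?_⟩
  -- finite places: some vertex in the row is reached
  · obtain ⟨b, hb⟩ := exists_of_lint_ne_zero (lint_ne_zero_of_nfinInt h.1 v)
    rw [FinPt.smul_apply, ← mul_smul, upMat_mul, one_mul, mul_zero, zero_add] at hb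
    refine ((upMat_smul_bound (y := u.1 v) (a := a) (b := b) rfl).1).trans
      (WithZero.exp_le_exp.2 ?_)
    have hle := Finset.single_le_sum (f := fun y : Vert S v => lvl (v.valuation F) y.out)
      (fun _ _ => Nat.zero_le _) (LKer.mem_row.2 hb)
    exact_mod_cast (Nat.add_le_add_left hle _ :
      lvl (v.valuation F) (u.1 v).out + lvl (v.valuation F) (upMat a b • u.1 v).out ≤ L v)
  -- infinite places: the kernel has bounded range
  · set w := InfinitePlace.mk φ
    have h' : aint (K.arch w) (t w) (w (a : F) * t' w) ≠ 0 :=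
      Finset.prod_ne_zero_iff.1 h.2 w (Finset.mem_univ _)
    obtain ⟨z, hz⟩ : ∃ z : ℂ, K.arch w (H3.mk 0 (t w)) (H3.mk z (w (a : F) * t' w)) ≠ 0 := by
      by_contra! hall
      exact h' (by simp only [aint, hall, integral_zero])
    have hcd : coshd (H3.mk 0 (t w)) (H3.mk z (w (a : F) * t' w)) ≤ |K.range| := by
      refine (not_lt.1 fun hlt => hz ((K.arch w).eq_zero _ _ hlt)).trans ?_
      refine ((le_abs_self _).trans ?_).trans (le_abs_self _)
      rw [PKer.range]
      linarith [Finset.single_le_sum (f := fun u => |(K.arch u).range|) (fun u _ => abs_nonneg _)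
        (Finset.mem_univ w)]
    have h2 := coord_le_coshd (H3.mk z (w (a : F) * t' w)) (H3.mk 0 (t w))
    rw [coshd_comm, H3.coord_mk_of_pos _ (ht w),
      H3.coord_mk_of_pos _ (mul_pos (InfinitePlace.pos_iff.2 a.ne_zero) (ht' w))] at h2
    change w (a : F) ≤ _
    refine le_trans ?_ (Finset.single_le_sum (f := fun w => 2 * |K.range| * t w / t' w)
      (fun u _ => div_nonneg (mul_nonneg (by positivity) (ht u).le) (ht' u).le) (Finset.mem_univ w))
    rw [le_div_iff₀ (ht' w)]
    exact h2.trans (mul_le_mul_of_nonneg_right (mul_le_mul_of_nonneg_left hcd two_pos.le) (ht w).le)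

end PKer

namespace SKer

variable [IsTotallyComplex F]

/-- The orbit-sum form implies the vanishing of the constant term. -/
theorem HasZeroCTO.hasZeroCT {K : SKer F S} {f : Fin K.n → InfinitePlace F → ℝ → ℝ}
    (hf : ∀ i w x y, (K.ker i).arch w x y = (f i w (coshd x y) : ℂ)) (h : K.HasZeroCTO f) :
    K.HasZeroCT := by
  intro ν u t t' ht ht'
  set c : ℂ := (∏ᶠ v, (pnorm v : ℂ) ^ (-stabExp (u.1 v)))
    * ∏ w, ((2 * (t w * t' w) : ℝ) : ℂ) with hc
  set l : InfinitePlace F → ℝ := fun w => Real.log (t w) - Real.log (t' w) with hl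
  set Z : Fin K.n → Fˣ → ℂ := fun i a =>
    (K.ker i).nfinInt ν (upMat a 0 • u) * (K.ker i).ninfInt t (fun w => w (a : F) * t' w) with hZ
  -- each term in terms of the orbit sum
  have hterm : ∀ i a, Z i a = c * ((((∏ w : InfinitePlace F, w (a : F))⁻¹ : ℝ) : ℂ) *
      ((∏ᶠ v, orbSum ((K.ker i).loc v) (ν.1 v) ((upMat a 0 • u).1 v)) *
        ∏ w, gT (f i w) (l w - Real.log (w (a : F))))) := by
    intro i a
    have hpos : ∀ w : InfinitePlace F, 0 < w (a : F) := fun w => InfinitePlace.pos_iff.2 a.ne_zero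
    have hinf : (K.ker i).ninfInt t (fun w => w (a : F) * t' w)
        = ((∏ w, ((2 * (t w * t' w) : ℝ) : ℂ)) * ((∏ w : InfinitePlace F, w (a : F) : ℝ) : ℂ))
          * ∏ w, gT (f i w) (l w - Real.log (w (a : F))) := by
      rw [Complex.ofReal_prod, ← Finset.prod_mul_distrib, ← Finset.prod_mul_distrib]
      refine Finset.prod_congr rfl fun w _ => ?_
      rw [aint_eq_gT _ (f i w) (hf i w) (ht w) (mul_pos (hpos w) (ht' w)),
        Real.log_mul (hpos w).ne' (ht' w).ne', hl]
      push_cast
      ring_nf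
    have hmult : ∏ w : InfinitePlace F, w (a : F) ^ w.mult =
        (∏ w : InfinitePlace F, w (a : F)) ^ 2 := by
      rw [← Finset.prod_pow]
      refine Finset.prod_congr rfl fun w _ => ?_
      rw [InfinitePlace.mult,
        if_neg (InfinitePlace.not_isReal_iff_isComplex.2 (IsTotallyComplex.isComplex w))]
    change (K.ker i).nfinInt ν _ * _ = _
    rw [PKer.nfinInt_upMat, hinf, hc, PKer.orbProd, hmult]
    have hP : ((∏ w : InfinitePlace F, w (a : F) : ℝ) : ℂ) ≠ 0 :=
      Complex.ofReal_ne_zero.2 (Finset.prod_pos fun w _ => hpos w).ne'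
    push_cast at hP ⊢
    field_simp
  have hfin : ∀ i, (Function.support (Z i)).Finite := fun i =>
    (K.ker i).finite_constTerm_support ν u ht ht'
  have hfin' : (Function.support fun a => ∑ i, K.coef i * Z i a).Finite :=
    ((Set.toFinite (univ : Set (Fin K.n))).biUnion fun i _ => hfin i).subset fun a ha => by
      obtain ⟨i, -, hi⟩ := Finset.exists_ne_zero_of_sum_ne_zero ha
      exact mem_biUnion (mem_univ i) (right_ne_zero_of_mul hi)
  change ∑ i, K.coef i * ∑' a, Z i a = 0
  set g : Fˣ → ℂ := fun a => (((∏ w : InfinitePlace F, w (a : F))⁻¹ : ℝ) : ℂ) *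
      ∑ i, K.coef i * (∏ᶠ v, orbSum ((K.ker i).loc v) (ν.1 v) ((upMat a 0 • u).1 v)) *
        ∏ w, gT (f i w) (l w - Real.log (w (a : F))) with hg
  have hcg : (fun a => ∑ i, K.coef i * Z i a) = fun a => c * g a := funext fun a => by
    simp only [hg]
    rw [Finset.mul_sum, Finset.mul_sum]
    exact Finset.sum_congr rfl fun i _ => by rw [hterm]; ring
  simp only [← tsum_mul_left]
  rw [← Summable.tsum_finsetSum fun i _ => (summable_of_hasFiniteSupport (hfin i)).mul_left _, hcg]
  rw [hcg] at hfin'
  -- the orbit sum vanishes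
  rw [tsum_eq_finsum hfin', ← mul_finsum', show ∑ᶠ a, g a = 0 from h ν u l, mul_zero]
  by_cases hc0 : c = 0
  · exact absurd hc0 (mul_ne_zero (by
      rw [finprod_eq_prod _ ((eventually_cofinite.1 (eventually_stabExp_eq_zero u)).subset
        fun v hv h => hv (by simp [h])), Finset.prod_ne_zero_iff]
      exact fun v _ => zpow_ne_zero _ (Nat.cast_ne_zero.2 (Nat.pos_iff_ne_zero.1
        (zero_lt_one.trans (HeightOneSpectrum.one_lt_absNorm v)))))
      (Finset.prod_ne_zero_iff.2 fun w _ => Complex.ofReal_ne_zero.2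
        (mul_ne_zero two_ne_zero (mul_ne_zero (ht w).ne' (ht' w).ne'))))
  · refine hfin'.subset fun a ha => ?_
    exact mul_ne_zero hc0 ha

/-- **Boundedness from the orbit-sum form.** -/
theorem bdd_of_zeroCTO (K : SKer F S) (f : Fin K.n → InfinitePlace F → ℝ → ℝ)
    (hfs : ∀ i w, ContDiff ℝ ∞ (f i w)) (hfc : ∀ i w, HasCompactSupport (f i w))
    (hf : ∀ i w x y, (K.ker i).arch w x y = (f i w (coshd x y) : ℂ)) (h : K.HasZeroCTO f) : K.Bdd :=
  K.bdd_of_zeroCT f hfs hfc hf (h.hasZeroCT hf)

end SKer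

end Fermat.LTG
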