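import Fermat.Agent.LTG.KernComp
import Fermat.Agent.LT.Height

/-!
# Heights of lines

`ht` is the height factor of a line at a point; `one_le_ht_mul` says that two lines are not high
simultaneously.
-/

set_option autoImplicit false
open NumberField Filter
open scoped Matrix

namespace Fermat.LTG

open Fermat.LT

variable {F : Type*} [Field F] [NumberField F]

variable {S : Lev F}

/-- The local factor at a finite place. -/
noncomputable def nloc (v : Place F) (u : Fin 2 → F) (y : Vert S v) : ℝ := nfin v u y.out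

/-- The local norm at the coset of `g`. -/
@[simp] lemma nloc_mk (v : Place F) (u : Fin 2 → F) (g : GL (Fin 2) F) :
    nloc v u (g : Vert S v) = nfin v u g := by
  obtain ⟨k, hk⟩ := QuotientGroup.mk_out_eq_mul (lev S v) g
  rw [nloc, hk, nfin_mul_U0 v u g (lev_le_U0 S v k.2)]

/-- The height factor of a line at a point: small means high in the cusp of the line. -/
noncomputable def ht (u : Fin 2 → F) (p : Pt F S) : ℝ :=
  (∏ᶠ v, nloc v u (p.1.1 v)) * ∏ w, ninf (embVec w u) (p.2 w) ^ w.mult

/-- The local factor of a nonzero vector is `1` at almost all places. -/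
lemma eventually_nloc_eq_one {u : Fin 2 → F} (hu : u ≠ 0) (ω : FinPt F S) :
    ∀ᶠ v in cofinite, nloc v u (ω.1 v) = 1 := by
  obtain ⟨i, hi⟩ := Function.ne_iff.1 hu
  filter_upwards [ω.2, eventually_valuation_le_one (u 0), eventually_valuation_le_one (u 1),
    (finite_vabs_ne_one hi).compl_mem_cofinite] with v hv h0 h1 hvi
  simp only [Set.mem_compl_iff, Set.mem_ofPred_eq, not_not] at hvi
  rw [hv, nloc_mk, nfin]
  simp only [Units.val_one, Matrix.vecMul_one, Matrix.det_one, map_one, div_one]
  have hle : max (vabs v (u 0)) (vabs v (u 1)) ≤ 1 :=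
    max_le ((vabs_le_one_iff v _).2 h0) ((vabs_le_one_iff v _).2 h1)
  have hge : 1 ≤ max (vabs v (u 0)) (vabs v (u 1)) := by
    rw [← hvi]
    fin_cases i
    · exact le_max_left _ _
    · exact le_max_right _ _
  rw [le_antisymm hle hge, one_pow]

/-- The height factor of a line is positive. -/
lemma ht_pos {u : Fin 2 → F} (hu : u ≠ 0) (p : Pt F S) : 0 < ht u p := by
  refine mul_pos ?_ (Finset.prod_pos fun w _ => pow_pos (ninf_pos (embVec_ne_zero w hu) _) _)
  have hf : (Function.mulSupport fun v => nloc v u (p.1.1 v)).Finite :=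
    eventually_cofinite.1 (eventually_nloc_eq_one hu p.1)
  rw [finprod_eq_prod _ hf]
  exact Finset.prod_pos fun v _ => nfin_pos v hu _

/-- `ht (u γ) = ht u ∘ γ`. -/
theorem ht_smul {u : Fin 2 → F} (hu : u ≠ 0) (γ : GL (Fin 2) F) (p : Pt F S) :
    ht u (γ • p) = ht (u ᵥ* (γ : Matrix (Fin 2) (Fin 2) F)) p := by
  set u' := u ᵥ* (γ : Matrix (Fin 2) (Fin 2) F)
  set d := (γ : Matrix (Fin 2) (Fin 2) F).det
  have hu' : u' ≠ 0 :=
    fun h => hu (Matrix.vecMul_injective_iff_isUnit.2 γ.isUnit (by simpa using h))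
  have hfin : ∀ v, nloc v u ((γ • p).1.1 v) = nloc v u' (p.1.1 v) / vabs v d := fun v => by
    obtain ⟨g, hg⟩ := QuotientGroup.mk_surjective (p.1.1 v)
    rw [Pt.smul_fst, FinPt.smul_apply, ← hg, MulAction.Quotient.smul_coe, smul_eq_mul, nloc_mk,
      nloc_mk, nfin_mul_left]
  have hinf : ∀ w : InfinitePlace F,
      ninf (embVec w u) ((γ • p).2 w) = ninf (embVec w u') (p.2 w) / w d := fun w => by
    rw [Pt.smul_snd]; exact ninf_atInf_smul u γ w _
  have hd : d ≠ 0 := γ.det_ne_zero
  rw [ht, ht]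
  simp only [hfin, hinf, div_pow, Finset.prod_div_distrib]
  rw [finprod_div_distrib (eventually_cofinite.1 (eventually_nloc_eq_one hu' p.1))
    (finite_vabs_ne_one hd), div_mul_div_comm, mul_comm (∏ᶠ v, vabs v d), product_formula hd,
    div_one]

/-- Proportional vectors have the same height. -/
theorem ht_smul_vec {u : Fin 2 → F} (hu : u ≠ 0) (c : Fˣ) (p : Pt F S) :
    ht ((c : F) • u) p = ht u p := by
  have h := ht_smul hu (scal c) p
  rw [Pt.scal_smul] at h
  rw [h]
  congr 1
  funext i
  rw [scal_coe, Matrix.scalar_apply, Matrix.vecMul_diagonal, Pi.smul_apply, smul_eq_mul, mul_comm]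

/-- **Two lines are not high simultaneously.** -/
theorem one_le_ht_mul {u u' : Fin 2 → F} (hu : u ≠ 0) (hu' : u' ≠ 0)
    (h : u 0 * u' 1 - u 1 * u' 0 ≠ 0) (p : Pt F S) : 1 ≤ ht u p * ht u' p :=
  one_le_ht_mul_gen h p.2 (eventually_cofinite.1 (eventually_nloc_eq_one hu p.1))
    (eventually_cofinite.1 (eventually_nloc_eq_one hu' p.1))

end Fermat.LTG
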