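import Fermat.Agent.LTG.CuspLocal
import Fermat.Agent.LTG.Height

/-!
# Classes for the sum over translations

`exists_translation_classes`: the finite part of a translation is periodic and supported on
finitely many classes.
-/

set_option autoImplicit false
open IsDedekindDomain NumberField Filter Set
open scoped Classical

namespace Fermat.LTG

open Fermat.LT

variable {F : Type*} [Field F] [NumberField F] {S : Lev F}

/-- The valuations of a natural number give the products of powers of the residue cardinalities. -/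
lemma prod_pnorm_zpow_ord {N : ℕ} (hN : N ≠ 0) (E : Finset (Place F))
    (hE : ∀ v ∉ E, CFT.ord v (N : F) = 0) :
    ∏ v ∈ E, (pnorm v : ℂ) ^ CFT.ord v (N : F) = (N : ℂ) ^ Module.finrank ℚ F := by
  have hNF : (N : F) ≠ 0 := Nat.cast_ne_zero.2 hN
  have h := product_formula hNF
  have hv : ∀ v : Place F, vabs v (N : F) = (pnorm v : ℝ) ^ (-CFT.ord v (N : F)) := fun v => by
    rw [vabs_eq v hNF]
    rfl
  rw [finprod_eq_prod_of_mulSupport_subset _ (s := E) fun v hv' => Finset.mem_coe.2 (by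
    by_contra hne
    exact hv' (show vabs v (N : F) = 1 by rw [hv, hE v hne, neg_zero, zpow_zero]))] at h
  have hw : ∏ w : InfinitePlace F, w (N : F) ^ w.mult = (N : ℝ) ^ Module.finrank ℚ F := by
    have e : ∀ w : InfinitePlace F, w (N : F) = (N : ℝ) := fun w => by
      rw [← InfinitePlace.norm_embedding_eq, map_natCast, Complex.norm_natCast]
    simp only [e, Finset.prod_pow_eq_pow_sum, InfinitePlace.sum_mult_eq]
  simp only [hw, hv, zpow_neg, Finset.prod_inv_distrib] at h
  have hR : ∏ v ∈ E, (pnorm v : ℝ) ^ CFT.ord v (N : F) = (N : ℝ) ^ Module.finrank ℚ F :=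
    ((mul_inv_eq_one₀ (Finset.prod_ne_zero_iff.2 fun v _ => zpow_ne_zero _ (Nat.cast_ne_zero.2
      (Nat.pos_iff_ne_zero.1 (zero_lt_one.trans (HeightOneSpectrum.one_lt_absNorm v)))))).1 h).symm
  have h2 := congrArg (fun x : ℝ => (x : ℂ)) hR
  push_cast at h2
  exact h2

namespace PKer

/-- Outside a finite set of places the finite part of a translation is trivial, inside it only
depends on classes. -/
lemma fin_unip_eq_prod (K : PKer F S) (ν u : FinPt F S) {E : Finset (Place F)} (m : Place F → ℤ)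
    (hout : ∀ v ∉ E, K.loc v = LKer.one S v ∧ ν.1 v = ((1 : GL (Fin 2) F) : Vert S v) ∧
      u.1 v = ((1 : GL (Fin 2) F) : Vert S v) ∧ v ∉ S)
    (hfixle : ∀ v, stabExp (u.1 v) ≤ m v) (b : F) (hb : ∀ v ∉ E, v.valuation F b ≤ 1) :
    K.fin ν (upMat 1 b • u)
      = ∏ v : E, K.loc v.1 (ν.1 v.1) (upMat (1 : Fˣ) ((b : F ⧸ vball v.1 (-m v.1)).out) •
          u.1 v.1) := by
  rw [fin, finprod_eq_prod_of_mulSupport_subset _ (s := E),
    ← Finset.prod_coe_sort E fun v => K.loc v (ν.1 v) ((upMat (1 : Fˣ) b • u).1 v)]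
  · refine Finset.prod_congr rfl fun v _ => ?_
    rw [FinPt.smul_apply, unip_out_smul (β := u.1 v.1) (by have := hfixle v.1; omega)]
  · intro v hv
    by_contra hne
    obtain ⟨h0, h1, h2, h3⟩ := hout v hne
    refine hv ?_
    change K.loc v _ _ = 1
    rw [FinPt.smul_apply, h0, h1, h2, unip_fix_base h3 (hb v hne)]
    simp

/-- **Classes of translations**: the finite part is periodic, supported on finitely many classes,
with total `N ^ d` times the integral. -/
theorem exists_translation_classes (K : PKer F S) (ν u : FinPt F S) :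
    ∃ (N : ℕ) (R : Finset F), N ≠ 0 ∧
      (∀ b : F, K.fin ν (upMat 1 b • u) ≠ 0 → ∃ r ∈ R, ∃ l : 𝓞 F, b = r + (N : F) * (l : F)) ∧
      (∀ (r : F) (l : 𝓞 F), K.fin ν (upMat 1 (r + (N : F) * (l : F)) • u) =
        K.fin ν (upMat 1 r • u)) ∧
      (∀ r ∈ R, ∀ r' ∈ R, ∀ l : 𝓞 F, r - r' = (N : F) * (l : F) → r = r') ∧
      ∑ r ∈ R, K.fin ν (upMat 1 r • u) = (N : ℂ) ^ Module.finrank ℚ F * K.nfinInt ν u := by
  set E₀ : Finset (Place F) := (eventually_cofinite.1 K.ae_one).toFinset ∪
    (eventually_cofinite.1 ν.2).toFinset ∪ (eventually_cofinite.1 u.2).toFinset ∪ S.places with hE₀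
  obtain ⟨N, hN0, hN⟩ := exists_nat_small (F := F)
    (fun v => if v ∈ E₀ then (stabExp (u.1 v)).toNat else 0)
    (E₀.finite_toSet.subset fun v hv => by by_contra h; exact hv (if_neg h))
  have hNF : (N : F) ≠ 0 := Nat.cast_ne_zero.2 hN0
  set m : Place F → ℤ := fun v => CFT.ord v (N : F) with hm
  have hvN : ∀ v : Place F, v.valuation F (N : F) = WithZero.exp (-m v) := fun v =>
    CFT.valuation_eq_exp_neg_ord v hNF
  set E : Finset (Place F) := E₀ ∪ (CFT.finite_ord_ne_zero (N : F)).toFinset with hE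
  have hout : ∀ v ∉ E, K.loc v = LKer.one S v ∧ ν.1 v = ((1 : GL (Fin 2) F) : Vert S v) ∧
      u.1 v = ((1 : GL (Fin 2) F) : Vert S v) ∧ v ∉ S ∧ m v = 0 := fun v hv => by
    simp only [hE, hE₀, Finset.mem_union, Set.Finite.mem_toFinset, mem_ofPred_eq, Lev.mem_places,
      not_or, not_not] at hv
    exact ⟨hv.1.1.1.1, hv.1.1.1.2, hv.1.1.2, hv.1.2, hv.2⟩
  choose hlocOne hν hu hS hm0 using hout
  have hfixle : ∀ v, stabExp (u.1 v) ≤ m v := by
    intro v
    by_cases hv : v ∈ E₀
    · have h := hN v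
      rw [hvN, WithZero.exp_le_exp] at h
      simp only [if_pos hv] at h
      omega
    · simp only [hE₀, Finset.mem_union, Set.Finite.mem_toFinset, mem_ofPred_eq, Lev.mem_places,
        not_or, not_not] at hv
      rw [hv.1.2, stabExp_base hv.2]
      have h : v.valuation F (N : F) ≤ 1 := by simpa using v.valuation_le_one (N : 𝓞 F) (K := F)
      rw [hvN, ← WithZero.exp_zero, WithZero.exp_le_exp] at h
      omega
  have hfix : ∀ (v : Place F) (x : F), v.valuation F x ≤ WithZero.exp (-m v) →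
      upMat (1 : Fˣ) x • u.1 v = u.1 v := fun v x hx =>
    (unip_smul_eq_iff _ x).2 (hx.trans (WithZero.exp_le_exp.2 (by have := hfixle v; omega)))
  -- multiples of `N`
  have hmult : ∀ x : F, (∀ v : Place F, v.valuation F x ≤ WithZero.exp (-m v)) →
      ∃ l : 𝓞 F, x = (N : F) * (l : F) := by
    intro x hx
    obtain ⟨z, hz⟩ := HeightOneSpectrum.mem_integers_of_valuation_le_one F (x / (N : F)) fun v => by
      rw [map_div₀, hvN, div_le_one₀ (zero_lt_iff.2 WithZero.exp_ne_zero)]
      exact hx v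
    exact ⟨z, by rw [show (z : F) = x / (N : F) from hz, mul_div_cancel₀ _ hNF]⟩
  have hNl : ∀ (v : Place F) (l : 𝓞 F), v.valuation F ((N : F) * (l : F)) ≤ WithZero.exp (-m v) :=
    fun v l => by
      rw [map_mul, hvN]
      exact mul_le_of_le_one_right' (v.valuation_le_one l)
  have hper : ∀ (r : F) (l : 𝓞 F),
      K.fin ν (upMat 1 (r + (N : F) * (l : F)) • u) = K.fin ν (upMat 1 r • u) := fun r l =>
    finprod_congr fun v => by
      rw [FinPt.smul_apply, FinPt.smul_apply, upMat_add, mul_smul, hfix v _ (hNl v l)]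
  -- local supports
  set T : ∀ v : E, Finset (F ⧸ vball v.1 (-m v.1)) := fun v =>
    (finite_classes_support (K.loc v.1) (ν.1 v.1) (u.1 v.1) (hfixle v.1)).toFinset with hT
  obtain ⟨M, hM⟩ : ∃ M : ℕ, ∀ v ∈ E, m v ≤ M := by
    obtain ⟨M, hM⟩ := Finset.bddAbove (E.image fun v => (m v).toNat)
    exact ⟨M, fun v hv => (Int.self_le_toNat _).trans
      (by exact_mod_cast hM (Finset.mem_coe.2 (Finset.mem_image_of_mem _ hv)))⟩
  choose pick hpick hpick' using fun f : (∀ v : E, F ⧸ vball v.1 (-m v.1)) =>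
    exists_approx E (fun v => if h : v ∈ E then (f ⟨v, h⟩).out else 0) M
  have hmk : ∀ (f : ∀ v : E, F ⧸ vball v.1 (-m v.1)) (v : E),
      ((pick f : F) : F ⧸ vball v.1 (-m v.1)) = f v := by
    intro f v
    have h := hpick f v.1 v.2
    rw [dif_pos v.2] at h
    rw [← QuotientAddGroup.out_eq' (f v), eq_comm, neg_vball_mem_iff]
    exact h.trans (WithZero.exp_le_exp.2 (by have := hM v.1 v.2; omega))
  -- values
  have hval : ∀ b : F, (∀ v ∉ E, v.valuation F b ≤ 1) → K.fin ν (upMat 1 b • u)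
      = ∏ v : E, K.loc v.1 (ν.1 v.1) (upMat (1 : Fˣ) ((b : F ⧸ vball v.1 (-m v.1)).out) •
          u.1 v.1) :=
    K.fin_unip_eq_prod ν u m (fun v hv => ⟨hlocOne v hv, hν v hv, hu v hv, hS v hv⟩) hfixle
  refine ⟨N, (Fintype.piFinset T).image pick, hN0, fun b hb => ?_, hper, ?_, ?_⟩
  · have hb' := K.fin_ne_zero.1 hb
    have hint : ∀ v ∉ E, v.valuation F b ≤ 1 := by
      intro v hv
      have h4 := hb' v
      rw [FinPt.smul_apply, hlocOne v hv, hν v hv, hu v hv, LKer.one_apply] at h4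
      have he : upMat (1 : Fˣ) b • ((1 : GL (Fin 2) F) : Vert S v)
          = ((1 : GL (Fin 2) F) : Vert S v) := by
        by_contra hne; exact h4 (if_neg (Ne.symm hne))
      simpa [stabExp_base (hS v hv)] using (unip_smul_eq_iff _ b).1 he
    set f : ∀ v : E, F ⧸ vball v.1 (-m v.1) := fun v => (b : F ⧸ vball v.1 (-m v.1))
    refine ⟨pick f, Finset.mem_image_of_mem _ (Fintype.mem_piFinset.2 fun v => ?_), ?_⟩
    · rw [hT, Set.Finite.mem_toFinset, mem_ofPred_eq,
        unip_out_smul (β := u.1 v.1) (by have := hfixle v.1; omega)]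
      have := hb' v.1
      rwa [FinPt.smul_apply] at this
    · obtain ⟨l, hl⟩ := hmult (b - pick f) fun v => by
        by_cases hv : v ∈ E
        · exact neg_vball_mem_iff.1 (hmk f ⟨v, hv⟩)
        · rw [hm0 v hv, neg_zero, WithZero.exp_zero]
          exact ((v.valuation F).map_sub _ _).trans (max_le (hint v hv) (hpick' f v hv))
      exact ⟨l, by rw [← hl]; ring⟩
  · intro r hr r' hr' l hl
    obtain ⟨f, -, rfl⟩ := Finset.mem_image.1 hr
    obtain ⟨f', -, rfl⟩ := Finset.mem_image.1 hr'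
    congr 1
    funext v
    rw [← hmk f v, ← hmk f' v, eq_comm, neg_vball_mem_iff, hl]
    exact hNl v.1 l
  · rw [Finset.sum_image fun f _ f' _ h => funext fun v => by rw [← hmk f v, ← hmk f' v, h],
      Finset.sum_congr rfl (g := fun f => ∏ v : E, K.loc v.1 (ν.1 v.1)
        (upMat (1 : Fˣ) (f v).out • u.1 v.1)) fun f _ => by
        rw [hval _ (hpick' f)]
        exact Finset.prod_congr rfl fun v _ => by rw [hmk],
      ← Finset.prod_univ_sum T (fun v q => K.loc v.1 (ν.1 v.1) (upMat (1 : Fˣ) q.out • u.1 v.1))]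
    have hloc : ∀ v : E, ∑ q ∈ T v, K.loc v.1 (ν.1 v.1) (upMat (1 : Fˣ) q.out • u.1 v.1)
        = (pnorm v.1 : ℂ) ^ m v.1 * lint (K.loc v.1) (ν.1 v.1) (u.1 v.1) := fun v => by
      rw [← finsum_classes_eq_lint _ _ _ (hfixle v.1), finsum_eq_sum_of_support_subset _
        (s := T v) fun q hq => Finset.mem_coe.2 ((Set.Finite.mem_toFinset _).2 hq)]
    rw [Finset.prod_congr rfl fun v _ => hloc v,
      Finset.prod_coe_sort E (fun v => (pnorm v : ℂ) ^ m v * lint (K.loc v) (ν.1 v) (u.1 v)),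
      Finset.prod_mul_distrib, prod_pnorm_zpow_ord hN0 E hm0, nfinInt,
      finprod_eq_prod_of_mulSupport_subset _ (s := E)]
    intro v hv
    by_contra hne
    exact hv (by simp only [hlocOne v hne, hν v hne, hu v hne]; exact lint_one_base (hS v hne))

end PKer

end Fermat.LTG
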