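import Fermat.Agent.LTG.PGroup
import Fermat.Agent.LT.Domain

/-!
# A fundamental domain for `PGL₂(F)` on the point space

`exists_ptDomain` gives the domain, as nontrivial classes fix only null sets
(`ptMeasure_fixed_null`).
-/

set_option autoImplicit false
open MeasureTheory Filter Set NumberField

namespace Fermat.LTG

open Fermat.LT

variable {F : Type*} [Field F] [NumberField F] {S : Lev F}

/-- `PGL₂(F)` preserves the measure of the point space. -/
instance instSMulInvariantPG : SMulInvariantMeasure (PG F) (Pt F S) ptMeasure := by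
  refine ⟨fun c s hs => ?_⟩
  obtain ⟨g, rfl⟩ := QuotientGroup.mk_surjective c
  exact (measurePreserving_smul_pt g).measure_preimage hs.nullMeasurableSet

/-- `PGL₂(F)` acts measurably on the point space. -/
instance instMeasurableConstSMulPG : MeasurableConstSMul (PG F) (Pt F S) := by
  refine ⟨fun c => ?_⟩
  obtain ⟨g, rfl⟩ := QuotientGroup.mk_surjective c
  exact (measurePreserving_smul_pt g).measurable

/-- The measure of the point space is σ-finite. -/
instance instSigmaFinitePt : SigmaFinite (ptMeasure (F := F) (S := S)) := by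
  unfold ptMeasure; infer_instance

/-- Nontrivial elements of `PGL₂(F)` fix null sets. -/
theorem ptMeasure_fixed_null {γ : PG F} (hγ : γ ≠ 1) :
    ptMeasure (F := F) (S := S) {p | γ • p = p} = 0 := by
  obtain ⟨g, rfl⟩ := QuotientGroup.mk_surjective γ
  obtain ⟨w⟩ : Nonempty (InfinitePlace F) := inferInstance
  have hns := atInf_ne_scal hγ w
  refine measure_mono_null
    (t := (univ : Set (FinPt F S)) ×ˢ (Function.eval w ⁻¹' {x : H3 | atInf w g • x = x}))
    (fun p hp => ⟨trivial, ?_⟩) ?_
  · exact congrFun (congrArg Prod.snd (show (g : PG F) • p = p from hp)) w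
  · rw [ptMeasure, Measure.prod_prod,
      Measure.pi_eval_preimage_null (fun _ : InfinitePlace F => hmeas) (hmeas_fixed_null _ hns),
      mul_zero]

/-- A fundamental domain of `PGL₂(F)` on the points. -/
theorem exists_ptDomain : ∃ D : Set (Pt F S), MeasurableSet D ∧
    IsFundamentalDomain (PG F) D ptMeasure := by
  have : DiscreteMeasurableSpace (FinPt F S) := ⟨fun _ => trivial⟩
  have : Nonempty (FinPt F S) := ⟨FinPt.base⟩
  refine exists_fundamentalDomain_prod (fun ν N => (finite_moving ν ν N).subset ?_)
    fun γ hγ => ptMeasure_fixed_null hγ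
  rintro γ ⟨p, rfl, hp2, hq1, hq2⟩
  obtain ⟨g, rfl⟩ := QuotientGroup.mk_surjective γ
  exact ⟨g, rfl, hq1, fun w => ⟨p.2 w, hp2 w, hq2 w⟩⟩

end Fermat.LTG
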