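import Fermat.Agent.LTG.BorelOrbits
import Fermat.Agent.LTG.Domain
import Fermat.Agent.LT.Reduce

/-!
# Siegel sets

`exists_siegel` is reduction theory: a Siegel set (`siegel`) meets every orbit.
-/

set_option autoImplicit false
open NumberField Filter
open scoped Classical Matrix

namespace Fermat.LTG

open Fermat.LT

variable {F : Type*} [Field F] [NumberField F] {S : Lev F}

/-- Congruent upper triangular matrices fix a given point. -/
theorem exists_fixing_ideal (ω : FinPt F S) : ∃ J : Ideal (𝓞 F), J ≠ ⊥ ∧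
    ∀ (ε : (𝓞 F)ˣ) (x : 𝓞 F), (ε : 𝓞 F) - 1 ∈ J → x ∈ J →
      upMat (Units.map (algebraMap (𝓞 F) F).toMonoidHom ε) (x : F) • ω = ω := by
  set E : Finset (Place F) := (eventually_cofinite.1 ω.2).toFinset ∪ S.places with hE
  choose m hm using fun v : Place F => exists_entry_bound (v.valuation F) (ω.1 v).out
  set k : Place F → ℕ := fun v => 2 * m v + S.depth v with hk
  set J : Ideal (𝓞 F) := ∏ v ∈ E, v.asIdeal ^ k v with hJ
  refine ⟨J, ?_, fun ε x hε hx => Subtype.ext (funext fun v => ?_)⟩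
  · simp only [hJ, ← Ideal.zero_eq_bot, ne_eq, Finset.prod_eq_zero_iff, not_exists, not_and]
    exact fun v _ => pow_ne_zero _ v.ne_bot
  set e : Fˣ := Units.map (algebraMap (𝓞 F) F).toMonoidHom ε with he
  set γ := upMat e (x : F) with hγ
  have he1 : v.valuation F (e : F) = 1 := by
    refine le_antisymm (v.valuation_le_one (ε : 𝓞 F)) ?_
    have h2 : v.valuation F (((ε⁻¹ : (𝓞 F)ˣ) : 𝓞 F) : F) ≤ 1 := v.valuation_le_one _
    have h3 : (e : F) * (((ε⁻¹ : (𝓞 F)ˣ) : 𝓞 F) : F) = 1 := by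
      change algebraMap (𝓞 F) F (ε : 𝓞 F) * algebraMap (𝓞 F) F _ = 1
      rw [← map_mul, Units.mul_inv, map_one]
    have h4 := congrArg (v.valuation F) h3
    rw [map_mul, map_one] at h4
    rw [← h4]
    exact mul_le_of_le_one_right' h2
  have hint : γ ∈ intGL (v.valuation F) :=
    upMat_mem_intGL (v.valuation F) he1 (v.valuation_le_one x)
  -- off `E` the point is the base vertex
  by_cases hv : v ∈ E
  swap
  · rw [hE, Finset.mem_union, Set.Finite.mem_toFinset, Lev.mem_places, not_or] at hv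
    have hω : ω.1 v = ((1 : GL (Fin 2) F) : Vert S v) := not_not.1 hv.1
    rw [FinPt.smul_apply, hω, MulAction.Quotient.smul_coe, QuotientGroup.eq]
    exact (lev_of_not_mem hv.2).ge (by simpa using (U0 _).inv_mem (le_withScalars _ hint))
  have hsmall : ∀ z : 𝓞 F, z ∈ J → v.valuation F (z : F) ≤ WithZero.exp (-(k v : ℤ)) :=
    fun z hz => (valuation_le_exp_neg_iff v z _).2
      (Ideal.le_of_dvd (Finset.dvd_prod_of_mem (fun u : Place F => u.asIdeal ^ k u) hv) hz)
  set g := (ω.1 v).out with hg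
  have hδ : ∀ i j,
      v.valuation F ((γ : Matrix (Fin 2) (Fin 2) F) i j - (1 : Matrix (Fin 2) (Fin 2) F) i j)
      ≤ WithZero.exp (-(k v : ℤ)) ∧
      v.valuation F ((γ⁻¹ : GL (Fin 2) F).val i j - (1 : Matrix (Fin 2) (Fin 2) F) i j)
      ≤ WithZero.exp (-(k v : ℤ)) := by
    have h1 : v.valuation F ((e : F) - 1) ≤ WithZero.exp (-(k v : ℤ)) := by
      have := hsmall _ hε
      push_cast at this
      exact this
    have h2 : v.valuation F (((e⁻¹ : Fˣ) : F) - 1) ≤ WithZero.exp (-(k v : ℤ)) := by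
      have e2 : ((e⁻¹ : Fˣ) : F) - 1 = -((e⁻¹ : Fˣ) : F) * ((e : F) - 1) := by
        rw [mul_sub, neg_mul, Units.inv_mul]; ring
      rw [e2, map_mul, Valuation.map_neg, Units.val_inv_eq_inv_val, map_inv₀, he1, inv_one, one_mul]
      exact h1
    have h3 := hsmall _ hx
    generalize WithZero.exp (-(k v : ℤ)) = δ at h1 h2 h3 ⊢
    intro i j
    rw [hγ, upMat_inv]
    fin_cases i <;> fin_cases j <;> simp [Valuation.map_neg, -map_inv₀]
    · exact ⟨h1, by simpa [Units.val_inv_eq_inv_val] using h2⟩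
    · refine ⟨h3, ?_⟩
      rw [map_inv₀, he1, inv_one, one_mul]
      exact h3
  -- the conjugate is congruent to one
  have hcong : g⁻¹ * γ * g ∈ congN (v.valuation F) (S.depth v) :=
    conj_mem_congN _ (hm v) (fun i j => (hδ i j).1) fun i j => (hδ i j).2
  rw [FinPt.smul_apply, eq_comm, ← QuotientGroup.out_eq' (ω.1 v), MulAction.Quotient.smul_coe,
    QuotientGroup.eq, smul_eq_mul, ← hg, ← mul_assoc]
  exact mem_lev_of_congN le_rfl hcong

variable [IsTotallyComplex F]

/-- The Siegel set over a finite set of finite points. -/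
def siegel (Ω : Finset (FinPt F S)) (R c : ℝ) : Set (Pt F S) :=
  {q | q.1 ∈ Ω ∧ (∀ w, ‖(H3.coord (q.2 w)).1‖ ≤ R ∧ c ≤ (H3.coord (q.2 w)).2) ∧
    ∀ w u, (H3.coord (q.2 w)).2 ≤ R * (H3.coord (q.2 u)).2}

/-- **Reduction theory.** Finitely many finite points, a bound and a height bound give a Siegel set
meeting every orbit of `GL₂(F)`. -/
theorem exists_siegel : ∃ (Ω : Finset (FinPt F S)) (R c : ℝ), 0 < c ∧
    ∀ p : Pt F S, ∃ γ : GL (Fin 2) F, γ • p ∈ siegel Ω R c := by
  obtain ⟨Ω, R, c, hc, h⟩ := exists_siegel_gen (fun (ω : FinPt F S) v => (ω.1 v).out)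
    (fun ω => ω.2.mono fun v hv => hv ▸ out_one_mem_U0 (lev_le_U0 S v)) exists_fixing_ideal
    exists_borel_reps fun u hu γ ω y => ht_smul hu γ (ω, y)
  exact ⟨Ω, R, c, hc, fun p => h p.1 p.2⟩

end Fermat.LTG
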