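import Fermat.Agent.LTG.Mult.Arch
import Fermat.Agent.LTG.H.Hhat
import Fermat.Agent.LTG.ConstForm
import Fermat.Agent.LTG.Reduce

/-!
# Bounded eigenfunctions of parameter zero have vanishing constant term

The constant term, divided by the height at one infinite place, solves
`φ(x + s) + φ(x - s) = 2 φ(x)` for large `s` and is `O(exp (-x))`: so it is zero.
-/

set_option autoImplicit false
open NumberField MeasureTheory Filter Set Topology
open scoped Classical

namespace Fermat.LTG

open Fermat.LT
open Fermat.LT.Mult
open Fermat.LTG.Mult (sl IsNice ArchEig measurable_sl isNice_of_per)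
open Fermat.LTG.H

/-- A solution of the functional equation decaying to one side vanishes. -/
lemma eq_zero_of_second_difference {φ : ℝ → ℂ} {C h : ℝ} (hh : 0 < h)
    (hd : ∀ x, φ (x + h) + φ (x - h) = 2 * φ x) (hb : ∀ x, ‖φ x‖ ≤ C * Real.exp (-x)) (x : ℝ) :
    φ x = 0 := by
  set a : ℕ → ℂ := fun n => φ (x + n * h)
  set d := a 1 - a 0 with hd'
  have hlin : ∀ n : ℕ, a n = a 0 + n * d ∧ a (n + 1) = a 0 + (n + 1 : ℕ) * d := by
    intro n
    induction n with
    | zero => exact ⟨by simp, by simp [hd']⟩
    | succ n ih =>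
      refine ⟨ih.2, ?_⟩
      have := hd (x + (n + 1 : ℕ) * h)
      rw [show x + (n + 1 : ℕ) * h + h = x + (n + 1 + 1 : ℕ) * h by push_cast; ring,
        show x + (n + 1 : ℕ) * h - h = x + (n : ℕ) * h by push_cast; ring] at this
      change a (n + 1 + 1) + a n = 2 * a (n + 1) at this
      rw [ih.1, ih.2] at this
      push_cast at this ⊢
      linear_combination this
  have hlim : Tendsto a atTop (𝓝 0) := by
    refine squeeze_zero_norm (fun n => hb _) ?_
    have h1 : Tendsto (fun n : ℕ => x + (n : ℝ) * h) atTop atTop :=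
      tendsto_atTop_add_const_left _ _ (tendsto_natCast_atTop_atTop.atTop_mul_const hh)
    simpa using ((Real.tendsto_exp_neg_atTop_nhds_zero.comp h1).const_mul C)
  have hdiff : Tendsto (fun n => a (n + 1) - a n) atTop (𝓝 0) := by
    simpa using ((tendsto_add_atTop_iff_nat 1).2 hlim).sub hlim
  have hd0 : d = 0 := by
    refine tendsto_nhds_unique (tendsto_const_nhds.congr fun n => ?_) hdiff
    rw [(hlin n).1, (hlin n).2]
    push_cast
    ring
  have h0 : a 0 = 0 := by
    refine tendsto_nhds_unique (tendsto_const_nhds.congr fun n => ?_) hlim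
    rw [(hlin n).1, hd0, mul_zero, add_zero]
  simpa [a] using h0

variable {F : Type*} [Field F] [NumberField F] [IsTotallyComplex F]

section OneFunction

variable {f : (InfinitePlace F → H3) → ℂ} (hf : IsNice f) {C : ℝ} (hC : ∀ p, ‖f p‖ ≤ C)
  (ha : ArchEig f) (w : InfinitePlace F) {t : InfinitePlace F → ℝ} (ht : Pos t)

/-- The constant term as a function of the logarithm of one height, divided by the height. -/
noncomputable def cstLog (f : (InfinitePlace F → H3) → ℂ) (t : InfinitePlace F → ℝ)
    (w : InfinitePlace F) (x : ℝ) : ℂ :=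
  mean (sl f (Function.update t w (Real.exp x))) * (Real.exp (-x) : ℂ)

omit [NumberField F] [IsTotallyComplex F] in
/-- Changing one height to a positive value keeps all heights positive. -/
lemma pos_update {t : InfinitePlace F → ℝ} (ht : Pos t) (w : InfinitePlace F) {s : ℝ} (hs : 0 < s) :
    Pos (Function.update t w s) := fun v => by
  rcases eq_or_ne v w with rfl | hv
  · simpa using hs
  · simpa [Function.update_of_ne hv] using ht v

include hf hC ht in
/-- The divided constant term is `O(exp (-x))`. -/
lemma norm_cstLog_le (x : ℝ) : ‖cstLog f t w x‖ ≤ C * Real.exp (-x) := by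
  obtain ⟨M, hM, hper⟩ := hf.period
  have hp := pos_update ht w (Real.exp_pos x)
  rw [cstLog, norm_mul, Complex.norm_real, Real.norm_of_nonneg (Real.exp_pos _).le]
  refine mul_le_mul_of_nonneg_right ?_ (Real.exp_pos _).le
  rw [mean_eq hM (hper _ hp).1 (hf.isPer_sl hp).1, meanM]
  refine (norm_integral_le_of_norm_le_const (C := C) (Eventually.of_forall fun q => hC _)).trans ?_
  simp

include hf ht in
/-- The divided constant term is measurable in `x`. -/
lemma measurable_cstLog : Measurable (cstLog f t w) := by
  obtain ⟨M, hM, hper⟩ := hf.period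
  have e : cstLog f t w = fun x => (∫ q, sl f (Function.update t w (Real.exp x))
      (par M fun i => rep (q i)) ∂tmeas F) * (Real.exp (-x) : ℂ) := funext fun x => by
    have hp := pos_update ht w (Real.exp_pos x)
    rw [cstLog, mean_eq hM (hper _ hp).1 (hf.isPer_sl hp).1]
    rfl
  rw [e]
  refine Measurable.mul ?_ (by fun_prop)
  have hj : Measurable fun r : ℝ × Tor F =>
      sl f (Function.update t w (Real.exp r.1)) (par M fun i => rep (r.2 i)) :=
    measurable_sl hf ((continuous_par M).measurable.comp (measurable_pi_lambda _ fun i =>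
      measurable_rep.comp ((measurable_pi_apply i).comp measurable_snd)))
      ((measurable_update t).comp (Real.measurable_exp.comp measurable_fst))
  exact (hj.stronglyMeasurable.integral_prod_right' (ν := tmeas F)).measurable

include hf hC ha in
/-- **The horospherical equation.** The constant term over the height, as a function of the
logarithm `x` of one height, is an eigenfunction of convolution with `gT k`. -/
theorem cstLog_eq {k : ℝ → ℝ} (hk : Continuous k) (hs : HasCompactSupport k) (x : ℝ)
    (hx : t w = Real.exp x) (ht : Pos t) :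
    hhat0 k * cstLog f t w x = 2 * ∫ y : ℝ, gT k (x - y) * cstLog f t w y := by
  obtain ⟨M, hM, hper⟩ := hf.period
  set A := AKer.ofRadial k hk hs
  set par' : Tor F → InfinitePlace F → ℂ := fun q => par M fun i => rep (q i)
  have hpar : Measurable par' := (continuous_par M).measurable.comp
    (measurable_pi_lambda _ fun i => measurable_rep.comp (measurable_pi_apply i))
  set κ : ℂ × ℝ → ℂ := fun p => (((p.2 ^ 3)⁻¹ : ℝ) : ℂ) * A (H3.mk 0 (t w)) (hmk p) with hκ
  let G : Tor F × (ℂ × ℝ) → ℂ := fun r =>
    κ r.2 * sl f (Function.update t w r.2.2) (par' r.1 + Pi.single w r.2.1)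
  have hκm : Measurable κ := by
    refine Measurable.mul (by fun_prop) ?_
    exact (A.continuous_right _).measurable.comp measurable_hmk
  have hGm : Measurable G := (hκm.comp measurable_snd).mul
    (measurable_sl hf (measurable_shift_arg w hpar)
      ((measurable_update t).comp (measurable_snd (α := Tor F)).snd))
  have hκi : Integrable κ hsm := by
    have h := (A.integrable (H3.mk 0 (t w)))
    rw [show hmeas = hvol.map hmk from rfl,
      integrable_map_measure (A.continuous_right _).aestronglyMeasurable
        measurable_hmk.aemeasurable] at h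
    rw [hvol, integrable_withDensity_iff_integrable_smul' (by fun_prop)
      (Eventually.of_forall fun _ => ENNReal.ofReal_lt_top)] at h
    rw [← restrict_eq_hsm]
    refine h.congr ?_
    filter_upwards [ae_restrict_mem (MeasurableSet.univ.prod measurableSet_Ioi)] with p hp
    have hp2 : (0 : ℝ) < p.2 := hp.2
    change (ENNReal.ofReal ((p.2 ^ 3)⁻¹)).toReal • (A (H3.mk 0 (t w))) (hmk p) = κ p
    rw [ENNReal.toReal_ofReal (by positivity), Complex.real_smul, hκ]
  have hGi : Integrable G ((tmeas F).prod hsm) := by
    refine Integrable.mono' ((integrable_const C).mul_prod hκi.norm) hGm.aestronglyMeasurable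
      (Eventually.of_forall fun r => ?_)
    change ‖κ r.2 * _‖ ≤ C * ‖κ r.2‖
    rw [norm_mul, mul_comm C]
    exact mul_le_mul_of_nonneg_left (hC _) (norm_nonneg _)
  -- the equation before taking means
  have harch : ∀ q, ∫ p, G (q, p) ∂hsm = hhat0 k * sl f t (par' q) := by
    intro q
    have h := ha w k hk hs (pnt (par' q) t)
    simp only [hIntegral, restrict_eq_hsm] at h
    refine Eq.trans ?_ h
    have hshift : MeasurePreserving (fun p : ℂ × ℝ => (par' q w + p.1, p.2)) hsm hsm :=
      (measurePreserving_add_left volume (par' q w)).prod (MeasurePreserving.id _)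
    have hemb : MeasurableEmbedding (fun p : ℂ × ℝ => (par' q w + p.1, p.2)) :=
      ((MeasurableEquiv.addLeft (par' q w)).prodCongr (MeasurableEquiv.refl ℝ)).measurableEmbedding
    conv_rhs => rw [← hshift.integral_comp hemb]
    refine integral_congr_ae ?_
    filter_upwards [ae_pos_hsm] with p hp
    have e1 : (AKer.ofRadial k hk hs) (H3.mk 0 (t w)) (hmk p) = (k (cd (0, t w) p) : ℂ) :=
      congrArg (fun c : ℝ => (k c : ℂ)) (coshd_mk _ _ (ht w) hp)
    have e2 : coshd (pnt (par' q) t w) (H3.mk (par' q w + p.1) p.2) = cd (0, t w) p := by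
      rw [pnt, coshd_mk _ _ (ht w) hp]
      simp only [cd, sub_add_cancel_left, zero_sub]
    have e3 : sl f (Function.update t w p.2) (par' q + Pi.single w p.1)
        = f (Function.update (pnt (par' q) t) w (H3.mk (par' q w + p.1) p.2)) := by
      rw [sl]
      congr 1
      funext u
      rcases eq_or_ne u w with rfl | hu
      · simp [pnt]
      · simp [pnt, Function.update_of_ne hu, Pi.single_eq_of_ne hu]
    simp only [G, κ, A, e1, e3, e2, Complex.real_smul, mul_assoc]
  have hmean : ∫ p, (∫ q, G (q, p) ∂tmeas F) ∂hsm = hhat0 k * mean (sl f t) := by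
    rw [← integral_integral_swap hGi, mean_eq hM (hper t ht).1 (hf.isPer_sl ht).1, meanM,
      ← integral_const_mul]
    exact integral_congr_ae (Eventually.of_forall fun q => harch q)
  have hinner : ∀ᵐ p ∂hsm, ∫ q, G (q, p) ∂tmeas F =
      κ p * mean (sl f (Function.update t w p.2)) := by
    filter_upwards [ae_pos_hsm] with p hp
    have ht' := pos_update ht w (show (0 : ℝ) < p.2 from hp)
    change ∫ q, κ p * _ ∂tmeas F = _
    rw [integral_const_mul]
    congr 1
    rw [← mean_translate (hf.isPer_sl ht') (Pi.single w p.1),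
      mean_eq hM ((hper _ ht').1.comp_add _)
        ((hf.isPer_sl ht').1.comp (continuous_id.add continuous_const)), meanM]
    rfl
  rw [integral_congr_ae hinner,
    integral_prod_symm _ ((hGi.integral_prod_right).congr hinner)] at hmean
  have hslice : ∀ s ∈ Ioi (0 : ℝ), ∫ z : ℂ, κ (z, s) * mean (sl f (Function.update t w s))
      = ((2 * t w / s ^ 2 : ℝ) : ℂ) * gT k (x - Real.log s) *
          mean (sl f (Function.update t w s)) := by
    intro s hs
    have hs0 : (0 : ℝ) < s := hs
    rw [integral_mul_const]
    congr 1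
    change ∫ z : ℂ, (((s ^ 3)⁻¹ : ℝ) : ℂ) * A (H3.mk 0 (t w)) (H3.mk z s) = _
    rw [integral_const_mul, ← aint, aint_eq_gT A k (fun _ _ => rfl) (ht w) hs0, hx, Real.log_exp]
    rw [← mul_assoc]
    congr 1
    push_cast
    field_simp
  rw [setIntegral_congr_fun measurableSet_Ioi hslice] at hmean
  have hsub :=
    integral_image_eq_integral_abs_deriv_smul (MeasurableSet.univ : MeasurableSet (univ : Set ℝ))
    (fun y _ => (Real.hasDerivAt_exp y).hasDerivWithinAt) (fun y _ z _ h => Real.exp_injective h)
    (fun s : ℝ => ((2 * t w / s ^ 2 : ℝ) : ℂ) * gT k (x - Real.log s) *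
      mean (sl f (Function.update t w s)))
  rw [image_univ, Real.range_exp, Measure.restrict_univ] at hsub
  rw [hsub] at hmean
  have hid : Function.update t w (Real.exp x) = t := by rw [← hx, Function.update_eq_self]
  rw [cstLog, hid, ← mul_assoc, ← hmean, ← integral_const_mul, ← integral_mul_const]
  refine integral_congr_ae (Eventually.of_forall fun y => ?_)
  simp only [Complex.real_smul, abs_of_pos (Real.exp_pos y), Real.log_exp, cstLog, hx, Real.exp_neg]
  have := Real.exp_ne_zero y
  push_cast
  field_simp

include hf hC ha ht in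
/-- The mean of each slice vanishes. -/
theorem mean_sl_eq_zero : mean (sl f t) = 0 := by
  obtain ⟨w⟩ := (inferInstance : Nonempty (InfinitePlace F))
  obtain ⟨G, hG, hGc, hGs, hG0, hG1⟩ := exists_bump one_pos
  set g : ℝ → ℝ := fun l => G (Real.cosh l) with hg
  set φ := cstLog f t w
  have hI : 0 < ∫ l, g l := hhat0_pos hG hGs zero_le_one hG0 hG1
  have hgc : Continuous g := hG.continuous.comp Real.continuous_cosh
  have hgs : HasCompactSupport g := by
    refine HasCompactSupport.intro (isCompact_Icc (a := -1) (b := 1)) fun l hl => hGs _ ?_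
    refine Real.cosh_lt_cosh.2 ?_
    rw [abs_one]
    by_contra h
    exact hl ⟨(abs_le.1 (not_lt.1 h)).1, (abs_le.1 (not_lt.1 h)).2⟩
  have hint : ∀ x : ℝ, Integrable fun y => ((g (x - y) : ℝ) : ℂ) * φ y := by
    intro x
    have h1 : Integrable fun y => |g (x - y)| * (C * Real.exp (-y)) :=
      (by fun_prop : Continuous fun y => |g (x - y)| *
            (C * Real.exp (-y))).integrable_of_hasCompactSupport
        (HasCompactSupport.mul_right (f := fun y => |g (x - y)|)
          ((hgs.comp_homeomorph (Homeomorph.subLeft x)).norm))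
    refine h1.mono'
      (((Complex.measurable_ofReal.comp
      (hgc.measurable.comp (measurable_const.sub measurable_id))).mul
      (measurable_cstLog hf w ht)).aestronglyMeasurable) (Eventually.of_forall fun y => ?_)
    rw [norm_mul, Complex.norm_real, Real.norm_eq_abs]
    exact mul_le_mul_of_nonneg_left (norm_cstLog_le hf hC w ht y) (abs_nonneg _)
  -- the convolution identity at shift `s`
  have hdiff : ∀ s : ℝ, (s = 0 ∨ 1 < |s|) → ∀ x, ((∫ l, g l : ℝ) : ℂ) * φ x =
      ((∫ y, ((g (x - s - y) : ℝ) : ℂ) * φ y) + ∫ y, ((g (x + s - y) : ℝ) : ℂ) * φ y) / 2 := by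
    intro s hs x
    have htx := pos_update ht w (Real.exp_pos x)
    have h := cstLog_eq hf hC ha w
      (contDiff_radG (contDiff_arShift hG hGs zero_le_one hs)).continuous
      (hasCompactSupport_radG (hasCompactSupport_arShift hGc hGs)) x
      (Function.update_self w (Real.exp x) t) htx
    rw [hhat0_radG_arShift hG hGc hGs zero_le_one hs] at h
    have hφ : ∀ y, cstLog f (Function.update t w (Real.exp x)) w y = φ y := fun y => by
      simp only [φ, cstLog, Function.update_idem]
    simp only [hφ, gT_arShift hG hGc hGs zero_le_one hs] at h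
    rw [← integral_add (hint _) (hint _), ← integral_div]
    push_cast at h
    rw [mul_assoc] at h
    refine (mul_left_cancel₀ two_ne_zero h).trans
      (integral_congr_ae (Eventually.of_forall fun y => ?_))
    simp only [hg]
    ring_nf
  -- so the second differences vanish
  have heq : ∀ s : ℝ, 1 < |s| → ∀ x, φ (x + s) + φ (x - s) = 2 * φ x := by
    intro s hs x
    have h0 := fun z => hdiff 0 (Or.inl rfl) z
    simp only [sub_zero, add_zero, add_self_div_two] at h0
    have h := hdiff s (Or.inr hs) x
    rw [← h0, ← h0] at h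
    have hI' : ((∫ l, g l : ℝ) : ℂ) ≠ 0 := Complex.ofReal_ne_zero.2 hI.ne'
    refine mul_left_cancel₀ hI' ?_
    linear_combination (-2 : ℂ) * h
  have hz := eq_zero_of_second_difference (two_pos : (0 : ℝ) < 2) (heq 2 (by norm_num))
    (norm_cstLog_le hf hC w ht) (Real.log (t w))
  simp only [φ, cstLog, Real.exp_log (ht w), Function.update_eq_self, mul_eq_zero,
    Complex.ofReal_eq_zero, (Real.exp_pos _).ne', or_false] at hz
  exact hz

end OneFunction

variable {S : Lev F}

/-- **Bounded eigenfunctions of parameter zero have vanishing constant term.** -/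
theorem hasZeroConst_of_archEigen {Φ : Pt F S → ℂ} (hinv : IsInvariant Φ)
    (hc : ∀ ν : FinPt F S, Continuous fun x : InfinitePlace F → H3 => Φ (ν, x))
    (hb : ∃ C : ℝ, ∀ p, ‖Φ p‖ ≤ C) (ha : IsArchEigen Φ) : HasZeroConst Φ := by
  obtain ⟨C, hC⟩ := hb
  intro ν t ht
  obtain ⟨J, hJ, hfix⟩ := exists_fixing_ideal ν
  set M := Ideal.absNorm J
  have hM : M ≠ 0 := fun h => hJ (Ideal.absNorm_eq_zero_iff.1 h)
  refine mean_sl_eq_zero (f := fun x => Φ (ν, x)) (t := t) ?_ (fun p => hC _)
    (fun w k hk hs x => ha w k hk hs (ν, x)) ht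
  refine isNice_of_per (hc ν) hM fun t ht z l => ?_
  have hmem : ((M : 𝓞 F) * l) ∈ J := J.mul_mem_right l (Ideal.absNorm_mem J)
  have h1 := hfix 1 ((M : 𝓞 F) * l) (by simp) hmem
  simp only [map_one] at h1
  have hb : (((M : 𝓞 F) * l : 𝓞 F) : F) = (M : F) * (l : F) := by push_cast; rfl
  rw [hb] at h1
  have h := isInvariant_iff.1 hinv (upMat 1 ((M : F) * (l : F))) (ν, pnt z t)
  change Φ (ν, pnt (z + emb ((M : F) * (l : F))) t) = Φ (ν, pnt z t)
  rw [← h]
  congr 1
  refine Prod.ext h1.symm (funext fun w => ?_)
  rw [Pt.smul_snd, upMat_smul_pnt 1 _ z ht w, sc_one, Units.val_one, map_one, one_mul]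

end Fermat.LTG
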