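import Fermat.Agent.LTG.ConstGlob
import Fermat.Agent.LTG.ConstArch
import Fermat.Agent.LT.CuspUpper

/-!
# Sums over translations and over the Borel subgroup in a cusp

Such sums are their constant terms up to bounded errors (`cusp_sum_approx`, `upper_sum_approx`);
`KapBound` deduces bounded kernels from this.
-/

set_option autoImplicit false
open NumberField Filter Set Module MeasureTheory
open scoped Classical ContDiff

namespace Fermat.LTG

open Fermat.LT

variable {F : Type*} [Field F] [NumberField F] {S : Lev F}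

namespace PKer

/-- Almost all local integrals are one. -/
lemma nfinInt_mulSupport_finite (K : PKer F S) (ν u : FinPt F S) :
    (Function.mulSupport fun v => lint (K.loc v) (ν.1 v) (u.1 v)).Finite := by
  refine eventually_cofinite.1 ?_
  filter_upwards [K.ae_one, ν.2, u.2, S.eventually_notMem] with v h0 h1 h2 h3
  rw [h0, h1, h2, lint_one_base h3]

/-- A nonzero finite constant term forces nonzero local integrals. -/
lemma lint_ne_zero_of_nfinInt {K : PKer F S} {ν u : FinPt F S} (h : K.nfinInt ν u ≠ 0)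
    (v : Place F) :
    lint (K.loc v) (ν.1 v) (u.1 v) ≠ 0 := by
  rw [nfinInt, finprod_eq_prod _ (K.nfinInt_mulSupport_finite ν u), Finset.prod_ne_zero_iff] at h
  by_cases hv : v ∈ (K.nfinInt_mulSupport_finite ν u).toFinset
  · exact h v hv
  · simp only [Set.Finite.mem_toFinset, Function.mem_mulSupport, not_not] at hv
    simp [hv]

/-- For radial kernels the archimedean constant term is the horospherical integral. -/
lemma ninfInt_eq_horoInt (K : PKer F S) (f : InfinitePlace F → ℝ → ℝ)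
    (hf : ∀ w x y, K.arch w x y = (f w (coshd x y) : ℂ)) {t t' : InfinitePlace F → ℝ}
    (ht : ∀ w, 0 < t w) (ht' : ∀ w, 0 < t' w) : K.ninfInt t t' = horoInt f t t' :=
  Finset.prod_congr rfl fun w _ => integral_congr_ae (Eventually.of_forall fun z => by
    change K.arch w _ _ = (f w _ : ℂ)
    rw [hf, coshd_eq_cd, H3.coord_mk_of_pos _ (ht w), H3.coord_mk_of_pos _ (ht' w)])

variable [IsTotallyComplex F]

/-- **Sums over translations near a cusp are the integrals up to a bounded error.** -/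
theorem cusp_sum_approx (K : PKer F S) (f : InfinitePlace F → ℝ → ℝ)
    (hfs : ∀ w, ContDiff ℝ ∞ (f w)) (hfc : ∀ w, HasCompactSupport (f w))
    (hf : ∀ w x y, K.arch w x y = (f w (coshd x y) : ℂ))
    (ν u : FinPt F S) (ρ c : ℝ) (hρ : 1 ≤ ρ) (hc : 0 < c) :
    ∃ C, ∀ x y : InfinitePlace F → H3,
      (∀ w, c ≤ (H3.coord (x w)).2) →
      (∀ w u, (H3.coord (x w)).2 ≤ ρ * (H3.coord (x u)).2) →
      (∀ w, (H3.coord (x w)).2 ≤ ρ * (H3.coord (y w)).2 ∧ (H3.coord (y w)).2 ≤ ρ *
        (H3.coord (x w)).2) →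
      ‖(∑' b : F, K.val (ν, x) (upMat 1 b • (u, y)))
        - (((covol F)⁻¹ : ℝ) : ℂ) * (K.nfinInt ν u *
          K.ninfInt (fun w => (H3.coord (x w)).2) (fun w => (H3.coord (y w)).2))‖ ≤ C := by
  obtain ⟨N, R, hN, hcov, hper, hdist, hsum⟩ := K.exists_translation_classes ν u
  obtain ⟨C, hC⟩ := lattice_sum_approx f hfs hfc hN ρ c hρ hc
  refine ⟨∑ r ∈ R, ‖K.fin ν (upMat 1 r • u)‖ * C, fun x y hxc hbal hxy => ?_⟩
  set t : InfinitePlace F → ℝ := fun w => (H3.coord (x w)).2 with ht
  set t' : InfinitePlace F → ℝ := fun w => (H3.coord (y w)).2 with ht'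
  have ht0 : ∀ w, 0 < t w := fun w => H3.coord_pos _
  have ht0' : ∀ w, 0 < t' w := fun w => H3.coord_pos _
  have happ :=
    hC (fun w => (H3.coord (x w)).1) (fun w => (H3.coord (y w)).1) t t' ht0 ht0' hxc hbal hxy
  set H : (InfinitePlace F → ℂ) → ℂ :=
    horoProd f (fun w => (H3.coord (x w)).1) (fun w => (H3.coord (y w)).1) t t' with hH
  -- split the translations into classes modulo `N`
  have hterm : ∀ (r : F) (l : 𝓞 F), K.val (ν, x) (upMat 1 (r + (N : F) * (l : F)) • (u, y))
      = K.fin ν (upMat 1 r • u) * H (Mult.emb r + Mult.emb ((N : F) * (l : F))) := by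
    intro r l
    rw [PKer.val, Pt.smul_fst, hper]
    congr 1
    refine Finset.prod_congr rfl fun w _ => ?_
    rw [Pt.smul_snd, hf, coshd_eq_cd, coord_upMat_smul]
    simp [ht, ht', map_add]
  let g : R × 𝓞 F → F := fun z => z.1.1 + (N : F) * (z.2 : F)
  have hg : Function.Injective g := by
    rintro ⟨⟨r, hr⟩, l⟩ ⟨⟨r', hr'⟩, l'⟩ h
    simp only [g] at h
    obtain rfl := hdist r hr r' hr' (l' - l) (by push_cast; linear_combination h)
    have h2 : (l : F) = (l' : F) := mul_left_cancel₀ (Nat.cast_ne_zero.2 hN) (add_left_cancel h)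
    rw [RingOfIntegers.ext h2]
  rw [← hg.tsum_eq ?_]
  swap
  · intro b hb
    obtain ⟨r, hr, l, e⟩ := hcov b (left_ne_zero_of_mul hb)
    exact ⟨(⟨r, hr⟩, l), e.symm⟩
  let G : R → 𝓞 F → ℂ := fun r l =>
    K.fin ν (upMat 1 r.1 • u) * H (Mult.emb r.1 + Mult.emb ((N : F) * (l : F)))
  rw [tsum_congr (g := Function.uncurry G) fun z : R × 𝓞 F => hterm z.1.1 z.2]
  have hsupp : ∀ r : R,
      (Function.support fun l : 𝓞 F => H (Mult.emb r.1 + Mult.emb ((N : F) * (l : F)))).Finite :=
    fun r => (happ (Mult.emb r.1)).1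
  have hG : ∀ r, Summable (G r) := fun r => (summable_of_hasFiniteSupport (hsupp r)).mul_left _
  have hG' : Summable (Function.uncurry G) := by
    refine summable_of_hasFiniteSupport
      ((Set.toFinite (Set.univ : Set R)).prod (Set.Finite.biUnion (Set.toFinite (Set.univ : Set R))
        fun r _ => hsupp r) |>.subset ?_)
    rintro ⟨r, l⟩ h
    exact ⟨trivial, mem_biUnion (mem_univ r) (right_ne_zero_of_mul h)⟩
  rw [hG'.tsum_prod' hG]
  have hGr : ∀ r : R, ∑' l, Function.uncurry G (r, l)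
      = K.fin ν (upMat 1 r.1 • u) * ∑' l : 𝓞 F, H (Mult.emb r.1 + Mult.emb ((N : F) * (l : F))) :=
          fun r => by
    simp only [Function.uncurry, G, tsum_mul_left]
  rw [tsum_congr hGr, tsum_fintype, Finset.sum_coe_sort R (fun r => K.fin ν (upMat 1 r • u)
    * ∑' l : 𝓞 F, H (Mult.emb r + Mult.emb ((N : F) * (l : F))))]
  -- the main term, class by class
  have hmain : (((covol F)⁻¹ : ℝ) : ℂ) * (K.nfinInt ν u * K.ninfInt t t')
      = ∑ r ∈ R, K.fin ν (upMat 1 r • u)
        * (((((N : ℝ) ^ finrank ℚ F * covol F)⁻¹ : ℝ) : ℂ) * horoInt f t t') := by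
    have hcov0 : ((covol F : ℝ) : ℂ) ≠ 0 := Complex.ofReal_ne_zero.2 (covol_ne_zero F)
    rw [← Finset.sum_mul, hsum, K.ninfInt_eq_horoInt f hf ht0 ht0']
    push_cast
    field_simp
  rw [hmain, ← Finset.sum_sub_distrib]
  refine (norm_sum_le _ _).trans (Finset.sum_le_sum fun r _ => ?_)
  rw [← mul_sub, norm_mul]
  exact mul_le_mul_of_nonneg_left (happ (Mult.emb r)).2 (norm_nonneg _)

omit [IsTotallyComplex F] in
/-- Only finitely many torus classes occur in a cusp: they bound the support of the sum over the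
Borel subgroup and that of the constant term. -/
lemma exists_torus_classes (K : PKer F S) (ν ν' : FinPt F S) (ρ : ℝ) :
    ∃ A : Finset Fˣ, ∀ x y : InfinitePlace F → H3,
      (∀ w, (H3.coord (x w)).2 ≤ ρ * (H3.coord (y w)).2 ∧ (H3.coord (y w)).2 ≤ ρ *
        (H3.coord (x w)).2) →
      (∀ z : Fˣ × F, K.val (ν, x) (upMat z.1 z.2 • (ν', y)) ≠ 0 → z.1 ∈ A) ∧
      ∀ a : Fˣ, K.nfinInt ν (upMat a 0 • ν') * K.ninfInt (fun w => (H3.coord (x w)).2)
        (fun w => w (a : F) * (H3.coord (y w)).2) ≠ 0 → a ∈ A := by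
  set L : Place F → ℕ := fun v => lvl (v.valuation F) (ν'.1 v).out
    + ∑ y ∈ (K.loc v).row (ν.1 v), lvl (v.valuation F) y.out with hL
  have hLfin : {v | L v ≠ 0}.Finite := by
    refine eventually_cofinite.1 ?_
    filter_upwards [K.ae_one, ν.2, ν'.2] with v h0 h1 h2
    simp only [hL, h2, lvl_base_out, zero_add]
    refine Finset.sum_eq_zero fun y hy => ?_
    rw [LKer.mem_row, h0, h1, LKer.one_apply] at hy
    by_cases he : ((1 : GL (Fin 2) F) : Vert S v) = y
    · rw [← he, lvl_base_out]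
    · exact absurd (if_neg he) hy
  set A0 : Set Fˣ :=
    Units.val ⁻¹' {a : F | (∀ v : Place F, v.valuation F a ≤ WithZero.exp (L v : ℤ)) ∧
    ∀ φ : F →+* ℂ, ‖φ a‖ ≤ 2 * |K.range| * ρ}
  have hA0 : A0.Finite := (finite_bounded_elements L hLfin _).preimage Units.val_injective.injOn
  set A := hA0.toFinset with hA
  refine ⟨A, fun x y hxy => ?_⟩
  set q : Pt F S := (ν', y)
  set G : Fˣ × F → ℂ := fun z => K.val (ν, x) (upMat z.1 z.2 • q) with hG
  -- the finite components bound the denominators of `a`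
  have hfinA : ∀ (a : Fˣ) (v : Place F) (b : F),
      K.loc v (ν.1 v) (upMat a b • ν'.1 v) ≠ 0 →
          v.valuation F (a : F) ≤ WithZero.exp (L v : ℤ) := by
    intro a v b h
    refine ((upMat_smul_bound (y := ν'.1 v) (a := a) (b := b) rfl).1).trans
      (WithZero.exp_le_exp.2 ?_)
    have hle := Finset.single_le_sum (f := fun y : Vert S v => lvl (v.valuation F) y.out)
      (fun _ _ => Nat.zero_le _) (LKer.mem_row.2 h)
    exact_mod_cast (Nat.add_le_add_left hle _ :
      lvl (v.valuation F) (ν'.1 v).out + lvl (v.valuation F) (upMat a b • ν'.1 v).out ≤ L v)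
  -- the archimedean components bound `a`
  have hinfA : ∀ (a : Fˣ) (w : InfinitePlace F) (p₁ p₂ : H3),
      (H3.coord p₁).2 = (H3.coord (x w)).2 → (H3.coord p₂).2 = w (a : F) * (H3.coord (y w)).2 →
      K.arch w p₁ p₂ ≠ 0 → w (a : F) ≤ 2 * |K.range| * ρ := by
    intro a w p₁ p₂ h1 h2 h
    have hcd : coshd p₁ p₂ ≤ |K.range| := by
      refine (not_lt.1 fun hlt => h ((K.arch w).eq_zero _ _ hlt)).trans ?_
      refine ((le_abs_self _).trans ?_).trans (le_abs_self _)
      rw [PKer.range]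
      linarith [Finset.single_le_sum (f := fun u => |(K.arch u).range|) (fun u _ => abs_nonneg _)
        (Finset.mem_univ w)]
    have ht := coord_le_coshd p₂ p₁
    rw [coshd_comm, h1, h2] at ht
    have hy := H3.coord_pos (y w)
    refine le_of_mul_le_mul_right (ht.trans ?_) hy
    refine (mul_le_mul (mul_le_mul_of_nonneg_left hcd two_pos.le) (hxy w).1
      (H3.coord_pos _).le (by positivity)).trans (le_of_eq ?_)
    ring
  have hmem : ∀ z : Fˣ × F, G z ≠ 0 → z.1 ∈ A := by
    rintro ⟨a, b⟩ h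
    simp only [hG, PKer.val, Pt.smul_fst, mul_ne_zero_iff] at h
    rw [hA, Set.Finite.mem_toFinset]
    refine ⟨fun v => hfinA a v b (K.fin_ne_zero.1 h.1 v), fun φ => ?_⟩
    have h' := Finset.prod_ne_zero_iff.1 h.2 (InfinitePlace.mk φ) (Finset.mem_univ _)
    exact hinfA a (InfinitePlace.mk φ) _ _ rfl (by
      change (H3.coord (atInf _ (upMat a b) • y _)).2 = _
      rw [coord_upMat_smul]) h'
  have hmain : ∀ a : Fˣ, K.nfinInt ν (upMat a 0 • ν') * K.ninfInt (fun w => (H3.coord (x w)).2)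
      (fun w => w (a : F) * (H3.coord (y w)).2) ≠ 0 → a ∈ A := by
    intro a h
    rw [mul_ne_zero_iff] at h
    rw [hA, Set.Finite.mem_toFinset]
    refine ⟨fun v => ?_, fun φ => ?_⟩
    · obtain ⟨b, hb⟩ := exists_of_lint_ne_zero (lint_ne_zero_of_nfinInt h.1 v)
      rw [FinPt.smul_apply, ← mul_smul, upMat_mul, one_mul, mul_zero, zero_add] at hb
      exact hfinA a v b hb
    · have h' : aint (K.arch (InfinitePlace.mk φ)) _ _ ≠ 0 :=
        Finset.prod_ne_zero_iff.1 h.2 (InfinitePlace.mk φ) (Finset.mem_univ _)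
      obtain ⟨z, hz⟩ : ∃ z : ℂ, K.arch (InfinitePlace.mk φ)
          (H3.mk 0 (H3.coord (x (InfinitePlace.mk φ))).2)
          (H3.mk z (InfinitePlace.mk φ (a : F) * (H3.coord (y (InfinitePlace.mk φ))).2)) ≠ 0 := by
        by_contra! hall
        exact h' (by simp only [aint, hall, integral_zero])
      refine hinfA a (InfinitePlace.mk φ) _ _ ?_ ?_ hz
      · rw [H3.coord_mk_of_pos _ (H3.coord_pos _)]
      · rw [H3.coord_mk_of_pos _ (mul_pos (InfinitePlace.pos_iff.2 a.ne_zero) (H3.coord_pos _))]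
  exact ⟨hmem, hmain⟩

/-- **The sum over the Borel subgroup in a cusp is the constant term up to a bounded error.** -/
theorem upper_sum_approx (K : PKer F S) (f : InfinitePlace F → ℝ → ℝ)
    (hfs : ∀ w, ContDiff ℝ ∞ (f w)) (hfc : ∀ w, HasCompactSupport (f w))
    (hf : ∀ w x y, K.arch w x y = (f w (coshd x y) : ℂ))
    (ν ν' : FinPt F S) (ρ c : ℝ) (hρ : 1 ≤ ρ) (hc : 0 < c) :
    ∃ C, ∀ x y : InfinitePlace F → H3,
      (∀ w, c ≤ (H3.coord (x w)).2) →
      (∀ w u, (H3.coord (x w)).2 ≤ ρ * (H3.coord (x u)).2) →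
      (∀ w, (H3.coord (x w)).2 ≤ ρ * (H3.coord (y w)).2 ∧ (H3.coord (y w)).2 ≤ ρ *
        (H3.coord (x w)).2) →
      ‖(∑' z : Fˣ × F, K.val (ν, x) (upMat z.1 z.2 • (ν', y)))
        - (((covol F)⁻¹ : ℝ) : ℂ) *
          K.constTerm ν ν' (fun w => (H3.coord (x w)).2) (fun w => (H3.coord (y w)).2)‖ ≤ C := by
  obtain ⟨A, hA⟩ := exists_torus_classes K ν ν' ρ
  set ρ' : ℝ := ρ * (1 + ∑ a ∈ A, ∑ w : InfinitePlace F, (w (a : F) + (w (a : F))⁻¹)) with hρ'
  have hρ'le : ∀ a ∈ A, ∀ w : InfinitePlace F, ρ * w (a : F) ≤ ρ' ∧ ρ * (w (a : F))⁻¹ ≤ ρ' := by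
    intro a ha w
    have hn : ∀ (b : Fˣ) (u : InfinitePlace F), 0 ≤ u (b : F) + (u (b : F))⁻¹ := fun b u =>
      add_nonneg (apply_nonneg _ _) (inv_nonneg.2 (apply_nonneg _ _))
    have h : w (a : F) + (w (a : F))⁻¹ ≤ ∑ b ∈ A, ∑ u : InfinitePlace F,
        (u (b : F) + (u (b : F))⁻¹) :=
      (Finset.single_le_sum (f := fun u : InfinitePlace F => u (a : F) + (u (a : F))⁻¹)
        (fun u _ => hn a u) (Finset.mem_univ w)).trans
        (Finset.single_le_sum (f := fun b : Fˣ => ∑ u : InfinitePlace F,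
          (u (b : F) + (u (b : F))⁻¹)) (fun b _ => Finset.sum_nonneg fun u _ => hn b u) ha)
    have h1 : 0 ≤ (w (a : F))⁻¹ := inv_nonneg.2 (apply_nonneg _ _)
    have h2 : 0 ≤ w (a : F) := apply_nonneg _ _
    constructor <;> exact mul_le_mul_of_nonneg_left (by linarith) (by linarith)
  have hρρ' : ρ ≤ ρ' := le_mul_of_one_le_right (by linarith) (le_add_of_nonneg_right
    (Finset.sum_nonneg fun a _ => Finset.sum_nonneg fun w _ =>
      add_nonneg (apply_nonneg _ _) (inv_nonneg.2 (apply_nonneg _ _))))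
  -- apply the translation estimate to each class `a`
  choose C hC using fun a : Fˣ => K.cusp_sum_approx f hfs hfc hf ν (upMat a 0 • ν') ρ' c
    (hρ.trans hρρ') hc
  refine ⟨∑ a ∈ A, C a, fun x y hxc hbal hxy => ?_⟩
  set q : Pt F S := (ν', y)
  set G : Fˣ × F → ℂ := fun z => K.val (ν, x) (upMat z.1 z.2 • q) with hG
  obtain ⟨hmem, hmain⟩ := hA x y hxy
  have hGf : (Function.support G).Finite := by
    refine ((K.finite_support (ν, x) q).preimage upMat_PG_injective.injOn).subset fun z hz => ?_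
    simpa [G] using hz
  have hGa : ∀ a, Summable fun b => G (a, b) := fun a => summable_of_hasFiniteSupport
    (hGf.preimage (Prod.mk_right_injective a).injOn)
  -- sum over `a`
  rw [(summable_of_hasFiniteSupport hGf).tsum_prod' hGa, tsum_eq_sum (s := A) fun a ha => ?_,
    constTerm, tsum_eq_sum (s := A) fun a ha => ?_, Finset.mul_sum, ← Finset.sum_sub_distrib]
  · refine (norm_sum_le _ _).trans (Finset.sum_le_sum fun a ha => ?_)
    have e : (fun b => G (a, b)) = fun b => K.val (ν, x)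
        (upMat 1 b • (upMat a 0 • ν', fun w => atInf w (upMat a 0) • y w)) := by
      funext b
      simp only [G]
      rw [upMat_eq_unip_mul, mul_smul]
      rfl
    have hh : ∀ w, (H3.coord (atInf w (upMat a 0) • y w)).2 = w (a : F) * (H3.coord (y w)).2 :=
        fun w => by
      rw [coord_upMat_smul]
    have hA' := hC a x (fun w => atInf w (upMat a 0) • y w) hxc (fun w u => (hbal w u).trans
      (mul_le_mul_of_nonneg_right hρρ' (H3.coord_pos _).le)) fun w => ?_
    · simp only [hh] at hA'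
      rw [e]
      exact hA'
    · rw [coord_upMat_smul]
      have hwa : 0 < w (a : F) := InfinitePlace.pos_iff.2 a.ne_zero
      obtain ⟨h1, h2⟩ := hρ'le a ha w
      constructor
      · calc (H3.coord (x w)).2 ≤ ρ * (H3.coord (y w)).2 := (hxy w).1
          _ = ρ * (w (a : F))⁻¹ * (w (a : F) * (H3.coord (y w)).2) := by field_simp
          _ ≤ _ := mul_le_mul_of_nonneg_right h2 (mul_pos hwa (H3.coord_pos _)).le
      · calc w (a : F) * (H3.coord (y w)).2 ≤ w (a : F) * (ρ * (H3.coord (x w)).2) :=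
              mul_le_mul_of_nonneg_left (hxy w).2 hwa.le
          _ = ρ * w (a : F) * (H3.coord (x w)).2 := by ring
          _ ≤ _ := mul_le_mul_of_nonneg_right h1 (H3.coord_pos _).le
  · by_contra hne
    exact ha (hmain a hne)
  · change ∑' b, G (a, b) = 0
    rw [tsum_congr fun b => ?_, tsum_zero]
    by_contra hne
    exact ha (hmem _ hne)

end PKer

end Fermat.LTG
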