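import Fermat.Agent.LTG.Const
import Fermat.Agent.LT.HypLocal

/-!
# Translations at one place: stabilisers, orbit sums as sums over classes

`unip_smul_eq_iff` gives the stabilisers and `finsum_classes_eq_lint` writes the local integral as
a sum over classes.
-/

set_option autoImplicit false
open IsDedekindDomain NumberField Filter Set
open scoped Classical Matrix

namespace Fermat.LTG

open Fermat.LT

variable {F : Type*} [Field F] [NumberField F] {S : Lev F} {v : Place F}

/-- The representative of the base coset has level `0`. -/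
lemma lvl_base_out (v : Place F) :
    lvl (v.valuation F) (((1 : GL (Fin 2) F) : Vert S v)).out = 0 := by
  rw [lvl_eq_zero_iff]
  obtain ⟨k, hk⟩ := QuotientGroup.mk_out_eq_mul (lev S v) (1 : GL (Fin 2) F)
  rw [hk, one_mul]
  exact lev_le_U0 S v k.2

/-- Bound for the matrices moving one coset to another. -/
lemma upMat_smul_bound {v : Place F} {y y' : Vert S v} {a : Fˣ} {b : F}
    (h : upMat a b • y = y') :
    v.valuation F (a : F) ≤
      WithZero.exp ((lvl (v.valuation F) y.out + lvl (v.valuation F) y'.out : ℕ) : ℤ) ∧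
    v.valuation F b ≤
      WithZero.exp ((2 * (lvl (v.valuation F) y.out + lvl (v.valuation F) y'.out) : ℕ) : ℤ) := by
  rw [← QuotientGroup.out_eq' y, ← QuotientGroup.out_eq' y',
    MulAction.Quotient.smul_coe, QuotientGroup.eq, smul_eq_mul] at h
  exact upMat_bound_of_mem_U0 (lev_le_U0 S v h)

/-- A translation lies in `Fˣ K(n)` iff it is small. -/
lemma upMat_one_mem_UN_iff (n : ℕ) (x : F) :
    upMat (1 : Fˣ) x ∈ UN (v.valuation F) n ↔ v.valuation F x ≤ WithZero.exp (-(n : ℤ)) := by
  constructor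
  · rintro ⟨c, hc⟩
    have hcoe : ∀ (c : Fˣ) (x : F), ((scal c * upMat 1 x : GL (Fin 2) F) : Matrix (Fin 2) (Fin 2) F)
        = !![(c : F), (c : F) * x; 0, (c : F)] := fun c x => by
      ext i j
      fin_cases i <;> fin_cases j <;> simp [Units.val_mul, Matrix.scalar_apply, Matrix.mul_apply]
    have h1 : v.valuation F (c : F) ≤ 1 := by
      simpa [hcoe] using v_entry_le_one (v.valuation F) hc.1 0 0
    have hinv : (scal c * upMat 1 x)⁻¹ = scal c⁻¹ * upMat 1 (-x) := by
      refine inv_eq_of_mul_eq_one_right ?_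
      rw [scal_comm c (upMat 1 x), mul_assoc, ← mul_assoc (scal c), ← scal_mul, mul_inv_cancel,
        show scal (1 : Fˣ) = (1 : GL (Fin 2) F) from map_one _, one_mul, ← upMat_add,
          add_neg_cancel,
        upMat_one]
    have h2 : v.valuation F ((c⁻¹ : Fˣ) : F) ≤ 1 := by
      have := v_entry_le_one (v.valuation F) ((intGL _).inv_mem hc.1) 0 0
      rw [hinv, hcoe] at this
      simpa using this
    have h3 : v.valuation F ((c : F) * x) ≤ WithZero.exp (-(n : ℤ)) := by
      have := hc.2 0 1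
      simpa [hcoe] using this
    rw [map_mul] at h3
    have hc1 : v.valuation F (c : F) = 1 := by
      refine le_antisymm h1 ?_
      rw [Units.val_inv_eq_inv_val, map_inv₀] at h2
      exact (inv_le_one_iff₀.1 h2).resolve_left (not_le.2 (zero_lt_iff.2 (by simp)))
    rwa [hc1, one_mul] at h3
  · intro h
    refine mem_UN_of_congN _ (mem_congN_of_le _ (fun i j => ?_) fun i j => ?_)
    · fin_cases i <;> fin_cases j <;> simp; simpa [WithZero.exp_neg] using h
    · rw [upMat_inv]
      fin_cases i <;> fin_cases j <;> simp; simpa [WithZero.exp_neg] using h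

/-- **The stabiliser of a coset among the translations is a ball.** -/
lemma unip_smul_eq_iff (β : Vert S v) (x : F) :
    upMat (1 : Fˣ) x • β = β ↔ v.valuation F x ≤ WithZero.exp (-stabExp β) := by
  obtain ⟨y, hy⟩ := (exists_upMat_mod_U0 (v.valuation F) β.out).choose_spec
  set a := (exists_upMat_mod_U0 (v.valuation F) β.out).choose with ha
  set k := (upMat a y)⁻¹ * β.out with hk
  have hconj : (upMat a y)⁻¹ * upMat 1 x * upMat a y = upMat 1 (((a⁻¹ : Fˣ) : F) * x) := by
    rw [upMat_inv, upMat_mul, upMat_mul]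
    congr 1
    · simp
    · simp
  have e : β.out⁻¹ * upMat 1 x * β.out = k⁻¹ * upMat 1 (((a⁻¹ : Fˣ) : F) * x) * k := by
    rw [← hconj, hk]; group
  have hmem : upMat (1 : Fˣ) x • β = β ↔
      upMat 1 (((a⁻¹ : Fˣ) : F) * x) ∈ UN (v.valuation F) (S.depth v) := by
    rw [eq_comm]
    conv_lhs => rw [← QuotientGroup.out_eq' β]
    rw [MulAction.Quotient.smul_coe, QuotientGroup.eq, smul_eq_mul, ← mul_assoc, e, lev]
    constructor
    · intro h
      have h2 := conj_UN_mem (v.valuation F) ((U0 _).inv_mem hy) h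
      simpa [mul_assoc] using h2
    · exact fun h => conj_UN_mem (v.valuation F) hy h
  rw [hmem, upMat_one_mem_UN_iff, stabExp, ← ha, map_mul, Units.val_inv_eq_inv_val, map_inv₀,
    v_eq_exp (v.valuation F) a.ne_zero, ← WithZero.exp_neg, neg_neg, neg_add]
  rcases eq_or_ne x 0 with rfl | hx
  · simp
  rw [v_eq_exp (v.valuation F) hx, ← WithZero.exp_add, WithZero.exp_le_exp, WithZero.exp_le_exp]
  omega

/-- The exponent of the stabiliser is determined by the stabiliser. -/
lemma stabExp_eq_of_iff {β : Vert S v} {e : ℤ}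
    (h : ∀ x : F, upMat (1 : Fˣ) x • β = β ↔ v.valuation F x ≤ WithZero.exp (-e)) :
    stabExp β = e := by
  obtain ⟨ϖ, hϖ⟩ := v.valuation_exists_uniformizer F
  have hp : ∀ k : ℤ, v.valuation F (ϖ ^ k) = WithZero.exp (-k) := fun k => by
    rw [map_zpow₀, hϖ, ← WithZero.exp_zsmul]; simp
  have h1 := (h (ϖ ^ stabExp β)).1 ((unip_smul_eq_iff β _).2 (hp _).le)
  have h2 := (unip_smul_eq_iff β (ϖ ^ e)).1 ((h _).2 (hp _).le)
  rw [hp, WithZero.exp_le_exp] at h1 h2
  omega

/-- An upper triangular matrix shifts the stabiliser exponent by the order of its diagonal entry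
`b`. -/
lemma stabExp_upMat_smul (b : Fˣ) (z : F) (β : Vert S v) :
    stabExp (upMat b z • β) = stabExp β + ord (v.valuation F) (b : F) := by
  refine stabExp_eq_of_iff fun x => ?_
  have e : upMat (1 : Fˣ) x * upMat b z = upMat b z * upMat 1 (((b⁻¹ : Fˣ) : F) * x) := by
    rw [upMat_mul, upMat_mul]
    congr 1
    · simp
    · simp [add_comm]
  rw [← mul_smul, e, mul_smul, (MulAction.injective _).eq_iff, unip_smul_eq_iff, map_mul,
    Units.val_inv_eq_inv_val, map_inv₀, v_eq_exp (v.valuation F) b.ne_zero,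
      ← WithZero.exp_neg, neg_neg]
  rcases eq_or_ne x 0 with rfl | hx
  · simp
  rw [v_eq_exp (v.valuation F) hx, ← WithZero.exp_add, WithZero.exp_le_exp, WithZero.exp_le_exp]
  omega

/-- Off the level the base coset has stabiliser exponent zero. -/
lemma stabExp_base (hv : v ∉ S) : stabExp ((1 : GL (Fin 2) F) : Vert S v) = 0 := by
  refine stabExp_eq_of_iff fun x => ?_
  rw [eq_comm, MulAction.Quotient.smul_coe, QuotientGroup.eq, smul_eq_mul, inv_one,
    one_mul, mul_one, lev, Lev.notMem_iff.1 hv, upMat_one_mem_UN_iff]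
  simp

/-- Integral translations fix the base coset off the level. -/
lemma unip_fix_base (hv : v ∉ S) {x : F} (hx : v.valuation F x ≤ 1) :
    upMat (1 : Fˣ) x • ((1 : GL (Fin 2) F) : Vert S v) = ((1 : GL (Fin 2) F) : Vert S v) :=
  (unip_smul_eq_iff _ x).2 (by simpa [stabExp_base hv] using hx)

/-- Two elements agree modulo a ball iff their difference lies in it. -/
lemma neg_vball_mem_iff {x y : F} {e : ℤ} :
    (x : F ⧸ vball v e) = (y : F ⧸ vball v e) ↔ v.valuation F (y - x) ≤ WithZero.exp e := by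
  rw [QuotientAddGroup.eq, mem_vball, neg_add_eq_sub]

/-- Translates of a coset are equal when the translations differ by the stabiliser. -/
lemma unip_smul_eq_smul_iff (β : Vert S v) (x y : F) :
    upMat (1 : Fˣ) x • β = upMat (1 : Fˣ) y • β ↔
      (x : F ⧸ vball v (-stabExp β)) = (y : F ⧸ vball v (-stabExp β)) := by
  rw [neg_vball_mem_iff, ← unip_smul_eq_iff, eq_comm, show y = x + (y - x) by ring, upMat_add,
    mul_smul, (MulAction.injective _).eq_iff, add_sub_cancel_left]

/-- Translation by `x` of a coset fixed by a ball depends only on the class of `x` modulo the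
ball. -/
lemma unip_out_smul {β : Vert S v} {m : ℤ} (hm : m ≤ -stabExp β) (x : F) :
    upMat (1 : Fˣ) ((x : F ⧸ vball v m).out) • β = upMat (1 : Fˣ) x • β := by
  rw [unip_smul_eq_smul_iff, neg_vball_mem_iff]
  have h : ((x : F ⧸ vball v m).out : F ⧸ vball v m) = (x : F ⧸ vball v m) :=
    QuotientAddGroup.out_eq' _
  exact (neg_vball_mem_iff.1 h).trans (WithZero.exp_le_exp.2 hm)

/-- **The local integral as a sum over classes.** -/
theorem finsum_classes_eq_lint (k : LKer S v) (α β : Vert S v) {n : ℤ} (hn : stabExp β ≤ n) :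
    ∑ᶠ q : F ⧸ vball v (-n), k α (upMat (1 : Fˣ) q.out • β) = (pnorm v : ℂ) ^ n * lint k α β := by
  set e := stabExp β with he
  set s := vball v (-n) with hs
  set t := vball v (-e) with ht
  have hst : s ≤ t := vball_mono v (by omega)
  set f : F ⧸ t → ℂ := fun p => k α (upMat (1 : Fˣ) p.out • β) with hf
  set E := AddSubgroup.quotientEquivProdOfLE hst with hE
  have hq : ∀ q : F ⧸ s, k α (upMat (1 : Fˣ) q.out • β) = f (E q).1 := by
    intro q
    obtain ⟨x, rfl⟩ := QuotientAddGroup.mk_surjective q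
    simp only [hf]
    rw [show (E (x : F ⧸ s)).1 = (x : F ⧸ t) from rfl, unip_out_smul (by omega),
      unip_out_smul le_rfl]
  -- the finite fibre
  obtain ⟨d, hd⟩ : ∃ d : ℕ, -e = -n + (d : ℤ) := ⟨(n - e).toNat, by omega⟩
  have hfin : Finite (t ⧸ s.addSubgroupOf t) := by
    have := finite_ball_quot v (-n) d
    rwa [← hd] at this
  let _ := Fintype.ofFinite (t ⧸ s.addSubgroupOf t)
  have hcard : (Fintype.card (t ⧸ s.addSubgroupOf t) : ℂ) = (pnorm v : ℂ) ^ (n - e) := by
    rw [← Nat.card_eq_fintype_card, ← AddSubgroup.index_eq_card]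
    change ((s.relIndex t : ℕ) : ℂ) = _
    rw [hs, ht, hd, relIndex_vball, show n - e = (d : ℤ) by omega, zpow_natCast, Nat.cast_pow]
  have hinj : Function.Injective fun p : F ⧸ t => upMat (1 : Fˣ) p.out • β := by
    intro p p' h
    have h' := (unip_smul_eq_smul_iff β _ _).1 h
    change ((p.out : F) : F ⧸ t) = ((p'.out : F) : F ⧸ t) at h'
    rwa [QuotientAddGroup.out_eq', QuotientAddGroup.out_eq'] at h'
  have hsupp : (Function.support f).Finite :=
    ((k.finite_row α).preimage hinj.injOn).subset fun p hp => hp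
  rw [finsum_congr hq, finsum_comp_equiv E (f := fun z => f z.1),
    finsum_eq_sum_of_support_subset (fun z : (F ⧸ t) × (t ⧸ s.addSubgroupOf t) => f z.1)
      (s := hsupp.toFinset ×ˢ Finset.univ) (fun z hz => Finset.mem_coe.2 (Finset.mem_product.2
        ⟨hsupp.mem_toFinset.2 hz, Finset.mem_univ _⟩)),
    Finset.sum_product]
  simp only [Finset.sum_const, Finset.card_univ, nsmul_eq_mul, hcard]
  rw [← Finset.mul_sum, lint_eq_orbSum, orbSum, ← he]
  have horb : ∑ p ∈ hsupp.toFinset, f p
      = ∑ᶠ c ∈ Set.range (fun x : F => upMat (1 : Fˣ) x • β), k α c := by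
    rw [← finsum_eq_sum _ hsupp]
    have hr : Set.range (fun x : F => upMat (1 : Fˣ) x • β)
        = Set.range fun p : F ⧸ t => upMat (1 : Fˣ) p.out • β := by
      refine Set.Subset.antisymm ?_ ?_
      · rintro _ ⟨x, rfl⟩
        exact ⟨(x : F ⧸ t), unip_out_smul le_rfl x⟩
      · rintro _ ⟨p, rfl⟩
        exact ⟨_, rfl⟩
    rw [hr, finsum_mem_range hinj]
  have hq0 : (pnorm v : ℂ) ≠ 0 := Nat.cast_ne_zero.2 (Nat.pos_iff_ne_zero.1
    (zero_lt_one.trans (HeightOneSpectrum.one_lt_absNorm v)))
  rw [horb, sub_eq_add_neg, zpow_add₀ hq0]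
  ring

/-- Only finitely many classes are seen by a kernel. -/
lemma finite_classes_support (k : LKer S v) (α β : Vert S v) {n : ℤ} (hn : stabExp β ≤ n) :
    {q : F ⧸ vball v (-n) | k α (upMat (1 : Fˣ) q.out • β) ≠ 0}.Finite := by
  set t := vball v (-stabExp β) with ht
  have hst : vball v (-n) ≤ t := vball_mono v (by omega)
  set E := AddSubgroup.quotientEquivProdOfLE hst with hE
  obtain ⟨d, hd⟩ : ∃ d : ℕ, -stabExp β = -n + (d : ℤ) := ⟨(n - stabExp β).toNat, by omega⟩
  have hfin : Finite (t ⧸ (vball v (-n)).addSubgroupOf t) := by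
    have := finite_ball_quot v (-n) d
    rwa [← hd] at this
  have hinj : Function.Injective fun p : F ⧸ t => upMat (1 : Fˣ) p.out • β := by
    intro p p' h
    have h' := (unip_smul_eq_smul_iff β _ _).1 h
    change ((p.out : F) : F ⧸ t) = ((p'.out : F) : F ⧸ t) at h'
    rwa [QuotientAddGroup.out_eq', QuotientAddGroup.out_eq'] at h'
  refine ((((k.finite_row α).preimage hinj.injOn).prod
    (Set.finite_univ (α := t ⧸ (vball v (-n)).addSubgroupOf t))).preimage E.injective.injOn).subset
    fun q hq => ⟨?_, trivial⟩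
  obtain ⟨x, rfl⟩ := QuotientAddGroup.mk_surjective q
  change k α (upMat (1 : Fˣ) ((x : F ⧸ t).out) • β) ≠ 0
  rw [unip_out_smul le_rfl]
  rw [Set.mem_ofPred_eq, unip_out_smul (by omega)] at hq
  exact hq

/-- The integral of the identity kernel at a place off the level. -/
lemma lint_one_base (hv : v ∉ S) :
    lint (LKer.one S v) ((1 : GL (Fin 2) F) : Vert S v) ((1 : GL (Fin 2) F) : Vert S v) = 1 := by
  rw [lint_eq_orbSum, stabExp_base hv, neg_zero, zpow_zero, mul_one, orbSum,
    finsum_mem_eq_sum_of_inter_support_eq _ (t := {((1 : GL (Fin 2) F) : Vert S v)})]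
  · simp
  · ext c
    simp only [Set.mem_inter_iff, Function.mem_support, LKer.one_apply, Finset.coe_singleton,
      Set.mem_singleton_iff, ne_eq, ite_eq_right_iff, one_ne_zero, imp_false, not_not]
    constructor
    · exact fun h => ⟨h.2.symm, h.2⟩
    · rintro ⟨rfl, -⟩
      exact ⟨⟨0, by simp [upMat_one]⟩, rfl⟩

/-- A nonzero local integral sees a translate in the support. -/
lemma exists_of_lint_ne_zero {k : LKer S v} {α β : Vert S v} (h : lint k α β ≠ 0) :
    ∃ x : F, k α (upMat (1 : Fˣ) x • β) ≠ 0 := by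
  obtain ⟨c, ⟨x, rfl⟩, hc⟩ := exists_ne_zero_of_finsum_mem_ne_zero (left_ne_zero_of_mul h)
  exact ⟨x, hc⟩

end Fermat.LTG
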