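import Fermat.Agent.LTG.KerAct

/-!
# Finite linear combinations of product kernels

`SKer` is such a combination, with value `SKer.val` and composition `SKer.comp`;
`integral_kap_mul` composes the summed kernels.
-/

set_option autoImplicit false
open MeasureTheory Filter Set NumberField
open scoped Classical

namespace Fermat.LTG

open Fermat.LT

/-- The sum over a group of the translates of an integrable function is integrable on a domain. -/
theorem integrableOn_domain_tsum {G X : Type*} [Group G] [Countable G] [MulAction G X]
    [MeasurableSpace X] {μ : Measure X} [MeasurableConstSMul G X] [SMulInvariantMeasure G X μ]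
    {D : Set X} (hD : IsFundamentalDomain G D μ) {f : X → ℂ} (hf : Integrable f μ)
    (hm : AEStronglyMeasurable (fun x => ∑' g : G, f (g • x)) (μ.restrict D)) :
    IntegrableOn (fun x => ∑' g : G, f (g • x)) D μ := by
  refine ⟨hm, ?_⟩
  refine lt_of_le_of_lt (lintegral_mono fun x => enorm_tsum_le_tsum_enorm) ?_
  rw [lintegral_tsum fun g => ?_]
  · rw [← hD.lintegral_eq_tsum'' fun x => ‖f x‖ₑ]
    exact hf.2
  · exact ((hf.1.comp_measurePreserving (measurePreserving_smul g μ))).restrict.enorm

variable {F : Type*} [Field F] [NumberField F] {S : Lev F}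

namespace PKer

/-- The product of two summed kernels is integrable on a domain. -/
theorem integrableOn_kap_mul (K L : PKer F S) {D : Set (Pt F S)}
    (hD : IsFundamentalDomain (PG F) D ptMeasure) (p r : Pt F S) :
    IntegrableOn (fun q => K.kap p q * L.kap q r) D ptMeasure := by
  obtain ⟨s, hs⟩ := K.exists_finset_seen L p r
  have hint : Integrable (fun q => K.val p q * L.kap q r) ptMeasure :=
    integrable_mul_tsum_of_finset _ _ s hs fun δ => K.integrable_val_mul L p (δ • r)
  have hunf : (fun q => K.kap p q * L.kap q r)
      = fun q => ∑' γ : PG F, K.val p (γ • q) * L.kap (γ • q) r := funext fun q => by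
    rw [kap, ← tsum_mul_right]
    simp only [L.kap_smul_left]
  have hm : AEStronglyMeasurable (fun q => K.kap p q * L.kap q r) (ptMeasure.restrict D) :=
    ((K.measurable_kap.comp measurable_prodMk_left).mul
      (L.measurable_kap.comp measurable_prodMk_right)).aestronglyMeasurable
  rw [hunf] at hm ⊢
  exact integrableOn_domain_tsum (f := fun q => K.val p q * L.kap q r) hD hint hm

end PKer

/-- A finite linear combination of product kernels. -/
structure SKer (F : Type*) [Field F] [NumberField F] (S : Lev F) where
  /-- The number of terms of the combination. -/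
  n : ℕ
  /-- The coefficient of each term. -/
  coef : Fin n → ℂ
  /-- The product kernel of each term. -/
  ker : Fin n → PKer F S

namespace SKer

variable (K L : SKer F S)

/-- Value of the combination. -/
noncomputable def val (p q : Pt F S) : ℂ := ∑ i, K.coef i * (K.ker i).val p q

/-- The combination summed over `PGL₂(F)`. -/
noncomputable def kap (p q : Pt F S) : ℂ := ∑' γ : PG F, K.val p (γ • q)

/-- The periodisation of a combination. -/
lemma kap_eq_sum (p q : Pt F S) : K.kap p q = ∑ i, K.coef i * (K.ker i).kap p q := by
  simp only [kap, val, PKer.kap, ← tsum_mul_left]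
  exact Summable.tsum_finsetSum fun i _ => ((K.ker i).summable_kap p q).mul_left _

/-- A combination is invariant. -/
lemma val_smul_PG (γ : PG F) (p q : Pt F S) : K.val (γ • p) (γ • q) = K.val p q := by
  simp only [val, PKer.val_smul_PG]

/-- Its periodisation is invariant in the first variable. -/
lemma kap_smul_left (δ : PG F) (p q : Pt F S) : K.kap (δ • p) q = K.kap p q := by
  simp only [kap_eq_sum, PKer.kap_smul_left]

/-- Its periodisation is invariant in the second variable. -/
lemma kap_smul_right (δ : PG F) (p q : Pt F S) : K.kap p (δ • q) = K.kap p q := by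
  simp only [kap_eq_sum, PKer.kap_smul_right]

/-- Its periodisation is measurable. -/
lemma measurable_kap : Measurable fun z : Pt F S × Pt F S => K.kap z.1 z.2 := by
  simp only [kap_eq_sum]
  exact Finset.measurable_fun_sum _ fun i _ => (K.ker i).measurable_kap.const_mul _

/-- Boundedness of the summed combination. -/
def Bdd : Prop := ∃ C, ∀ p q, ‖K.kap p q‖ ≤ C

/-! ### algebra -/

/-- A combination indexed by any finite type. -/
noncomputable def ofFintype {ι : Type*} [Fintype ι] (c : ι → ℂ) (P : ι → PKer F S) : SKer F S where
  n := Fintype.card ι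
  coef i := c ((Fintype.equivFin ι).symm i)
  ker i := P ((Fintype.equivFin ι).symm i)

/-- The values of a combination over a finite type. -/
lemma val_ofFintype {ι : Type*} [Fintype ι] (c : ι → ℂ) (P : ι → PKer F S) (p q : Pt F S) :
    (ofFintype c P).val p q = ∑ i, c i * (P i).val p q :=
  (Fintype.equivFin ι).symm.sum_comp fun i => c i * (P i).val p q

/-- The periodisation of a combination over a finite type. -/
lemma kap_ofFintype {ι : Type*} [Fintype ι] (c : ι → ℂ) (P : ι → PKer F S) (p q : Pt F S) :
    (ofFintype c P).kap p q = ∑ i, c i * (P i).kap p q := by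
  rw [kap_eq_sum]
  exact (Fintype.equivFin ι).symm.sum_comp fun i => c i * (P i).kap p q

/-- The composite: all products of a term of each combination. -/
noncomputable def comp : SKer F S :=
  ofFintype (fun z : Fin K.n × Fin L.n => K.coef z.1 * L.coef z.2)
    fun z => (K.ker z.1).comp (L.ker z.2)

/-- The periodisation of a composite is the double sum. -/
lemma kap_comp (p q : Pt F S) : (K.comp L).kap p q
    = ∑ i, ∑ j, K.coef i * L.coef j * ((K.ker i).comp (L.ker j)).kap p q := by
  rw [comp, kap_ofFintype, Fintype.sum_prod_type]

/-- **Composition of the summed combinations.** -/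
theorem integral_kap_mul {D : Set (Pt F S)} (hD : IsFundamentalDomain (PG F) D ptMeasure)
    (p r : Pt F S) : ∫ q in D, K.kap p q * L.kap q r ∂ptMeasure = (K.comp L).kap p r := by
  have hint : ∀ i j, IntegrableOn
      (fun q => K.coef i * L.coef j * ((K.ker i).kap p q * (L.ker j).kap q r)) D ptMeasure :=
    fun i j => ((K.ker i).integrableOn_kap_mul (L.ker j) hD p r).const_mul _
  have he : ∀ q, K.kap p q * L.kap q r
      = ∑ i, ∑ j, K.coef i * L.coef j * ((K.ker i).kap p q * (L.ker j).kap q r) := fun q => by
    simp only [kap_eq_sum, Finset.sum_mul, Finset.mul_sum]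
    rw [Finset.sum_comm]
    exact Finset.sum_congr rfl fun i _ => Finset.sum_congr rfl fun j _ => by ring
  simp only [he]
  rw [integral_finsetSum _ fun i _ => integrable_finsetSum _ fun j _ => hint i j, kap_comp]
  refine Finset.sum_congr rfl fun i _ => ?_
  rw [integral_finsetSum _ fun j _ => hint i j]
  refine Finset.sum_congr rfl fun j _ => ?_
  rw [integral_const_mul, PKer.integral_kap_mul _ _ hD]

/-- Compose with a local kernel on the left. -/
noncomputable def actLoc (v : Place F) (l : LKer S v) : SKer F S where
  n := K.n
  coef := K.coef
  ker i := (K.ker i).actLoc v l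

/-- Compose with an archimedean kernel on the left. -/
noncomputable def actArch (u : InfinitePlace F) (k : AKer) : SKer F S where
  n := K.n
  coef := K.coef
  ker i := (K.ker i).actArch u k

/-- An archimedean kernel times a periodised one is integrable. -/
lemma integrable_mul_kap (u : InfinitePlace F) (k : AKer) (P : PKer F S) (p q : Pt F S) :
    Integrable (fun y => k (p.2 u) y * P.kap (p.1, Function.update p.2 u y) q) hmeas := by
  obtain ⟨s, hs⟩ := P.exists_finset_update u k p q
  have hk : ∀ y, k (p.2 u) y * P.kap (p.1, Function.update p.2 u y) q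
      = ∑ γ ∈ s, k (p.2 u) y * P.val (p.1, Function.update p.2 u y) (γ • q) := fun y => by
    by_cases h : k (p.2 u) y = 0
    · simp [h]
    · rw [PKer.kap, tsum_eq_sum (hs y h), Finset.mul_sum]
  simp only [hk]
  exact integrable_finsetSum _ fun γ _ => P.integrable_mul_val u k p (γ • q)

/-- The summed combination after a local composition is the local kernel applied to it. -/
lemma kap_actLoc (v : Place F) (l : LKer S v) (p q : Pt F S) :
    (K.actLoc v l).kap p q = locAct v l (fun p' => K.kap p' q) p := by
  rw [kap_eq_sum]
  simp only [locAct, kap_eq_sum, Finset.mul_sum]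
  rw [Finset.sum_comm]
  refine Finset.sum_congr rfl fun i _ => ?_
  change K.coef i * ((K.ker i).actLoc v l).kap p q = _
  rw [PKer.kap_actLoc, locAct, Finset.mul_sum]
  exact Finset.sum_congr rfl fun y _ => by ring

/-- The summed combination after an archimedean composition is the kernel applied to it. -/
lemma kap_actArch (u : InfinitePlace F) (k : AKer) (p q : Pt F S) :
    (K.actArch u k).kap p q = archAct u k (fun p' => K.kap p' q) p := by
  rw [kap_eq_sum]
  simp only [archAct, kap_eq_sum, Finset.mul_sum]
  rw [integral_finsetSum _ fun i _ =>
    ((integrable_mul_kap u k (K.ker i) p q).const_mul (K.coef i)).congr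
      (Eventually.of_forall fun y => by ring)]
  refine Finset.sum_congr rfl fun i _ => ?_
  change K.coef i * ((K.ker i).actArch u k).kap p q = _
  rw [PKer.kap_actArch, archAct, ← integral_const_mul]
  congr 1
  funext y
  ring

variable {K}

/-- Acting at a finite place preserves boundedness. -/
lemma Bdd.actLoc (h : K.Bdd) (v : Place F) (l : LKer S v) : (K.actLoc v l).Bdd := by
  obtain ⟨C, hC⟩ := h
  exact ⟨l.mass * C, fun p q => by
    rw [K.kap_actLoc]; exact norm_locAct_le v l (fun p' => hC p' q) p⟩

/-- Acting at an infinite place preserves boundedness. -/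
lemma Bdd.actArch (h : K.Bdd) (u : InfinitePlace F) (k : AKer) : (K.actArch u k).Bdd := by
  obtain ⟨C, hC⟩ := h
  exact ⟨k.mass * C, fun p q => by
    rw [K.kap_actArch]; exact norm_archAct_le u k (fun p' => hC p' q) p⟩

end SKer

end Fermat.LTG
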