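import Fermat.Agent.LT.Elliptic
import Fermat.Agent.LTG.SKer
import Fermat.Agent.LTG.AutAct

/-!
# Degrees of cosets at levels of arbitrary depth

A coset at depth `n` lies over a vertex; degrees and bounded fibres come from the vertices.
-/

set_option autoImplicit false
open Filter Set
open scoped Classical Matrix

namespace Fermat.LTG

open Fermat.LT

variable {F : Type*} [Field F] [NumberField F] {S : Lev F}

/-- Scalars fix every coset. -/
lemma scal_smul_vert {v : Place F} (c : Fˣ) (a : Vert S v) : scal c • a = a := by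
  obtain ⟨g, rfl⟩ := QuotientGroup.mk_surjective a
  rw [MulAction.Quotient.smul_coe, QuotientGroup.eq, smul_eq_mul, scal_comm, mul_inv_rev, mul_assoc,
    inv_mul_cancel, mul_one]
  exact (lev S v).inv_mem (scal_mem_lev S v c)

/-- `PGL₂(F)` acts on the cosets at a place, scalars acting trivially. -/
noncomputable instance instMulActionPGVert {v : Place F} : MulAction (PG F) (Vert S v) :=
  MulAction.compHom (Vert S v) (QuotientGroup.lift (scalSub F)
    (MulAction.toPermHom (GL (Fin 2) F) (Vert S v))
    (fun g hg => by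
      obtain ⟨c, rfl⟩ := hg
      exact Equiv.ext fun a => scal_smul_vert c a))

/-- A class acts through any representative. -/
@[simp] lemma PG.mk_smul_vert {v : Place F} (g : GL (Fin 2) F) (a : Vert S v) :
    (g : PG F) • a = g • a := rfl

/-- The vertex below, as a coset at the trivial level. -/
noncomputable def Vert.down {v : Place F} : Vert S v → LT.Vert (∅ : Set (Place F)) v :=
  Quotient.map' id fun a b h => by
    rw [QuotientGroup.leftRel_apply] at h ⊢
    exact (LT.lev_of_not_mem (Set.notMem_empty v)).ge (lev_le_U0 S v h)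

/-- The vertex under a coset is that of a representative. -/
@[simp] lemma Vert.down_mk {v : Place F} (g : GL (Fin 2) F) :
    Vert.down (g : Vert S v) = (g : LT.Vert (∅ : Set (Place F)) v) := rfl

/-- Passing to vertices is equivariant. -/
lemma Vert.down_smul {v : Place F} (g : GL (Fin 2) F) (a : Vert S v) :
    Vert.down (g • a) = g • Vert.down a := by
  obtain ⟨h, rfl⟩ := QuotientGroup.mk_surjective a
  rfl

/-- Off the level the map to vertices is injective. -/
lemma Vert.down_injective {v : Place F} (hv : v ∉ S) :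
    Function.Injective (Vert.down (S := S) (v := v)) := by
  intro a b e
  obtain ⟨x, rfl⟩ := QuotientGroup.mk_surjective a
  obtain ⟨y, rfl⟩ := QuotientGroup.mk_surjective b
  rw [Vert.down_mk, Vert.down_mk, QuotientGroup.eq, LT.lev_of_not_mem (Set.notMem_empty v)] at e
  rw [QuotientGroup.eq, lev_of_not_mem hv]
  exact e

/-- Finitely many cosets lie over a vertex. -/
lemma Vert.finite_down_fibre {v : Place F} (x : LT.Vert (∅ : Set (Place F)) v) :
    {a : Vert S v | Vert.down a = x}.Finite := by
  obtain ⟨g, rfl⟩ := QuotientGroup.mk_surjective x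
  obtain ⟨s, -, hs⟩ := exists_finset_U0_cosetN v (S.depth v)
  refine ((s.image fun r => ((g * r : GL (Fin 2) F) : Vert S v)).finite_toSet).subset fun a ha => ?_
  obtain ⟨y, rfl⟩ := QuotientGroup.mk_surjective a
  rw [Set.mem_ofPred_eq, Vert.down_mk, QuotientGroup.eq,
    LT.lev_of_not_mem (Set.notMem_empty v)] at ha
  have hu : g⁻¹ * y ∈ U0 (v.valuation F) := by simpa using (U0 (v.valuation F)).inv_mem ha
  obtain ⟨r, hr, hr'⟩ := hs (g⁻¹ * y) hu
  refine Finset.mem_coe.2 (Finset.mem_image.2 ⟨r, hr, QuotientGroup.eq.2 ?_⟩)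
  have := (lev S v).inv_mem (show (g⁻¹ * y)⁻¹ * r ∈ lev S v from hr')
  rwa [show ((g⁻¹ * y)⁻¹ * r)⁻¹ = (g * r)⁻¹ * y by group] at this

/-- A kernel sees a bounded range. -/
lemma LKer.exists_lvl_bound {v : Place F} (k : LKer S v) :
    ∃ D : ℕ, ∀ a b : Vert S v, k a b ≠ 0 → lvl (v.valuation F) (a.out⁻¹ * b.out) ≤ D := by
  set r := (k.finite_row ((1 : GL (Fin 2) F) : Vert S v)).toFinset
  refine ⟨r.sup fun b => lvl (v.valuation F) b.out, fun a b h => ?_⟩
  have hb : ((a.out⁻¹ * b.out : GL (Fin 2) F) : Vert S v) ∈ r := by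
    rw [Set.Finite.mem_toFinset, Set.mem_ofPred_eq, ← k.invariant a.out,
      MulAction.Quotient.smul_coe,
      MulAction.Quotient.smul_coe, smul_eq_mul, smul_eq_mul, mul_one, mul_inv_cancel_left,
      QuotientGroup.out_eq', QuotientGroup.out_eq']
    exact h
  obtain ⟨⟨u, hu⟩, e⟩ := QuotientGroup.mk_out_eq_mul (lev S v) (a.out⁻¹ * b.out)
  refine le_trans (le_of_eq ?_)
    (Finset.le_sup (f := fun b : Vert S v => lvl (v.valuation F) b.out) hb)
  rw [e, lvl_mul_right _ (lev_le_U0 S v hu)]

section Degree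

variable (q : QDat F) {v : Place F}

/-- The degree at `v` of the coset of the trivial level below. -/
noncomputable def degK (a : Vert S v) : q.Γ v := q.degAt (Vert.down a)

/-- The degree is equivariant for the torus. -/
lemma degK_smul {g : GL (Fin 2) F} (hg : g ∈ tTor q.D) (a : Vert S v) :
    degK q ((g : PG F) • a) = (g : PG F) • degK q a := by
  rw [PG.mk_smul_vert, degK, degK, Vert.down_smul, ← q.degAt_smul hg]
  rfl

/-- Every degree is a torus translate of the standard one. -/
lemma degK_mem (a : Vert S v) : ∃ t : q.T, degK q a = t • q.one v := q.degAt_mem _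

/-- The normalised base coset has the standard degree. -/
lemma degK_cj (v : Place F) : degK q (((q.cj v)⁻¹ : GL (Fin 2) F) : Vert S v) = q.one v := by
  rw [degK, Vert.down_mk]; exact q.degAt_cj v

/-- At a good place the base coset has the standard degree. -/
lemma degK_one (h : v.valuation F q.D = 1 ∧ v.valuation F 2 = 1) :
    degK q ((1 : GL (Fin 2) F) : Vert S v) = q.one v := by
  rw [degK, Vert.down_mk]; exact q.degAt_one h

/-- A degree system on the cosets. -/
theorem degSysK : DegSys (T := q.T) (fun v : Place F => ((1 : GL (Fin 2) F) : Vert S v)) q.one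
    (fun _ a => degK q a) where
  comm := q.T_comm
  equiv v t a := by
    obtain ⟨γ, ⟨g, hg, rfl⟩⟩ := t
    exact degK_smul q hg a
  surj v t := by
    obtain ⟨γ, ⟨g, hg, rfl⟩⟩ := t
    exact ⟨(g : PG F) •
      (((q.cj v)⁻¹ : GL (Fin 2) F) : Vert S v), by rw [degK_smul q hg, degK_cj]; rfl⟩
  mem v a := degK_mem q a
  base := by
    filter_upwards [q.eventually_std] with v hv
    exact degK_one q hv

variable {g₀ : GL (Fin 2) F}

/-- The level of a conjugate only depends on the vertex. -/
lemma lvl_down (g : GL (Fin 2) F) (a : Vert S v) :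
    lvl (v.valuation F) ((Vert.down a).out⁻¹ * g * (Vert.down a).out)
      = lvl (v.valuation F) (a.out⁻¹ * g * a.out) := by
  have e1 : Vert.down a = ((a.out : GL (Fin 2) F) : LT.Vert (∅ : Set (Place F)) v) := by
    conv_lhs => rw [← QuotientGroup.out_eq' a]
    rfl
  obtain ⟨⟨k, hk⟩, e⟩ := QuotientGroup.mk_out_eq_mul (LT.lev (∅ : Set (Place F)) v) a.out
  rw [LT.lev_of_not_mem (Set.notMem_empty v)] at hk
  rw [e1, e]
  change lvl _ ((a.out * k)⁻¹ * g * (a.out * k)) = _
  rw [show (a.out * k)⁻¹ * g * (a.out * k) = k⁻¹ * (a.out⁻¹ * g * a.out) * k by group,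
    lvl_mul_right _ hk, lvl_mul_left _ ((U0 _).inv_mem hk)]

/-- Cosets moved boundedly in the fibre are finite in number. -/
lemma finite_boundedK (hg : TReg q.D g₀) (D : ℕ) :
    {a : Vert S v | degK q a = q.one v ∧
    lvl (v.valuation F) (a.out⁻¹ * g₀ * a.out) ≤ D}.Finite := by
  refine ((q.finite_bounded (S := (∅ : Set (Place F))) (v := v) hg D).biUnion
    fun x _ => Vert.finite_down_fibre (S := S) x).subset fun a ha => ?_
  exact Set.mem_biUnion (x := Vert.down a) ⟨ha.1, by rw [lvl_down]; exact ha.2⟩ rfl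

/-- A kernel summed over the fibre has finite support. -/
lemma finite_kerK (hg : TReg q.D g₀) (k : LKer S v) :
    {a : Vert S v | degK q a = q.one v ∧ k a (g₀ • a) ≠ 0}.Finite := by
  obtain ⟨D, hD⟩ := k.exists_lvl_bound
  refine (finite_boundedK q hg D).subset fun a ha => ⟨ha.1, ?_⟩
  obtain ⟨⟨u, hu⟩, e⟩ := QuotientGroup.mk_out_eq_mul (lev S v) (g₀ * a.out)
  have h := hD _ _ ha.2
  rw [show g₀ • a = ((g₀ * a.out : GL (Fin 2) F) : Vert S v) by
    conv_lhs => rw [← QuotientGroup.out_eq' a]
    rfl, e, ← mul_assoc, ← mul_assoc, lvl_mul_right _ (lev_le_U0 S v hu)] at h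
  exact h

end Degree

end Fermat.LTG
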