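import Fermat.Agent.LTG.CuspBound
import Fermat.Agent.LTG.Reduce
import Fermat.Agent.LT.KapBound

/-!
# The automorphic kernel of a combination with vanishing constant term is bounded

`SKer.bdd_of_zeroCT`, applied through `ConstForm` and `H/Basic` to the operator `h`, whose constant
term vanishes.
-/

set_option autoImplicit false
open NumberField Filter Set
open scoped Classical Matrix ContDiff

namespace Fermat.LTG

open Fermat.LT

variable {F : Type*} [Field F] [NumberField F] [IsTotallyComplex F] {S : Lev F}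

/-- The finite part of the height of `∞`. -/
noncomputable def phiInf (ν : FinPt F S) : ℝ := ∏ᶠ v, nloc v (eInf : Fin 2 → F) (ν.1 v)

omit [IsTotallyComplex F] in
/-- The finite part of the height is positive. -/
lemma phiInf_pos (ν : FinPt F S) : 0 < phiInf ν := by
  rw [phiInf, finprod_eq_prod _ (eventually_cofinite.1 (eventually_nloc_eq_one eInf_ne_zero ν))]
  exact Finset.prod_pos fun v _ => nfin_pos v eInf_ne_zero _

/-- The height of `∞` is its finite part divided by the squared product of the archimedean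
heights. -/
lemma ht_eInf (p : Pt F S) :
    ht (eInf : Fin 2 → F) p = phiInf p.1 / ∏ w, (H3.coord (p.2 w)).2 ^ 2 := by
  rw [ht, phiInf, div_eq_mul_inv, ← Finset.prod_inv_distrib]
  congr 1
  refine Finset.prod_congr rfl fun w _ => ?_
  rw [show embVec w (eInf : Fin 2 → F) = ![0, 1] by funext i; fin_cases i <;> simp [embVec, eInf],
    ninf_infty, InfinitePlace.mult,
    if_neg (InfinitePlace.not_isReal_iff_isComplex.2 (IsTotallyComplex.isComplex w)), inv_pow]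

/-- Points seen by the kernel have comparable heights. -/
lemma exists_ht_comparable (K : PKer F S) (Ω : Finset (FinPt F S)) :
    ∃ κ : ℝ, 1 ≤ κ ∧ ∀ p q : Pt F S, p.1 ∈ Ω → K.val p q ≠ 0 →
      ht (eInf : Fin 2 → F) q ≤ κ * ht (eInf : Fin 2 → F) p ∧
      ht (eInf : Fin 2 → F) p ≤ κ * ht (eInf : Fin 2 → F) q := by
  set Ω' := Ω ∪ Ω.biUnion fun ν => (K.finite_row ν).toFinset
  set m : ℝ := ∑ ν ∈ Ω', (phiInf ν + (phiInf ν)⁻¹)
  refine ⟨1 + m * m * ((2 * |K.range|) ^ 2) ^ Fintype.card (InfinitePlace F),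
    le_add_of_nonneg_right (mul_nonneg (mul_self_nonneg m) (by positivity)), fun p q hp hval => ?_⟩
  simp only [PKer.val, mul_ne_zero_iff] at hval
  have hq : q.1 ∈ Ω' := Finset.mem_union_right _
    (Finset.mem_biUnion.2 ⟨p.1, hp, (Set.Finite.mem_toFinset _).2 hval.1⟩)
  have hab : ∀ w, coshd (p.2 w) (q.2 w) ≤ |K.range| := fun w =>
    (not_lt.1 fun hlt => hval.2 (K.inf_eq_zero hlt)).trans (le_abs_self _)
  rw [ht_eInf, ht_eInf]
  exact ⟨ht_comparable_gen phiInf_pos hq (Finset.mem_union_left _ hp) fun w =>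
    (coshd_comm _ _).trans_le (hab w),
    ht_comparable_gen phiInf_pos (Finset.mem_union_left _ hp) hq hab⟩

omit [IsTotallyComplex F] in
/-- The values of the kernel out of a finite set of finite points are bounded. -/
lemma exists_val_bound (K : PKer F S) (Ω : Finset (FinPt F S)) :
    ∃ B : ℝ, 0 ≤ B ∧ ∀ p q : Pt F S, p.1 ∈ Ω → ‖K.val p q‖ ≤ B := by
  refine ⟨(∑ ν ∈ Ω, ∑ ν' ∈ (K.finite_row ν).toFinset, ‖K.fin ν ν'‖) * ∏ w, (K.arch w).bound,
    mul_nonneg (Finset.sum_nonneg fun ν _ => Finset.sum_nonneg fun ν' _ => norm_nonneg _)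
      (Finset.prod_nonneg fun w _ => (K.arch w).bound_nonneg), fun p q hp => ?_⟩
  rw [PKer.val, norm_mul, PKer.inf, norm_prod]
  refine mul_le_mul ?_ (Finset.prod_le_prod (fun w _ => norm_nonneg _) fun w _ =>
    (K.arch w).le_bound _ _) (Finset.prod_nonneg fun w _ => norm_nonneg _)
    (Finset.sum_nonneg fun ν _ => Finset.sum_nonneg fun ν' _ => norm_nonneg _)
  rcases eq_or_ne (K.fin p.1 q.1) 0 with h | h
  · rw [h, norm_zero]
    exact Finset.sum_nonneg fun ν _ => Finset.sum_nonneg fun ν' _ => norm_nonneg _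
  · refine le_trans ?_
      (Finset.single_le_sum (f := fun ν => ∑ ν' ∈ (K.finite_row ν).toFinset, ‖K.fin ν ν'‖)
      (fun ν _ => Finset.sum_nonneg fun ν' _ => norm_nonneg _) hp)
    exact Finset.single_le_sum (f := fun ν' => ‖K.fin p.1 ν'‖) (fun _ _ => norm_nonneg _)
      ((Set.Finite.mem_toFinset _).2 h)

/-- The points seen by every term of a combination have comparable heights. -/
lemma SKer.exists_ht_comparable (K : SKer F S) (Ω : Finset (FinPt F S)) :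
    ∃ κ : ℝ, 1 ≤ κ ∧ ∀ (p q : Pt F S) (i : Fin K.n), p.1 ∈ Ω → (K.ker i).val p q ≠ 0 →
      ht (eInf : Fin 2 → F) q ≤ κ * ht (eInf : Fin 2 → F) p ∧
      ht (eInf : Fin 2 → F) p ≤ κ * ht (eInf : Fin 2 → F) q := by
  choose κf hκf1 hκf using fun i => Fermat.LTG.exists_ht_comparable (K.ker i) Ω
  refine ⟨1 + ∑ i, κf i,
    le_add_of_nonneg_right (Finset.sum_nonneg fun i _ => zero_le_one.trans (hκf1 i)),
    fun p q i hp hv => ?_⟩
  obtain ⟨h1, h2⟩ := hκf i p q hp hv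
  have hle : κf i ≤ 1 + ∑ i, κf i := by
    linarith [Finset.single_le_sum (f := κf) (fun j _ => zero_le_one.trans (hκf1 j))
      (Finset.mem_univ i)]
  exact ⟨h1.trans (mul_le_mul_of_nonneg_right hle (ht_pos eInf_ne_zero p).le),
    h2.trans (mul_le_mul_of_nonneg_right hle (ht_pos eInf_ne_zero q).le)⟩

omit [IsTotallyComplex F] in
/-- The values of a combination out of a finite set of finite points are bounded. -/
lemma SKer.exists_val_bound (K : SKer F S) (Ω : Finset (FinPt F S)) :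
    ∃ B : ℝ, 0 ≤ B ∧ ∀ p q : Pt F S, p.1 ∈ Ω → ‖K.val p q‖ ≤ B := by
  choose Bf hBf0 hBf using fun i => Fermat.LTG.exists_val_bound (K.ker i) Ω
  exact ⟨∑ i, ‖K.coef i‖ * Bf i, Finset.sum_nonneg fun i _ => mul_nonneg (norm_nonneg _) (hBf0 i),
    fun p q hp => (norm_sum_le _ _).trans (Finset.sum_le_sum fun i _ => by
      rw [norm_mul]; exact mul_le_mul_of_nonneg_left (hBf i p q hp) (norm_nonneg _))⟩

/-- The finite heights of finitely many points and their inverses are bounded. -/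
lemma exists_phiInf_bound (Ω : Finset (FinPt F S)) :
    ∃ Φ : ℝ, 0 < Φ ∧ ∀ ν ∈ Ω, phiInf ν ≤ Φ ∧ (phiInf ν)⁻¹ ≤ Φ := by
  set Φ : ℝ := 1 + ∑ ν ∈ Ω, (phiInf ν + (phiInf ν)⁻¹) with hΦ
  refine ⟨Φ, add_pos_of_pos_of_nonneg one_pos (Finset.sum_nonneg fun ν _ =>
    add_nonneg (phiInf_pos ν).le (inv_nonneg.2 (phiInf_pos ν).le)), fun ν hν => ?_⟩
  have h := Finset.single_le_sum (f := fun ν => phiInf ν + (phiInf ν)⁻¹)
    (fun ν _ => add_nonneg (phiInf_pos ν).le (inv_nonneg.2 (phiInf_pos ν).le)) hν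
  have h1 : phiInf ν + (phiInf ν)⁻¹ ≤ Φ := h.trans (le_add_of_nonneg_left zero_le_one)
  exact ⟨le_trans (le_add_of_nonneg_right (inv_nonneg.2 (phiInf_pos ν).le)) h1,
    le_trans (le_add_of_nonneg_left (phiInf_pos ν).le) h1⟩

/-- The heights on a Siegel set are bounded. -/
lemma ht_le_of_mem_siegel {Ω : Finset (FinPt F S)} {R₀ c Φ : ℝ} (hc : 0 < c) (hΦ0 : 0 < Φ)
    (hΦle : ∀ ν ∈ Ω, phiInf ν ≤ Φ ∧ (phiInf ν)⁻¹ ≤ Φ) {p : Pt F S} (hp : p ∈ siegel Ω R₀ c) :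
    ht (eInf : Fin 2 → F) p ≤ Φ / (c ^ 2) ^ Fintype.card (InfinitePlace F) := by
  obtain ⟨hp1, hp2, -⟩ := hp
  rw [ht_eInf]
  refine div_le_div₀ hΦ0.le (hΦle _ hp1).1 (by positivity) ?_
  rw [← Finset.card_univ, ← Finset.prod_const]
  exact Finset.prod_le_prod (fun w _ => sq_nonneg _) fun w _ => pow_le_pow_left₀ hc.le (hp2 w).2 2

/-- Points of a Siegel set that are not high are in a compact set. -/
lemma exists_coshd_le_of_ht {Ω : Finset (FinPt F S)} {R₀ c Φ δ : ℝ} (hc : 0 < c) (hΦ0 : 0 < Φ)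
    (hΦle : ∀ ν ∈ Ω, phiInf ν ≤ Φ ∧ (phiInf ν)⁻¹ ≤ Φ) (hδ0 : 0 < δ) :
    ∃ A : ℝ, ∀ p ∈ siegel Ω R₀ c, δ ≤ ht (eInf : Fin 2 → F) p →
      ∀ w, coshd ((1 : GL (Fin 2) ℂ) : H3) (p.2 w) ≤ A := by
  set R := max R₀ 1
  set n := Fintype.card (InfinitePlace F) with hn
  set T : ℝ := R * (1 + Φ / δ) + c with hT
  refine ⟨(R ^ 2 + 1 + T ^ 2) / (2 * c), ?_⟩
  rintro p ⟨hp1, hp2, hp3⟩ hp w
  refine coshd_base_le hc ((hp2 w).1.trans (le_max_left _ _)) (hp2 w).2 ?_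
  have hP : 0 < ∏ u, (H3.coord (p.2 u)).2 ^ 2 :=
    Finset.prod_pos fun u _ => pow_pos (H3.coord_pos _) 2
  rw [ht_eInf, le_div_iff₀ hP, mul_comm, ← le_div_iff₀ hδ0] at hp
  have hbound : ((H3.coord (p.2 w)).2 ^ 2) ^ n ≤ ((R * (1 + Φ / δ) + c) ^ 2) ^ n := by
    have h1 : ((H3.coord (p.2 w)).2 ^ 2) ^ n ≤ (R ^ 2) ^ n * ∏ u, (H3.coord (p.2 u)).2 ^ 2 := by
      rw [hn, ← Finset.card_univ, ← Finset.prod_const, ← Finset.prod_const,
        ← Finset.prod_mul_distrib]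
      refine Finset.prod_le_prod (fun u _ => sq_nonneg _) fun u _ => ?_
      rw [← mul_pow]
      exact pow_le_pow_left₀ (H3.coord_pos _).le
        ((hp3 w u).trans (mul_le_mul_of_nonneg_right (le_max_left _ _) (H3.coord_pos _).le)) 2
    refine h1.trans
      ((mul_le_mul_of_nonneg_left (hp.trans (div_le_div_of_nonneg_right (hΦle _ hp1).1 hδ0.le))
      (by positivity)).trans ?_)
    have hd : 0 ≤ Φ / δ := div_nonneg hΦ0.le hδ0.le
    calc (R ^ 2) ^ n * (Φ / δ) ≤ (R ^ 2) ^ n * ((1 + Φ / δ) ^ 2) ^ n := by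
          refine mul_le_mul_of_nonneg_left ?_ (by positivity)
          exact ((le_add_of_nonneg_left zero_le_one).trans
            (le_self_pow₀ (by linarith) two_ne_zero)).trans
            (le_self_pow₀ (one_le_pow₀ (by linarith)) Fintype.card_ne_zero)
      _ = ((R * (1 + Φ / δ)) ^ 2) ^ n := by rw [← mul_pow, ← mul_pow]
      _ ≤ _ := by
          refine pow_le_pow_left₀ (sq_nonneg _) (pow_le_pow_left₀ (by positivity) ?_ 2) _
          linarith
  have h2 := (sq_le_sq₀ (H3.coord_pos _).le (by positivity)).1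
    ((pow_le_pow_iff_left₀ (sq_nonneg _) (sq_nonneg _) Fintype.card_ne_zero).1 hbound)
  exact h2

/-- Comparable heights give comparable products of coordinates. -/
lemma prod_coord_le_of_phiInf {Ω : Finset (FinPt F S)} {κ Φ P Q : ℝ} (hκ : 0 ≤ κ) (hΦ0 : 0 < Φ)
    (hΦle : ∀ ν ∈ Ω, phiInf ν ≤ Φ ∧ (phiInf ν)⁻¹ ≤ Φ) {ν ν' : FinPt F S} (hν : ν ∈ Ω) (hν' : ν' ∈ Ω)
    (hP : 0 < P) (hQ : 0 < Q) (h : phiInf ν' / Q ≤ κ * (phiInf ν / P)) :
    P ≤ (1 + κ * Φ * Φ) * Q := by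
  rw [← mul_div_assoc, div_le_div_iff₀ hQ hP] at h
  have h3 : κ * phiInf ν * (phiInf ν')⁻¹ ≤ κ * Φ * Φ :=
    mul_le_mul (mul_le_mul_of_nonneg_left (hΦle _ hν).1 hκ) (hΦle _ hν').2
      (inv_nonneg.2 (phiInf_pos _).le) (by positivity)
  calc P = phiInf ν' * P * (phiInf ν')⁻¹ := by have := (phiInf_pos ν').ne'; field_simp
    _ ≤ κ * phiInf ν * Q * (phiInf ν')⁻¹ :=
        mul_le_mul_of_nonneg_right h (inv_nonneg.2 (phiInf_pos _).le)
    _ = κ * phiInf ν * (phiInf ν')⁻¹ * Q := by ring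
    _ ≤ (1 + κ * Φ * Φ) * Q := mul_le_mul_of_nonneg_right (by linarith) hQ.le

omit [IsTotallyComplex F] in
/-- An element moving a high point only to comparable heights is triangular. -/
lemma entry10_eq_zero_of_ht {p q : Pt F S} {g : GL (Fin 2) F} {H κ : ℝ} (hH : 0 < H) (hκ : 1 ≤ κ)
    (hup1 : ht (eInf : Fin 2 → F) p ≤ H) (hup2 : ht (eInf : Fin 2 → F) q ≤ H)
    (hlo : ht (eInf : Fin 2 → F) p ≤ 1 / (2 * (H * κ)) ∨ ht (eInf : Fin 2 → F) q ≤ 1 /
    (2 * (H * κ)))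
    (h1 : ht ((eInf : Fin 2 → F) ᵥ* (g : Matrix (Fin 2) (Fin 2) F)) q
      ≤ κ * ht (eInf : Fin 2 → F) p) :
    (g : Matrix (Fin 2) (Fin 2) F) 1 0 = 0 := by
  set u := (eInf : Fin 2 → F) ᵥ* (g : Matrix (Fin 2) (Fin 2) F) with hu
  have hu0 : u 0 = (g : Matrix (Fin 2) (Fin 2) F) 1 0 := by
    simp [u, eInf, Matrix.vecMul, dotProduct]
  set ε : ℝ := 1 / (2 * (H * κ)) with hε
  have hε0 : 0 < ε := by positivity
  by_contra hne
  have hune : u ≠ 0 := fun h => hne (by rw [← hu0, h]; rfl)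
  have hone := one_le_ht_mul eInf_ne_zero hune (by simp [eInf, hu0, hne]) q
  have hε' : H * κ * ε = 1 / 2 := by rw [hε]; field_simp
  rcases hlo with h | h
  · have : ht (eInf : Fin 2 → F) q * ht u q ≤ H * (κ * ε) :=
      mul_le_mul hup2 (h1.trans (mul_le_mul_of_nonneg_left h (by linarith)))
        (ht_pos hune q).le hH.le
    linarith
  · have : ht (eInf : Fin 2 → F) q * ht u q ≤ ε * (κ * H) :=
      mul_le_mul h (h1.trans (mul_le_mul_of_nonneg_left hup1 (by linarith)))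
        (ht_pos hune q).le hε0.le
    linarith

/-- With vanishing constant term the Borel sum is the sum of its differences with constant terms. -/
lemma SKer.tsum_borel_eq (K : SKer F S) (hCT : K.HasZeroCT) (p q : Pt F S) :
    ∑' z : Fˣ × F, K.val p ((upMat z.1 z.2 : PG F) • q)
      = ∑ i, K.coef i * ((∑' z : Fˣ × F, (K.ker i).val p (upMat z.1 z.2 • q))
        - (((covol F)⁻¹ : ℝ) : ℂ) * (K.ker i).constTerm p.1 q.1
          (fun w => (H3.coord (p.2 w)).2) (fun w => (H3.coord (q.2 w)).2)) := by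
  have hsum : ∀ i, Summable fun z : Fˣ × F => (K.ker i).val p (upMat z.1 z.2 • q) := fun i =>
    summable_of_hasFiniteSupport ((((K.ker i).finite_support p q).preimage
      upMat_PG_injective.injOn).subset fun z hz => by simpa using hz)
  have h0 := hCT p.1 q.1 (fun w => (H3.coord (p.2 w)).2) (fun w => (H3.coord (q.2 w)).2)
    (fun w => H3.coord_pos _) (fun w => H3.coord_pos _)
  rw [SKer.constTerm] at h0
  simp only [mul_sub, Finset.sum_sub_distrib, mul_left_comm (K.coef _) (((covol F)⁻¹ : ℝ) : ℂ),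
    ← Finset.mul_sum, h0, mul_zero, sub_zero, ← tsum_mul_left, SKer.val, PG.mk_smul]
  exact Summable.tsum_finsetSum fun i _ => (hsum i).mul_left _

/-- **Boundedness of an automorphic kernel with vanishing constant term.** -/
theorem SKer.bdd_of_zeroCT (K : SKer F S) (f : Fin K.n → InfinitePlace F → ℝ → ℝ)
    (hfs : ∀ i w, ContDiff ℝ ∞ (f i w)) (hfc : ∀ i w, HasCompactSupport (f i w))
    (hf : ∀ i w x y, (K.ker i).arch w x y = (f i w (coshd x y) : ℂ)) (hCT : K.HasZeroCT) :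
    K.Bdd := by
  obtain ⟨Ω, R₀, c, hc, hΩ⟩ := exists_siegel (F := F) (S := S)
  set R := max R₀ 1
  have hR : 1 ≤ R := le_max_right _ _
  obtain ⟨κ, hκ1, hκ⟩ := K.exists_ht_comparable Ω
  obtain ⟨B, hB0, hB⟩ := K.exists_val_bound Ω
  obtain ⟨Φ, hΦ0, hΦle⟩ := exists_phiInf_bound Ω
  set H₀ : ℝ := Φ / (c ^ 2) ^ Fintype.card (InfinitePlace F)
  have hH₀0 : 0 < H₀ := div_pos hΦ0 (by positivity)
  set δ : ℝ := 1 / (2 * (H₀ * κ))
  have hδ0 : 0 < δ := by positivity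
  obtain ⟨A, hlow⟩ := exists_coshd_le_of_ht (R₀ := R₀) hc hΦ0 hΦle hδ0
  set Γ : Finset (PG F) := Ω.biUnion fun ν => Ω.biUnion fun ν' => Finset.univ.biUnion fun i =>
    ((K.ker i).finite_seen ν ν' A A).toFinset
  set a : ℝ := κ * Φ * Φ with ha
  set ρ : ℝ := max R (R * R * (1 + a)) with hρ
  choose Ci hCi using fun i ν ν' =>
    (K.ker i).upper_sum_approx (f i) (hfs i) (hfc i) (hf i) ν ν' ρ c (hR.trans (le_max_left _ _)) hc
  set C : FinPt F S → FinPt F S → ℝ := fun ν ν' => ∑ i, ‖K.coef i‖ * Ci i ν ν'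
  set Chigh : ℝ := ∑ ν ∈ Ω, ∑ ν' ∈ Ω, |C ν ν'|
  refine ⟨Chigh + Γ.card * B, fun p₀ q₀ => ?_⟩
  have hChigh : 0 ≤ Chigh := Finset.sum_nonneg fun ν _ => Finset.sum_nonneg fun ν' _ => abs_nonneg _
  have hCcomp : 0 ≤ (Γ.card : ℝ) * B := mul_nonneg (Nat.cast_nonneg _) hB0
  obtain ⟨g₁, hg₁⟩ := hΩ p₀
  obtain ⟨g₂, hg₂⟩ := hΩ q₀
  rw [← K.kap_smul_left (g₁ : PG F), ← K.kap_smul_right (g₂ : PG F), PG.mk_smul, PG.mk_smul]
  generalize g₁ • p₀ = p at hg₁ ⊢
  generalize g₂ • q₀ = q at hg₂ ⊢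
  by_cases hcompact : δ ≤ ht (eInf : Fin 2 → F) p ∧ δ ≤ ht (eInf : Fin 2 → F) q
  · rw [SKer.kap, tsum_eq_sum (s := Γ) fun γ hγ => ?_]
    · refine le_add_of_nonneg_of_le hChigh ((norm_sum_le _ _).trans ?_)
      refine (Finset.sum_le_sum fun γ _ => hB p (γ • q) hg₁.1).trans (le_of_eq ?_)
      rw [Finset.sum_const, nsmul_eq_mul]
    · by_contra hne
      obtain ⟨i, -, hi⟩ := Finset.exists_ne_zero_of_sum_ne_zero hne
      refine hγ (Finset.mem_biUnion.2 ⟨p.1, hg₁.1, Finset.mem_biUnion.2 ⟨q.1, hg₂.1,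
        Finset.mem_biUnion.2 ⟨i, Finset.mem_univ i, (Set.Finite.mem_toFinset _).2
          ⟨p.2, q.2, hlow p hg₁ hcompact.1, hlow q hg₂ hcompact.2, right_ne_zero_of_mul hi⟩⟩⟩⟩)
  -- a high point: only the Borel subgroup contributes
  have hkey : ∀ (i : Fin K.n) (g : GL (Fin 2) F), (K.ker i).val p (g • q) ≠ 0 →
      (g : Matrix (Fin 2) (Fin 2) F) 1 0 = 0 ∧ ∏ w, (H3.coord (p.2 w)).2 ^ 2 ≤ (1 + a) * ∏ w,
        (H3.coord (q.2 w)).2 ^ 2 ∧
        ∏ w, (H3.coord (q.2 w)).2 ^ 2 ≤ (1 + a) * ∏ w, (H3.coord (p.2 w)).2 ^ 2 := by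
    intro i g hg
    obtain ⟨h1, h2⟩ := hκ p (g • q) i hg₁.1 hg
    rw [ht_smul eInf_ne_zero] at h1 h2
    have h10 := entry10_eq_zero_of_ht hH₀0 hκ1 (ht_le_of_mem_siegel hc hΦ0 hΦle hg₁)
      (ht_le_of_mem_siegel hc hΦ0 hΦle hg₂)
      ((not_and_or.1 hcompact).imp (fun h => (not_le.1 h).le) fun h => (not_le.1 h).le) h1
    have h11 : (g : Matrix (Fin 2) (Fin 2) F) 1 1 ≠ 0 :=
      fun h => g.det_ne_zero (by simp [Matrix.det_fin_two, h, h10])
    have hu' : (eInf : Fin 2 → F) ᵥ* (g : Matrix (Fin 2) (Fin 2) F) =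
        (Units.mk0 _ h11 : F) • (eInf : Fin 2 → F) := by
      funext i; fin_cases i <;> simp [eInf, Matrix.vecMul, dotProduct, h10]
    rw [hu', ht_smul_vec eInf_ne_zero] at h1 h2
    rw [ht_eInf, ht_eInf] at h1 h2
    have hP : 0 < ∏ w, (H3.coord (p.2 w)).2 ^ 2 :=
      Finset.prod_pos fun w _ => pow_pos (H3.coord_pos _) 2
    have hQ : 0 < ∏ w, (H3.coord (q.2 w)).2 ^ 2 :=
      Finset.prod_pos fun w _ => pow_pos (H3.coord_pos _) 2
    exact ⟨h10, prod_coord_le_of_phiInf (by linarith) hΦ0 hΦle hg₁.1 hg₂.1 hP hQ h1,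
      prod_coord_le_of_phiInf (by linarith) hΦ0 hΦle hg₂.1 hg₁.1 hQ hP h2⟩
  by_cases hall : ∀ γ : PG F, K.val p (γ • q) = 0
  · rw [SKer.kap, tsum_congr hall, tsum_zero, norm_zero]
    exact add_nonneg hChigh hCcomp
  obtain ⟨γ₀, hγ₀⟩ := not_forall.1 hall
  obtain ⟨g₀, rfl⟩ := QuotientGroup.mk_surjective γ₀
  obtain ⟨i₀, -, hi₀⟩ := Finset.exists_ne_zero_of_sum_ne_zero hγ₀
  obtain ⟨-, hpq, hqp⟩ := hkey i₀ g₀ (right_ne_zero_of_mul hi₀)
  have ha1 : (1 : ℝ) ≤ 1 + a := le_add_of_nonneg_right (by positivity)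
  have hbal : ∀ x ∈ siegel Ω R₀ c, ∀ w u, (H3.coord (x.2 w)).2 ≤ R * (H3.coord (x.2 u)).2 :=
    fun x hx w u =>
      (hx.2.2 w u).trans (mul_le_mul_of_nonneg_right (le_max_left _ _) (H3.coord_pos _).le)
  refine le_add_of_le_of_nonneg ?_ hCcomp
  rw [SKer.kap, ← upMat_PG_injective.tsum_eq]
  swap
  · intro γ hγ
    obtain ⟨g, rfl⟩ := QuotientGroup.mk_surjective γ
    obtain ⟨i, -, hi⟩ := Finset.exists_ne_zero_of_sum_ne_zero hγ
    obtain ⟨b, x, hbx⟩ := exists_upMat_eq (hkey i g (right_ne_zero_of_mul hi)).1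
    exact ⟨(b, x), hbx⟩
  have hbd : ∀ w, c ≤ (H3.coord (p.2 w)).2 := fun w => (hg₁.2.1 w).2
  have hbl : ∀ w u, (H3.coord (p.2 w)).2 ≤ ρ * (H3.coord (p.2 u)).2 :=
    fun w u => (hbal p hg₁ w u).trans
    (mul_le_mul_of_nonneg_right (le_max_left _ _) (H3.coord_pos _).le)
  have hxy : ∀ w, (H3.coord (p.2 w)).2 ≤ ρ * (H3.coord (q.2 w)).2 ∧
      (H3.coord (q.2 w)).2 ≤ ρ * (H3.coord (p.2 w)).2 := fun w =>
    ⟨(coord_le_of_ht hR _ _ (hbal p hg₁) (hbal q hg₂) ha1 hpq w).trans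
      (mul_le_mul_of_nonneg_right (le_max_right _ _) (H3.coord_pos _).le),
    (coord_le_of_ht hR _ _ (hbal q hg₂) (hbal p hg₁) ha1 hqp w).trans
      (mul_le_mul_of_nonneg_right (le_max_right _ _) (H3.coord_pos _).le)⟩
  rw [K.tsum_borel_eq hCT p q]
  refine (norm_sum_le _ _).trans ?_
  refine (Finset.sum_le_sum fun i _ => (norm_mul _ _).le.trans (mul_le_mul_of_nonneg_left
    (hCi i p.1 q.1 p.2 q.2 hbd hbl hxy) (norm_nonneg _))).trans ?_
  refine (le_abs_self _).trans ((Finset.single_le_sum (f := fun ν' => |C p.1 ν'|)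
    (fun _ _ => abs_nonneg _) hg₂.1).trans ?_)
  exact Finset.single_le_sum (f := fun ν => ∑ ν' ∈ Ω, |C ν ν'|)
    (fun ν _ => Finset.sum_nonneg fun _ _ => abs_nonneg _) hg₁.1

end Fermat.LTG
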