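import Fermat.Agent.LTG.Test
import Fermat.Agent.LT.EllBound

/-!
# Twisted kernel terms

`twVal` is the term; it is invariant (`twVal_smul`) and measurable (`measurable_twVal`).
-/

set_option autoImplicit false
open IsDedekindDomain NumberField

namespace Fermat.LTG

open Fermat.LT

variable {F : Type*} [Field F] [NumberField F] [IsTotallyComplex F] {S : Lev F} {τ : F ≃+* F}

/-- The twisted kernel term. -/
noncomputable def twVal (K : PKer F S) (hS : Stable τ S) (γ : TwPG τ) (p : Pt F S) : ℂ :=
  K.val p (γ.cls • Pt.amap hS p)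

variable (K : PKer F S) (hS : Stable τ S)

/-- Field automorphisms twist the action. -/
lemma PG.amap_smul (δ : PG F) (p : Pt F S) :
    Pt.amap hS (δ • p) = PG.amap τ δ • Pt.amap hS p := by
  obtain ⟨g, rfl⟩ := QuotientGroup.mk_surjective δ
  rw [PG.mk_smul, Pt.amap_smul, PG.amap_mk, PG.mk_smul]

/-- Twisted kernel terms are invariant. -/
lemma twVal_smul (δ : PG F) (γ : TwPG τ) (p : Pt F S) :
    twVal K hS (δ • γ) (δ • p) = twVal K hS γ p := by
  rw [twVal, twVal, TwPG.cls_smul, PG.amap_smul, ← mul_smul, inv_mul_cancel_right, mul_smul,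
    K.val_smul_PG]

/-- Twisted kernel terms are measurable. -/
lemma measurable_twVal (γ : TwPG τ) : Measurable (twVal K hS γ) :=
  K.measurable_val.comp (measurable_id.prodMk
    ((measurable_const_smul γ.cls).comp (measurePreserving_amap hS).measurable))

omit [IsTotallyComplex F] in
/-- Untwisted terms are the kernel terms. -/
lemma twVal_refl (γ : TwPG (RingEquiv.refl F)) (p : Pt F S) :
    twVal K (stable_refl S) γ p = K.val p (γ.cls • p) := by
  rw [twVal, Pt.amap_refl]

end Fermat.LTG
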