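import Fermat.Agent.LT.EllBound
import Fermat.Agent.LTG.EllBase
import Fermat.Agent.LTG.TwVal
import Fermat.Agent.LTG.KapBound
import Fermat.Agent.LTG.Volume

/-!
# Twisted kernel terms, boundedness away from the Borel subgroup

`exists_twVal_bound` bounds the sum over classes without fixed lines, so `lintegral_twVal_lt_top`
gives absolute integrability.
-/

set_option autoImplicit false
open NumberField Filter Set MeasureTheory
open scoped Classical ENNReal

namespace Fermat.LTG

open Fermat.LT

variable {F : Type*} [Field F] [NumberField F] [IsTotallyComplex F] {S : Lev F} {τ : F ≃+* F}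

variable (K : PKer F S) (hS : Stable τ S)

omit [IsTotallyComplex F] in
/-- A field automorphism keeps the product of the squared heights. -/
lemma prod_coord_amap (p : Pt F S) :
    ∏ w, (H3.coord ((Pt.amap hS p).2 w)).2 ^ 2 = ∏ w, (H3.coord (p.2 w)).2 ^ 2 := by
  have hbij : Function.Bijective fun w : InfinitePlace F =>
      InfinitePlace.mk (w.embedding.comp (τ : F →+* F)) := by
    refine Finite.injective_iff_bijective.1 fun a b h => ?_
    rw [InfinitePlace.mk_eq_iff] at h
    rw [← InfinitePlace.mk_embedding a, ← InfinitePlace.mk_embedding b, InfinitePlace.mk_eq_iff]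
    rcases h with h | h
    · exact Or.inl (RingHom.ext fun x => by simpa using RingHom.congr_fun h (τ.symm x))
    · refine Or.inr (RingHom.ext fun x => ?_)
      simpa [ComplexEmbedding.conjugate] using RingHom.congr_fun h (τ.symm x)
  rw [← hbij.prod_comp (fun w => (H3.coord (p.2 w)).2 ^ 2)]
  exact Finset.prod_congr rfl fun w _ => congrArg (· ^ 2) (coord_extH p.2 _).1

/-- **Classes without fixed lines give a bounded sum.** -/
theorem exists_twVal_bound {P : TwPG τ → Prop} (hup : ∀ γ, IsUpper γ.cls → ¬ P γ)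
    (hinv : ∀ (δ : PG F) γ, P (δ • γ) ↔ P γ) :
    ∃ C : ℝ, ∀ p : Pt F S, ∑' γ, (if P γ then ‖twVal K hS γ p‖ₑ else 0) ≤ ENNReal.ofReal C := by
  obtain ⟨Ω, R, c, hc, hΩ⟩ := exists_siegel (F := F) (S := S)
  obtain ⟨κ, hκ1, hκ⟩ := exists_ht_comparable K Ω
  obtain ⟨B, -, hB⟩ := exists_val_bound K Ω
  refine exists_tsum_bound_gen hup hinv (twVal K hS) (fun g γ p =>
    twVal_smul K hS (g : PG F) γ p) hc hΩ
    (fun γ p hp => hB _ _ hp) (fun A => ⟨Ω.biUnion fun ν =>
      (K.finite_seen ν (FinPt.amap hS ν) A A).toFinset, fun γ p hp hA hne => ?_⟩)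
    (zero_le_one.trans hκ1) phiInf (fun ν => phiInf (FinPt.amap hS ν))
    fun γ p hp hne g hg h10 => ?_
  · exact Finset.mem_biUnion.2 ⟨p.1, hp, (Set.Finite.mem_toFinset _).2 ⟨p.2, (Pt.amap hS p).2, hA,
      fun w => (coord_extH p.2 _).2.le.trans (hA _), hne⟩⟩
  · rw [twVal, ← hg, PG.mk_smul] at hne
    obtain ⟨h1, -⟩ := hκ p _ hp hne
    rw [ht_smul eInf_ne_zero, ht_eInf p] at h1
    refine (one_le_ht_mul (eInf_vecMul_ne h10) eInf_ne_zero
        (by simp [eInf, Matrix.vecMul, dotProduct, h10]) (Pt.amap hS p)).trans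
      (mul_le_mul h1 (le_of_eq ?_) (ht_pos eInf_ne_zero _).le
        ((ht_pos (eInf_vecMul_ne h10) _).le.trans h1))
    rw [ht_eInf, prod_coord_amap]; rfl

/-- Twisted kernel terms off the upper triangular classes are absolutely integrable over a domain.
-/
theorem lintegral_twVal_lt_top {P : TwPG τ → Prop} (hup : ∀ γ, IsUpper γ.cls → ¬ P γ)
    (hinv : ∀ (δ : PG F) γ, P (δ • γ) ↔ P γ) {D : Set (Pt F S)}
    (hD : IsFundamentalDomain (PG F) D ptMeasure) :
    ∫⁻ p in D, ∑' γ, (if P γ then ‖twVal K hS γ p‖ₑ else 0) ∂ptMeasure < ∞ := by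
  obtain ⟨C, hC⟩ := exists_twVal_bound K hS hup hinv
  refine lt_of_le_of_lt (lintegral_mono fun p => hC p) ?_
  rw [setLIntegral_const]
  exact ENNReal.mul_lt_top ENNReal.ofReal_lt_top (domain_finite hD).lt_top

/-- The restricted sum is integrable. -/
theorem integrableOn_twVal_sum {P : TwPG τ → Prop} (hup : ∀ γ, IsUpper γ.cls → ¬ P γ)
    (hinv : ∀ (δ : PG F) γ, P (δ • γ) ↔ P γ) {D : Set (Pt F S)}
    (hD : IsFundamentalDomain (PG F) D ptMeasure) :
    IntegrableOn (fun p => ∑' γ, if P γ then twVal K hS γ p else 0) D ptMeasure := by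
  obtain ⟨C, hC⟩ := exists_twVal_bound K hS hup hinv
  have hs : ∀ p, Summable fun γ => if P γ then twVal K hS γ p else 0 := fun p => by
    refine Summable.of_norm ?_
    have h := ne_top_of_le_ne_top ENNReal.ofReal_ne_top (hC p)
    rw [tsum_congr fun γ => show (if P γ then ‖twVal K hS γ p‖ₑ else 0)
      = (‖if P γ then twVal K hS γ p else 0‖₊ : ℝ≥0∞) by split_ifs <;> simp [enorm_eq_nnnorm]] at h
    exact (NNReal.summable_coe.2 (ENNReal.tsum_coe_ne_top_iff_summable.1 h)).congr
      fun γ => coe_nnnorm _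
  have hm : Measurable fun p => ∑' γ, if P γ then twVal K hS γ p else 0 := by
    refine measurable_of_tendsto_metrizable' (u := (atTop : Filter (Finset (TwPG τ))))
      (f := fun s p => ∑ γ ∈ s, if P γ then twVal K hS γ p else 0)
      (fun s => Finset.measurable_fun_sum _ fun γ _ => ?_) (tendsto_pi_nhds.2 fun p =>
        (hs p).hasSum)
    by_cases h : P γ
    · simpa [h] using measurable_twVal K hS γ
    · simp [h]
  refine IntegrableOn.of_bound (domain_finite hD).lt_top hm.aestronglyMeasurable (max C 0)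
    (Eventually.of_forall fun p => ?_)
  have h1 : ‖∑' γ, if P γ then twVal K hS γ p else 0‖ₑ ≤ ENNReal.ofReal C :=
    enorm_tsum_le_tsum_enorm.trans
      ((ENNReal.tsum_le_tsum fun γ => by split_ifs <;> simp).trans (hC p))
  rw [← ofReal_norm] at h1
  exact (ENNReal.ofReal_le_ofReal_iff (le_max_right _ _)).1
    (h1.trans (ENNReal.ofReal_le_ofReal (le_max_left _ _)))

end Fermat.LTG
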