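import Fermat.Agent.LTG.EllOver
import Fermat.Agent.LT.Sys.Geo

/-!
# Degrees at good places

At an unramified place outside the level where the order is standard, the base is the only fixed
family of trivial degree.
-/

set_option autoImplicit false
open Set
open scoped Matrix

namespace Fermat.LTG

open Fermat.LT

variable {K L : Type} [Field K] [NumberField K] [Field L] [NumberField L] [Algebra K L]
  {σ : L ≃ₐ[K] L}

omit [NumberField K] [NumberField L] in
/-- The empty level is stable. -/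
lemma stable_empty : LT.Stable (σ : L ≃+* L) (∅ : Set (Place L)) := fun _ => by simp

/-- The map to vertices commutes with automorphisms. -/
lemma Vert.down_amap {SL : Lev L} {τ : L ≃+* L} (hS : Stable τ SL)
    (hS₀ : LT.Stable τ (∅ : Set (Place L))) {u u' : Place L} (hu : mapPlace τ u = u')
    (a : Vert SL u) :
    Vert.down (Vert.amap hS hu a) = LT.Vert.amap hS₀ hu (Vert.down a) := by
  obtain ⟨g, rfl⟩ := QuotientGroup.mk_surjective a
  rfl

variable {v : Place K}

/-- The properties of a degree at a good place, on vertices. -/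
def GoodDeg₀ (σ : L ≃ₐ[K] L) (q : QDat K) (v : Place K)
    (d : LT.OverPt K (∅ : Set (Place L)) v → q.Γ v) : Prop :=
  (∀ g ∈ tTor q.D, ∀ x, d ((g : PG K) • x) = (g : PG K) • d x) ∧
    (∀ x, ∃ t : q.T, d x = t • q.one v) ∧ d LT.OverPt.base = q.one v ∧
    ∀ (g₀ : GL (Fin 2) K) (δ : GL (Fin 2) L) (c : Lˣ), GoodPt q v g₀ →
      twistN (σ : L ≃+* L) δ = scal c * iGL K L g₀ →
      (∀ w : placesOver K L v, δ ∈ LT.lev (∅ : Set (Place L)) w.1) →
      ∀ x, d x = q.one v → (∀ w, x w = δ • x.prev (stable_empty (σ := σ)) w) → x = LT.OverPt.base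

variable (hc : Cyc3 K L σ) (q : QDat K) (hD : v.valuation K q.D = 1) (h2 : v.valuation K 2 = 1)
include hc hD h2

/-- A good degree exists at an inert unramified place where `3` is a unit. -/
lemma exists_goodDeg₀_inert (h3 : v.valuation K 3 = 1) {w : Place L} (hw : LiesOver K L w v)
    (hσ : mapPlace (σ : L ≃+* L) w = w) (he : ramE v w = 1) : ∃ d, GoodDeg₀ σ q v d := by
  have hpl := LT.placesOver_singleton hc hw hσ
  set w' : placesOver K L v := ⟨w, hw⟩
  have hall : ∀ u : placesOver K L v, u = w' := fun ⟨u, hu⟩ => by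
    rw [hpl, Set.mem_singleton_iff] at hu
    exact Subtype.ext hu
  have hwS : w ∉ (∅ : Set (Place L)) := Set.notMem_empty w
  obtain ⟨T, hρ, R⟩ := inert_reps hc q hw h3 hσ he
  have hr : T.r = 0 := by
    have := T.hρ
    rw [hρ, map_one, ← WithZero.exp_zero, WithZero.exp_inj] at this
    omega
  have hframe : Fixed.frame hc q hw hσ T = 1 := by
    rw [Fixed.frame, q.cj_eq_one ⟨hD, h2⟩, map_one, mul_one]
    refine Units.ext ?_
    change !![1, 0; 0, T.ρ] = _
    rw [hρ]
    ext i j
    fin_cases i <;> fin_cases j <;> simp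
  -- the degree at the single place above `v`
  refine ⟨fun x => Fixed.deg hc q hw hσ T R (x w'), fun g hg x => ?_,
    fun x => Fixed.deg_mem hc q hw hσ T R _, ?_, fun g₀ δ c hgood hN hlev x hx hfix => ?_⟩
  · change Fixed.deg hc q hw hσ T R (((g : PG K) • x) w') = _
    exact Fixed.deg_smul hc q hw hσ T R hg (x w')
  · have h := Fixed.deg_base (S := (∅ : Set (Place L))) hc q hw hσ T R one_pos
    rwa [hframe, inv_one] at h
  · set a := x w'
    have hprev : x.prev stable_empty w' = LT.Vert.amap stable_empty hσ a :=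
      x.prev_eq stable_empty (u := w') (w := w') hσ
    -- a fixed point is fixed by the norm `g₀`
    have ha : a = δ • LT.Vert.amap stable_empty hσ a := by rw [← hprev]; exact hfix w'
    have ha2 : twistN (σ : L ≃+* L) δ • a = a :=
      LT.twistN_smul_of_fixed hc stable_empty hσ ha
    rw [hN, mul_smul, LT.scal_smul_vert] at ha2
    have hfix' : T.φ (q.φ v g₀) • Fixed.toOrd hc q hw hσ T a = Fixed.toOrd hc q hw hσ T a := by
      conv_rhs => rw [← ha2]
      rw [Fixed.toOrd, Fixed.toOrd, LT.Vert.proj_smul, ← Fixed.psi_iGL hc q hw hσ T,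
        Fixed.psi_apply, hframe]
      simp
    have hγ1 : T.φ (q.φ v g₀) ∉ T.Q'.levG 1 := by
      rw [T.mem_levG'_iff hgood.1, show T.lev 1 = 1 by
        rw [Emb.lev, hr, show (hc.ext hw hσ).e = ramE v w from rfl, he]]
      exact hgood.2
    have h := QA.eq_base (Fixed.reps hc q hw hσ T R) (Fixed.φU hc q hw hσ T)
      (unifAt_spec w) (T.φ_ugrp hgood.1) hγ1 ((Fixed.deg_eq_one_iff hc q hw hσ T R a).1 hx) hfix'
    rw [Fixed.toOrd, hframe, one_smul] at h
    funext u
    rw [hall u]
    refine (LT.vertEquiv hwS).injective ?_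
    rw [LT.vertEquiv_apply, LT.vertEquiv_apply, h]
    rfl

/-- A good degree exists at a split place. -/
lemma exists_goodDeg₀_split {w : Place L} (hw : LiesOver K L w v) (he : ramE v w = 1)
    (hn : pnorm w = pnorm v) (hmoved : mapPlace (σ : L ≃+* L) w ≠ w) : ∃ d, GoodDeg₀ σ q v d := by
  have hw2 := hw.mapPlace σ
  have hw3 := hw2.mapPlace σ
  have hlev : v ∈ (∅ : Set (Place K)) ↔ w ∈ (∅ : Set (Place L)) := by simp
  -- at a split place: the degree read on `K` through `Split.vertIso`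
  set e := Split.vertIso hw he hn hlev
  have e1 : e ((1 : GL (Fin 2) K) : LT.Vert (∅ : Set (Place K)) v)
      = ((1 : GL (Fin 2) L) : LT.Vert (∅ : Set (Place L)) w) := by
    rw [Split.vertIso_apply, LT.Vert.fmap_mk, map_one]
  refine ⟨Split.deg q hw he hn hlev, fun g hg x => Split.deg_smul q hw he hn hlev hg x,
    fun x => q.degAt_mem _, ?_, fun g₀ δ c hgood hN hlev' x hx hfix => ?_⟩
  · rw [Split.deg, LT.OverPt.base, ← e1, Equiv.symm_apply_apply, q.degAt_one ⟨hD, h2⟩]
  have hS := stable_empty (σ := σ)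
  -- a fixed point is carried around the three places above `v`
  have hp1 := hfix ⟨w, hw⟩
  have hp2 := hfix ⟨_, hw2⟩
  have hp3 := hfix ⟨_, hw3⟩
  rw [x.prev_eq hS (u := ⟨_, hw3⟩) (w := ⟨w, hw⟩) (hc.mapPlace_three w)] at hp1
  rw [x.prev_eq hS (u := ⟨w, hw⟩) (w := ⟨_, hw2⟩) rfl] at hp2
  rw [x.prev_eq hS (u := ⟨_, hw2⟩) (w := ⟨_, hw3⟩) rfl] at hp3
  set a := e.symm (x ⟨w, hw⟩)
  -- so `g₀` fixes the point read on `K`, which is then the base point
  have hga : g₀ • a = a := by
    have h4 : twistN (σ : L ≃+* L) δ • x ⟨w, hw⟩ = x ⟨w, hw⟩ := by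
      conv_rhs => rw [hp1, hp3, hp2]
      simp only [LT.Vert.amap_smul, twistN, mul_smul, amap_cycle hc hS]
    rw [hN, mul_smul, LT.scal_smul_vert] at h4
    conv_rhs => rw [show a = e.symm (x ⟨w, hw⟩) from rfl, ← h4, Split.vertIso_symm_smul]
  have hbase : a = ((1 : GL (Fin 2) K) : LT.Vert (∅ : Set (Place K)) v) :=
    LT.QDat.eq_base_of_fix (Set.notMem_empty v) ⟨hD, h2⟩ hgood hx hga
  have hx1 : x ⟨w, hw⟩ = ((1 : GL (Fin 2) L) : LT.Vert (∅ : Set (Place L)) w) := by
    rw [← e1, ← hbase]; exact (e.apply_symm_apply _).symm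
  have hone : ∀ u : placesOver K L v, δ • ((1 : GL (Fin 2) L) : LT.Vert (∅ : Set (Place L)) u.1)
      = ((1 : GL (Fin 2) L) : LT.Vert (∅ : Set (Place L)) u.1) := fun u =>
    LT.smul_base_eq_of_mem (hlev' u)
  rw [hx1, LT.Vert.amap_mk, map_one, hone ⟨_, hw2⟩] at hp2
  rw [hp2, LT.Vert.amap_mk, map_one, hone ⟨_, hw3⟩] at hp3
  -- hence the point is the base point at each of the three places
  funext ⟨u, hu⟩
  rcases hc.eq_or_eq_mapPlace hw hu with rfl | rfl | rfl
  exacts [hx1, hp2, hp3]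

/-- Good degrees exist at an unramified place away from three. -/
lemma exists_goodDeg₀ (h3 : v.valuation K 3 = 1) (hur : v ∉ ramSet K L) :
    ∃ d, GoodDeg₀ σ q v d := by
  obtain ⟨w, hw⟩ := exists_liesOver (L := L) v
  rcases hc.trichotomy hw with ⟨-, he, hn, hmv⟩ | ⟨-, hσ, ⟨he, -⟩ | ⟨he, -⟩⟩
  · exact exists_goodDeg₀_split hc q hD h2 hw he hn hmv
  · exact absurd ((hc.mem_ramSet_iff hw).2 he) hur
  · exact exists_goodDeg₀_inert hc q hD h2 h3 hw hσ he

/-- **A degree at a good place.** At a good place outside the level some degree has the base as its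
only family of trivial degree fixed by an integral twist with `GoodPt` norm. -/
theorem exists_goodDeg {SL : Lev L} (hS : Stable (σ : L ≃+* L) SL) (h3 : v.valuation K 3 = 1)
    (hur : v ∉ ramSet K L) (hv : ∀ w : placesOver K L v, w.1 ∉ SL) :
    ∃ d : OverPt K SL v → q.Γ v, IsOverDeg q d ∧ d OverPt.base = q.one v ∧
      ∀ (g₀ : GL (Fin 2) K) (δ : GL (Fin 2) L) (c : Lˣ), GoodPt q v g₀ →
        twistN (σ : L ≃+* L) δ = scal c * iGL K L g₀ → (∀ w : placesOver K L v, δ ∈ lev SL w.1) →
        ∀ x, d x = q.one v → (∀ w, x w = δ • x.prev hS w) → x = OverPt.base := by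
  obtain ⟨d, hd1, hd2, hd3, hd4⟩ := exists_goodDeg₀ hc q hD h2 h3 hur
  refine ⟨fun x => d (OverPt.down x), ⟨fun g hg x => ?_, fun x => hd2 _⟩, ?_,
    fun g₀ δ c hgood hN hlev x hx hfix => OverPt.down_injective hv ?_⟩
  · rw [OverPt.down_smul, hd1 g hg]
  · exact hd3
  refine hd4 g₀ δ c hgood hN (fun w => ?_) _ hx fun w => ?_
  · rw [LT.lev_of_not_mem (Set.notMem_empty _)]
    exact lev_le_U0 SL w.1 (hlev w)
  · change Vert.down (x w) = _
    rw [hfix w, Vert.down_smul]
    congr 1
    exact Vert.down_amap hS stable_empty _ _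

end Fermat.LTG
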