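import Fermat.Agent.LTG.EllOver

/-!
# The interface of the local comparison for the elliptic parts

`LocMatch`: equal fibre sums for every degree and, where one place lies over `v`, non-vanishing only
at local norms.  `EllPair`: matching at every place and composite kernels at the infinite places.
-/

set_option autoImplicit false
open Set
open scoped Matrix

namespace Fermat.LTG

open Fermat.LT

variable {K L : Type} [Field K] [NumberField K] [Field L] [NumberField L] [Algebra K L]
  {SK : Lev K} {SL : Lev L} {σ : L ≃ₐ[K] L}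

/-- Matching of the kernels over `v` with the kernel at `v`. -/
structure LocMatch (hS : Stable (σ : L ≃+* L) SL) (v : Place K) (PL : ∀ w : Place L, LKer SL w)
    (kK : LKer SK v) : Prop where
  /-- For every degree the fibre sum at trivial degree is finite and equals that of the kernel at
  `v`. -/
  sum : ∀ (q : QDat K) {g₀ : GL (Fin 2) K} {δ : GL (Fin 2) L} {c : Lˣ}, TReg q.D g₀ →
    δ ∈ tTor (algebraMap K L q.D) → twistN (σ : L ≃+* L) δ = scal c * iGL K L g₀ →
    ∀ d : OverPt K SL v → q.Γ v, IsOverDeg q d →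
      {x | d x = q.one v ∧ OverPt.val hS PL δ x ≠ 0}.Finite ∧
      ∑' x : {x // d x = q.one v}, OverPt.val hS PL δ x.1
        = ∑' a : {a : Vert SK v // degK q a = q.one v}, kK a.1 (g₀ • a.1)
  /-- When one place lies over `v` the sum at `v` is nonzero only at local norms. -/
  norm : (placesOver K L v).ncard = 1 →
    ∀ (q : QDat K) {g₀ : GL (Fin 2) K} {a₀ b₀ : K}, TReg q.D g₀ →
    (g₀ : Matrix (Fin 2) (Fin 2) K) = tmat q.D a₀ b₀ →
    ∑' a : {a : Vert SK v // degK q a = q.one v}, kK a.1 (g₀ • a.1) ≠ 0 →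
    IsLocNorm K L σ v q.D a₀ b₀

omit [NumberField L] in
/-- A torus class of the small field commutes with the torus of the large one. -/
lemma tTor_comm_T {q : QDat K} {δ : GL (Fin 2) L} (hδ : δ ∈ tTor (algebraMap K L q.D)) (t : q.T) :
    ∃ h : GL (Fin 2) K, ((h : PG K) = (t : PG K)) ∧ Commute δ (iGL K L h) := by
  obtain ⟨h, hh, e⟩ := t.2
  refine ⟨h, e, tTor_comm hδ ?_⟩
  obtain ⟨a, b, e'⟩ := hh
  exact ⟨_, _, iGL_tmat e'⟩

/-- Matching from one degree. -/
theorem LocMatch.of_exists (hS : Stable (σ : L ≃+* L) SL) (v : Place K)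
    (PL : ∀ w : Place L, LKer SL w) (kK : LKer SK v)
    (hsum : ∀ (q : QDat K) {g₀ : GL (Fin 2) K} {δ : GL (Fin 2) L} {c : Lˣ}, TReg q.D g₀ →
      δ ∈ tTor (algebraMap K L q.D) → twistN (σ : L ≃+* L) δ = scal c * iGL K L g₀ →
      ∃ d : OverPt K SL v → q.Γ v, IsOverDeg q d ∧
        {x | d x = q.one v ∧ OverPt.val hS PL δ x ≠ 0}.Finite ∧
        ∑' x : {x // d x = q.one v}, OverPt.val hS PL δ x.1
          = ∑' a : {a : Vert SK v // degK q a = q.one v}, kK a.1 (g₀ • a.1))
    (hnorm : (placesOver K L v).ncard = 1 → ∀ (q : QDat K) {g₀ : GL (Fin 2) K} {a₀ b₀ : K},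
      TReg q.D g₀ → (g₀ : Matrix (Fin 2) (Fin 2) K) = tmat q.D a₀ b₀ →
      ∑' a : {a : Vert SK v // degK q a = q.one v}, kK a.1 (g₀ • a.1) ≠ 0 →
      IsLocNorm K L σ v q.D a₀ b₀) : LocMatch hS v PL kK := by
  refine ⟨fun q g₀ δ c hg hδ hN d hd => ?_, hnorm⟩
  obtain ⟨d₀, hd₀, hfin, hs⟩ := hsum q hg hδ hN
  obtain ⟨e, he⟩ := hd₀.transfer hd (f := fun x => OverPt.val hS PL δ x) fun t x => by
    obtain ⟨h, eh, hcomm⟩ := tTor_comm_T hδ t
    rw [← eh]
    exact OverPt.val_smul hS PL hcomm x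
  refine ⟨?_, ?_⟩
  · have hfin' : {x : {x // d₀ x = q.one v} | OverPt.val hS PL δ x.1 ≠ 0}.Finite :=
      (hfin.preimage Subtype.val_injective.injOn).subset fun x hx => ⟨x.2, hx⟩
    refine ((hfin'.image fun x => (e x).1)).subset fun x hx => ⟨e.symm ⟨x, hx.1⟩, ?_, by simp⟩
    have h := hx.2
    rw [show x = (e (e.symm ⟨x, hx.1⟩)).1 by simp, he] at h
    exact h
  · rw [← hs, ← e.tsum_eq]
    exact tsum_congr he

/-- **The hypothesis of the elliptic comparison.** -/
structure EllPair (hS : Stable (σ : L ≃+* L) SL) (PK : PKer K SK) (PL : PKer L SL) : Prop where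
  /-- The local kernels match at every place. -/
  loc : ∀ v, LocMatch hS v PL.loc (PK.loc v)
  /-- The kernel at an infinite place is the composite of the three kernels over it. -/
  arch : ∀ u, PK.arch u = (PL.arch (plAbove L u)).comp
    ((PL.arch (σ • plAbove L u)).comp (PL.arch (σ • σ • plAbove L u)))

end Fermat.LTG
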