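import Fermat.Agent.LTG.EllBase

/-!
# Cosets at all places over a place, and their degrees

A torus element of the small field fixing a coset is a unit of the order, so equivariant degrees
exist at every place; fibre sums of invariant functions do not depend on the degree.
-/

set_option autoImplicit false
open Filter Set
open scoped Classical Matrix

namespace Fermat.LTG

open Fermat.LT

variable {K L : Type} [Field K] [NumberField K] [Field L] [NumberField L] [Algebra K L]
  {SL : Lev L} {v : Place K}

variable (K) in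
/-- Cosets at the places over `v`. -/
def OverPt (SL : Lev L) (v : Place K) : Type _ := ∀ w : placesOver K L v, Vert SL w.1

/-- `PGL₂(K)` acts diagonally on the cosets over a place. -/
noncomputable instance instMulActionOverPt (SL : Lev L) (v : Place K) :
    MulAction (PG K) (OverPt K SL v) where
  smul γ x := fun w => PG.iMap K L γ • x w
  one_smul x := funext fun w => by
    change PG.iMap K L 1 • x w = x w
    rw [map_one, one_smul]
  mul_smul γ δ x := funext fun w => by
    change PG.iMap K L (γ * δ) • x w = PG.iMap K L γ • (PG.iMap K L δ • x w)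
    rw [map_mul, mul_smul]

omit [NumberField K] in
/-- The action is componentwise. -/
lemma OverPt.smul_apply (g : GL (Fin 2) K) (x : OverPt K SL v) (w : placesOver K L v) :
    ((g : PG K) • x) w = iGL K L g • x w := rfl

/-- The family of base cosets at the places over `v`. -/
noncomputable def OverPt.base : OverPt K SL v := fun w => ((1 : GL (Fin 2) L) : Vert SL w.1)

/-- The action of an automorphism on local cosets is semilinear. -/
lemma Vert.amap_smul {τ : L ≃+* L} (hS : Stable τ SL) {u u' : Place L} (hu : mapPlace τ u = u')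
    (g : GL (Fin 2) L) (a : Vert SL u) :
    Vert.amap hS hu (g • a) = mapGL τ g • Vert.amap hS hu a := by
  obtain ⟨h, rfl⟩ := QuotientGroup.mk_surjective a
  rw [MulAction.Quotient.smul_coe, Vert.amap_mk, Vert.amap_mk,
    MulAction.Quotient.smul_coe, smul_eq_mul, smul_eq_mul, map_mul]

variable {σ : L ≃ₐ[K] L} (hS : Stable (σ : L ≃+* L) SL)

/-- The image of the previous component. -/
noncomputable def OverPt.prev (x : OverPt K SL v) (w : placesOver K L v) : Vert SL w.1 :=
  Vert.amap hS ((mapPlace (σ : L ≃+* L)).apply_symm_apply w.1)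
    (x ⟨(mapPlace (σ : L ≃+* L)).symm w.1, liesOver_symm w.2⟩)

omit [NumberField K] in
/-- At `w = σ u` the previous component is the image of the component at `u`. -/
lemma OverPt.prev_eq (x : OverPt K SL v) {u w : placesOver K L v}
    (hu : mapPlace (σ : L ≃+* L) u.1 = w.1) : x.prev hS w = Vert.amap hS hu (x u) := by
  obtain ⟨u, hu'⟩ := u
  obtain ⟨w, hw'⟩ := w
  obtain rfl : u = (mapPlace (σ : L ≃+* L)).symm w := ((mapPlace _).symm_apply_eq.2 hu.symm).symm
  rfl

/-- The product of the kernels over `v` at a twisted translate. -/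
noncomputable def OverPt.val (P : ∀ w : Place L, LKer SL w) (δ : GL (Fin 2) L)
    (x : OverPt K SL v) : ℂ := ∏ᶠ w : placesOver K L v, P w.1 (x w) (δ • x.prev hS w)

omit [NumberField K] in
/-- The product over `v` is invariant under translation by elements of `GL₂(K)` commuting with
`δ`. -/
lemma OverPt.val_smul (P : ∀ w : Place L, LKer SL w) {δ : GL (Fin 2) L} {g : GL (Fin 2) K}
    (h : Commute δ (iGL K L g)) (x : OverPt K SL v) :
    OverPt.val hS P δ ((g : PG K) • x) = OverPt.val hS P δ x := by
  refine finprod_congr fun w => ?_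
  have e : ((g : PG K) • x : OverPt K SL v).prev hS w = iGL K L g • x.prev hS w := by
    rw [OverPt.prev, OverPt.smul_apply, Vert.amap_smul, mapGL_iGL]
    rfl
  rw [OverPt.smul_apply, e, ← mul_smul, h.eq, mul_smul, (P w.1).invariant]

/-- The family of the cosets of trivial level below a family. -/
noncomputable def OverPt.down (x : OverPt K SL v) : LT.OverPt K (∅ : Set (Place L)) v :=
  fun w => Vert.down (x w)

omit [NumberField K] in
/-- The map to vertices over `v` is equivariant. -/
lemma OverPt.down_smul (g : GL (Fin 2) K) (x : OverPt K SL v) :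
    OverPt.down ((g : PG K) • x) = (g : PG K) • OverPt.down x :=
  funext fun w => by
    change Vert.down (((g : PG K) • x) w) = _
    rw [OverPt.smul_apply, Vert.down_smul]
    rfl

omit [NumberField K] in
/-- Off the level a family of cosets is determined by its vertices. -/
lemma OverPt.down_injective (hv : ∀ w : placesOver K L v, w.1 ∉ SL) :
    Function.Injective (OverPt.down (SL := SL) (v := v)) := fun _ _ e =>
  funext fun w => Vert.down_injective (hv w) (congrFun e w)

/-- An equivariant degree on the cosets over `v`. -/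
structure IsOverDeg (q : QDat K) (d : OverPt K SL v → q.Γ v) : Prop where
  /-- The degree is equivariant for the torus. -/
  smul : ∀ g ∈ tTor q.D, ∀ x, d ((g : PG K) • x) = (g : PG K) • d x
  /-- Every degree is a translate of the trivial one by the torus. -/
  mem : ∀ x, ∃ t : q.T, d x = t • q.one v

/-- An equivariant degree commutes with the torus. -/
lemma IsOverDeg.smul_T {q : QDat K} {d : OverPt K SL v → q.Γ v} (hd : IsOverDeg q d) (t : q.T)
    (x : OverPt K SL v) : d ((t : PG K) • x) = t • d x := by
  obtain ⟨γ, g, hg, rfl⟩ := t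
  exact hd.smul g hg x

/-- An equivariant degree takes the standard value. -/
lemma IsOverDeg.exists_one {q : QDat K} {d : OverPt K SL v → q.Γ v} (hd : IsOverDeg q d) :
    ∃ x, d x = q.one v := by
  obtain ⟨t, ht⟩ := hd.mem OverPt.base
  exact ⟨((t⁻¹ : q.T) : PG K) • OverPt.base, by rw [hd.smul_T, ht, inv_smul_smul]⟩

/-- **Fibre sums do not depend on the degree.** -/
theorem IsOverDeg.transfer {q : QDat K} {d d' : OverPt K SL v → q.Γ v} (hd : IsOverDeg q d)
    (hd' : IsOverDeg q d') {f : OverPt K SL v → ℂ} (hf : ∀ (t : q.T) x, f ((t : PG K) • x) = f x) :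
    ∃ e : {x // d x = q.one v} ≃ {x // d' x = q.one v}, ∀ x, f (e x).1 = f x.1 := by
  let C : OverPt K SL v → Set q.T := fun x => {g | g • d' x = d x}
  have hne : ∀ x, (C x).Nonempty := fun x => by
    obtain ⟨a, ea⟩ := hd.mem x
    obtain ⟨b, eb⟩ := hd'.mem x
    exact ⟨a * b⁻¹, by change _ • _ = _; rw [eb, ea, smul_smul, inv_mul_cancel_right]⟩
  let sh : Set q.T → q.T := fun s => if h : s.Nonempty then h.some else 1
  have hsh : ∀ x, sh (C x) • d' x = d x := fun x => by
    have := (hne x).some_mem
    simp only [sh, dif_pos (hne x)]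
    exact this
  have hinv : ∀ (t : q.T) x, C ((t : PG K) • x) = C x := fun t x => by
    ext g
    change g • d' _ = d _ ↔ g • d' x = d x
    rw [hd.smul_T, hd'.smul_T, smul_smul, q.T_comm g t, ← smul_smul, smul_left_cancel_iff]
  refine ⟨{
    toFun := fun x => ⟨((sh (C x.1) : q.T) : PG K) • x.1, ?_⟩
    invFun := fun y => ⟨(((sh (C y.1))⁻¹ : q.T) : PG K) • y.1, ?_⟩
    left_inv := fun x => Subtype.ext ?_
    right_inv := fun y => Subtype.ext ?_ }, fun x => hf _ _⟩
  · rw [hd'.smul_T, hsh, x.2]
  · rw [hd.smul_T, inv_smul_eq_iff]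
    exact (hsh y.1).symm.trans (congrArg _ y.2)
  · dsimp only
    rw [hinv, Subgroup.coe_inv, inv_smul_smul]
  · dsimp only
    rw [hinv, Subgroup.coe_inv, smul_inv_smul]

/-! ### units of the order -/

omit hS in
/-- A torus element with integral trace and unit determinant is a unit of the order. -/
lemma mem_U_of_integral (q : QDat K) {h : GL (Fin 2) K} (hh : h ∈ tTor q.D) (c : Kˣ)
    (htr : v.valuation K ((c : K) * (h : Matrix (Fin 2) (Fin 2) K).trace) ≤ 1)
    (hdet : v.valuation K ((c : K) * c * (h : Matrix (Fin 2) (Fin 2) K).det) = 1) : h ∈ q.U v := by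
  set Q := (q.ord' v).Q
  set k := q.φ v h
  obtain ⟨a, b, hab⟩ := q.φ_mem (v := v) hh
  have hk : ((scal c * k : GL (Fin 2) K) : Matrix (Fin 2) (Fin 2) K) = Q.mat (c * a) (c * b) := by
    rw [Units.val_mul, scal_coe, hab]
    ext i j
    fin_cases i <;> fin_cases j <;> simp [Q, QA.mat] <;> ring
  have htr' : (k : Matrix (Fin 2) (Fin 2) K).trace = (h : Matrix (Fin 2) (Fin 2) K).trace := by
    simp only [k, QDat.φ_apply, Units.val_mul, Matrix.trace_units_conj]
  have hdet' : (k : Matrix (Fin 2) (Fin 2) K).det = (h : Matrix (Fin 2) (Fin 2) K).det := by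
    simp only [k, QDat.φ_apply, Units.val_mul, Matrix.det_units_conj]
  set A := (c : K) * a
  set B := (c : K) * b
  -- trace and determinant in the coordinates `A`, `B`
  have htrAB : v.valuation K (2 * A + Q.t * B) ≤ 1 := by
    rwa [← htr', hab, show ((c : K) * (Q.mat a b).trace) = 2 * A + Q.t * B by
      simp [Q, A, B, QA.mat, Matrix.trace_fin_two_of]; ring] at htr
  have hnm : v.valuation K (Q.nm A B) = 1 := by
    rwa [← hdet', hab, QA.det_mat, show (c : K) * c * Q.nm a b = Q.nm A B by
      simp [Q, A, B, QA.nm]; ring] at hdet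
  -- `B` is integral by maximality
  have hB : v.valuation K B ≤ 1 := not_lt.1 fun hB => by
    have hB0 : B ≠ 0 := fun e => by simp [e] at hB
    set r := -(A / B)
    have h1 : v.valuation K (Q.t - 2 * r) < 1 := by
      rw [show Q.t - 2 * r = (2 * A + Q.t * B) / B by simp [r]; field_simp; ring, map_div₀]
      exact lt_of_le_of_lt (div_le_div_of_nonneg_right htrAB zero_le)
        (by rw [one_div]; exact inv_lt_one_of_one_lt₀ hB)
    have e : r * r - Q.t * r + Q.n = Q.nm A B / (B * B) := by
      simp [r, QA.nm]; field_simp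
    have h2 : v.valuation K (r * r - Q.t * r + Q.n) < WithZero.exp (-1 : ℤ) := by
      rw [e, map_div₀, hnm, map_mul, one_div]
      set m := WithZero.log (v.valuation K B)
      have hm : v.valuation K B = WithZero.exp m :=
        (WithZero.exp_log ((v.valuation K).ne_zero_iff.2 hB0)).symm
      have : 0 < m := by rwa [hm, ← WithZero.exp_zero, WithZero.exp_lt_exp] at hB
      rw [hm, ← WithZero.exp_add, ← WithZero.exp_neg, WithZero.exp_lt_exp]
      omega
    refine absurd (Q.maximal r ?_ h1) (not_le.2 h2)
    by_contra hr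
    rw [not_le] at hr
    refine absurd h2 (not_lt.2 ?_)
    have h3 : v.valuation K (r * r - Q.t * r + Q.n) = v.valuation K (r * r) := by
      rw [show r * r - Q.t * r + Q.n = r * r +
        (Q.n - Q.t * r) by ring, Valuation.map_add_eq_of_lt_left]
      refine lt_of_le_of_lt (Valuation.map_sub _ _ _) (max_lt (lt_of_le_of_lt Q.hn ?_) ?_)
      · rw [map_mul]; exact one_lt_mul_of_lt_of_le' hr hr.le
      · rw [map_mul, map_mul]
        refine lt_of_le_of_lt (mul_le_mul_of_nonneg_right Q.ht zero_le) ?_
        rw [one_mul]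
        exact lt_mul_of_one_lt_left (zero_lt_one.trans hr) hr
    rw [h3, map_mul]
    refine le_trans ?_ (one_lt_mul_of_lt_of_le' hr hr.le).le
    rw [← WithZero.exp_zero, WithZero.exp_le_exp]; omega
  -- then so is `A`
  have hA : v.valuation K A ≤ 1 := not_lt.1 fun hA => by
    have h3 : v.valuation K (Q.nm A B) = v.valuation K (A * A) := by
      rw [QA.nm, show A * A + Q.t * A * B + Q.n * B * B = A * A +
        (Q.t * A * B + Q.n * B * B) by ring, Valuation.map_add_eq_of_lt_left]
      refine lt_of_le_of_lt (Valuation.map_add _ _ _) (max_lt ?_ ?_) <;> simp only [map_mul]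
      · refine lt_of_le_of_lt (mul_le_mul (mul_le_of_le_one_left' Q.ht) hB zero_le zero_le) ?_
        rw [mul_one]
        exact lt_mul_of_one_lt_left (zero_lt_one.trans hA) hA
      · exact lt_of_le_of_lt (mul_le_one' (mul_le_one' Q.hn hB) hB)
          (one_lt_mul_of_lt_of_le' hA hA.le)
    rw [h3, map_mul] at hnm
    exact absurd hnm (one_lt_mul_of_lt_of_le' hA hA.le).ne'
  exact ⟨hh, ⟨c, A, B, hA, hB, hnm, hk⟩⟩

omit hS in
/-- A torus element of the small field fixing a coset above `v` is a unit at `v`. -/
lemma mem_U_of_fix (hc : Cyc3 K L σ) (q : QDat K) {w : Place L} (hw : LiesOver K L w v)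
    {h : GL (Fin 2) K} (hh : h ∈ tTor q.D) {a : Vert SL w} (hfix : iGL K L h • a = a) :
    h ∈ q.U v := by
  obtain ⟨x, rfl⟩ := QuotientGroup.mk_surjective a
  rw [MulAction.Quotient.smul_coe, smul_eq_mul, eq_comm, QuotientGroup.eq] at hfix
  obtain ⟨c, hcm, -⟩ := hfix
  set H := (h : Matrix (Fin 2) (Fin 2) K)
  set X := x⁻¹ * (iGL K L h * x)
  -- trace and determinant of the conjugate are those of `h`
  have htrX : (X : Matrix (Fin 2) (Fin 2) L).trace = algebraMap K L H.trace := by
    simp only [X, Units.val_mul, ← Matrix.mul_assoc, Matrix.trace_units_conj', coe_iGL]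
    simp [H, Matrix.trace_fin_two]
  have hdetX : (X : Matrix (Fin 2) (Fin 2) L).det = algebraMap K L H.det := by
    simp only [X, Units.val_mul, ← Matrix.mul_assoc, Matrix.det_units_conj', coe_iGL]
    exact (RingHom.map_det (algebraMap K L) H).symm
  have hint := fun i j => v_entry_le_one (w.valuation L) hcm i j
  have hdet : w.valuation L ((c : L) * c * algebraMap K L H.det) = 1 := by
    obtain ⟨k0, hk0⟩ := hcm
    have hu : IsUnit (k0 : Matrix (Fin 2) (Fin 2) (w.valuation L).integer).det :=
      (Matrix.isUnit_iff_isUnit_det _).1 k0.isUnit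
    refine Eq.trans (congrArg _ ?_)
      ((Valuation.integer.integers (w.valuation L)).isUnit_iff_valuation_eq_one.1 hu)
    rw [← hdetX]
    refine Eq.trans ?_ (RingHom.map_det (w.valuation L).integer.subtype _).symm
    rw [show ((w.valuation L).integer.subtype.mapMatrix (k0 : Matrix _ _ _))
      = ((scal c * X : GL (Fin 2) L) : Matrix (Fin 2) (Fin 2) L) from
      congrArg (fun g : GL (Fin 2) L => (g : Matrix (Fin 2) (Fin 2) L)) hk0,
        Units.val_mul (scal c) X,
      Matrix.det_mul, scal_coe]
    simp [Matrix.det_fin_two, pow_two]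
  have htr : w.valuation L ((c : L) * algebraMap K L H.trace) ≤ 1 := by
    rw [← htrX, Matrix.trace_fin_two, mul_add]
    refine (Valuation.map_add _ _ _).trans (max_le ?_ ?_)
    · simpa [Units.val_mul, scal_coe] using hint 0 0
    · simpa [Units.val_mul, scal_coe] using hint 1 1
  have hH0 : H.det ≠ 0 := (Matrix.GeneralLinearGroup.det h).ne_zero
  set e : ℤ := (ramE v w : ℤ)
  -- the ramification index is odd
  obtain ⟨j, hj⟩ : ∃ j : ℤ, e = 2 * j + 1 := by
    rcases hc.trichotomy hw with ⟨-, he, -⟩ | ⟨-, -, ⟨he, -⟩ | ⟨he, -⟩⟩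
    exacts [⟨0, by omega⟩, ⟨1, by omega⟩, ⟨0, by omega⟩]
  have hι : ∀ (y : K) (m : ℤ), v.valuation K y = WithZero.exp m →
      w.valuation L (algebraMap K L y) = WithZero.exp (e * m) := fun y m hy => by
    rw [hw.valuation_algebraMap, hy, ← WithZero.exp_nsmul, nsmul_eq_mul]
  obtain ⟨m, hm⟩ : ∃ m, v.valuation K H.det = WithZero.exp m :=
    ⟨_, (WithZero.exp_log ((v.valuation K).ne_zero_iff.2 hH0)).symm⟩
  obtain ⟨l, hl⟩ : ∃ l, w.valuation L (c : L) = WithZero.exp l :=
    ⟨_, (WithZero.exp_log ((w.valuation L).ne_zero_iff.2 c.ne_zero)).symm⟩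
  rw [map_mul, map_mul, hl, hι _ m hm, ← WithZero.exp_add, ← WithZero.exp_add, ← WithZero.exp_zero,
    WithZero.exp_inj, hj] at hdet
  -- so the order of the determinant is even: rescale by `c₀`
  set k : ℤ := -(l + j * m)
  have hk : m = 2 * k := by
    have : (2 * j + 1) * m = 2 * (j * m) + m := by ring
    omega
  have hu0 : unifAt v ≠ 0 := fun e => WithZero.exp_ne_zero (by rw [← unifAt_spec v, e, map_zero])
  set c₀ : Kˣ := Units.mk0 (unifAt v ^ k) (zpow_ne_zero _ hu0)
  have hc₀ : v.valuation K (c₀ : K) = WithZero.exp (-k) := by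
    simp [c₀, map_zpow₀, unifAt_spec, ← WithZero.exp_zsmul]
  refine mem_U_of_integral q hh c₀ ?_ ?_
  · have h1 : w.valuation L (algebraMap K L (c₀ : K)) = w.valuation L (c : L) := by
      rw [hι _ _ hc₀, hl, WithZero.exp_inj, hj]
      have : (2 * j + 1) * -k = -(j * (2 * k)) - k := by ring
      rw [this, ← hk]; omega
    refine (pow_le_one_iff hw.ramE_ne_zero).1 ?_
    rw [← hw.valuation_algebraMap]
    refine le_of_eq_of_le ?_ htr
    simp only [map_mul, h1]
    rfl
  · rw [map_mul, map_mul, hc₀, hm, ← WithZero.exp_add, ← WithZero.exp_add, ← WithZero.exp_zero,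
      WithZero.exp_inj]
    omega

omit hS in
/-- **Degrees exist at every place.** The cosets at all places over any place carry a degree for the
torus of `q`. -/
theorem exists_overDeg (hc : Cyc3 K L σ) (q : QDat K) (SL : Lev L) (v : Place K) :
    ∃ d : OverPt K SL v → q.Γ v, IsOverDeg q d := by
  obtain ⟨w, hw⟩ := exists_liesOver (L := L) v
  let rep : OverPt K SL v → OverPt K SL v :=
    fun x => (Quotient.mk (MulAction.orbitRel q.T (OverPt K SL v)) x).out
  have hrep : ∀ x, ∃ t : q.T, x = t • rep x := fun x => by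
    have h := (MulAction.orbitRel q.T (OverPt K SL v)).symm (Quotient.mk_out x)
    exact ⟨h.choose, h.choose_spec.symm⟩
  choose tf htf using hrep
  have hstab : ∀ (t : q.T) (x : OverPt K SL v), t • x = x → t • q.one v = q.one v := by
    rintro ⟨γ, g, hg, rfl⟩ x hx
    have h := congrFun hx ⟨w, hw⟩
    have hU : g ∈ q.U v :=
      mem_U_of_fix hc q hw hg (a := x ⟨w, hw⟩) (by simpa [OverPt.smul_apply] using h)
    change ((g : PG K) • q.one v : q.Γ v) = q.one v
    rw [QDat.one, MulAction.Quotient.smul_coe, QuotientGroup.eq, smul_eq_mul, mul_one, mul_one,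
      Subgroup.inv_mem_iff, q.mem_Ub_iff]
    exact hU
  have key : ∀ (s t : q.T) (x : OverPt K SL v), s • x = t • x → s • q.one v = t • q.one v :=
      fun s t x e => by
    rw [← inv_smul_eq_iff, smul_smul]
    exact hstab _ x (by rw [← smul_smul, e, inv_smul_smul])
  refine ⟨fun x => tf x • q.one v, fun g hg x => ?_, fun x => ⟨tf x, rfl⟩⟩
  set γ : q.T := ⟨(g : PG K), g, hg, rfl⟩
  change tf (γ • x) • q.one v = γ • (tf x • q.one v)
  have hr : rep (γ • x) = rep x := by
    simp only [rep]
    exact congrArg Quotient.out (Quotient.sound ⟨γ, rfl⟩)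
  rw [smul_smul]
  refine key _ _ (rep x) ?_
  rw [← smul_smul, ← htf x]
  conv_lhs => rw [← hr, ← htf (γ • x)]

end Fermat.LTG
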