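import Fermat.Agent.LT.EllSum
import Fermat.Agent.LTG.EllBase
import Fermat.Agent.LTG.Domain

/-!
# Torus integrals on the point space

`torus_integral`: for a commutative group with degrees the integral over a domain is a product of
local sums.
-/

set_option autoImplicit false
open NumberField MeasureTheory Filter
open scoped Classical Pointwise

namespace Fermat.LTG

open Fermat.LT

section Fin

variable {F : Type*} [Field F] [NumberField F] {S : Lev F}

/-- The action on the finite factor. -/
noncomputable def finHom (F : Type*) [Field F] [NumberField F] (S : Lev F) :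
    PG F →* Equiv.Perm (FinPt F S) :=
  QuotientGroup.lift (scalSub F) (MulAction.toPermHom (GL (Fin 2) F) (FinPt F S))
    (fun g hg => by
      obtain ⟨c, rfl⟩ := hg
      exact Equiv.ext fun ω =>
        congrArg Prod.fst (Pt.scal_smul c (ω, fun _ => ((1 : GL (Fin 2) ℂ) : H3))))

/-- The action on finite points is componentwise. -/
lemma finHom_apply (γ : PG F) (ω : FinPt F S) (v : Place F) :
    (finHom F S γ ω).1 v = γ • ω.1 v := by
  obtain ⟨g, rfl⟩ := QuotientGroup.mk_surjective γ
  rfl

/-- The action on points, finite and infinite parts. -/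
lemma smul_pt_eq (γ : PG F) (p : Pt F S) : γ • p = (finHom F S γ p.1, infHom F γ p.2) := by
  obtain ⟨g, rfl⟩ := QuotientGroup.mk_surjective γ
  rfl

end Fin

variable {F : Type*} [Field F] [NumberField F] [IsTotallyComplex F] {S : Lev F}
  {T : Type*} [Group T] (ι : T →* PG F)

/-- The action through `ι` on points. -/
@[reducible] noncomputable def compPt : MulAction T (Pt F S) := MulAction.compHom (Pt F S) ι

omit [IsTotallyComplex F] in
/-- A domain of the image is one of the group. -/
lemma isFundamentalDomain_comp (hι : Function.Injective ι) {Z : Subgroup (PG F)}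
    (hrange : ∀ γ, γ ∈ Z ↔ ∃ t, ι t = γ) {D : Set (Pt F S)}
    (hD : IsFundamentalDomain Z D ptMeasure) :
    @IsFundamentalDomain T (Pt F S) _ (compPt (S := S) ι).toSMul _ D ptMeasure := by
  let := compPt (S := S) ι
  refine ⟨hD.nullMeasurableSet, ?_, fun t t' hne => ?_⟩
  · filter_upwards [hD.ae_covers] with p hp
    obtain ⟨⟨γ, hγ⟩, hp⟩ := hp
    obtain ⟨t, rfl⟩ := (hrange γ).1 hγ
    exact ⟨t, hp⟩
  · have h :=
      hD.aedisjoint (i := ⟨ι t, (hrange _).2 ⟨t, rfl⟩⟩) (j := ⟨ι t', (hrange _).2 ⟨t', rfl⟩⟩)
      fun e => hne (hι (congrArg Subtype.val e))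
    exact h

variable {P : Type*} {X : P → Type*} [∀ v, MulAction T (X v)] {Γ : P → Type*}
  [∀ v, MulAction T (Γ v)] {b : ∀ v, X v} {one : ∀ v, Γ v} {d : ∀ v, X v → Γ v} [Countable T]

omit [IsTotallyComplex F] in
/-- **The torus integral on points.** For a commutative group with degrees, the integral over a
fundamental domain is a sum of products of local sums times one integral over `DY`. -/
theorem torus_integral (hS : DegSys (T := T) b one d) (e : FinPt F S ≃ RProd b)
    (he : ∀ t ω v, (e (finHom F S (ι t) ω)).1 v = t • (e ω).1 v)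
    {f : ∀ v, X v → ℂ} {g : (InfinitePlace F → H3) → ℂ} (hf : ∀ v (t : T) x, f v (t • x) = f v x)
    (hg : ∀ t y, g (infHom F (ι t) y) = g y) (hfin : ∀ v, {x | d v x = one v ∧ f v x ≠ 0}.Finite)
    (hgood : ∀ᶠ v in cofinite, d v (b v) = one v ∧ ∀ x,
      d v x = one v → f v x = if x = b v then 1 else 0)
    {DY : Set (InfinitePlace F → H3)} (hDm : MeasurableSet DY)
    (hDY : @IsFundamentalDomain (degStab T one) (InfinitePlace F → H3) _
      (@Subgroup.instMulAction T _ _ (compInf ι) (degStab T one)).toSMul _ DY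
        (Measure.pi fun _ => hmeas))
    {D : Set (Pt F S)} (hD : @IsFundamentalDomain T (Pt F S) _ (compPt (S := S) ι).toSMul
      _ D ptMeasure)
    {F0 : Pt F S → ℂ} (hF : ∀ p, F0 p = (∏ᶠ v, f v ((e p.1).1 v)) * g p.2)
    (hI : IntegrableOn F0 D ptMeasure) :
    (∫ p in D, F0 p ∂ptMeasure
        = (∑' _c : orbitReps T (admissible T one), ∏ᶠ v, ∑' x : {x // d v x = one v}, f v x)
          * ∫ y in DY, g y ∂(Measure.pi fun _ => hmeas)) ∧
      ((∑' _c : orbitReps T (admissible T one), ∏ᶠ v, ∑' x : {x // d v x = one v}, f v x) ≠ 0 →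
        IntegrableOn g DY (Measure.pi fun _ => hmeas)) :=
  have : DiscreteMeasurableSpace (FinPt F S) := ⟨fun _ => trivial⟩
  torus_integral_gen ι (finHom F S) smul_pt_eq hS e he hf hg hfin hgood hDm hDY hD hF hI

end Fermat.LTG
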