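import Fermat.Agent.LTG.Operators
import Fermat.Agent.LT.SysBasis
import Fermat.Agent.LT.Spectral

/-!
# Hermitian and commuting product kernels

`IsHerm` and `LocComm` are the two properties; `val_comp_comm` gives the commutation of the
values.
-/

set_option autoImplicit false
open scoped Classical ComplexConjugate

namespace Fermat.LTG

open Fermat.LT

variable {F : Type*} [Field F] [NumberField F] {S : Lev F}

/-- A local kernel is hermitian. -/
def LKer.IsHerm {v : Place F} (l : LKer S v) : Prop := ∀ a b, l b a = conj (l a b)

/-- The identity kernel is hermitian. -/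
lemma LKer.isHerm_one (v : Place F) : (LKer.one S v).IsHerm := fun a b => by
  rw [LKer.one_apply, LKer.one_apply]
  split_ifs with h h' h' <;> simp_all

namespace PKer

/-- Hermitian product kernel. -/
structure IsHerm (K : PKer F S) : Prop where
  /-- The local kernels are hermitian. -/
  loc : ∀ v, (K.loc v).IsHerm
  /-- The infinite kernels are real. -/
  arch : ∀ w, (K.arch w).IsReal

/-- The local factors commute. -/
def LocComm (K L : PKer F S) : Prop := ∀ v, (K.loc v).comp (L.loc v) = (L.loc v).comp (K.loc v)

/-- A hermitian kernel takes conjugate values at exchanged points. -/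
lemma IsHerm.val_eq {K : PKer F S} (h : K.IsHerm) (p q : Pt F S) :
    K.val q p = conj (K.val p q) := by
  rw [val, val, map_mul, fin, fin, inf, inf, map_prod]
  congr 1
  · rw [finprod_eq_prod_of_mulSupport_subset (s := (K.mulSupport_finite p.1 q.1).toFinset ∪
      (K.mulSupport_finite q.1 p.1).toFinset) _ (fun v hv => by
        exact Finset.mem_coe.2 (Finset.mem_union_right _ ((Set.Finite.mem_toFinset _).2 hv))),
      finprod_eq_prod_of_mulSupport_subset (s := (K.mulSupport_finite p.1 q.1).toFinset ∪
      (K.mulSupport_finite q.1 p.1).toFinset) _ (fun v hv => by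
        exact Finset.mem_coe.2 (Finset.mem_union_left _ ((Set.Finite.mem_toFinset _).2 hv))),
          map_prod]
    exact Finset.prod_congr rfl fun v _ => h.loc v _ _
  · exact Finset.prod_congr rfl fun w _ => by rw [(K.arch w).symm, h.arch w]

/-- Locally commuting kernels commute. -/
lemma val_comp_comm {K L : PKer F S} (h : LocComm K L) (p q : Pt F S) :
    (K.comp L).val p q = (L.comp K).val p q := by
  rw [val, val, fin, fin, inf, inf]
  congr 1
  · exact finprod_congr fun v => by
      change (K.loc v).comp (L.loc v) _ _ = (L.loc v).comp (K.loc v) _ _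
      rw [h v]
  · exact Finset.prod_congr rfl fun w _ => AKer.comp_comm _ _ _ _

end PKer

end Fermat.LTG
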