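import Fermat.Agent.LTG.KerAct
import Fermat.Agent.LT.SphKer
import Fermat.Agent.LTG.SysBasis

/-!
# Spherical kernels at a place outside the level

`sphKer` is the kernel with values `kern q p`; `heckeT_eq_locAct` identifies `T_v` with the
adjacency kernel.
-/

set_option autoImplicit false
open Polynomial Set
open scoped Classical ComplexConjugate

namespace Fermat.LTG

open Fermat.LT

/-! ### the kernels -/

variable {F : Type*} [Field F] [NumberField F] {S : Lev F} {v : Place F}

/-- Distance on the cosets at a place (through `U0`). -/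
noncomputable def vd (a b : Vert S v) : ℕ := lvl (v.valuation F) (a.out⁻¹ * b.out)

/-- The distance of two cosets is the level of `g⁻¹ h`. -/
lemma vd_mk (g h : GL (Fin 2) F) :
    vd (g : Vert S v) (h : Vert S v) = lvl (v.valuation F) (g⁻¹ * h) := by
  obtain ⟨k, hk⟩ := QuotientGroup.mk_out_eq_mul (lev S v) g
  obtain ⟨k', hk'⟩ := QuotientGroup.mk_out_eq_mul (lev S v) h
  rw [vd, hk, hk', show (g * (k : GL (Fin 2) F))⁻¹ * (h * k') = (k : GL (Fin 2) F)⁻¹ *
    (g⁻¹ * h) * k' by group,
    lvl_mul_right _ (lev_le_U0 S v k'.2), lvl_mul_left _ ((U0 _).inv_mem (lev_le_U0 S v k.2))]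

/-- The distance is invariant. -/
lemma vd_smul (g : GL (Fin 2) F) (a b : Vert S v) : vd (g • a) (g • b) = vd a b := by
  obtain ⟨x, rfl⟩ := QuotientGroup.mk_surjective a
  obtain ⟨y, rfl⟩ := QuotientGroup.mk_surjective b
  rw [MulAction.Quotient.smul_coe, MulAction.Quotient.smul_coe, vd_mk, vd_mk]
  simp [mul_assoc]

/-- The distance is symmetric. -/
lemma vd_comm (a b : Vert S v) : vd a b = vd b a := by
  rw [vd, vd, ← lvl_inv, mul_inv_rev, inv_inv]

variable (hv : v ∉ S)
include hv

/-- At a place outside the level the cosets form a regular tree with distance `vd`. -/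
lemma exists_vtree : ∃ T : RegTree (Vert S v) (pnorm v), T.dist = vd :=
  exists_vtree_of_eq (lev_of_not_mem hv) vd vd_mk

/-- The spherical kernel with values `kern q p`. -/
noncomputable def sphKer (p : ℂ[X]) : LKer S v where
  toFun a b := kern (pnorm v) p (vd a b)
  invariant g a b := by rw [vd_smul]
  finite_row a := by
    obtain ⟨T, hT⟩ := exists_vtree hv
    refine (T.finite_ball a p.natDegree).subset fun b hb => ?_
    rw [mem_ofPred_eq, hT]
    exact not_lt.1 fun h => hb (kern_eq_zero _ p _ h)

/-- The spherical kernel through the distance. -/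
lemma sphKer_apply (p : ℂ[X]) (a b : Vert S v) : sphKer hv p a b = kern (pnorm v) p (vd a b) := rfl

/-- The spherical kernel of `1` is the identity. -/
lemma sphKer_one : sphKer (S := S) hv (1 : ℂ[X]) = LKer.one S v := by
  refine LKer.ext' fun a b => ?_
  obtain ⟨T, hT⟩ := exists_vtree hv
  rw [sphKer_apply, kern_one, LKer.one_apply, ← hT]
  simp only [T.eq_iff]

/-- The row of `T_v` is the sphere of radius one. -/
lemma mem_row_sphKer_X {a b : Vert S v} : b ∈ (sphKer hv X).row a ↔ vd a b = 1 := by
  rw [LKer.mem_row, sphKer_apply, kern_X]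
  split_ifs with h <;> simp [h]

/-- Products of polynomials are composites of kernels. -/
theorem sphKer_mul (p r : ℂ[X]) :
    (sphKer (S := S) hv p).comp (sphKer hv r) = sphKer hv (p * r) := by
  refine LKer.ext' fun a c => ?_
  obtain ⟨T, hT⟩ := exists_vtree hv
  rw [LKer.comp_apply]
  simp only [sphKer_apply, ← hT]
  exact T.finsum_kern_mul p r a c

/-- Composing with `T₁` multiplies the polynomial by `X`. -/
lemma sphKer_X_comp (p : ℂ[X]) : (sphKer (S := S) hv X).comp (sphKer hv p) = sphKer hv (X * p) :=
  sphKer_mul hv X p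

/-- The spherical kernel is additive in the polynomial. -/
lemma sphKer_add (p r : ℂ[X]) (a b : Vert S v) :
    sphKer hv (p + r) a b = sphKer hv p a b + sphKer hv r a b := by
  simp [sphKer_apply, kern]

/-- The spherical kernel is linear in the polynomial. -/
lemma sphKer_C_mul (c : ℂ) (p : ℂ[X]) (a b : Vert S v) :
    sphKer hv (Polynomial.C c * p) a b = c * sphKer hv p a b := by
  simp [sphKer_apply, kern, Module.End.mul_apply, Module.algebraMap_end_apply]

/-- Spherical kernels commute. -/
lemma sphKer_comm (p r : ℂ[X]) :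
    (sphKer (S := S) hv p).comp (sphKer hv r) = (sphKer hv r).comp (sphKer hv p) := by
  rw [sphKer_mul, sphKer_mul, mul_comm]

/-- Real spherical kernels are hermitian. -/
lemma sphKer_isHerm (p : ℝ[X]) :
    (sphKer (S := S) hv (p.map (algebraMap ℝ ℂ))).IsHerm := fun a b => by
  rw [sphKer_apply, sphKer_apply, kern_conj, vd_comm]

/-- `T_v` is the adjacency kernel. -/
lemma heckeT_eq_locAct (Φ : Pt F S → ℂ) (p : Pt F S) :
    heckeT v Φ p = locAct v (sphKer hv X) Φ p := by
  have hA : ∀ x y : Vert S v, Adj v x y ↔ vd x y = 1 := by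
    intro x y
    constructor
    · rintro ⟨g, h, rfl, rfl, hs⟩
      rw [vd_mk]; exact (isStep_iff_lvl _ _).1 hs
    · intro h
      exact ⟨x.out, y.out, (QuotientGroup.out_eq' x).symm, (QuotientGroup.out_eq' y).symm,
        (isStep_iff_lvl _ _).2 h⟩
  rw [heckeT, locAct,
    finsum_mem_eq_finite_toFinset_sum _ (((sphKer hv X).finite_row (p.1.1 v)).subset
    fun y hy => by
      rw [mem_ofPred_eq, hA] at hy
      simp [sphKer_apply, kern_X, hy])]
  refine Finset.sum_congr (Finset.ext fun y => ?_) fun y hy => ?_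
  · rw [Set.Finite.mem_toFinset, mem_ofPred_eq, hA, mem_row_sphKer_X hv]
  · rw [mem_row_sphKer_X hv] at hy
    rw [sphKer_apply, kern_X, if_pos hy, one_mul]

end Fermat.LTG
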