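import Fermat.Agent.LT.ArchTorus
import Fermat.Agent.LTG.EllMatch
import Fermat.Agent.LTG.SphKer
import Fermat.Agent.LTG.Volume

/-!
# Test kernels and the statements of the comparison of geometric sides

A `Block` fixes the levels on `K` and on `L` and, at the places of the level, a pair of kernels with
equal local sums.  A `TestData` adds polynomials at the remaining places and archimedean kernels.
Only finite linear combinations of the resulting product kernels are bounded.

`geometricStatement_of_parts` deduces the comparison `GeometricStatement` from the elliptic part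
(`Elliptic`) and the remaining one (`Hyp/Main`); `Final` passes it to the comparison of systems.
-/

set_option autoImplicit false
open NumberField MeasureTheory Polynomial Filter
open scoped Classical

namespace Fermat.LTG

open Fermat.LT

section Plain

variable {F : Type*} [Field F] [NumberField F] {S : Lev F}

namespace PKer

variable (P : PKer F S)

/-- The summed kernel restricted to a set of classes. -/
noncomputable def kapOn (C : PG F → Prop) (p q : Pt F S) : ℂ :=
  ∑' γ : PG F, if C γ then P.val p (γ • q) else 0

/-- The restricted sum converges. -/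
lemma summable_kapOn (C : PG F → Prop) (p q : Pt F S) :
    Summable fun γ : PG F => if C γ then P.val p (γ • q) else 0 :=
  summable_of_hasFiniteSupport ((P.finite_support p q).subset fun γ hγ => by
    by_contra h
    simp only [Set.mem_ofPred_eq, not_not] at h
    exact hγ (by simp [h]))

/-- The full sum minus the part on `C` is the part off `C`. -/
lemma kap_sub_kapOn (C : PG F → Prop) (p q : Pt F S) :
    P.kap p q - P.kapOn C p q = P.kapOn (fun γ => ¬ C γ) p q := by
  rw [kap, kapOn, kapOn, ← (P.summable_kap p q).tsum_sub (P.summable_kapOn C p q)]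
  refine tsum_congr fun γ => ?_
  split_ifs <;> simp

end PKer

namespace SKer

variable (P : SKer F S)

/-- The summed combination restricted to a set of classes. -/
noncomputable def kapOn (C : PG F → Prop) (p q : Pt F S) : ℂ :=
  ∑' γ : PG F, if C γ then P.val p (γ • q) else 0

/-- The restricted sum of a combination, term by term. -/
lemma kapOn_eq_sum (C : PG F → Prop) (p q : Pt F S) :
    P.kapOn C p q = ∑ i, P.coef i * (P.ker i).kapOn C p q := by
  simp only [kapOn, PKer.kapOn, ← tsum_mul_left]
  rw [← Summable.tsum_finsetSum fun i _ => ((P.ker i).summable_kapOn C p q).mul_left _]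
  refine tsum_congr fun γ => ?_
  split_ifs <;> simp [val]

/-- The full sum minus the part on `C` is the part off `C`. -/
lemma kap_sub_kapOn (C : PG F → Prop) (p q : Pt F S) :
    P.kap p q - P.kapOn C p q = P.kapOn (fun γ => ¬ C γ) p q := by
  simp only [kap_eq_sum, kapOn_eq_sum, ← Finset.sum_sub_distrib, ← mul_sub, PKer.kap_sub_kapOn]

/-- The restricted sum of a combination over a finite type. -/
lemma kapOn_ofFintype {ι : Type*} [Fintype ι] (c : ι → ℂ) (Q : ι → PKer F S) (C : PG F → Prop)
    (p q : Pt F S) : (ofFintype c Q).kapOn C p q = ∑ i, c i * (Q i).kapOn C p q := by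
  rw [kapOn_eq_sum]
  exact (Fintype.equivFin ι).symm.sum_comp fun i => c i * (Q i).kapOn C p q

end SKer

end Plain

variable {K L : Type} [Field K] [NumberField K] [Field L] [NumberField L] [Algebra K L]

variable {σ : L ≃ₐ[K] L}

variable (K L σ) in
/-- Levels and matching kernels at their places. -/
structure Block where
  /-- The level `S` on `K`. -/
  S : Lev K
  /-- The level `T` on `L`. -/
  T : Lev L
  /-- The upper level is stable under `σ`. -/
  stable : Stable (σ : L ≃+* L) T
  /-- A place is in the upper level exactly when the place below is in the lower one. -/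
  mem_iff : ∀ {v : Place K} {w : Place L}, LiesOver K L w v → (w ∈ T ↔ v ∈ S)
  /-- The ramified places lie in the level. -/
  ram_mem : ∀ v ∈ ramSet K L, v ∈ S
  /-- The places over `3` lie in the level. -/
  three_mem : ∀ v : Place K, v.valuation K 3 ≠ 1 → v ∈ S
  /-- The kernels on `K` at the level. -/
  locK : ∀ v : Place K, LKer S v
  /-- The kernels on `L` at the level. -/
  locL : ∀ w : Place L, LKer T w
  /-- The kernels match at every place of the level. -/
  matched : ∀ v, v ∈ S → LocMatch stable v locL (locK v)

/-- Test data over a block. -/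
structure TestData (B : Block K L σ) where
  /-- The polynomial in `T_w` at each place. -/
  h : Place L → ℂ[X]
  /-- The kernel at each infinite place. -/
  k : InfinitePlace L → AKer
  /-- Only finitely many polynomials differ from one. -/
  finite_h : {w | h w ≠ 1}.Finite
  /-- The polynomials are one over the level. -/
  h_level : ∀ w, w ∈ B.T → h w = 1

variable {B : Block K L σ}

/-- The place below a place outside the upper level is outside the lower one. -/
lemma below_notMem {w : Place L} (hw : w ∉ B.T) : below K w ∉ B.S := fun h =>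
  hw ((B.mem_iff (liesOver_below w)).2 h)

/-- Replace the polynomial at one place over a good place. -/
noncomputable def TestData.upd (t : TestData B) {v0 : Place K} (hv0 : v0 ∉ B.S)
    {w0 : Place L} (hw0 : LiesOver K L w0 v0) (p : ℂ[X]) : TestData B where
  h := Function.update t.h w0 p
  k := t.k
  finite_h := (t.finite_h.insert w0).subset fun w hw => by
    by_cases h : w = w0
    · exact Or.inl h
    · exact Or.inr (by simpa [Function.update_of_ne h] using hw)
  h_level w hw := by
    rw [Function.update_of_ne ?_]
    · exact t.h_level w hw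
    · rintro rfl
      exact hv0 ((B.mem_iff hw0).1 hw)

/-- The polynomial seen at a place of `K`. -/
noncomputable def TestData.bcPoly (t : TestData B) (v : Place K) : ℂ[X] :=
  ∏ᶠ w ∈ placesOver K L v, if pnorm w = pnorm v then t.h w else cubicBC (pnorm v) (t.h w)

/-- The polynomial seen on `K` is `1` at almost every place. -/
lemma TestData.finite_bcPoly (t : TestData B) : {v | t.bcPoly v ≠ 1}.Finite := by
  refine (t.finite_h.image (below K)).subset fun v hv => ?_
  by_contra hne
  refine hv (finprod_mem_of_eqOn_one fun w hw => ?_)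
  have h1 : t.h w = 1 := by_contra fun h => hne ⟨w, h, liesOver_iff_below.1 hw⟩
  simp [h1, cubicBC]

/-- The test kernel on `L`. -/
noncomputable def kerL (t : TestData B) : PKer L B.T where
  loc w := if hw : w ∈ B.T then B.locL w else sphKer hw (t.h w)
  ae_one := by
    filter_upwards [B.T.eventually_notMem, t.finite_h.compl_mem_cofinite] with w hw hw'
    rw [dif_neg hw, show t.h w = 1 by simpa using hw', sphKer_one]
  arch := t.k

variable (σ) in
/-- The test kernel on `K`. -/
noncomputable def kerK (t : TestData B) : PKer K B.S where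
  loc v := if hv : v ∈ B.S then B.locK v else sphKer hv (t.bcPoly v)
  ae_one := by
    filter_upwards [B.S.eventually_notMem, t.finite_bcPoly.compl_mem_cofinite] with v hv hv'
    rw [dif_neg hv, show t.bcPoly v = 1 by simpa using hv', sphKer_one]
  arch u := (t.k (plAbove L u)).comp ((t.k (σ • plAbove L u)).comp (t.k (σ • σ • plAbove L u)))

/-- The test kernel on `L` at the level. -/
lemma kerL_loc_mem (t : TestData B) {w : Place L} (hw : w ∈ B.T) : (kerL t).loc w = B.locL w :=
  dif_pos hw

/-- The test kernel on `L` off the level. -/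
lemma kerL_loc_sph (t : TestData B) {w : Place L} (hw : w ∉ B.T) :
    (kerL t).loc w = sphKer hw (t.h w) := dif_neg hw

/-- The test kernel on `K` at the level. -/
lemma kerK_loc_mem (t : TestData B) {v : Place K} (hv : v ∈ B.S) : (kerK σ t).loc v = B.locK v :=
  dif_pos hv

/-- The test kernel on `K` off the level. -/
lemma kerK_loc_sph (t : TestData B) {v : Place K} (hv : v ∉ B.S) :
    (kerK σ t).loc v = sphKer hv (t.bcPoly v) := dif_neg hv

section Combinations

variable {ι : Type} [Fintype ι] (c : ι → ℂ) (t : ι → TestData B)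

/-- A combination of test kernels on `L`. -/
noncomputable def sumL : SKer L B.T := SKer.ofFintype c fun i => kerL (t i)

variable (σ) in
/-- A combination of test kernels on `K`. -/
noncomputable def sumK : SKer K B.S := SKer.ofFintype c fun i => kerK σ (t i)

end Combinations

/-! ### statements -/

/-- Matching of the elliptic parts: for every product test kernel the elliptic part of the trace on
`K` equals the twisted elliptic part of the twisted trace on `L`. -/
def EllipticStatement (K L : Type) [Field K] [NumberField K] [Field L] [NumberField L]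
    [Algebra K L] : Prop :=
  ∀ (σ : L ≃ₐ[K] L) (_ : Cyc3 K L σ) (_ : IsTotallyComplex K) (_ : ∃ ζ : K, IsPrimitiveRoot ζ 3)
    (B : Block K L σ)
    (DK : Set (Pt K B.S)) (_ : IsFundamentalDomain (PG K) DK ptMeasure)
    (DL : Set (Pt L B.T)) (_ : IsFundamentalDomain (PG L) DL ptMeasure) (t : TestData B),
      IntegrableOn (fun p => (kerK σ t).kapOn PG.IsEll p p) DK ptMeasure ∧
      IntegrableOn (fun p => (kerL t).kapOn (PG.IsTwEll (σ : L ≃+* L)) p (Pt.amap B.stable p)) DL
        ptMeasure ∧
      ∫ p in DK, (kerK σ t).kapOn PG.IsEll p p ∂ptMeasure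
        = ∫ p in DL, (kerL t).kapOn (PG.IsTwEll (σ : L ≃+* L)) p (Pt.amap B.stable p) ∂ptMeasure

/-- Densities for the remaining parts: for integrable combinations, as functionals of the odd
polynomial at a split good place, the non-elliptic parts on `K` and on `L` are given by continuous
densities. -/
def HypStatement (K L : Type) [Field K] [NumberField K] [Field L] [NumberField L]
    [Algebra K L] : Prop :=
  ∀ (σ : L ≃ₐ[K] L) (_ : Cyc3 K L σ) (_ : IsTotallyComplex K) (_ : ∃ ζ : K, IsPrimitiveRoot ζ 3)
    (B : Block K L σ)
    (DK : Set (Pt K B.S)) (_ : IsFundamentalDomain (PG K) DK ptMeasure)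
    (DL : Set (Pt L B.T)) (_ : IsFundamentalDomain (PG L) DL ptMeasure)
    (v0 : Place K) (hv0 : v0 ∉ B.S) (w0 : Place L) (hw0 : LiesOver K L w0 v0),
    pnorm w0 = pnorm v0 → ∀ (ι : Type) [Fintype ι] (c : ι → ℂ) (t : ι → TestData B),
    (∀ i w, LiesOver K L w v0 → (t i).h w = 1) →
    (∀ r : ℝ[X],
      IntegrableOn (fun p => (sumK σ c fun i => (t i).upd hv0 hw0 (oddP r)).kapOn
        (fun γ => ¬ γ.IsEll) p p) DK ptMeasure ∧
      IntegrableOn (fun p => (sumL c fun i => (t i).upd hv0 hw0 (oddP r)).kapOn
        (fun γ => ¬ γ.IsTwEll (σ : L ≃+* L)) p (Pt.amap B.stable p)) DL ptMeasure) →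
    HasDensity (pnorm v0) (fun r =>
      ∫ p in DK, (sumK σ c fun i => (t i).upd hv0 hw0 (oddP r)).kapOn
        (fun γ => ¬ γ.IsEll) p p ∂ptMeasure) ∧
    HasDensity (pnorm v0) (fun r =>
      ∫ p in DL, (sumL c fun i => (t i).upd hv0 hw0 (oddP r)).kapOn
        (fun γ => ¬ γ.IsTwEll (σ : L ≃+* L)) p (Pt.amap B.stable p) ∂ptMeasure)

/-- **The geometric comparison**: the difference of the traces at odd polynomials at a split good
place is given by a continuous density. -/
def GeometricStatement (K L : Type) [Field K] [NumberField K] [Field L] [NumberField L]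
    [Algebra K L] : Prop :=
  ∀ (σ : L ≃ₐ[K] L) (_ : Cyc3 K L σ) (_ : IsTotallyComplex K) (_ : ∃ ζ : K, IsPrimitiveRoot ζ 3)
    (B : Block K L σ)
    (DK : Set (Pt K B.S)) (_ : IsFundamentalDomain (PG K) DK ptMeasure)
    (DL : Set (Pt L B.T)) (_ : IsFundamentalDomain (PG L) DL ptMeasure)
    (v0 : Place K) (hv0 : v0 ∉ B.S) (w0 : Place L) (hw0 : LiesOver K L w0 v0),
    pnorm w0 = pnorm v0 → ∀ (ι : Type) [Fintype ι] (c : ι → ℂ) (t : ι → TestData B),
    (∀ i w, LiesOver K L w v0 → (t i).h w = 1) →
    (∀ r : ℝ[X], (sumK σ c fun i => (t i).upd hv0 hw0 (oddP r)).Bdd ∧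
      (sumL c fun i => (t i).upd hv0 hw0 (oddP r)).Bdd) →
    HasDensity (pnorm v0) (fun r =>
      (∫ p in DK, (sumK σ c fun i => (t i).upd hv0 hw0 (oddP r)).kap p p ∂ptMeasure)
      - ∫ p in DL, (sumL c fun i => (t i).upd hv0 hw0 (oddP r)).kap p
        (Pt.amap B.stable p) ∂ptMeasure)

/-- The geometric comparison from its two parts. -/
theorem geometricStatement_of_parts (hE : EllipticStatement K L) (hH : HypStatement K L) :
    GeometricStatement K L := by
  intro σ hc hK hζ B DK hDK DL hDL v0 hv0 w0 hw0 hpn ι _ c t ht hB
  have : IsTotallyComplex K := hK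
  have : IsTotallyComplex L := ⟨fun w =>
    InfinitePlace.IsComplex.of_comap (algebraMap K L) (IsTotallyComplex.isComplex _)⟩
  have hint : ∀ {F : Type} [Field F] [NumberField F] [IsTotallyComplex F] {S : Lev F}
      (D : Set (Pt F S)), IsFundamentalDomain (PG F) D ptMeasure → ∀ (P : SKer F S), P.Bdd →
      ∀ φ : Pt F S → Pt F S, Measurable φ → IntegrableOn (fun p => P.kap p (φ p)) D ptMeasure := by
    intro F _ _ _ S D hD P hP φ hφ
    obtain ⟨C, hC⟩ := hP
    exact IntegrableOn.of_bound (domain_finite hD)
      ((P.measurable_kap.comp (measurable_id.prodMk hφ))).aestronglyMeasurable C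
      (Eventually.of_forall fun p => hC p _)
  set u : ℝ[X] → ι → TestData B := fun r i => (t i).upd hv0 hw0 (oddP r)
  -- the spectral parts
  have hA : ∀ r, IntegrableOn (fun p => (sumK σ c (u r)).kap p p) DK ptMeasure ∧
      IntegrableOn (fun p => (sumL c (u r)).kap p (Pt.amap B.stable p)) DL ptMeasure :=
    fun r => ⟨hint DK hDK _ (hB r).1 _ measurable_id,
      hint DL hDL _ (hB r).2 _ (measurePreserving_amap B.stable).measurable⟩
  -- the elliptic parts
  have hEs : ∀ r, IntegrableOn (fun p => (sumK σ c (u r)).kapOn PG.IsEll p p) DK ptMeasure ∧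
      IntegrableOn (fun p => (sumL c (u r)).kapOn (PG.IsTwEll (σ : L ≃+* L)) p (Pt.amap B.stable p))
        DL ptMeasure ∧
      ∫ p in DK, (sumK σ c (u r)).kapOn PG.IsEll p p ∂ptMeasure
        = ∫ p in DL, (sumL c (u r)).kapOn (PG.IsTwEll (σ : L ≃+* L)) p (Pt.amap B.stable p)
            ∂ptMeasure := by
    intro r
    have he : ∀ i, _ := fun i => hE σ hc hK hζ B DK hDK DL hDL (u r i)
    simp only [sumK, sumL, SKer.kapOn_ofFintype]
    refine ⟨integrable_finsetSum _ fun i _ => (he i).1.const_mul (c i),
      integrable_finsetSum _ fun i _ => (he i).2.1.const_mul (c i), ?_⟩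
    rw [integral_finsetSum _ fun i _ => (he i).1.const_mul (c i),
      integral_finsetSum _ fun i _ => (he i).2.1.const_mul (c i)]
    simp only [integral_const_mul]
    exact Finset.sum_congr rfl fun i _ => congrArg (c i * ·) (he i).2.2
  have hN : ∀ r,
      IntegrableOn (fun p => (sumK σ c (u r)).kapOn (fun γ => ¬ γ.IsEll) p p) DK ptMeasure ∧
      IntegrableOn (fun p => (sumL c (u r)).kapOn (fun γ => ¬ γ.IsTwEll (σ : L ≃+* L)) p
        (Pt.amap B.stable p)) DL ptMeasure := fun r =>
    ⟨((hA r).1.sub (hEs r).1).congr_fun_ae (Eventually.of_forall fun p =>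
      SKer.kap_sub_kapOn _ _ _ _),
      ((hA r).2.sub (hEs r).2.1).congr_fun_ae
        (Eventually.of_forall fun p => SKer.kap_sub_kapOn _ _ _ _)⟩
  obtain ⟨⟨g, hg, hgr⟩, g', hg', hgr'⟩ :=
    hH σ hc hK hζ B DK hDK DL hDL v0 hv0 w0 hw0 hpn ι c t ht hN
  -- subtract
  refine ⟨g - g', hg.sub hg', fun r => ?_⟩
  have e := hgr r
  have e' := hgr' r
  simp only [← SKer.kap_sub_kapOn] at e e'
  rw [integral_sub (hA r).1 (hEs r).1] at e
  rw [integral_sub (hA r).2 (hEs r).2.1] at e'
  simp only [Pi.sub_apply, mul_sub]
  rw [intervalIntegral.integral_sub, ← e, ← e', (hEs r).2.2]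
  · ring
  · exact ((Complex.continuous_ofReal.comp (by fun_prop)).mul hg).intervalIntegrable _ _
  · exact ((Complex.continuous_ofReal.comp (by fun_prop)).mul hg').intervalIntegrable _ _

end Fermat.LTG
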