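import Fermat.Agent.LT.Norm
import Fermat.Agent.LTG.EllGood
import Fermat.Agent.LTG.EllTorusInt
import Fermat.Agent.LTG.EllUnfold

/-!
# The elliptic parts match

Torus by torus: equal local sums at every place, equal archimedean integrals, and on the small field
only norm classes contribute.
-/

set_option autoImplicit false
open NumberField MeasureTheory Filter Set
open scoped Classical Pointwise Matrix

namespace Fermat.LTG

open Fermat.LT

section Plain

variable {F : Type} [Field F] [NumberField F] {S : Lev F}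

/-- The base is the only fixed coset of trivial degree. -/
lemma eq_base_of_fixK {q : QDat F} {v : Place F} (hv : v ∉ S)
    (hstd : v.valuation F q.D = 1 ∧ v.valuation F 2 = 1) {g₀ : GL (Fin 2) F} (hgood : GoodPt q v g₀)
    {a : Vert S v} (ha : degK q a = q.one v) (hfix : g₀ • a = a) :
    a = ((1 : GL (Fin 2) F) : Vert S v) :=
  Vert.down_injective hv (LT.QDat.eq_base_of_fix (Set.notMem_empty v) hstd hgood ha
    (by rw [← Vert.down_smul, hfix]))

/-- Elements of the level fix the base coset. -/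
lemma smul_base_eq_of_mem {v : Place F} {g : GL (Fin 2) F} (hg : g ∈ lev S v) :
    g • ((1 : GL (Fin 2) F) : Vert S v) = ((1 : GL (Fin 2) F) : Vert S v) := by
  rw [MulAction.Quotient.smul_coe, QuotientGroup.eq, smul_eq_mul, mul_one, mul_one]
  exact (lev _ _).inv_mem hg

/-- An element lies in the level at almost all places. -/
lemma eventually_mem_lev (g : GL (Fin 2) F) : ∀ᶠ v : Place F in cofinite, g ∈ lev S v := by
  filter_upwards [S.eventually_notMem, eventually_mem_intGL g] with v hv hg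
  rw [lev_of_not_mem hv]
  exact le_withScalars _ hg

end Plain

variable {K L : Type} [Field K] [NumberField K] [Field L] [NumberField L] [Algebra K L]
  {σ : L ≃ₐ[K] L} {SK : Lev K} {SL : Lev L}

/-- Points grouped by the place below. -/
noncomputable def overEquiv (hc : Cyc3 K L σ) (S : Lev L) :
    FinPt L S ≃ RProd (fun v : Place K => (OverPt.base : OverPt K S v)) where
  toFun ω := ⟨fun v w => ω.1 w.1, by
    filter_upwards [eventually_over ω.2] with v hv
    exact funext hv⟩
  invFun x := ⟨fun w => x.1 (below K w) ⟨w, liesOver_below w⟩, by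
    filter_upwards [(tendsto_below hc).eventually x.2] with w hw
    rw [hw]
    rfl⟩
  left_inv ω := rfl
  right_inv x := Subtype.ext (funext fun v => funext fun ⟨w, hw⟩ => by
    obtain rfl := liesOver_iff_below.1 hw
    rfl)

variable (hS : Stable (σ : L ≃+* L) SL) [IsTotallyComplex L]

omit [IsTotallyComplex L] in
/-- The twisted term in the factors. -/
lemma twVal_split (PL : PKer L SL) (hc : Cyc3 K L σ) (δ : GL (Fin 2) L) (p : Pt L SL) :
    PL.val p ((δ : PG L) • Pt.amap hS p)
      = (∏ᶠ v, OverPt.val hS PL.loc δ ((overEquiv hc _ p.1).1 v))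
        * ∏ w, PL.arch w (p.2 w)
          (atInf w δ • extH p.2 (w.embedding.comp ((σ : L ≃+* L) : L →+* L))) := by
  rw [PG.mk_smul]
  change _ * _ = _
  congr 1
  change ∏ᶠ w, PL.loc w (p.1.1 w) ((δ • FinPt.amap hS p.1).1 w) = _
  rw [LT.finprod_below (K := K) hc _ (PL.mulSupport_finite p.1 (δ • FinPt.amap hS p.1))]
  rfl

/-- The degree data of a torus index. -/
noncomputable abbrev ellQ (ξ : EllIdx K) : QDat K := ⟨ξ.1.1, ξ.2.1.1⟩

/-- `DY` is a fundamental domain of the unit torus at infinity. -/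
abbrev IsUnitDomain (q : QDat K) (DY : Set (InfinitePlace K → H3)) : Prop :=
  @IsFundamentalDomain (degStab q.T q.one) (InfinitePlace K → H3) _
    (@Subgroup.instMulAction q.T _ _ q.infAct (degStab q.T q.one)).toSMul _ DY
    (Measure.pi fun _ : InfinitePlace K => hmeas)

/-- The local orbital sum of a kernel on the small field. -/
noncomputable def ellLocSum (PK : PKer K SK) (q : QDat K) (g₀ : GL (Fin 2) K) (v : Place K) : ℂ :=
  ∑' a : {a : Vert (SK) v // degK q a = q.one v}, PK.loc v a.1 (g₀ • a.1)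

omit [IsTotallyComplex L] in
/-- Almost everywhere the fibre sums of the small field reduce to the base. -/
lemma eventually_ell_base (PK : PKer K SK) (q : QDat K) {g₀ : GL (Fin 2) K} (hgreg : TReg q.D g₀) :
    ∀ᶠ v in cofinite, degK q ((1 : GL (Fin 2) K) : Vert (SK) v) = q.one v ∧
      ∀ a, degK q a = q.one v →
        PK.loc v a (g₀ • a) = if a = ((1 : GL (Fin 2) K) : Vert (SK) v) then 1 else 0 := by
  filter_upwards [q.eventually_std, eventually_goodPt (q := q) hgreg, PK.ae_one,
    SK.eventually_notMem, eventually_mem_lev (S := SK) g₀] with v hv hgood h1 hvS hlev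
  refine ⟨degK_one q hv, fun a ha => ?_⟩
  rw [h1, LKer.one_apply]
  by_cases h : a = ((1 : GL (Fin 2) K) : Vert (SK) v)
  · rw [if_pos h, if_pos (by rw [h, smul_base_eq_of_mem hlev])]
  · rw [if_neg h, if_neg fun e => h (eq_base_of_fixK hvS hv hgood ha e.symm)]

omit [IsTotallyComplex L] in
/-- **One torus of the small field.** On the small field the integral of one elliptic torus term is
a sum of products of local sums times one archimedean integral. -/
lemma ell_torus_integral [IsTotallyComplex K] (PK : PKer K SK) (ξ : EllIdx K) {g₀ : GL (Fin 2) K}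
    (hg0 : (g₀ : PG K) = ξ.1.2) (hgreg : TReg (ellQ ξ).D g₀)
    {DY : Set (InfinitePlace K → H3)} (hDm : MeasurableSet DY)
    (hDY : IsUnitDomain (ellQ ξ) DY)
    {DK : Set (Pt K SK)} (hDK : IsFundamentalDomain (PG K) DK ptMeasure)
    (hI : IntegrableOn (twVal PK (stable_refl SK) ξ.base) (cosetDomain ξ.grp DK) ptMeasure) :
    ∫ p in cosetDomain ξ.grp DK, twVal PK (stable_refl SK) ξ.base p ∂ptMeasure
      = (∑' _c : orbitReps (ellQ ξ).T (admissible (ellQ ξ).T (ellQ ξ).one),
          ∏ᶠ v, ellLocSum PK (ellQ ξ) g₀ v)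
        * ∫ y in DY,
          PK.inf y (fun w => atInf w g₀ • y w) ∂(Measure.pi fun _ : InfinitePlace K => hmeas) := by
  set q := ellQ ξ
  have hgT : g₀ ∈ tTor q.D := hgreg.mem
  have hcommK : ∀ s : q.T, ∃ h ∈ tTor q.D, ((h : PG K) = (s : PG K)) ∧ g₀ * h = h * g₀ :=
      fun s => by
    obtain ⟨h, hh, e⟩ := s.2
    exact ⟨h, hh, e, tTor_comm hgT hh⟩
  exact (torus_integral (S := SK) q.T.subtype (degSysK (S := SK) q) (Equiv.refl _)
    (fun s ω v => finHom_apply _ ω v) (f := fun v a => PK.loc v a (g₀ • a))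
    (g := fun y => PK.inf y fun w => atInf w g₀ • y w)
    (fun v s a => by
      obtain ⟨h, -, e, hcomm⟩ := hcommK s
      change PK.loc v ((s : PG K) • a) (g₀ • (s : PG K) • a) = _
      rw [← e, PG.mk_smul_vert, ← mul_smul, hcomm, mul_smul, (PK.loc v).invariant])
    (fun s y => by
      obtain ⟨h, -, e, hcomm⟩ := hcommK s
      change PK.inf (infHom K (s : PG K) y) (fun w => atInf w g₀ • infHom K (s : PG K) y w) = _
      rw [← e]
      conv_rhs => rw [← PK.inf_smul h]
      congr 1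
      funext w
      rw [infHom_mk, ← mul_smul, ← map_mul, hcomm, map_mul, mul_smul])
    (fun v => finite_kerK q hgreg _) (by convert eventually_ell_base PK q hgreg) hDm hDY
    (isFundamentalDomain_comp q.T.subtype q.T.subtype_injective
      (fun γ => ⟨fun hγ => ⟨⟨γ, hγ⟩, rfl⟩, fun ⟨s, e⟩ => e ▸ s.2⟩)
      (isFundamentalDomain_cosetDomain hDK ξ.grp))
    (F0 := twVal PK (stable_refl SK) ξ.base)
    (fun p => by
      rw [twVal_refl, show ξ.base.cls = ξ.1.2 from rfl, ← hg0, PG.mk_smul]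
      rfl)
    hI).1

omit [IsTotallyComplex L] in
/-- Nonzero local sums everywhere give a norm class. -/
lemma isNormCls_of_ellLocSum_ne_zero [IsTotallyComplex K] (hc : Cyc3 K L σ)
    (hz : ∃ ζ : K, IsPrimitiveRoot ζ 3) {PK : PKer K SK} {PL : PKer L SL} (hP : EllPair hS PK PL)
    (ξ : EllIdx K) {g₀ : GL (Fin 2) K} (hg0 : (g₀ : PG K) = ξ.1.2) (hgreg : TReg (ellQ ξ).D g₀)
    (hprod : ∏ᶠ v, ellLocSum PK (ellQ ξ) g₀ v ≠ 0) : IsNormCls σ ξ.1.1 ξ.1.2 := by
  have hK0 : IsTotallyComplex K := inferInstance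
  set q := ellQ ξ
  obtain ⟨a₀, b₀, hb₀, hg00⟩ := id hgreg
  have hprod' : ∏ᶠ v, ∑' a : {a : Vert (SK) v // degK q a = q.one v}, PK.loc v a.1 (g₀ • a.1) ≠ 0 :=
    hprod
  have hloc : ∀ v : Place K, (placesOver K L v).ncard = 1 → IsLocNorm K L σ v q.D a₀ b₀ :=
      fun v hone =>
    (hP.loc v).norm hone q hgreg hg00 (LT.finprod_sum_ne_zero
      (b := fun v : Place K => ((1 : GL (Fin 2) K) : Vert (SK) v))
      (by convert eventually_ell_base PK q hgreg) hprod' v)
  obtain ⟨x, y, c, hc0, hxy⟩ :=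
    LT.normStatement K L σ hc.ne_one hc.galois hc.degree hz hK0 q.D a₀ b₀ q.hD
    (nm_ne_zero q.hD (Or.inr hb₀)) hloc
  have hDL' := notSquare_algebraMap hc q.hD
  have hxy0 : x ≠ 0 ∨ y ≠ 0 := by
    by_contra h
    push Not at h
    rw [twNorm, h.1, h.2] at hxy
    have h0 : tmat (algebraMap K L q.D) (0 : L) 0 = 0 := by
      ext i j; fin_cases i <;> fin_cases j <;> simp [tmat]
    rw [h0, zero_mul, zero_mul] at hxy
    have h10 := congrFun (congrFun hxy 1) 0
    simp [tmat, hc0, hb₀] at h10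
  refine ⟨tEl (algebraMap K L q.D) x y (nm_ne_zero hDL' hxy0), tEl_mem _ _ _ _, ?_⟩
  rw [← hg0, PG.iMap_mk]
  refine (PG.eq_iff.2 ⟨Units.map (algebraMap K L).toMonoidHom (Units.mk0 c hc0), Units.ext ?_⟩).symm
  rw [twistN, Units.val_mul, Units.val_mul, mapGL_tmat (coe_tEl _ _ _ _),
    mapGL_tmat (mapGL_tmat (coe_tEl _ _ _ _)), coe_tEl]
  refine Eq.trans hxy ?_
  rw [Units.val_mul, scal_coe, iGL_tmat hg00]
  ext i j
  fin_cases i <;> fin_cases j <;> simp [tmat]; ring

omit [IsTotallyComplex L] in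
/-- Degrees over every place whose fibre sums almost everywhere reduce to the base. -/
lemma exists_overDeg_system (hc : Cyc3 K L σ) (PL : PKer L SL) (q : QDat K) {g₀ : GL (Fin 2) K}
    (hgreg : TReg q.D g₀) {δ : GL (Fin 2) L} {c : Lˣ}
    (hN : twistN (σ : L ≃+* L) δ = scal c * iGL K L g₀) :
    ∃ dg : ∀ v : Place K, OverPt K SL v → q.Γ v, (∀ v, IsOverDeg q (dg v)) ∧
      DegSys (T := q.T) (fun v : Place K => (OverPt.base : OverPt K SL v)) q.one dg ∧
      ∀ᶠ v in cofinite, dg v OverPt.base = q.one v ∧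
        ∀ x, dg v x = q.one v → OverPt.val hS PL.loc δ x = if x = OverPt.base then 1 else 0 := by
  -- almost every place is good
  let Good : Place K → Prop := fun v => v.valuation K q.D = 1 ∧ v.valuation K 2 = 1 ∧
    v.valuation K 3 = 1 ∧ v ∉ ramSet K L ∧ ∀ w : placesOver K L v, w.1 ∉ SL
  have hgoodev : ∀ᶠ v in cofinite, Good v := by
    filter_upwards [q.eventually_std, eventually_valuation_eq_one (three_ne_zero : (3 : K) ≠ 0),
      (LT.Sys.finite_ramSet (K := K) (L := L)).compl_mem_cofinite,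
        eventually_over SL.eventually_notMem] with v hv h3 hr hw
    exact ⟨hv.1, hv.2, h3, hr, hw⟩
  -- choose a degree at each place, the good one at good places
  have hex : ∀ v : Place K, ∃ d : OverPt K SL v → q.Γ v, IsOverDeg q d ∧
      (Good v → d OverPt.base = q.one v ∧
      (GoodPt q v g₀ → (∀ w : placesOver K L v, δ ∈ lev SL w.1) →
        ∀ x, d x = q.one v → (∀ w, x w = δ • x.prev hS w) → x = OverPt.base)) := fun v => by
    by_cases h : Good v
    · obtain ⟨hD, hv2, hv3, hram, hSL⟩ := h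
      obtain ⟨d, hd, hb, hf⟩ := exists_goodDeg hc q hD hv2 hS hv3 hram hSL
      exact ⟨d, hd, fun _ => ⟨hb, fun hgp hlev => hf g₀ δ c hgp hN hlev⟩⟩
    · obtain ⟨d, hd⟩ := exists_overDeg hc q SL v
      exact ⟨d, hd, fun h' => absurd h' h⟩
  choose dg hdg hdgood using hex
  refine ⟨dg, hdg, ⟨q.T_comm, fun v s x => (hdg v).smul_T s x, fun v s => ?_, fun v x =>
    (hdg v).mem x, ?_⟩, ?_⟩
  · obtain ⟨x, hx⟩ := (hdg v).exists_one
    exact ⟨((s : q.T) : PG K) • x, by rw [(hdg v).smul_T, hx]⟩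
  · filter_upwards [hgoodev] with v hv
    exact (hdgood v hv).1
  -- almost everywhere the value is a product of indicators, one only at the base point
  filter_upwards [hgoodev, eventually_goodPt (q := q) hgreg,
    eventually_over (eventually_mem_lev (S := SL) δ),
    eventually_over PL.ae_one] with v hg' hgp hlev h1
  obtain ⟨hbase, hfixed⟩ := hdgood v hg'
  refine ⟨hbase, fun x hx => ?_⟩
  change ∏ᶠ w : placesOver K L v, PL.loc w.1 (x w) (δ • x.prev hS w) = _
  by_cases h : ∀ w : placesOver K L v, x w = δ • x.prev hS w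
  · rw [if_pos (hfixed hgp hlev x hx h)]
    exact finprod_eq_one_of_forall_eq_one fun w => by rw [h1 w, LKer.one_apply, if_pos (h w)]
  · have hxb : x ≠ OverPt.base := fun e => h fun w => by
      rw [e, OverPt.prev]
      change _ = δ • Vert.amap hS _ ((1 : GL (Fin 2) L) : Vert SL _)
      rw [Vert.amap_mk, map_one, smul_base_eq_of_mem (hlev w)]
      rfl
    obtain ⟨w, hw⟩ := not_forall.1 h
    rw [if_neg hxb]
    have : Finite (placesOver K L v) := (hc.finite_placesOver v).to_subtype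
    exact finprod_eq_zero _ w (by rw [h1 w, LKer.one_apply, if_neg hw]) (Set.toFinite _)

/-- The first coordinate commutes with the small field. -/
lemma coord3_fst_infHom (γ : PG K) (y : InfinitePlace L → H3) :
    (coord3 σ (infHom L (PG.iMap K L γ) y)).1 = infHom K γ (coord3 σ y).1 := by
  obtain ⟨g, rfl⟩ := QuotientGroup.mk_surjective γ
  funext u
  rw [PG.iMap_mk, infHom_mk]
  change extH (fun w => atInf w (iGL K L g) • y w) (emb3 σ u 0) = atInf u g • extH y (emb3 σ u 0)
  rw [extH_smul]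
  congr 1
  refine Units.ext (Matrix.ext fun i j => ?_)
  change emb0 L u (algebraMap K L _) = u.embedding _
  rw [← emb0_comp (L := L) u]
  rfl

omit [IsTotallyComplex L] in
/-- The first coordinate is measure-class preserving. -/
lemma quasiMeasurePreserving_coord3_fst [IsTotallyComplex K] (hc : Cyc3 K L σ) :
    Measure.QuasiMeasurePreserving (fun y => (coord3 σ y).1)
      (Measure.pi fun _ : InfinitePlace L => hmeas)
        (Measure.pi fun _ : InfinitePlace K => hmeas) := by
  obtain ⟨ec, hec, hmp⟩ := exists_coord_equiv hc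
  have h := (Measure.quasiMeasurePreserving_fst).comp hmp.quasiMeasurePreserving
  rwa [show (Prod.fst ∘ ⇑ec : (InfinitePlace L → H3) → InfinitePlace K → H3) = fun y =>
    (coord3 σ y).1 from
    funext fun y => by rw [Function.comp_apply, hec]] at h

/-- A domain of the units pulls back along the first coordinate. -/
lemma isFundamentalDomain_coord3_preimage [IsTotallyComplex K] (hc : Cyc3 K L σ) (q : QDat K)
    {DY : Set (InfinitePlace K → H3)} (hDm : MeasurableSet DY)
    (hDY : IsUnitDomain q DY) :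
    MeasurableSet ((fun y : InfinitePlace L → H3 => (coord3 σ y).1) ⁻¹' DY) ∧
      @IsFundamentalDomain (degStab q.T q.one) (InfinitePlace L → H3) _
        (@Subgroup.instMulAction q.T _ _ (compInf ((PG.iMap K L).comp q.T.subtype))
          (degStab q.T q.one)).toSMul _
        ((fun y : InfinitePlace L → H3 => (coord3 σ y).1) ⁻¹' DY) (Measure.pi fun _ => hmeas) := by
  have hqmp := quasiMeasurePreserving_coord3_fst hc
  have hDm' := hqmp.measurable hDm
  refine ⟨hDm', ?_⟩
  let := compInf ((PG.iMap K L).comp q.T.subtype)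
  let := q.infAct
  refine ⟨hDm'.nullMeasurableSet, ?_, fun s s' hne => ?_⟩
  · filter_upwards [hqmp.ae hDY.ae_covers] with y hy
    obtain ⟨s, hs⟩ := hy
    refine ⟨s, ?_⟩
    change (coord3 σ (infHom L (PG.iMap K L ((s : q.T) : PG K)) y)).1 ∈ DY
    rw [coord3_fst_infHom]
    exact hs
  · refine measure_mono_null ?_ (hqmp.preimage_null (hDY.aedisjoint hne))
    rintro y ⟨⟨a, ha, rfl⟩, ⟨a', ha', e'⟩⟩
    refine ⟨⟨_, ha, ?_⟩, ⟨_, ha', ?_⟩⟩
    · exact (coord3_fst_infHom (σ := σ) ((s : q.T) : PG K) a).symm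
    · refine (coord3_fst_infHom (σ := σ) ((s' : q.T) : PG K) a').symm.trans ?_
      exact congrArg (fun y => (coord3 σ y).1) e'

omit [NumberField K] in
/-- The twisted archimedean factor is invariant under the commuting small torus. -/
lemma prod_arch_twist_smul (k : InfinitePlace L → AKer) {δ : GL (Fin 2) L} {h : GL (Fin 2) K}
    (hcomm : Commute δ (iGL K L h)) (y : InfinitePlace L → H3) :
    ∏ w, k w (infHom L (iGL K L h : PG L) y w)
        (atInf w δ • extH (infHom L (iGL K L h : PG L) y)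
          (w.embedding.comp ((σ : L ≃+* L) : L →+* L)))
      = ∏ w, k w (y w) (atInf w δ • extH y (w.embedding.comp ((σ : L ≃+* L) : L →+* L))) := by
  refine Finset.prod_congr rfl fun w _ => ?_
  rw [infHom_mk,
    show infHom L (iGL K L h : PG L) y = fun u => atInf u (iGL K L h) • y u from rfl, extH_smul,
    show Matrix.GeneralLinearGroup.map (w.embedding.comp ((σ : L ≃+* L) : L →+* L)) (iGL K L h)
      = atInf w (iGL K L h) from by
      conv_rhs => rw [← mapGL_iGL (σ := σ) h]
      exact Units.ext rfl,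
    ← mul_smul, ← map_mul, hcomm.eq, map_mul, mul_smul, (k w).invariant]

/-- **One torus of the large field.** On the large field the integral of one twisted torus term is
the same sum of products of local sums times one archimedean integral. -/
lemma tw_torus_integral [IsTotallyComplex K] (hc : Cyc3 K L σ) {PK : PKer K SK} {PL : PKer L SL}
    (hP : EllPair hS PK PL) (ξ : TwIdx σ) {g₀ : GL (Fin 2) K} (hgreg : TReg (ellQ ξ.1).D g₀)
    {c : Lˣ} (hN : twistN (σ : L ≃+* L) ξ.elt = scal c * iGL K L g₀)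
    {DY : Set (InfinitePlace K → H3)} (hDm : MeasurableSet DY) (hDY : IsUnitDomain (ellQ ξ.1) DY)
    {DL : Set (Pt L SL)} (hDL : IsFundamentalDomain (PG L) DL ptMeasure)
    (hI : IntegrableOn (twVal PL hS ξ.base) (cosetDomain ξ.grp DL) ptMeasure) :
    let s := ∑' _c : orbitReps (ellQ ξ.1).T (admissible (ellQ ξ.1).T (ellQ ξ.1).one),
      ∏ᶠ v, ellLocSum PK (ellQ ξ.1) g₀ v
    let g := fun y : InfinitePlace L → H3 =>
      ∏ w, PL.arch w (y w) (atInf w ξ.elt • extH y (w.embedding.comp ((σ : L ≃+* L) : L →+* L)))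
    let D' := (fun y : InfinitePlace L → H3 => (coord3 σ y).1) ⁻¹' DY
    ∫ p in cosetDomain ξ.grp DL, twVal PL hS ξ.base p ∂ptMeasure
        = s * ∫ y in D', g y ∂(Measure.pi fun _ => hmeas) ∧
      (s ≠ 0 → IntegrableOn g D' (Measure.pi fun _ => hmeas)) := by
  intro s g D'
  set q := ellQ ξ.1
  set δ := ξ.elt
  have hδ : δ ∈ tTor (algebraMap K L q.D) := ξ.elt_mem
  obtain ⟨dg, hdg, hsysL, hgood⟩ := exists_overDeg_system hS hc PL q hgreg hN
  obtain ⟨hDm', hDY'⟩ := isFundamentalDomain_coord3_preimage (σ := σ) hc q hDm hDY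
  let ι : q.T →* PG L := (PG.iMap K L).comp q.T.subtype
  have hι : Function.Injective ι := PG.iMap_injective.comp q.T.subtype_injective
  have hcommL : ∀ s : q.T, ∃ h : GL (Fin 2) K, ((h : PG K) = (s : PG K)) ∧ Commute δ (iGL K L h) :=
      fun s => by
    obtain ⟨h, hh, e⟩ := s.2
    refine ⟨h, e, tTor_comm hδ ?_⟩
    obtain ⟨a, b, e'⟩ := hh
    exact ⟨_, _, iGL_tmat e'⟩
  -- unfold the torus integral place by place
  have hL := torus_integral (S := SL) ι hsysL (overEquiv hc _)
    (fun s ω v => funext fun w => finHom_apply _ ω w.1) (f := fun v x => OverPt.val hS PL.loc δ x)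
    (g := g)
    (fun v s x => by
      obtain ⟨h, e, hcomm⟩ := hcommL s
      change OverPt.val hS PL.loc δ ((s : PG K) • x) = _
      rw [← e]
      exact OverPt.val_smul hS PL.loc hcomm x)
    (fun s y => by
      obtain ⟨h, e, hcomm⟩ := hcommL s
      change g (infHom L (PG.iMap K L (s : PG K)) y) = _
      rw [← e, PG.iMap_mk]
      exact prod_arch_twist_smul PL.arch hcomm y)
    (fun v => ((hP.loc v).sum q hgreg hδ hN (dg v) (hdg v)).1)
    hgood hDm' hDY'
    (isFundamentalDomain_comp ι hι (Z := (pTor K q.D).map (PG.iMap K L))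
      (fun γ => Subgroup.mem_map.trans ⟨fun ⟨a, ha, e⟩ => ⟨⟨a, ha⟩, e⟩,
        fun ⟨s, e⟩ => ⟨(s : PG K), s.2, e⟩⟩)
      (isFundamentalDomain_cosetDomain hDL ξ.grp))
    (F0 := twVal PL hS ξ.base) (fun p => twVal_split hS PL hc δ p) hI
  -- the local sums are those of the pair
  have hloc : ∀ v, ∑' x : {x // (dg v) x = q.one v}, OverPt.val hS PL.loc δ x.1 =
      ellLocSum PK q g₀ v :=
    fun v => ((hP.loc v).sum q hgreg hδ hN (dg v) (hdg v)).2
  simp only [hloc] at hL
  exact hL

/-- **The elliptic parts of matching product kernels agree.** -/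
theorem elliptic_pair [IsTotallyComplex K] (hc : Cyc3 K L σ) (hz : ∃ ζ : K, IsPrimitiveRoot ζ 3)
    {PK : PKer K SK} {PL : PKer L SL} (hP : EllPair hS PK PL)
    {DK : Set (Pt K SK)} (hDK : IsFundamentalDomain (PG K) DK ptMeasure)
    {DL : Set (Pt L SL)} (hDL : IsFundamentalDomain (PG L) DL ptMeasure) :
    IntegrableOn (fun p => PK.kapOn PG.IsEll p p) DK ptMeasure ∧
      IntegrableOn (fun p => PL.kapOn (PG.IsTwEll (σ : L ≃+* L)) p (Pt.amap hS p)) DL ptMeasure ∧
      ∫ p in DK, PK.kapOn PG.IsEll p p ∂ptMeasure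
        = ∫ p in DL, PL.kapOn (PG.IsTwEll (σ : L ≃+* L)) p (Pt.amap hS p) ∂ptMeasure := by
  obtain ⟨hIK, hIKξ, eK⟩ := ell_unfold PK hDK
  obtain ⟨hIL, hILξ, eL⟩ := tw_unfold PL hS hc hDL
  refine ⟨hIK, hIL, ?_⟩
  rw [eK, eL]
  congr 1
  set JK : EllIdx K → ℂ := fun ξ =>
    ∫ p in cosetDomain ξ.grp DK, twVal PK (stable_refl SK) ξ.base p ∂ptMeasure
  set JL : TwIdx σ → ℂ := fun ξ =>
    ∫ p in cosetDomain ξ.grp DL, twVal PL hS ξ.base p ∂ptMeasure
  -- per torus
  have key : ∀ ξ : EllIdx K, (JK ξ ≠ 0 → IsNormCls σ ξ.1.1 ξ.1.2) ∧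
      ∀ h : IsNormCls σ ξ.1.1 ξ.1.2, JK ξ = JL ⟨ξ, h⟩ := by
    intro ξ
    obtain ⟨g₀, hg0, hgreg⟩ := ξ.2.2
    obtain ⟨DY, hDm, hDY⟩ := (ellQ ξ).exists_unitDomain
    have hK : JK ξ = _ := ell_torus_integral PK ξ hg0 hgreg hDm hDY hDK (hIKξ ξ)
    refine ⟨fun hne => isNormCls_of_ellLocSum_ne_zero hS hc hz hP ξ hg0 hgreg fun h0 =>
      left_ne_zero_of_mul (hK ▸ hne) (by simp only [h0, tsum_zero]), fun hnorm => ?_⟩
    obtain ⟨c, hN⟩ : ∃ c : Lˣ, twistN (σ : L ≃+* L) (TwIdx.elt ⟨ξ, hnorm⟩) = scal c * iGL K L g₀ :=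
      PG.eq_iff.1 (by rw [TwIdx.twistN_elt, ← PG.iMap_mk, hg0])
    obtain ⟨hL, hLint⟩ := tw_torus_integral hS hc hP ⟨ξ, hnorm⟩ hgreg hN hDm hDY hDL (hILξ _)
    rw [hK, show JL ⟨ξ, hnorm⟩ = _ from hL]
    by_cases hs : (∑' _c : orbitReps (ellQ ξ).T (admissible (ellQ ξ).T (ellQ ξ).one),
      ∏ᶠ v, ellLocSum PK (ellQ ξ) g₀ v) = 0
    · exact (mul_eq_zero_of_left hs _).trans (mul_eq_zero_of_left hs _).symm
    · congr 1
      refine (Eq.trans (arch_integral hc hN PL.arch DY (hLint hs)) ?_).symm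
      refine integral_congr_ae (Eventually.of_forall fun x => ?_)
      change _ = ∏ u, PK.arch u (x u) (atInf u g₀ • x u)
      simp only [hP.arch]
  refine Eq.trans ?_ (tsum_congr fun ξ : TwIdx σ => (key ξ.1).2 ξ.2)
  refine (Function.Injective.tsum_eq (g := fun ξ : TwIdx σ => ξ.1) Subtype.val_injective fun ξ
    hξ => ?_).symm
  exact ⟨⟨ξ, (key ξ).1 hξ⟩, rfl⟩

end Fermat.LTG
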