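import Fermat.Agent.LTG.EllPair

/-!
# Matching of spherical kernels at unramified places away from three

`locMatch_sph` is the matching, read from the level-free sums `sum₀`.
-/

set_option autoImplicit false
open Set Polynomial
open scoped Classical Matrix

namespace Fermat.LTG

open Fermat.LT

variable {K L : Type} [Field K] [NumberField K] [Field L] [NumberField L] [Algebra K L]
  {σ : L ≃ₐ[K] L} {v : Place K}

/-- The spherical kernels on vertices. -/
noncomputable def sph₀ (h : Place L → ℂ[X]) (w : Place L) : LT.LKer (∅ : Set (Place L)) w :=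
  LT.sphKer (Set.notMem_empty w) (h w)

/-- The polynomial seen at a place of the small field. -/
noncomputable def bcPolyAt (h : Place L → ℂ[X]) (v : Place K) : ℂ[X] :=
  ∏ᶠ w ∈ placesOver K L v, if pnorm w = pnorm v then h w else cubicBC (pnorm v) (h w)

variable (hc : Cyc3 K L σ) (q : QDat K) (h : Place L → ℂ[X])
include hc

/-- At an inert place the base change polynomial is the cubic one. -/
lemma bcPolyAt_inert {w : Place L} (hw : LiesOver K L w v) (hσ : mapPlace (σ : L ≃+* L) w = w)
    (hn : pnorm w = pnorm v ^ 3) : bcPolyAt h v = cubicBC (pnorm v) (h w) := by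
  rw [bcPolyAt, LT.placesOver_singleton hc hw hσ, finprod_mem_singleton, if_neg]
  have := two_le_pnorm v
  intro h
  rw [hn] at h
  have : pnorm v ^ 3 ≥ pnorm v * 4 := by
    rw [pow_succ, pow_succ, pow_one]; nlinarith
  omega

omit hc in
/-- The composite of spherical kernels at a split place. -/
lemma split_comp_sph {S : Set (Place L)} {S₀ : Set (Place K)} {w : Place L} (hw : LiesOver K L w v)
    (he : ramE v w = 1) (hlev : v ∈ S₀ ↔ w ∈ S) (hS : LT.Stable (σ : L ≃+* L) S)
    (P : ∀ u : Place L, LT.LKer S u) (h : Place L → ℂ[X])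
    (hP : ∀ {u : Place L} (hu : u ∉ S), P u = LT.sphKer hu (h u)) (hv : v ∉ S₀)
    (hS' : ∀ {u : Place L}, LiesOver K L u v → u ∉ S)
    (hnu : ∀ {u : Place L}, LiesOver K L u v → pnorm u = pnorm v) :
    Split.comp hw he hlev hS P = LT.sphKer hv (h w * (h (mapPlace (σ : L ≃+* L)
      (mapPlace (σ : L ≃+* L) w)) * h (mapPlace (σ : L ≃+* L) w))) := by
  have hw2 := hw.mapPlace σ
  have hw3 := hw2.mapPlace σ
  have h2 : Split.k2 hS P (w := w) = LT.sphKer (hS' hw) (h (mapPlace (σ : L ≃+* L) w)) := by
    unfold Split.k2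
    rw [hP (hS' hw2)]
    exact LT.LKer.pull_sphKer _ _ _ (hS' hw) (hS' hw2) (by rw [hnu hw2, hnu hw]) _
  have h3 : Split.k3 hS P (w := w)
      = LT.sphKer (hS' hw) (h (mapPlace (σ : L ≃+* L) (mapPlace (σ : L ≃+* L) w))) := by
    unfold Split.k3
    rw [hP (hS' hw3)]
    refine (congrArg (fun k : LT.LKer S (mapPlace (σ : L ≃+* L) w) => k.pull _ _ _)
      (LT.LKer.pull_sphKer _ _ _ (hS' hw2) (hS' hw3) (by rw [hnu hw3, hnu hw2]) _)).trans ?_
    exact LT.LKer.pull_sphKer _ _ _ (hS' hw) (hS' hw2) (by rw [hnu hw2, hnu hw]) _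
  rw [Split.comp, h2, h3, hP (hS' hw), LT.sphKer_mul, LT.sphKer_mul]
  exact LT.LKer.pull_sphKer _ _ _ hv (hS' hw) (hnu hw) _

/-- Twisted sums of spherical kernels on vertices. -/
lemma sum₀ (h3 : v.valuation K 3 = 1) (hur : v ∉ ramSet K L) {g₀ : GL (Fin 2) K} {δ : GL (Fin 2) L}
    {c : Lˣ} (hg : TReg q.D g₀) (hδ : δ ∈ tTor (algebraMap K L q.D))
    (hN : twistN (σ : L ≃+* L) δ = scal c * iGL K L g₀) :
    ∃ d : LT.OverPt K (∅ : Set (Place L)) v → q.Γ v,
      (∀ g ∈ tTor q.D, ∀ x, d ((g : PG K) • x) = (g : PG K) • d x) ∧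
        (∀ x, ∃ t : q.T, d x = t • q.one v) ∧
      {x | d x = q.one v ∧ LT.OverPt.val (stable_empty (σ := σ)) (sph₀ h) δ x ≠ 0}.Finite ∧
      ∑' x : {x // d x = q.one v}, LT.OverPt.val (stable_empty (σ := σ)) (sph₀ h) δ x.1
        = ∑' a : {a : LT.Vert (∅ : Set (Place K)) v // q.degAt a = q.one v},
            LT.sphKer (Set.notMem_empty v) (bcPolyAt h v) a.1 (g₀ • a.1) := by
  obtain ⟨w, hw⟩ := exists_liesOver (L := L) v
  rcases hc.trichotomy hw with ⟨-, he, hn, hmv⟩ | ⟨-, hσ, ⟨he, -⟩ | ⟨he, hn⟩⟩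
  · -- split
    have hlev : v ∈ (∅ : Set (Place K)) ↔ w ∈ (∅ : Set (Place L)) := by simp
    have hw2 := hw.mapPlace σ
    have hw3 := hw2.mapPlace σ
    obtain ⟨h21, h31, h32⟩ := Split.distinct hc hmv
    have hnu : ∀ {u : Place L}, LiesOver K L u v → pnorm u = pnorm v := fun {u} hu => by
      rcases hc.trichotomy hu with ⟨-, -, h, -⟩ | ⟨-, hfix, -⟩
      · exact h
      · have hm : w ∈ placesOver K L v := hw
        rw [LT.placesOver_singleton hc hu hfix, Set.mem_singleton_iff] at hm
        subst hm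
        exact absurd hfix hmv
    -- split: compare with the composite kernel
    have hcomp : Split.comp hw he hlev (stable_empty (σ := σ)) (sph₀ h)
        = LT.sphKer (Set.notMem_empty v) (bcPolyAt h v) := by
      rw [split_comp_sph (σ := σ) hw he hlev (stable_empty (σ := σ)) (sph₀ h) h
        (fun _ => rfl) (Set.notMem_empty v) (fun _ => Set.notMem_empty _) (fun hu => hnu hu)]
      congr 1
      rw [bcPolyAt, hc.placesOver_eq hw, finprod_mem_insert _ (by
          rintro (e | e)
          exacts [h21 e.symm, h31 e.symm]) (Set.toFinite _), finprod_mem_pair h32.symm,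
        if_pos hn, if_pos (hnu hw2), if_pos (hnu hw3)]
      ring
    obtain ⟨hf, hs⟩ :=
      Split.sum_eq hc q hw he hn hmv hlev (stable_empty (σ := σ)) (sph₀ h) δ hw2 hw3 hN hg
    rw [hcomp] at hs
    exact ⟨_, fun g hg x => Split.deg_smul q hw he hn hlev hg x, fun x => q.degAt_mem _, hf, hs⟩
  · exact absurd ((hc.mem_ramSet_iff hw).2 he) hur
  · -- inert
    have hwS : w ∉ (∅ : Set (Place L)) := Set.notMem_empty w
    set w' : placesOver K L v := ⟨w, hw⟩
    have hall : ∀ u : placesOver K L v, u = w' := fun ⟨u, hu⟩ => by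
      rw [LT.placesOver_singleton hc hw hσ, Set.mem_singleton_iff] at hu
      exact Subtype.ext hu
    let ev : LT.OverPt K (∅ : Set (Place L)) v ≃ LT.Vert (∅ : Set (Place L)) w :=
      { toFun := fun x => x w'
        invFun := fun a => Function.update LT.OverPt.base w' a
        left_inv := fun x => funext fun u => by rw [hall u]; exact Function.update_self _ _ _
        right_inv := fun a => Function.update_self _ _ _ }
    have : Unique (placesOver K L v) := ⟨⟨w'⟩, hall⟩
    -- inert: transport to the single place above `v`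
    have hval : ∀ x : LT.OverPt K (∅ : Set (Place L)) v,
        LT.OverPt.val (stable_empty (σ := σ)) (sph₀ h) δ x
          = LT.sphKer hwS (h w) (x w') (δ • LT.Vert.amap stable_empty hσ (x w')) := by
      intro x
      rw [LT.OverPt.val, finprod_eq_single _ w' fun u hu => absurd (hall u) hu,
        x.prev_eq stable_empty (u := w') (w := w') hσ]
      rfl
    obtain ⟨T, hρ, R⟩ := inert_reps hc q hw h3 hσ he
    refine ⟨fun x => Fixed.deg hc q hw hσ T R (x w'), fun g hg x => ?_,
      fun x => Fixed.deg_mem hc q hw hσ T R _, ?_, ?_⟩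
    · change Fixed.deg hc q hw hσ T R (((g : PG K) • x) w') = _
      exact Fixed.deg_smul hc q hw hσ T R hg (x w')
    · refine ((Fixed.finite_sph hc q hw hσ T R hg hδ hN (Or.inl le_rfl) hwS stable_empty
        (h w)).preimage ev.injective.injOn).subset fun x hx => ⟨hx.1, ?_⟩
      change LT.sphKer hwS (h w) (x w') _ ≠ 0
      have h' := hx.2
      rw [hval] at h'
      exact h'
    · let e2 : {x : LT.OverPt K (∅ : Set (Place L)) v // Fixed.deg hc q hw hσ T R
          (x w') = q.one v} ≃
          {a : LT.Vert (∅ : Set (Place L)) w // Fixed.deg hc q hw hσ T R a = q.one v} :=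
        ev.subtypeEquiv fun x => Iff.rfl
      refine Eq.trans ?_ ((e2.tsum_eq _).trans ((inert_sum hc q hw hwS stable_empty h3 hσ he hn
        (Set.notMem_empty v) T hρ R hg hδ hN (h w)).trans ?_))
      · exact tsum_congr fun x => hval x.1
      · rw [bcPolyAt_inert hc h hw hσ hn]

omit hc in
/-- Spherical kernels off the level are those of the vertices. -/
lemma sphKer_down {F : Type*} [Field F] [NumberField F] {S : Lev F} {u : Place F} (hu : u ∉ S)
    (p : ℂ[X]) (a b : Vert S u) :
    LT.sphKer (Set.notMem_empty u) p (Vert.down a) (Vert.down b) = sphKer hu p a b := by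
  obtain ⟨g, rfl⟩ := QuotientGroup.mk_surjective a
  obtain ⟨k, rfl⟩ := QuotientGroup.mk_surjective b
  rw [Vert.down_mk, Vert.down_mk, LT.sphKer_apply, sphKer_apply, LT.vd_mk, vd_mk]

omit hc in
/-- Every vertex lies under a coset. -/
lemma Vert.down_surjective {F : Type*} [Field F] [NumberField F] {S : Lev F} {u : Place F} :
    Function.Surjective (Vert.down (S := S) (v := u)) := fun a => by
  obtain ⟨g, rfl⟩ := QuotientGroup.mk_surjective a
  exact ⟨(g : Vert S u), rfl⟩

variable {SK : Lev K} {SL : Lev L}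

/-- **Spherical kernels match at unramified places away from three.** -/
theorem locMatch_sph (hS : Stable (σ : L ≃+* L) SL) (h3 : v.valuation K 3 = 1)
    (hur : v ∉ ramSet K L) (hv : v ∉ SK) (hw : ∀ w : placesOver K L v, w.1 ∉ SL)
    (PL : ∀ w : Place L, LKer SL w) (hPL : ∀ w : placesOver K L v, PL w.1 = sphKer (hw w) (h w.1)) :
    LocMatch hS v PL (sphKer hv (bcPolyAt h v)) := by
  -- on `K` the fibre sums are those without level structure
  have hKfib : ∀ (q : QDat K) (g₀ : GL (Fin 2) K),
      ∑' a : {a : Vert SK v // degK q a = q.one v}, sphKer hv (bcPolyAt h v) a.1 (g₀ • a.1)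
        = ∑' a : {a : LT.Vert (∅ : Set (Place K)) v // q.degAt a = q.one v},
            LT.sphKer (Set.notMem_empty v) (bcPolyAt h v) a.1 (g₀ • a.1) := by
    intro q g₀
    let e : Vert SK v ≃ LT.Vert (∅ : Set (Place K)) v :=
      Equiv.ofBijective _ ⟨Vert.down_injective hv, Vert.down_surjective⟩
    rw [← (e.subtypeEquiv (p := fun a => degK q a = q.one v) (q := fun a => q.degAt a = q.one v)
      fun a => Iff.rfl).tsum_eq]
    refine tsum_congr fun a => ?_
    change _ = LT.sphKer _ _ (Vert.down a.1) (g₀ • Vert.down a.1)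
    rw [← Vert.down_smul, sphKer_down hv]
  refine LocMatch.of_exists hS v PL _ (fun q g₀ δ c hg hδ hN => ?_) fun hone q g₀ a₀ b₀
    hg hg0 hne => ?_
  · obtain ⟨d, hd1, hd2, hfin, hsum⟩ := sum₀ hc q h h3 hur hg hδ hN
    -- pull the degree and the identity of `sum₀` back along `OverPt.down`
    refine ⟨fun x => d (OverPt.down x), ⟨fun g hg x => ?_, fun x => hd2 _⟩, ?_⟩
    · rw [OverPt.down_smul, hd1 g hg]
    have hinj := OverPt.down_injective (SL := SL) (v := v) hw
    let e : OverPt K SL v ≃ LT.OverPt K (∅ : Set (Place L)) v := Equiv.ofBijective _ ⟨hinj, fun y =>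
      ⟨fun w => (Vert.down_surjective (y w)).choose, funext fun w =>
        (Vert.down_surjective (y w)).choose_spec⟩⟩
    have hval : ∀ x, OverPt.val hS PL δ x
        = LT.OverPt.val (stable_empty (σ := σ)) (sph₀ h) δ (OverPt.down x) := fun x => by
      refine finprod_congr fun w => ?_
      rw [hPL w, ← sphKer_down (hw w), Vert.down_smul, OverPt.prev, Vert.down_amap hS stable_empty]
      rfl
    refine ⟨(hfin.preimage hinj.injOn).subset fun x hx => ⟨hx.1, by rw [← hval]; exact hx.2⟩, ?_⟩
    rw [hKfib, ← hsum, ← (e.subtypeEquiv (p := fun x => d (OverPt.down x) = q.one v)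
      (q := fun y => d y = q.one v) fun x => Iff.rfl).tsum_eq
      fun y : {y // d y = q.one v} => LT.OverPt.val (stable_empty (σ := σ)) (sph₀ h) δ y.1]
    exact tsum_congr fun x => hval x.1
  · obtain ⟨w, hw'⟩ := exists_liesOver (L := L) v
    -- one unramified place above `v`: it is inert, so `inert_isLocNorm` applies
    rcases hc.trichotomy hw' with ⟨h', -, -, -⟩ | ⟨-, hσ, ⟨he, -⟩ | ⟨he, hn⟩⟩
    · omega
    · exact absurd ((hc.mem_ramSet_iff hw').2 he) hur
    · rw [hKfib, bcPolyAt_inert hc h hw' hσ hn] at hne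
      exact inert_isLocNorm hc q hw' h3 hσ he hn (Set.notMem_empty v) hg hg0 _ hne

end Fermat.LTG
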