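import Fermat.Agent.LTG.EllSph

/-!
# The elliptic parts of the test kernels agree

`ellipticStatement_proved`, from `EllPair` and the local matchings carried by the test data
(`Test`); used in `Final`.
-/

set_option autoImplicit false
open NumberField MeasureTheory Filter Set
open scoped Classical

namespace Fermat.LTG

open Fermat.LT

variable {K L : Type} [Field K] [NumberField K] [Field L] [NumberField L] [Algebra K L]
  {σ : L ≃ₐ[K] L} {B : Block K L σ}

/-- The test kernels match at every place. -/
theorem TestData.ellPair (hc : Cyc3 K L σ) (t : TestData B) :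
    EllPair B.stable (kerK σ t) (kerL t) := by
  refine ⟨fun v => ?_, fun u => rfl⟩
  by_cases hv : v ∈ B.S
  · rw [kerK_loc_mem t hv]
    have hm := B.matched v hv
    have e : ∀ (δ : GL (Fin 2) L) (x : OverPt K B.T v),
        OverPt.val B.stable (kerL t).loc δ x = OverPt.val B.stable B.locL δ x := fun δ x =>
      finprod_congr fun w => by rw [kerL_loc_mem t ((B.mem_iff w.2).2 hv)]
    refine ⟨fun q g₀ δ c hg hδ hN d hd => ?_, hm.norm⟩
    simp only [e]
    exact hm.sum q hg hδ hN d hd
  · have hw : ∀ w : placesOver K L v, w.1 ∉ B.T := fun w h => hv ((B.mem_iff w.2).1 h)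
    have h3 : v.valuation K 3 = 1 := by
      by_contra h; exact hv (B.three_mem v h)
    rw [kerK_loc_sph t hv]
    exact locMatch_sph hc t.h B.stable h3 (fun h => hv (B.ram_mem v h)) hv hw (kerL t).loc
      fun w => kerL_loc_sph t (hw w)

/-- **The elliptic statement.** `EllipticStatement`, the matching of the elliptic parts of the test
kernels, holds. -/
theorem ellipticStatement_proved (K L : Type) [Field K] [NumberField K] [Field L] [NumberField L]
    [Algebra K L] : EllipticStatement K L := by
  intro σ hc hK hz B DK hDK DL hDL t
  have : IsTotallyComplex K := hK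
  have : IsTotallyComplex L := ⟨fun w =>
    InfinitePlace.IsComplex.of_comap (algebraMap K L) (IsTotallyComplex.isComplex _)⟩
  exact elliptic_pair B.stable hc hz (t.ellPair hc) hDK hDL

end Fermat.LTG
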