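import Mathlib
import Fermat.Agent.LT.Targets
import Fermat.Prelude.Def_LanglandsTunnell_WeightOneRealizationCarriers

/-!
# The parts of the weight one statement for an arbitrary surjective mod 3 representation

`GenRho`, the weight one statement `WeightOneStatement` and the extraction of an eigensystem from it
(`Ext/Main`), assembled in `Final` for S47.
-/

set_option autoImplicit false
open WeierstrassCurve FLT.ExplicitLift EisensteinWeightOne
open scoped MatrixGroups

local notation "Γℚ" => (AlgebraicClosure ℚ ≃ₐ[ℚ] AlgebraicClosure ℚ)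

namespace Fermat.LTG

/-- A continuous surjective mod 3 representation whose determinant is the cyclotomic character. -/
structure GenRho (ρ : Γℚ →* GL (Fin 2) (ZMod 3)) : Prop where
  /-- The representation is continuous. -/
  continuous : Continuous ρ
  /-- The representation is surjective. -/
  surjective : Function.Surjective ρ
  /-- The determinant is the mod `3` cyclotomic character. -/
  det : ∀ σ : Γℚ, Matrix.GeneralLinearGroup.det (ρ σ) = modThreeCyclotomicChar σ

/-- A weight one form of some level with the eigenvalue of the lift at the primes congruent to `1`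
modulo three times the level whose Frobenius maps into the quaternion subgroup. -/
def WeightOneG (ρ : Γℚ →* GL (Fin 2) (ZMod 3)) : Prop :=
  ∃ (N : ℕ) (_ : NeZero N) (f : CuspForm (CongruenceSubgroup.Gamma1 N) 1), f ≠ 0 ∧
    ∀ p : ℕ, p.Prime → (p : ZMod (3 * N)) = 1 →
      ∀ A : ValuationSubring (AlgebraicClosure ℚ), A.LiesOverPrime p →
        ∀ σ : Γℚ, A.IsFrobeniusAt σ p → LT.InQ8 (ρ σ) → ∀ n : ℕ,
          ModularFormClass.qCoeff f (p * n) +
              (if p ∣ n then ModularFormClass.qCoeff f (n / p) else 0) =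
            (LT.liftTr (ρ σ) : ℂ) * ModularFormClass.qCoeff f n

/-- The conclusion of the Langlands–Tunnell row for `ρ` and a lift `Ψ`. -/
def Realised (ρ : Γℚ →* GL (Fin 2) (ZMod 3))
    (Ψ : GL (Fin 2) (ZMod 3) →* GL (Fin 2) (ℤ√(-2))) : Prop :=
  ∃ (N : ℕ) (_ : NeZero N) (b : ℕ → ℤ√(-2)),
    FormalHecke.IsEigensystem
      (fun ℓ => if ℓ ∣ N then 0 else ((chiNegThree ℓ : ℤ) : ℤ√(-2))) b ∧
    CuspForm.IsWeightOneChiNegThreeRealized N b ∧
    ∀ p : ℕ, p.Prime → ¬ p ∣ 3 * N →
      ∀ A : ValuationSubring (AlgebraicClosure ℚ), A.LiesOverPrime p →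
        ∀ σ : Γℚ, A.IsFrobeniusAt σ p →
          b p = ((Ψ (ρ σ) : GL (Fin 2) (ℤ√(-2))) : Matrix (Fin 2) (Fin 2) (ℤ√(-2))).trace

/-- The extraction: for a generic `ρ` and a section `Ψ` of the reduction map, a weight one form
for `ρ` gives an eigensystem realised in weight one with the traces of `Ψ ∘ ρ` (`Realised`). -/
def ExtractionStatement : Prop :=
  ∀ (ρ : Γℚ →* GL (Fin 2) (ZMod 3)) (Ψ : GL (Fin 2) (ZMod 3) →* GL (Fin 2) (ℤ√(-2))),
    GenRho ρ → (∀ g, Matrix.GeneralLinearGroup.map red (Ψ g) = g) → WeightOneG ρ → Realised ρ Ψ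

/-- Every generic mod 3 representation comes from a form of weight one. -/
def WeightOneStatement : Prop :=
  ∀ ρ : Γℚ →* GL (Fin 2) (ZMod 3), GenRho ρ → WeightOneG ρ

end Fermat.LTG
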