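import Fermat.Agent.LTG.Cong
import Fermat.Agent.LT.Mult.Mean

/-!
# The automorphic setting at a level of arbitrary depth

`Pt F S` for a depth function `S : Lev F`: the restricted product over the places `v` of
`GL₂(F) ⧸ Fˣ K(depth v)` and one `H3` per infinite place. `IsForm` is the notion of cusp form used
by the statements of `LTG/Final`.

The trace formulas (`Test`, `Sys`), the theta series (`Theta`) and the passage to `ℚ` (`W1`) are all
written in this setting.
-/

set_option autoImplicit false
open NumberField Filter
open scoped Classical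

namespace Fermat.LTG

open Fermat.LT

variable (F : Type*) [Field F]

/-- A level: the depth of the congruence subgroup at every place. -/
structure Lev where
  /-- The depth at a place. -/
  depth : Place F → ℕ
  /-- The depth is zero at almost all places. -/
  finite' : {v | depth v ≠ 0}.Finite

variable {F}

namespace Lev

/-- `v ∈ S` when the depth at `v` is not zero. -/
instance instMembership : Membership (Place F) (Lev F) := ⟨fun S v => S.depth v ≠ 0⟩

/-- Membership in a level. -/
lemma mem_iff {S : Lev F} {v : Place F} : v ∈ S ↔ S.depth v ≠ 0 := Iff.rfl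

/-- A place is off the level exactly when the depth there is zero. -/
lemma notMem_iff {S : Lev F} {v : Place F} : v ∉ S ↔ S.depth v = 0 := not_not

/-- A level has finitely many places. -/
lemma finite (S : Lev F) : {v : Place F | v ∈ S}.Finite := S.finite'

/-- The places of the level. -/
noncomputable def places (S : Lev F) : Finset (Place F) := S.finite.toFinset

/-- Membership in `places`. -/
@[simp] lemma mem_places {S : Lev F} {v : Place F} : v ∈ S.places ↔ v ∈ S := S.finite.mem_toFinset

/-- Almost every place is off the level. -/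
lemma eventually_notMem (S : Lev F) : ∀ᶠ v : Place F in cofinite, v ∉ S :=
  S.finite.compl_mem_cofinite

/-- The trivial level. -/
def base : Lev F := ⟨fun _ => 0, by simp⟩

/-- A level from a finite set and depths. -/
noncomputable def ofFinset (T : Finset (Place F)) (n : Place F → ℕ) : Lev F :=
  ⟨fun v => if v ∈ T then n v else 0, T.finite_toSet.subset fun v hv => by
    by_contra h; exact hv (if_neg h)⟩

end Lev

variable [NumberField F]

/-- The level subgroup at `v`. -/
noncomputable def lev (S : Lev F) (v : Place F) : Subgroup (GL (Fin 2) F) :=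
  UN (v.valuation F) (S.depth v)

/-- The level subgroup lies in the maximal compact one modulo scalars. -/
lemma lev_le_U0 (S : Lev F) (v : Place F) : lev S v ≤ U0 (v.valuation F) := UN_le_U0 _ _

/-- Off the level the subgroup is the maximal one. -/
lemma lev_of_not_mem {S : Lev F} {v : Place F} (h : v ∉ S) : lev S v = U0 (v.valuation F) := by
  rw [lev, Lev.notMem_iff.1 h, UN_zero]

/-- A deeper level has a smaller subgroup. -/
lemma lev_anti {S T : Lev F} {v : Place F} (h : S.depth v ≤ T.depth v) : lev T v ≤ lev S v :=
  UN_anti _ h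

/-- Scalars lie in every level subgroup. -/
lemma scal_mem_lev (S : Lev F) (v : Place F) (c : Fˣ) : scal c ∈ lev S v := scal_mem_UN _ _ c

/-- Principal congruence subgroups deep enough lie in the level subgroup. -/
lemma mem_lev_of_congN {S : Lev F} {v : Place F} {n : ℕ} (hn : S.depth v ≤ n) {g : GL (Fin 2) F}
    (h : g ∈ congN (v.valuation F) n) : g ∈ lev S v :=
  mem_UN_of_congN _ (congN_anti _ hn h)

/-- Local coset space. -/
abbrev Vert (S : Lev F) (v : Place F) : Type _ := GL (Fin 2) F ⧸ lev S v

variable (F) in
/-- Points of `G(𝔸_f) ⧸ U_S`. -/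
def FinPt (S : Lev F) : Type _ :=
  {ω : ∀ v : Place F, Vert S v //
    ∀ᶠ v in Filter.cofinite, ω v = ((1 : GL (Fin 2) F) : Vert S v)}

variable (F) in
/-- Points of `G(𝔸) ⧸ U_S K_∞`. -/
abbrev Pt (S : Lev F) : Type _ := FinPt F S × (InfinitePlace F → H3)

/-- `Φ` is left invariant under `GL₂(F)`. -/
def IsInvariant {S : Lev F} (Φ : Pt F S → ℂ) : Prop :=
  ∀ (g : GL (Fin 2) F) (p q : Pt F S), (∀ v, q.1.1 v = g • p.1.1 v) →
    (∀ w, q.2 w = atInf w g • p.2 w) → Φ q = Φ p

/-- Replace the component at `v`. -/
noncomputable def FinPt.set {S : Lev F} (ω : FinPt F S) (v : Place F) (y : Vert S v) :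
    FinPt F S :=
  ⟨Function.update ω.1 v y, by
    filter_upwards [ω.2, (Set.finite_singleton v).compl_mem_cofinite] with u hu huv
    rw [Function.update_of_ne (by simpa using huv)]; exact hu⟩

/-- The two cosets are adjacent at `v`. -/
def Adj {S : Lev F} (v : Place F) (x y : Vert S v) : Prop :=
  ∃ g h : GL (Fin 2) F, x = (g : Vert S v) ∧ y = (h : Vert S v) ∧
    IsStep (v.valuation F) (g⁻¹ * h)

/-- Hecke operator `T_v` (sum over neighbours), used at `v ∉ S`. -/
noncomputable def heckeT {S : Lev F} (v : Place F) (Φ : Pt F S → ℂ) (p : Pt F S) : ℂ :=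
  ∑ᶠ y ∈ {y : Vert S v | Adj v (p.1.1 v) y}, Φ (p.1.set v y, p.2)

/-- `Φ` is an eigenfunction of the spherical operators at all infinite places with parameter `0`. -/
def IsArchEigen {S : Lev F} (Φ : Pt F S → ℂ) : Prop :=
  ∀ (w : InfinitePlace F) (k : ℝ → ℝ), Continuous k → HasCompactSupport k → ∀ p : Pt F S,
    hIntegral (fun y => (k (coshd (p.2 w) y) : ℂ) * Φ (p.1, Function.update p.2 w y))
      = hhat0 k * Φ p

variable [IsTotallyComplex F]

/-- The constant term of `Φ` vanishes: the mean over the translations of every horosphere is `0`. -/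
def HasZeroConst {S : Lev F} (Φ : Pt F S → ℂ) : Prop :=
  ∀ (ω : FinPt F S) (t : InfinitePlace F → ℝ), (∀ w, 0 < t w) →
    Fermat.LT.Mult.mean (fun z : InfinitePlace F → ℂ => Φ (ω, fun w => H3.mk (z w) (t w))) = 0

/-- A cusp form of level `S` with archimedean parameter `0` and Hecke eigenvalues `lam` outside
`S ∪ Z`. -/
structure IsForm (S : Lev F) (Z : Set (Place F)) (lam : Place F → ℝ) (Φ : Pt F S → ℂ) : Prop where
  /-- The form is not identically zero. -/
  nonzero : ∃ p, Φ p ≠ 0
  /-- The function is invariant under `GL₂(F)`. -/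
  invariant : IsInvariant Φ
  /-- The function is continuous in the archimedean variables. -/
  continuous : ∀ ω : FinPt F S, Continuous fun x : InfinitePlace F → H3 => Φ (ω, x)
  /-- The function is bounded. -/
  bounded : ∃ C : ℝ, ∀ p, ‖Φ p‖ ≤ C
  /-- The function is an archimedean eigenfunction of parameter zero. -/
  arch : IsArchEigen Φ
  /-- The constant terms vanish. -/
  cuspidal : HasZeroConst Φ
  /-- Outside `S` and `Z` the Hecke operator at `v` acts by `lam v`. -/
  hecke : ∀ v ∉ S, v ∉ Z → ∀ p, heckeT v Φ p = (lam v : ℂ) * Φ p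

end Fermat.LTG
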