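import Fermat.Agent.LTG.Elliptic
import Fermat.Agent.LTG.Ext.Main
import Fermat.Agent.LTG.Mult.Main
import Fermat.Agent.LTG.Sys.Level
import Fermat.Agent.LTG.W1.Input

/-!
# The assembly

The weight one statement from four inputs: the theta series, the comparison of the systems, the
densities of the non-elliptic parts and the passage from a form over `K = ℚ(√-3)` to a form of
weight one over `ℚ`. Each input is stated here (or in `LTG/Test` for `HypStatement`) and proved in
`LTG/Theta/Statement`, `LTG/Sys/SysProof`, `LTG/Hyp/Main` and `LTG/W1/Main`.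

Route: `ρ` cuts out a cubic extension `L` of `K`; a theta series on `L` has a new level
(`LTG/Mult`), the trace formulas give a form on `K`, which gives a form of weight one over `ℚ`;
the eigensystem is read off from it (`LTG/Ext`).
-/

set_option autoImplicit false
open NumberField

local notation "ℚbar" => AlgebraicClosure ℚ
local notation "Γℚ" => (AlgebraicClosure ℚ ≃ₐ[ℚ] AlgebraicClosure ℚ)

namespace Fermat.LTG

open Fermat.LT

/-- The theta series: for Hecke character data `lam` ramified at `R` and a finite set `Keep`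
disjoint from `R`, a cusp form with eigenvalues `lam` whose level and exceptional set avoid
`Keep`. -/
def ThetaStatement : Prop :=
  ∀ (L M : Type) [Field L] [NumberField L] [IsTotallyComplex L] [Field M] [NumberField M]
    [Algebra L M] (σM : M ≃ₐ[L] M) (lam : Place L → ℝ) (R : Finset (Place L)),
    HData σM lam R → ∀ Keep : Set (Place L), Keep.Finite → (∀ w ∈ Keep, w ∉ R) →
      ∃ (S₀ : Lev L) (Z : Set (Place L)) (Φ : Pt L S₀ → ℂ),
        Z.Finite ∧ (∀ w ∈ Keep, w ∉ S₀ ∧ w ∉ Z) ∧ IsForm S₀ Z lam Φ

/-- The comparison of the systems: given eigenvalues `lam` over the cubic extension `L`, a level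
with nonzero trace for them and the geometric comparison of the two trace formulas, a form over
`K` whose eigenvalues lift to `lam` off the level. -/
def SysStatement : Prop :=
  ∀ (K L : Type) [Field K] [NumberField K] [Field L] [NumberField L] [Algebra K L]
    [IsTotallyComplex K] [IsTotallyComplex L] (σ : L ≃ₐ[K] L) (ρ : Γℚ →* GL (Fin 2) (ZMod 3))
    (ι : L →+* ℚbar) (lam : Place L → ℝ) (R : Finset (Place L)),
    GalData K L ρ ι lam R → Cyc3 K L σ →
    ∀ W : Set (Place L), W.Finite → ∀ D : Sys.LevelData σ W lam, GeometricStatement K L →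
      ∃ (lamK : Place K → ℝ) (Φ : Pt K D.B.S → ℂ), IsForm D.B.S ∅ lamK Φ ∧
        ∀ v : Place K, v ∉ D.B.S → ∀ w : Place L, LiesOver K L w v →
          (pnorm w = pnorm v → lam w = lamK v) ∧
          (pnorm w ≠ pnorm v → lam w = lamK v ^ 3 - 3 * (pnorm v : ℝ) * lamK v)

/-- The passage to weight one: a form over `K` attached to `ρ` gives a weight one form for `ρ`. -/
def OfKFormStatement : Prop :=
  ∀ (K L : Type) [Field K] [NumberField K] [Field L] [NumberField L] [Algebra K L]
    [IsTotallyComplex K] (ρ : Γℚ →* GL (Fin 2) (ZMod 3)) (ι : L →+* ℚbar) (σ : L ≃ₐ[K] L)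
    (ZL : Set (Place L)) (lam : Place L → ℝ) (S : Lev K) (Z : Set (Place K)) (lamK : Place K → ℝ)
    (Φ : Pt K S → ℂ), KForm ρ ι σ ZL lam S Z lamK Φ → WeightOneG ρ

/-- **The automorphic part from its inputs.** -/
theorem weightOneStatement_of_parts (hTheta : ThetaStatement)
    (hHyp : ∀ (K L : Type) [Field K] [NumberField K] [Field L] [NumberField L] [Algebra K L],
      HypStatement K L)
    (hSys : SysStatement) (hW1 : OfKFormStatement) : WeightOneStatement := by
  intro ρ hρ
  -- the fields `K ⊆ L` cut out by `ρ` and the Galois data on them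
  obtain ⟨K, L, _, _, _, _, _, ι, hF⟩ := hρ.exists_fieldData
  obtain ⟨lam, R, hG⟩ := galData hρ hF
  have := hG.totallyComplexK
  have := hG.totallyComplexL
  have := hG.galoisKL
  obtain ⟨σ, hσ⟩ : ∃ σ : L ≃ₐ[K] L, σ ≠ 1 := by
    have : Nontrivial (L ≃ₐ[K] L) := Finite.one_lt_card_iff_nontrivial.mp (by
      rw [IsGalois.card_aut_eq_finrank, hG.degree]; norm_num)
    exact exists_ne 1
  have hc : Cyc3 K L σ := ⟨hG.galoisKL, hG.degree, hσ⟩
  have hwildfin : {w : Place L | Loc.IsWild σ w}.Finite := by
    have h3 : {v : Place K | v.valuation K 3 ≠ 1}.Finite :=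
      Filter.eventually_cofinite.1 (eventually_valuation_eq_one (three_ne_zero : (3 : K) ≠ 0))
    exact (h3.biUnion fun v _ => hc.finite_placesOver v).subset fun w hw =>
      Set.mem_biUnion (x := below K w) hw.2 (liesOver_below w)
  -- the theta series over `L`, good at the wild places
  obtain ⟨M, _, _, _, σM, ⟨hH⟩⟩ := hG.hecke
  obtain ⟨S₀, Z, Φ₀, hZ, hkeep, hform⟩ :=
    hTheta L M σM lam R hH _ hwildfin fun w hw => (Loc.isWild_data hc hG hw).2.2.2
  -- its new level, the form over `K` below it, and the form of weight one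
  obtain ⟨n, -, hn⟩ := Mult.newLevelStatement S₀ Z lam hZ ⟨Φ₀, hform⟩
  obtain ⟨D⟩ := Sys.exists_levelData hc hG (hZ.union S₀.finite)
    (fun w hw h => h.elim (hkeep w hw).2 (hkeep w hw).1) hn
  obtain ⟨lamK, Φ, hΦ, hlift⟩ := hSys K L σ ρ ι lam R hG hc _ (hZ.union S₀.finite) D
    (geometricStatement_of_parts (ellipticStatement_proved K L) (hHyp K L))
  exact hW1 K L ρ ι σ (R : Set (Place L)) lam D.B.S ∅ lamK Φ
    { gen := hρ
      field := hF
      cyc := hc
      rank := hG.degreeK
      zeta := hG.zeta3
      finiteZL := R.finite_toSet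
      eigen := fun w hw => hG.eigen w hw
      finiteZ := Set.finite_empty
      form := hΦ
      lifts := fun v hv _ => hlift v hv }

/-- **The conclusion of the Langlands–Tunnell row for `ρ` from the inputs.** -/
theorem realised_of_parts (hTheta : ThetaStatement)
    (hHyp : ∀ (K L : Type) [Field K] [NumberField K] [Field L] [NumberField L] [Algebra K L],
      HypStatement K L)
    (hSys : SysStatement) (hW1 : OfKFormStatement) {ρ : Γℚ →* GL (Fin 2) (ZMod 3)} (hρ : GenRho ρ)
    {Ψ : GL (Fin 2) (ZMod 3) →* GL (Fin 2) (ℤ√(-2))}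
    (hΨ : ∀ g, Matrix.GeneralLinearGroup.map FLT.ExplicitLift.red (Ψ g) = g) : Realised ρ Ψ :=
  Ext.extraction ρ Ψ hρ hΨ (weightOneStatement_of_parts hTheta hHyp hSys hW1 ρ hρ)

end Fermat.LTG
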