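import Fermat.Agent.LTG.Kern
import Fermat.Agent.LT.KernComp

/-!
# Composition of product kernels, unfolding over a fundamental domain

`integral_kap_mul` is the composition of the summed kernels over a fundamental domain.
-/

set_option autoImplicit false
open MeasureTheory Filter Set NumberField
open scoped Classical

namespace Fermat.LTG

open Fermat.LT

variable {F : Type*} [Field F] [NumberField F] {S : Lev F}

namespace LKer

variable {v : Place F}

/-- Kernels with equal values are equal. -/
@[ext] lemma ext' {k l : LKer S v} (h : ∀ a b, k a b = l a b) : k = l := by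
  cases k; cases l; congr; funext a b; exact h a b

/-- The identity kernel is neutral on the left. -/
lemma one_comp_eq (k : LKer S v) : (one S v).comp k = k := ext' (one_comp k)

/-- Composition is summation over the middle coset. -/
lemma comp_apply (k l : LKer S v) (a c : Vert S v) : k.comp l a c = ∑ᶠ b, k a b * l b c := rfl

end LKer

namespace PKer

variable (K L : PKer F S)

/-- Composition of product kernels. -/
noncomputable def comp : PKer F S where
  loc v := (K.loc v).comp (L.loc v)
  ae_one := by
    filter_upwards [K.ae_one, L.ae_one] with v h1 h2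
    rw [h1, h2, LKer.one_comp_eq]
  arch w := (K.arch w).comp (L.arch w)

/-- Finite parts compose place by place. -/
lemma fin_comp (ω ω'' : FinPt F S) :
    ∑ᶠ ω', K.fin ω ω' * L.fin ω' ω'' = (K.comp L).fin ω ω'' :=
  finsum_finprod_mul_finprod (fun v a => (K.loc v).finite_row a) (((K.eventually_eq ω ω'').and
    (L.eventually_eq ω ω'')).mono fun v h => ⟨fun a c => by rw [h.1.1, LKer.one_apply]; congr 1,
      fun a c => by rw [h.2.1, LKer.one_apply]; congr 1, h.1.2⟩)

/-- The product of two infinite parts is integrable in the middle point. -/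
lemma integrable_inf_mul (x z : InfinitePlace F → H3) :
    Integrable (fun y => K.inf x y * L.inf y z) (Measure.pi fun _ => hmeas) := by
  simp only [inf, ← Finset.prod_mul_distrib]
  refine Integrable.fintype_prod (f := fun w y => K.arch w (x w) y * L.arch w y (z w)) fun w => ?_
  exact ((K.arch w).integrable (x w)).mul_bdd
    ((L.arch w).continuous_left (z w)).aestronglyMeasurable
    (Eventually.of_forall fun y => (L.arch w).le_bound y (z w))

/-- Infinite parts compose place by place. -/
lemma inf_comp (x z : InfinitePlace F → H3) :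
    ∫ y, K.inf x y * L.inf y z ∂(Measure.pi fun _ => hmeas) = (K.comp L).inf x z := by
  simp only [inf, ← Finset.prod_mul_distrib]
  exact integral_fintype_prod_eq_prod fun w y => K.arch w (x w) y * L.arch w y (z w)

/-- The kernel at two points is a finite sum over the row of finite points. -/
lemma val_eq_sum (p q : Pt F S) :
    K.val p q = ∑ ω ∈ (K.finite_row p.1).toFinset, if q.1 = ω then
      K.fin p.1 ω * K.inf p.2 q.2 else 0 := by
  rw [Finset.sum_ite_eq]
  split_ifs with h
  · rfl
  · rw [Set.Finite.mem_toFinset, Set.mem_ofPred_eq, not_not] at h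
    rw [val, h, zero_mul]

/-- Kernel values multiply factor by factor. -/
lemma val_mul_val (p q r : Pt F S) :
    K.val p q * L.val q r = K.fin p.1 q.1 * L.fin q.1 r.1 * (K.inf p.2 q.2 * L.inf q.2 r.2) := by
  simp only [val]; ring

/-- Only the finitely many points of a row contribute to a product of finite factors. -/
lemma finite_support_fin_mul (ω ω'' : FinPt F S) :
    (Function.support fun ω' => K.fin ω ω' * L.fin ω' ω'').Finite :=
  (K.finite_row ω).subset fun _ h => left_ne_zero_of_mul h

/-- The product of two kernel values is integrable in the middle point. -/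
lemma integrable_val_mul (p r : Pt F S) :
    Integrable (fun q => K.val p q * L.val q r) ptMeasure := by
  have : DiscreteMeasurableSpace (FinPt F S) := ⟨fun _ => trivial⟩
  simp only [K.val_mul_val L]
  exact (integral_count_eq_finsum (K.finite_support_fin_mul L p.1 r.1)).1.mul_prod
    (K.integrable_inf_mul L p.2 r.2)

/-- The composition formula. -/
theorem integral_val_mul (p r : Pt F S) :
    ∫ q, K.val p q * L.val q r ∂ptMeasure = (K.comp L).val p r := by
  have : DiscreteMeasurableSpace (FinPt F S) := ⟨fun _ => trivial⟩
  simp only [K.val_mul_val L]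
  unfold ptMeasure
  rw [integral_prod_mul (fun ω => K.fin p.1 ω * L.fin ω r.1) fun y => K.inf p.2 y * L.inf y r.2,
    (integral_count_eq_finsum (K.finite_support_fin_mul L p.1 r.1)).2, K.fin_comp L, K.inf_comp L]
  rfl

/-- The group elements contributing on the support of `K.val p`. -/
lemma exists_finset_seen (p r : Pt F S) :
    ∃ s : Finset (PG F), ∀ q, K.val p q ≠ 0 → ∀ δ ∉ s, L.val q (δ • r) = 0 := by
  set A : ℝ := 2 * (∑ w, coshd ((1 : GL (Fin 2) ℂ) : H3) (p.2 w)) * K.range
  set B : ℝ := ∑ w, coshd ((1 : GL (Fin 2) ℂ) : H3) (r.2 w)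
  have hfin : (⋃ ω ∈ {ω | K.fin p.1 ω ≠ 0}, {γ : PG F | ∃ x y : InfinitePlace F → H3,
      (∀ w, coshd ((1 : GL (Fin 2) ℂ) : H3) (x w) ≤ A) ∧
      (∀ w, coshd ((1 : GL (Fin 2) ℂ) : H3) (y w) ≤ B) ∧
      L.val (ω, x) (γ • (r.1, y)) ≠ 0}).Finite :=
    (K.finite_row p.1).biUnion fun ω _ => L.finite_seen ω r.1 A B
  refine ⟨hfin.toFinset, fun q hq δ hδ => ?_⟩
  by_contra hne
  refine hδ (hfin.mem_toFinset.2 ?_)
  rw [val, mul_ne_zero_iff] at hq
  refine mem_biUnion hq.1 ⟨q.2, r.2, fun w => ?_, fun w => ?_, hne⟩
  · exact coshd_base_le_of_coshd (coshd_base_le_sum p.2 w)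
      (not_lt.1 fun h => hq.2 (K.inf_eq_zero h))
  · exact coshd_base_le_sum r.2 w

/-- **Composition of the summed kernels.** The integral over a fundamental domain of the product of
two summed kernels is the summed kernel of the composition. -/
theorem integral_kap_mul {D : Set (Pt F S)} (hD : IsFundamentalDomain (PG F) D ptMeasure)
    (p r : Pt F S) :
    ∫ q in D, K.kap p q * L.kap q r ∂ptMeasure = (K.comp L).kap p r := by
  obtain ⟨s, hs⟩ := K.exists_finset_seen L p r
  have hi := fun δ : PG F => K.integrable_val_mul L p (δ • r)
  have hint : Integrable (fun q => K.val p q * L.kap q r) ptMeasure :=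
    integrable_mul_tsum_of_finset _ _ s hs hi
  have hunf : ∀ q, K.kap p q * L.kap q r = ∑' γ : PG F, K.val p (γ • q) * L.kap (γ • q) r :=
      fun q => by
    rw [kap, ← tsum_mul_right]
    simp only [L.kap_smul_left]
  simp only [hunf]
  rw [integral_domain_tsum hD hint]
  exact (integral_mul_tsum_of_finset _ _ s hs hi).trans
    (tsum_congr fun δ => K.integral_val_mul L p (δ • r))

end PKer

end Fermat.LTG
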