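import Fermat.Agent.LT.KerAct
import Fermat.Agent.LTG.KernComp

/-!
# Composing a product kernel with a kernel at one place

`locAct` and `archAct` apply a kernel at one place to functions of points; `kap_actArch` carries
this to the summed kernels.
-/

set_option autoImplicit false
open MeasureTheory Filter Set NumberField
open scoped Classical

namespace Fermat.LTG

open Fermat.LT

variable {F : Type*} [Field F] [NumberField F] {S : Lev F}

/-- Setting a component sets it. -/
@[simp] lemma FinPt.set_self (ν : FinPt F S) (v : Place F) (y : Vert S v) :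
    (ν.set v y).1 v = y := by
  simp [FinPt.set]

/-- Setting a component keeps the others. -/
lemma FinPt.set_of_ne (ν : FinPt F S) {v u : Place F} (h : u ≠ v) (y : Vert S v) :
    (ν.set v y).1 u = ν.1 u := by
  simp [FinPt.set, Function.update_of_ne h]

/-- Setting a component twice keeps the last value. -/
@[simp] lemma FinPt.set_set (ν : FinPt F S) (v : Place F) (y z : Vert S v) :
    (ν.set v y).set v z = ν.set v z :=
  Subtype.ext (Function.update_idem y z ν.1)

/-- Setting components at different places commutes. -/
lemma FinPt.set_comm (ν : FinPt F S) {v u : Place F} (h : v ≠ u) (y : Vert S v) (z : Vert S u) :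
    (ν.set v y).set u z = (ν.set u z).set v y :=
  Subtype.ext (Function.update_comm h y z ν.1)

/-- Setting a component to its own value changes nothing. -/
@[simp] lemma FinPt.set_eq_self (ν : FinPt F S) (v : Place F) : ν.set v (ν.1 v) = ν :=
  Subtype.ext (funext fun u => by
    by_cases h : u = v
    · subst h; simp
    · rw [FinPt.set_of_ne _ h])

/-- The group action commutes with setting one component. -/
lemma FinPt.smul_set (g : GL (Fin 2) F) (ν : FinPt F S) (v : Place F) (y : Vert S v) :
    g • ν.set v y = (g • ν).set v (g • y) :=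
  Subtype.ext (funext fun u => by
    by_cases h : u = v
    · subst h; simp
    · rw [FinPt.smul_apply, FinPt.set_of_ne _ h, FinPt.set_of_ne _ h, FinPt.smul_apply])

namespace LKer

variable {v : Place F}

/-- Finitely many points of a row. -/
noncomputable def row (k : LKer S v) (a : Vert S v) : Finset (Vert S v) := (k.finite_row a).toFinset

/-- The row is the support in the second variable. -/
lemma mem_row {k : LKer S v} {a b : Vert S v} : b ∈ k.row a ↔ k a b ≠ 0 :=
  (k.finite_row a).mem_toFinset

/-- Total mass of a row. -/
noncomputable def mass (k : LKer S v) : ℝ :=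
  ∑ y ∈ k.row ((1 : GL (Fin 2) F) : Vert S v), ‖k ((1 : GL (Fin 2) F) : Vert S v) y‖

/-- Every row has absolute sum the mass. -/
lemma sum_norm_row (k : LKer S v) (a : Vert S v) : ∑ y ∈ k.row a, ‖k a y‖ = k.mass := by
  obtain ⟨g, rfl⟩ := QuotientGroup.mk_surjective a
  have e : ((g : GL (Fin 2) F) : Vert S v) = g • ((1 : GL (Fin 2) F) : Vert S v) := by
    rw [MulAction.Quotient.smul_coe, smul_eq_mul, mul_one]
  symm
  refine Finset.sum_nbij (fun y => g • y) (fun y hy => ?_) (fun y _ z _ h => ?_) (fun y hy => ?_)
    (fun y _ => ?_)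
  · rw [mem_row] at hy ⊢; rwa [e, k.invariant]
  · exact MulAction.injective g h
  · refine ⟨g⁻¹ • y, ?_, smul_inv_smul g y⟩
    rw [Finset.mem_coe, mem_row] at hy ⊢
    rwa [← k.invariant g, ← e, smul_inv_smul]
  · rw [e, k.invariant]

/-- Composition as a finite sum over a row. -/
lemma comp_eq_sum (k l : LKer S v) (a c : Vert S v) :
    k.comp l a c = ∑ b ∈ k.row a, k a b * l b c := by
  rw [comp_apply, finsum_eq_sum_of_support_subset _ fun b hb => ?_]
  exact Finset.mem_coe.2 (mem_row.2 (left_ne_zero_of_mul hb))

/-- Composition of local kernels is associative. -/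
lemma comp_assoc (k l m : LKer S v) : (k.comp l).comp m = k.comp (l.comp m) :=
  ext' fun a d => finsum_comp_assoc k.finite_row l.finite_row m a d

/-- The identity kernel is neutral on the right. -/
lemma comp_one (k : LKer S v) : k.comp (one S v) = k := by
  refine ext' fun a c => ?_
  rw [comp_apply, finsum_eq_single _ c fun b hb => by simp [hb]]
  simp

end LKer

/-- Applying a local kernel to a function of points. -/
noncomputable def locAct (v : Place F) (l : LKer S v) (Φ : Pt F S → ℂ) (p : Pt F S) : ℂ :=
  ∑ y ∈ l.row (p.1.1 v), l (p.1.1 v) y * Φ (p.1.set v y, p.2)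

/-- Applying an archimedean kernel to a function of points. -/
noncomputable def archAct (u : InfinitePlace F) (k : AKer) (Φ : Pt F S → ℂ) (p : Pt F S) : ℂ :=
  ∫ y, k (p.2 u) y * Φ (p.1, Function.update p.2 u y) ∂hmeas

/-- A local kernel enlarges a sup norm at most by its mass. -/
lemma norm_locAct_le (v : Place F) (l : LKer S v) {Φ : Pt F S → ℂ} {C : ℝ} (hC : ∀ p, ‖Φ p‖ ≤ C)
    (p : Pt F S) : ‖locAct v l Φ p‖ ≤ l.mass * C := by
  refine (norm_sum_le _ _).trans ?_
  rw [← l.sum_norm_row (p.1.1 v), Finset.sum_mul]
  exact Finset.sum_le_sum fun y _ => by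
    rw [norm_mul]; exact mul_le_mul_of_nonneg_left (hC _) (norm_nonneg _)

/-- An archimedean kernel enlarges a sup norm at most by its mass. -/
lemma norm_archAct_le (u : InfinitePlace F) (k : AKer) {Φ : Pt F S → ℂ} {C : ℝ}
    (hC : ∀ p, ‖Φ p‖ ≤ C) (p : Pt F S) : ‖archAct u k Φ p‖ ≤ k.mass * C :=
  k.norm_integral_mul_le (p.2 u) fun _ => hC _

namespace PKer

variable (K : PKer F S)

/-- Compose with a local kernel on the left. -/
noncomputable def actLoc (v : Place F) (l : LKer S v) : PKer F S where
  loc := Function.update K.loc v (l.comp (K.loc v))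
  ae_one := by
    filter_upwards [K.ae_one, (Set.finite_singleton v).compl_mem_cofinite] with u hu huv
    rw [Function.update_of_ne (by simpa using huv), hu]
  arch := K.arch

/-- Compose with an archimedean kernel on the left. -/
noncomputable def actArch (u : InfinitePlace F) (k : AKer) : PKer F S where
  loc := K.loc
  ae_one := K.ae_one
  arch := Function.update K.arch u (k.comp (K.arch u))

/-- Split off the factor at one place. -/
lemma fin_eq_mul (v : Place F) (ν ν' : FinPt F S) :
    K.fin ν ν' = K.loc v (ν.1 v) (ν'.1 v) * ∏ᶠ (u) (_ : u ≠ v), K.loc u (ν.1 u) (ν'.1 u) := by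
  rw [fin, ← mul_finprod_cond_ne v (K.mulSupport_finite ν ν')]

/-- The finite factor after composing with a local kernel is the sum over the row. -/
lemma fin_actLoc (v : Place F) (l : LKer S v) (ν ν' : FinPt F S) :
    (K.actLoc v l).fin ν ν' = ∑ y ∈ l.row (ν.1 v), l (ν.1 v) y * K.fin (ν.set v y) ν' := by
  rw [(K.actLoc v l).fin_eq_mul v]
  have h1 : (K.actLoc v l).loc v = l.comp (K.loc v) := by
    simp [actLoc]
  rw [h1, LKer.comp_eq_sum, Finset.sum_mul]
  refine Finset.sum_congr rfl fun y _ => ?_
  rw [K.fin_eq_mul v, FinPt.set_self, mul_assoc]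
  congr 2
  refine finprod_congr fun u => finprod_congr fun hu => ?_
  rw [FinPt.set_of_ne _ hu]
  congr 1
  exact Function.update_of_ne hu _ _

/-- The summed kernel after a local composition is the local kernel applied to the summed kernel. -/
lemma kap_actLoc (v : Place F) (l : LKer S v) (p q : Pt F S) :
    (K.actLoc v l).kap p q = locAct v l (fun p' => K.kap p' q) p := by
  simp only [locAct, kap, ← tsum_mul_left]
  rw [← Summable.tsum_finsetSum fun y _ => (K.summable_kap _ q).mul_left _]
  refine tsum_congr fun γ => ?_
  rw [val, K.fin_actLoc, Finset.sum_mul]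
  exact Finset.sum_congr rfl fun y _ => mul_assoc _ _ _

/-- The infinite factor after composing with an archimedean kernel is an integral over one
coordinate. -/
lemma inf_actArch (u : InfinitePlace F) (k : AKer) (x z : InfinitePlace F → H3) :
    (K.actArch u k).inf x z = ∫ y, k (x u) y * K.inf (Function.update x u y) z ∂hmeas :=
  (integral_prod_update_comp K.arch u k x z).symm

/-- An archimedean kernel times a product kernel is integrable in one coordinate. -/
lemma integrable_mul_val (u : InfinitePlace F) (k : AKer) (p q : Pt F S) :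
    Integrable (fun y => k (p.2 u) y * K.val (p.1, Function.update p.2 u y) q) hmeas := by
  simp only [val, mul_left_comm (k (p.2 u) _)]
  exact (integrable_mul_prod_update K.arch u k p.2 q.2).const_mul _

/-- Uniformly in one moved coordinate, only finitely many classes contribute to the summed
kernel. -/
lemma exists_finset_update (u : InfinitePlace F) (k : AKer) (p q : Pt F S) :
    ∃ s : Finset (PG F), ∀ y, k (p.2 u) y ≠ 0 → ∀ γ ∉ s,
      K.val (p.1, Function.update p.2 u y) (γ • q) = 0 := by
  refine ⟨(K.finite_seen p.1 q.1 ((∑ w, coshd ((1 : GL (Fin 2) ℂ) : H3) (p.2 w)) +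
    2 * (∑ w, coshd ((1 : GL (Fin 2) ℂ) : H3) (p.2 w)) * |k.range|)
      (∑ w, coshd ((1 : GL (Fin 2) ℂ) : H3) (q.2 w))).toFinset, fun y hy γ hγ => ?_⟩
  by_contra hne
  exact hγ ((Set.Finite.mem_toFinset _).2 ⟨Function.update p.2 u y, q.2,
    coshd_base_update_le (not_lt.1 fun h => hy (k.eq_zero _ _ h)), coshd_base_le_sum q.2, hne⟩)

/-- After an archimedean composition the summed kernel is the kernel applied to the summed
kernel. -/
lemma kap_actArch (u : InfinitePlace F) (k : AKer) (p q : Pt F S) :
    (K.actArch u k).kap p q = archAct u k (fun p' => K.kap p' q) p := by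
  obtain ⟨s, hs⟩ := K.exists_finset_update u k p q
  simp only [archAct, kap]
  rw [integral_mul_tsum_of_finset _ _ s hs fun γ => K.integrable_mul_val u k p (γ • q)]
  refine tsum_congr fun γ => ?_
  rw [val, K.inf_actArch, ← integral_const_mul]
  exact integral_congr_ae (Eventually.of_forall fun y => mul_left_comm _ _ _)

end PKer

end Fermat.LTG
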