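import Fermat.Agent.LT.Local

/-!
# Lattice groups at a place

`boxGrp w k m` is `1 + J`, `J = (p, p^{-k}; p^{k+m+1}, p)`: the pro-`p` groups of the bad places.
A scalar element is not distinguished: `boxH` adds the scalars.
-/

set_option autoImplicit false
open scoped Matrix

namespace Fermat.LTG.Loc

open Fermat.LT

variable {E : Type*} [Field E] (w : Valuation E (WithZero (Multiplicative ℤ)))

/-- All entries bounded by `exp r`. -/
def Near (r : ℤ) (X : Matrix (Fin 2) (Fin 2) E) : Prop := ∀ i j, w (X i j) ≤ WithZero.exp r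

variable {w}

/-- In the value group, being less than `1` means being at most `exp (-1)`. -/
lemma lt_one_iff_le {x : WithZero (Multiplicative ℤ)} : x < 1 ↔ x ≤ WithZero.exp (-1 : ℤ) := by
  rcases eq_or_ne x 0 with rfl | h
  · simp
  rw [← WithZero.exp_log h, ← WithZero.exp_zero, WithZero.exp_lt_exp, WithZero.exp_le_exp]
  omega

/-- Bounds multiply. -/
lemma mul_le_exp {x y : E} {a b c : ℤ} (hx : w x ≤ WithZero.exp a) (hy : w y ≤ WithZero.exp b)
    (h : a + b ≤ c) : w (x * y) ≤ WithZero.exp c := by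
  rw [map_mul]
  exact (mul_le_mul' hx hy).trans (by rw [← WithZero.exp_add, WithZero.exp_le_exp]; exact h)

/-- Bounds weaken. -/
lemma le_exp_trans {x : E} {a b : ℤ} (hx : w x ≤ WithZero.exp a) (h : a ≤ b) :
    w x ≤ WithZero.exp b := hx.trans (WithZero.exp_le_exp.2 h)

/-- Entry bounds weaken. -/
lemma Near.mono {r r' : ℤ} {X : Matrix (Fin 2) (Fin 2) E} (h : Near w r X) (hr : r ≤ r') :
    Near w r' X := fun i j => le_exp_trans (h i j) hr

/-- Entry bounds multiply. -/
lemma Near.mul {r r' : ℤ} {X Y : Matrix (Fin 2) (Fin 2) E} (hX : Near w r X) (hY : Near w r' Y) :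
    Near w (r + r') (X * Y) := fun i j => by
  rw [Matrix.mul_apply]
  exact w.map_sum_le fun l _ => mul_le_exp (hX i l) (hY l j) le_rfl

/-- Entry bounds add. -/
lemma Near.add {r : ℤ} {X Y : Matrix (Fin 2) (Fin 2) E} (hX : Near w r X) (hY : Near w r Y) :
    Near w r (X + Y) := fun i j => (w.map_add _ _).trans (max_le (hX i j) (hY i j))

/-- Entry bounds under scalar multiples. -/
lemma Near.smul {r r' : ℤ} {X : Matrix (Fin 2) (Fin 2) E} {c : E} (hc : w c ≤ WithZero.exp r)
    (hX : Near w r' X) : Near w (r + r') (c • X) := fun i j => by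
  rw [Matrix.smul_apply, smul_eq_mul]
  exact mul_le_exp hc (hX i j) le_rfl

/-- Entry bounds under negation. -/
lemma Near.neg {r : ℤ} {X : Matrix (Fin 2) (Fin 2) E} (hX : Near w r X) : Near w r (-X) :=
  fun i j => by rw [Matrix.neg_apply, Valuation.map_neg]; exact hX i j

/-- `1` is integral. -/
lemma near_one {r : ℤ} (hr : 0 ≤ r) : Near w r (1 : Matrix (Fin 2) (Fin 2) E) := fun i j => by
  have h1 : (1 : WithZero (Multiplicative ℤ)) ≤ WithZero.exp r := by
    rw [← WithZero.exp_zero]; exact WithZero.exp_le_exp.2 hr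
  fin_cases i <;> fin_cases j <;> simp [h1]

/-- Entry bounds are preserved by isometries. -/
lemma Near.map {r : ℤ} {X : Matrix (Fin 2) (Fin 2) E} (hX : Near w r X) {s : E →+* E}
    (hs : ∀ x, w (s x) = w x) : Near w r (X.map s) := fun i j => by
  rw [Matrix.map_apply, hs]; exact hX i j

/-- Some bound exists. -/
lemma exists_near (X : Matrix (Fin 2) (Fin 2) E) : ∃ r : ℤ, 0 ≤ r ∧ Near w r X := by
  refine ⟨(Finset.univ.sup fun p : Fin 2 × Fin 2 => (WithZero.log (w (X p.1 p.2))).toNat : ℕ),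
    by omega, fun i j => ?_⟩
  rcases eq_or_ne (w (X i j)) 0 with h | h
  · simp [h]
  have := Finset.le_sup (f := fun p : Fin 2 × Fin 2 => (WithZero.log (w (X p.1 p.2))).toNat)
    (Finset.mem_univ (i, j))
  dsimp only at this
  rw [← WithZero.exp_log h, WithZero.exp_le_exp]
  omega

/-- A bound on the entries bounds the determinant. -/
lemma Near.det {r : ℤ} {X : Matrix (Fin 2) (Fin 2) E} (hX : Near w r X) :
    w X.det ≤ WithZero.exp (r + r) := by
  rw [Matrix.det_fin_two]
  exact (w.map_sub _ _).trans (max_le (mul_le_exp (hX _ _) (hX _ _) le_rfl)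
    (mul_le_exp (hX _ _) (hX _ _) le_rfl))

/-- The adjugate has the same entry bounds. -/
lemma Near.adjugate {r : ℤ} {X : Matrix (Fin 2) (Fin 2) E} (hX : Near w r X) :
    Near w r X.adjugate := fun i j => by
  rw [Matrix.adjugate_fin_two]
  fin_cases i <;> fin_cases j <;> simp [Valuation.map_neg, hX _ _]

/-- `diag (b, 1)`. -/
noncomputable def dg1 : Eˣ →* GL (Fin 2) E where
  toFun b := Matrix.GeneralLinearGroup.mkOfDetNeZero !![(b : E), 0; 0, 1]
    (by simp [Matrix.det_fin_two_of])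
  map_one' := Units.ext (by ext i j; fin_cases i <;> fin_cases j <;> simp)
  map_mul' a b := Units.ext (by
    change !![((a * b : Eˣ) : E), 0; 0, 1] = !![(a : E), 0; 0, 1] * !![(b : E), 0; 0, 1]
    ext i j; fin_cases i <;> fin_cases j <;> simp [Matrix.mul_apply])

/-- The matrix of `diag(b,1)`. -/
lemma coe_dg1 (b : Eˣ) : (dg1 b : Matrix (Fin 2) (Fin 2) E) = !![(b : E), 0; 0, 1] := rfl

/-- Maps of fields commute with `diag(b, 1)`. -/
lemma map_dg1 {E' : Type*} [Field E'] (f : E →+* E') (b : Eˣ) :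
    Matrix.GeneralLinearGroup.map f (dg1 b) = dg1 (Units.map (f : E →* E') b) := by
  refine Units.ext ?_
  change (!![(b : E), 0; 0, 1] : Matrix (Fin 2) (Fin 2) E).map f = !![f b, 0; 0, 1]
  ext i j; fin_cases i <;> fin_cases j <;> simp

/-- Maps of fields commute with scalars. -/
lemma map_scal {E' : Type*} [Field E'] (f : E →+* E') (c : Eˣ) :
    Matrix.GeneralLinearGroup.map f (scal c) = scal (Units.map (f : E →* E') c) := by
  refine Units.ext ?_
  change ((scal c : GL (Fin 2) E) : Matrix (Fin 2) (Fin 2) E).map f = _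
  ext i j; fin_cases i <;> fin_cases j <;> simp

/-- The matrix of a scalar multiple. -/
lemma coe_scal_mul (c : Eˣ) (g : GL (Fin 2) E) :
    ((scal c * g : GL (Fin 2) E) : Matrix (Fin 2) (Fin 2) E) =
      (c : E) • (g : Matrix (Fin 2) (Fin 2) E) := by
  rw [Units.val_mul, scal_coe, Matrix.scalar_apply, ← Matrix.smul_eq_diagonal_mul]

variable (w)

/-- Membership in `J`. -/
def InJ (k : ℤ) (m : ℕ) (X : Matrix (Fin 2) (Fin 2) E) : Prop :=
  w (X 0 0) < 1 ∧ w (X 1 1) < 1 ∧ w (X 0 1) ≤ WithZero.exp k ∧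
    w (X 1 0) ≤ WithZero.exp (-(k + m + 1))

variable {w} {k : ℤ} {m : ℕ}

/-- `0 ∈ J`. -/
lemma InJ.zero : InJ w k m 0 := by simp [InJ]

/-- The lattice `J` is closed under sums. -/
lemma InJ.add {X Y : Matrix (Fin 2) (Fin 2) E} (hX : InJ w k m X) (hY : InJ w k m Y) :
    InJ w k m (X + Y) :=
  ⟨w.map_add_lt hX.1 hY.1, w.map_add_lt hX.2.1 hY.2.1,
    (w.map_add _ _).trans (max_le hX.2.2.1 hY.2.2.1),
      (w.map_add _ _).trans (max_le hX.2.2.2 hY.2.2.2)⟩

/-- The lattice `J` is stable under integral scalars. -/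
lemma InJ.smul {X : Matrix (Fin 2) (Fin 2) E} {c : E} (hc : w c ≤ 1) (hX : InJ w k m X) :
    InJ w k m (c • X) := by
  simp only [InJ, Matrix.smul_apply, smul_eq_mul, map_mul]
  exact ⟨lt_of_le_of_lt (mul_le_of_le_one_left' hc) hX.1,
    lt_of_le_of_lt (mul_le_of_le_one_left' hc) hX.2.1,
    (mul_le_of_le_one_left' hc).trans hX.2.2.1, (mul_le_of_le_one_left' hc).trans hX.2.2.2⟩

/-- The lattice `J` is closed under products. -/
lemma InJ.mul {X Y : Matrix (Fin 2) (Fin 2) E} (hX : InJ w k m X) (hY : InJ w k m Y) :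
    InJ w k m (X * Y) := by
  obtain ⟨a, d, b, c⟩ := hX
  obtain ⟨a', d', b', c'⟩ := hY
  rw [lt_one_iff_le] at a d a' d'
  simp only [InJ, Matrix.mul_apply, Fin.sum_univ_two]
  refine ⟨?_, ?_, ?_, ?_⟩
  · rw [lt_one_iff_le]
    exact (w.map_add _ _).trans (max_le (mul_le_exp a a' (by omega)) (mul_le_exp b c' (by omega)))
  · rw [lt_one_iff_le]
    exact (w.map_add _ _).trans (max_le (mul_le_exp c b' (by omega)) (mul_le_exp d d' (by omega)))
  · exact (w.map_add _ _).trans (max_le (mul_le_exp a b' (by omega)) (mul_le_exp b d' (by omega)))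
  · exact (w.map_add _ _).trans (max_le (mul_le_exp c a' (by omega)) (mul_le_exp d c' (by omega)))

/-- `J` is preserved by isometries. -/
lemma InJ.map {X : Matrix (Fin 2) (Fin 2) E} (hX : InJ w k m X) {s : E →+* E}
    (hs : ∀ x, w (s x) = w x) : InJ w k m (X.map s) := by
  simp only [InJ, Matrix.map_apply, hs]; exact hX

/-- Small scalars lie in `J`. -/
lemma inJ_scalar {c : E} (hc : w c < 1) : InJ w k m (c • (1 : Matrix (Fin 2) (Fin 2) E)) := by
  simp [InJ, hc]

/-- A small enough matrix lies in `J`. -/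
lemma inJ_of_near {X : Matrix (Fin 2) (Fin 2) E} {r : ℤ} (hX : Near w r X)
    (h1 : r ≤ k) (h2 : r ≤ -(k + m + 1)) : InJ w k m X :=
  ⟨lt_one_iff_le.2 (le_exp_trans (hX _ _) (by omega)),
    lt_one_iff_le.2 (le_exp_trans (hX _ _) (by omega)),
    le_exp_trans (hX _ _) h1, le_exp_trans (hX _ _) h2⟩

/-- The entries of `J` are bounded by `exp |k|`. -/
lemma InJ.near {X : Matrix (Fin 2) (Fin 2) E} (hX : InJ w k m X) : Near w |k| X := by
  intro i j
  have a1 := le_abs_self k
  have a2 := neg_abs_le k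
  fin_cases i <;> fin_cases j
  · exact le_exp_trans (lt_one_iff_le.1 hX.1) (by linarith [abs_nonneg k])
  · exact le_exp_trans hX.2.2.1 a1
  · exact le_exp_trans hX.2.2.2 (by omega)
  · exact le_exp_trans (lt_one_iff_le.1 hX.2.1) (by linarith [abs_nonneg k])

/-- An element close to one is a unit. -/
lemma v_eq_one_of_sub_lt {x : E} (h : w (x - 1) < 1) : w x = 1 := by
  have := w.map_add_eq_of_lt_left (x := 1) (y := x - 1) (by rwa [map_one])
  rwa [map_one, add_sub_cancel] at this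

/-- The determinant of `1 + J`. -/
lemma InJ.det_sub_one {M : Matrix (Fin 2) (Fin 2) E} (h : InJ w k m (M - 1)) :
    w (M.det - 1) < 1 := by
  obtain ⟨a, d, b, c⟩ := h
  simp only [Matrix.sub_apply, Matrix.one_apply_eq,
    Matrix.one_apply_ne (show (0 : Fin 2) ≠ 1 by decide),
    Matrix.one_apply_ne (show (1 : Fin 2) ≠ 0 by decide), sub_zero] at a d b c
  rw [Matrix.det_fin_two, show M 0 0 * M 1 1 - M 0 1 * M 1 0 - 1
    = (M 0 0 - 1) + (M 1 1 - 1) + ((M 0 0 - 1) * (M 1 1 - 1) - M 0 1 * M 1 0) by ring]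
  refine w.map_add_lt (w.map_add_lt a d) (lt_of_le_of_lt (w.map_sub _ _) (max_lt ?_ ?_))
  · rw [map_mul]; exact lt_of_le_of_lt (mul_le_of_le_one_right' d.le) a
  · rw [lt_one_iff_le]; exact mul_le_exp b c (by omega)

/-- A matrix close to `1` is invertible with inverse close to `1`. -/
lemma Near.inv_sub_one {η : ℕ} (hη : 1 ≤ η) {W : GL (Fin 2) E}
    (hW : Near w (-(η : ℤ)) ((W : Matrix (Fin 2) (Fin 2) E) - 1)) :
    Near w 0 ((W⁻¹ : GL (Fin 2) E) : Matrix (Fin 2) (Fin 2) E) ∧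
      Near w (-(η : ℤ)) (((W⁻¹ : GL (Fin 2) E) : Matrix (Fin 2) (Fin 2) E) - 1) := by
  have hW0 : Near w 0 (W : Matrix (Fin 2) (Fin 2) E) := by
    have := (hW.mono (by omega : -(η : ℤ) ≤ 0)).add (near_one (w := w) le_rfl)
    rwa [sub_add_cancel] at this
  have hWd : w ((W : Matrix (Fin 2) (Fin 2) E).det - 1) < 1 :=
    InJ.det_sub_one (k := 0) (m := 0) (inJ_of_near hW (by omega) (by omega))
  set W' := W⁻¹
  have hW'0 : Near w 0 (W' : Matrix (Fin 2) (Fin 2) E) := by
    have h := hW0.adjugate.smul (c := (W : Matrix (Fin 2) (Fin 2) E).det⁻¹) (r := 0)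
      (by rw [map_inv₀, v_eq_one_of_sub_lt hWd]; simp)
    rw [add_zero] at h
    rwa [Matrix.coe_units_inv, Matrix.inv_def, Ring.inverse_eq_inv']
  have hW' : Near w (-(η : ℤ)) ((W' : Matrix (Fin 2) (Fin 2) E) - 1) := by
    have e : (W' : Matrix (Fin 2) (Fin 2) E) - 1 =
        -((W' : Matrix (Fin 2) (Fin 2) E) * ((W : Matrix (Fin 2) (Fin 2) E) - 1)) := by
      rw [mul_sub, mul_one, ← Units.val_mul, inv_mul_cancel, Units.val_one, neg_sub]
    rw [e]
    exact ((hW'0.mul hW).mono (by omega)).neg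
  exact ⟨hW'0, hW'⟩

variable (w) (k m)

/-- `1 + J`. -/
def boxGrp : Subgroup (GL (Fin 2) E) where
  carrier := {g | InJ w k m ((g : Matrix (Fin 2) (Fin 2) E) - 1)}
  one_mem' := by simpa using (InJ.zero : InJ w k m (0 : Matrix (Fin 2) (Fin 2) E))
  mul_mem' := by
    intro a b ha hb
    change InJ w k m _
    rw [Units.val_mul, show (a : Matrix (Fin 2) (Fin 2) E) * b - 1
      = ((a : Matrix (Fin 2) (Fin 2) E) - 1) * (b - 1) +
        (((a : Matrix (Fin 2) (Fin 2) E) - 1) + (b - 1))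
        by noncomm_ring]
    exact (InJ.mul ha hb).add (InJ.add ha hb)
  inv_mem' := by
    intro a ha
    change InJ w k m _
    -- the determinant is one plus a small term; divide the adjugate by it
    have hd := InJ.det_sub_one ha
    have hd1 := v_eq_one_of_sub_lt hd
    have hd0 : (a : Matrix (Fin 2) (Fin 2) E).det ≠ 0 := fun h => by simp [h] at hd1
    obtain ⟨h00, h11, h01, h10⟩ := ha
    simp only [Matrix.sub_apply, Matrix.one_apply_eq,
      Matrix.one_apply_ne (show (0 : Fin 2) ≠ 1 by decide),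
      Matrix.one_apply_ne (show (1 : Fin 2) ≠ 0 by decide), sub_zero] at h00 h11 h01 h10
    rw [Matrix.coe_units_inv, Matrix.inv_def, Ring.inverse_eq_inv', Matrix.adjugate_fin_two]
    refine ⟨?_, ?_, ?_, ?_⟩ <;>
      simp only [Matrix.sub_apply, Matrix.smul_apply, smul_eq_mul, Matrix.one_apply_eq,
        Matrix.of_apply,
        Matrix.cons_val', Matrix.cons_val_zero, Matrix.cons_val_one, Matrix.cons_val_fin_one,
        Matrix.one_apply_ne (show (0 : Fin 2) ≠ 1 by decide),
        Matrix.one_apply_ne (show (1 : Fin 2) ≠ 0 by decide), sub_zero]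
    -- the diagonal entries
    · rw [← div_eq_inv_mul, div_sub_one hd0, map_div₀, hd1, div_one, show
        (a : Matrix (Fin 2) (Fin 2) E) 1 1 - (a : Matrix (Fin 2) (Fin 2) E).det
          = ((a : Matrix (Fin 2) (Fin 2) E) 1 1 - 1) - ((a : Matrix (Fin 2) (Fin 2) E).det - 1) by
            ring]
      exact lt_of_le_of_lt (w.map_sub _ _) (max_lt h11 hd)
    · rw [← div_eq_inv_mul, div_sub_one hd0, map_div₀, hd1, div_one, show
        (a : Matrix (Fin 2) (Fin 2) E) 0 0 - (a : Matrix (Fin 2) (Fin 2) E).det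
          = ((a : Matrix (Fin 2) (Fin 2) E) 0 0 - 1) - ((a : Matrix (Fin 2) (Fin 2) E).det - 1) by
            ring]
      exact lt_of_le_of_lt (w.map_sub _ _) (max_lt h00 hd)
    -- off the diagonal only a unit factor changes
    · rw [map_mul, map_inv₀, hd1, inv_one, one_mul, Valuation.map_neg]; exact h01
    · rw [map_mul, map_inv₀, hd1, inv_one, one_mul, Valuation.map_neg]; exact h10

/-- Scalars times `1 + J`. -/
noncomputable def boxH : Subgroup (GL (Fin 2) E) := withScalars (boxGrp w k m)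

variable {w k m}

/-- Membership in `1 + J`. -/
lemma mem_boxGrp {g : GL (Fin 2) E} :
    g ∈ boxGrp w k m ↔ InJ w k m ((g : Matrix (Fin 2) (Fin 2) E) - 1) := Iff.rfl

/-- `1 + J` lies in the group with scalars. -/
lemma boxGrp_le_boxH : boxGrp w k m ≤ boxH w k m := le_withScalars _

/-- Scalars lie in the group with scalars. -/
lemma scal_mem_boxH (c : Eˣ) : scal c ∈ boxH w k m := scal_mem_withScalars _ c

/-- An element of `boxH` is a scalar times an element of `1 + J`. -/
lemma mem_boxH {g : GL (Fin 2) E} :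
    g ∈ boxH w k m ↔ ∃ c : Eˣ, ∃ u ∈ boxGrp w k m, g = scal c * u := by
  constructor
  · rintro ⟨c, hc⟩
    refine ⟨c⁻¹, _, hc, ?_⟩
    rw [← mul_assoc, ← scal_mul, inv_mul_cancel]
    simp [scal]
  · rintro ⟨c, u, hu, rfl⟩
    exact (boxH w k m).mul_mem (scal_mem_boxH c) (boxGrp_le_boxH hu)

/-- Matrices in `1 + J` are invertible and form the group. -/
lemma exists_boxGrp {M : Matrix (Fin 2) (Fin 2) E} (h : InJ w k m (M - 1)) :
    ∃ g ∈ boxGrp w k m, (g : Matrix (Fin 2) (Fin 2) E) = M := by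
  have hd : M.det ≠ 0 := fun h0 => by
    have := v_eq_one_of_sub_lt h.det_sub_one
    simp [h0] at this
  exact ⟨Matrix.GeneralLinearGroup.mkOfDetNeZero M hd, h, rfl⟩

/-- `diag(u,1)` lies in `1 + J` for `u ≡ 1`. -/
lemma dg1_mem_boxGrp {u : Eˣ} (h : w ((u : E) - 1) < 1) : dg1 u ∈ boxGrp w k m := by
  simp [mem_boxGrp, InJ, coe_dg1, h]

/-- `diag(b,1)` moves `k` by the exponent `β` of `w b`, minus the order of `b`. -/
lemma dg1_conj_box {b : Eˣ} {β : ℤ} (hb : w b = WithZero.exp β) {u : GL (Fin 2) E}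
    (hu : u ∈ boxGrp w k m) : dg1 b * u * (dg1 b)⁻¹ ∈ boxGrp w (k + β) m := by
  obtain ⟨h00, h11, h01, h10⟩ := hu
  simp only [Matrix.sub_apply, Matrix.one_apply_eq,
    Matrix.one_apply_ne (show (0 : Fin 2) ≠ 1 by decide),
    Matrix.one_apply_ne (show (1 : Fin 2) ≠ 0 by decide), sub_zero] at h00 h11 h01 h10
  have e : ((dg1 b * u * (dg1 b)⁻¹ : GL (Fin 2) E) : Matrix (Fin 2) (Fin 2) E)
      = !![(u : Matrix (Fin 2) (Fin 2) E) 0 0, (b : E) * (u : Matrix (Fin 2) (Fin 2) E) 0 1;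
          (u : Matrix (Fin 2) (Fin 2) E) 1 0 * (b : E)⁻¹, (u : Matrix (Fin 2) (Fin 2) E) 1 1] := by
    rw [← map_inv, Units.val_mul, Units.val_mul, coe_dg1, coe_dg1]
    ext i j
    fin_cases i <;> fin_cases j <;>
      simp [Matrix.mul_apply, Matrix.vecMul, dotProduct, Fin.sum_univ_two,
        mul_right_comm _ _ (b : E)⁻¹]
  rw [mem_boxGrp, e]
  refine ⟨?_, ?_, ?_, ?_⟩
  · simpa using h00
  · simpa using h11
  · simpa using mul_le_exp hb.le h01 (by omega : β + k ≤ k + β)
  · have hb' : w (b : E)⁻¹ ≤ WithZero.exp (-β) := by rw [map_inv₀, hb, WithZero.exp_neg]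
    have := mul_le_exp h10 hb' (le_refl (-(k + (m : ℤ) + 1) + -β))
    refine le_of_eq_of_le (by simp) (le_exp_trans this (by omega))

/-- Conjugation by `diag(b, 1)` shifts the index `k` by minus the order of `b`. -/
lemma dg1_conj_mem {b : Eˣ} {β : ℤ} (hb : w b = WithZero.exp β) {g : GL (Fin 2) E}
    (hg : g ∈ boxH w k m) : dg1 b * g * (dg1 b)⁻¹ ∈ boxH w (k + β) m := by
  obtain ⟨c, u, hu, rfl⟩ := mem_boxH.1 hg
  rw [show dg1 b * (scal c * u) * (dg1 b)⁻¹ = scal c * (dg1 b * u * (dg1 b)⁻¹) by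
    rw [← mul_assoc (dg1 b) (scal c), ← scal_comm c (dg1 b)]; group]
  exact (boxH w _ m).mul_mem (scal_mem_boxH c) (boxGrp_le_boxH (dg1_conj_box hb hu))

/-- Units normalise `1 + J`. -/
lemma dg1_conj_box_unit {b : Eˣ} (hb : w b = 1) {g : GL (Fin 2) E} (hg : g ∈ boxGrp w k m) :
    dg1 b * g * (dg1 b)⁻¹ ∈ boxGrp w k m := by
  simpa using dg1_conj_box (β := 0) (by simpa using hb) hg

/-- Units normalise. -/
lemma dg1_conj_mem_unit {b : Eˣ} (hb : w b = 1) {g : GL (Fin 2) E} (hg : g ∈ boxH w k m) :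
    dg1 b * g * (dg1 b)⁻¹ ∈ boxH w k m := by
  simpa using dg1_conj_mem (β := 0) (by simpa using hb) hg

/-- A valuation preserving map preserves `1 + J`. -/
lemma map_mem_boxGrp {s : E →+* E} (hs : ∀ x, w (s x) = w x) {g : GL (Fin 2) E}
    (hg : g ∈ boxGrp w k m) : Matrix.GeneralLinearGroup.map s g ∈ boxGrp w k m := by
  have := InJ.map hg hs
  rwa [show ((g : Matrix (Fin 2) (Fin 2) E) - 1).map s
      = (g : Matrix (Fin 2) (Fin 2) E).map s - 1 by
        rw [Matrix.map_sub _ (map_sub s), Matrix.map_one _ (map_zero s) (map_one s)]] at this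

/-- A valuation preserving map preserves `boxH`. -/
lemma map_mem_boxH {s : E →+* E} (hs : ∀ x, w (s x) = w x) {g : GL (Fin 2) E}
    (hg : g ∈ boxH w k m) : Matrix.GeneralLinearGroup.map s g ∈ boxH w k m := by
  obtain ⟨c, u, hu, rfl⟩ := mem_boxH.1 hg
  rw [map_mul, map_scal]
  exact (boxH w k m).mul_mem (scal_mem_boxH _) (boxGrp_le_boxH (map_mem_boxGrp hs hu))

section Power

variable (w)

/-- The step `n` of the filtration by valuations of the entries. -/
def InF (k : ℤ) (n : ℕ) (X : Matrix (Fin 2) (Fin 2) E) : Prop :=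
  w (X 0 0) ≤ WithZero.exp (-(((n + 1) / 2 : ℕ) : ℤ)) ∧
    w (X 1 1) ≤ WithZero.exp (-(((n + 1) / 2 : ℕ) : ℤ)) ∧
    w (X 0 1) ≤ WithZero.exp (k - ((n / 2 : ℕ) : ℤ)) ∧
    w (X 1 0) ≤ WithZero.exp (-(k + (((n + 2) / 2 : ℕ) : ℤ)))

variable {w}

/-- `J` is the first step of the filtration. -/
lemma InJ.inF {X : Matrix (Fin 2) (Fin 2) E} (hX : InJ w k m X) : InF w k 1 X :=
  ⟨by simpa using lt_one_iff_le.1
        hX.1, by simpa using lt_one_iff_le.1 hX.2.1, by simpa using hX.2.2.1,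
    le_exp_trans hX.2.2.2 (by omega)⟩

/-- The filtration is closed under sums. -/
lemma InF.add {n : ℕ} {X Y : Matrix (Fin 2) (Fin 2) E} (hX : InF w k n X) (hY : InF w k n Y) :
    InF w k n (X + Y) :=
  ⟨(w.map_add _ _).trans (max_le hX.1 hY.1), (w.map_add _ _).trans (max_le hX.2.1 hY.2.1),
    (w.map_add _ _).trans (max_le hX.2.2.1 hY.2.2.1),
      (w.map_add _ _).trans (max_le hX.2.2.2 hY.2.2.2)⟩

/-- The filtration is multiplicative. -/
lemma InF.mul {n n' : ℕ} {X Y : Matrix (Fin 2) (Fin 2) E} (hX : InF w k n X) (hY : InF w k n' Y) :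
    InF w k (n + n') (X * Y) := by
  obtain ⟨a, d, b, c⟩ := hX
  obtain ⟨a', d', b', c'⟩ := hY
  simp only [InF, Matrix.mul_apply, Fin.sum_univ_two]
  exact ⟨(w.map_add _ _).trans (max_le (mul_le_exp a a' (by omega)) (mul_le_exp b c' (by omega))),
    (w.map_add _ _).trans (max_le (mul_le_exp c b' (by omega)) (mul_le_exp d d' (by omega))),
    (w.map_add _ _).trans (max_le (mul_le_exp a b' (by omega)) (mul_le_exp b d' (by omega))),
    (w.map_add _ _).trans (max_le (mul_le_exp c a' (by omega)) (mul_le_exp d c' (by omega)))⟩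

/-- High powers are close to one. -/
theorem exists_pow_near {p : ℕ} (hp : w (p : E) < 1) (M : ℕ) :
    ∃ n₀ : ℕ, ∀ n, n₀ ≤ n → ∀ u ∈ boxGrp w k m,
      Near w (-(M : ℤ)) (((u ^ p ^ n : GL (Fin 2) E) : Matrix (Fin 2) (Fin 2) E) - 1) := by
  have step : ∀ n, ∀ u ∈ boxGrp w k m,
      InF w k (n + 1) (((u ^ p ^ n : GL (Fin 2) E) : Matrix (Fin 2) (Fin 2) E) - 1) := by
    intro n
    induction n with
    | zero => intro u hu; simpa using InJ.inF hu
    | succ n ih =>
      intro u hu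
      set x := u ^ p ^ n with hx
      have hxm : x ∈ boxGrp w k m := (boxGrp w k m).pow_mem hu _
      rw [pow_succ p n, pow_mul, ← hx, Units.val_pow_eq_pow_val, ← geom_sum_mul,
        show n + 1 + 1 = 1 + (n + 1) by omega]
      refine InF.mul ?_ (ih u hu)
      have e : ∑ i ∈ Finset.range p, (x : Matrix (Fin 2) (Fin 2) E) ^ i
          = (p : E) • (1 : Matrix (Fin 2) (Fin 2) E)
            + ∑ i ∈ Finset.range p, ((x : Matrix (Fin 2) (Fin 2) E) ^ i - 1) := by
        rw [Finset.sum_sub_distrib, Finset.sum_const, Finset.card_range, ← Nat.cast_smul_eq_nsmul E,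
          add_sub_cancel]
      rw [e]
      refine (inJ_scalar (m := m) hp).inF.add ?_
      refine Finset.sum_induction _ (InF w k 1) (fun _ _ => InF.add)
        ((InJ.zero (m := m)).inF) fun i _ => ?_
      rw [← Units.val_pow_eq_pow_val]
      exact InJ.inF ((boxGrp w k m).pow_mem hxm i)
  refine ⟨2 * (M + k.natAbs) + 2, fun n hn u hu => ?_⟩
  obtain ⟨a, d, b, c⟩ := step n u hu
  intro i j
  fin_cases i <;> fin_cases j
  · exact le_exp_trans a (by omega)
  · exact le_exp_trans b (by omega)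
  · exact le_exp_trans c (by omega)
  · exact le_exp_trans d (by omega)

end Power

/-- Cocycles of norm one in `1 + J` are coboundaries: the average. -/
theorem exists_fixed_translate (h3 : w 3 = 1) (s : E ≃+* E) (hs : ∀ x, w (s x) = w x)
    (hs3 : ∀ x, s (s (s x)) = x) {y u : GL (Fin 2) E} (hu : u ∈ boxGrp w k m)
    (h : Matrix.GeneralLinearGroup.map (s : E →+* E) y = y * u) :
    ∃ p ∈ boxGrp w k m, Matrix.GeneralLinearGroup.map (s : E →+* E) (y * p) = y * p := by
  set S := Matrix.GeneralLinearGroup.map (n := Fin 2) (s : E →+* E)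
  have h3' : ∀ g, S (S (S g)) = g := fun g => Units.ext (Matrix.ext fun i j => hs3 _)
  -- the cocycle has norm one
  have hN : u * S u * S (S u) = 1 := by
    have e := h3' y
    rw [h, map_mul, h, map_mul, map_mul, h, mul_assoc, mul_assoc] at e
    rw [mul_assoc]
    exact mul_left_cancel (e.trans (mul_one y).symm)
  have h30 : (3 : E) ≠ 0 := fun e => by simp [e] at h3
  have hu2 : u * S u ∈ boxGrp w k m := (boxGrp w k m).mul_mem hu (map_mem_boxGrp hs hu)
  -- the average `P` of the partial products lies in `1 + J`, three being a unit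
  set P : Matrix (Fin 2) (Fin 2) E :=
    (3 : E)⁻¹ •
      (1 + (u : Matrix (Fin 2) (Fin 2) E) + ((u * S u : GL (Fin 2) E) : Matrix (Fin 2) (Fin 2) E))
    with hP
  obtain ⟨p, hp, hpP⟩ := exists_boxGrp (w := w) (k := k) (m := m) (M := P) (by
    rw [show P - 1 = (3 : E)⁻¹ • (((u : Matrix (Fin 2) (Fin 2) E) - 1)
      + (((u * S u : GL (Fin 2) E) : Matrix (Fin 2) (Fin 2) E) - 1)) by
      rw [hP, eq_inv_smul_iff₀ h30, smul_sub, smul_inv_smul₀ h30,
        show (3 : E) • (1 : Matrix (Fin 2) (Fin 2) E) = 1 + 1 + 1 by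
          rw [show (3 : E) = 1 + 1 + 1 by norm_num, add_smul, add_smul, one_smul]]
      abel]
    exact (InJ.add hu hu2).smul (by rw [map_inv₀, h3, inv_one]))
  refine ⟨p, hp, ?_⟩
  -- `u s(P) = P` as the norm is one
  rw [map_mul, h, mul_assoc]
  congr 1
  refine Units.ext ?_
  rw [Units.val_mul, hpP]
  change (u : Matrix (Fin 2) (Fin 2) E) * (p : Matrix (Fin 2) (Fin 2) E).map s = P
  rw [hpP, hP, Matrix.map_smul' _ _ _ (map_mul s), map_inv₀, map_ofNat, Matrix.mul_smul]
  congr 1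
  rw [Matrix.map_add _ (map_add s), Matrix.map_add _ (map_add s),
    Matrix.map_one _ (map_zero s) (map_one s)]
  change (u : Matrix (Fin 2) (Fin 2) E) * (1 + (S u : Matrix (Fin 2) (Fin 2) E)
    + ((S (u * S u) : GL (Fin 2) E) : Matrix (Fin 2) (Fin 2) E)) = _
  rw [mul_add, mul_add, mul_one, ← Units.val_mul, ← Units.val_mul, map_mul, ← mul_assoc, hN,
    Units.val_one]
  abel

end Fermat.LTG.Loc
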