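import Fermat.Agent.LT.GlobTorus
import Fermat.Agent.LT.LocExt
import Fermat.Agent.LTG.LocBox

/-!
# Resolvents for a local cubic cyclic extension

Approximate Hilbert 90 in `E`, and in the torus `E[√D]`, with explicit loss; descent to `F`.
-/

set_option autoImplicit false
open scoped Matrix

namespace Fermat.LTG.Loc

open Fermat.LT

variable {F : Type*} [Field F] {E : Type*} [Field E] {v : Valuation F (WithZero (Multiplicative ℤ))}
  {w : Valuation E (WithZero (Multiplicative ℤ))}

/-- The automorphism on matrices. -/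
noncomputable abbrev sG (C : CycExt v w) : GL (Fin 2) E →* GL (Fin 2) E :=
  Matrix.GeneralLinearGroup.map (C.s : E →+* E)

/-- The inclusion on matrices. -/
noncomputable abbrev iG (C : CycExt v w) : GL (Fin 2) F →* GL (Fin 2) E :=
  Matrix.GeneralLinearGroup.map C.ι

/-- The twisted norm `g σ(g) σ²(g)`. -/
noncomputable def twN (C : CycExt v w) (g : GL (Fin 2) E) : GL (Fin 2) E :=
  g * sG C g * sG C (sG C g)

/-- The hypotheses at a place away from three: a generator moved enough, a small prime. -/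
structure LocDat (C : CycExt v w) where
  /-- Three is a unit. -/
  h3 : w 3 = 1
  /-- The element moved by the automorphism. -/
  θ : E
  /-- `θ` is integral. -/
  hθ : w θ ≤ 1
  /-- The product of its differences with its conjugates has exponent below `e`. -/
  hθe : WithZero.exp (-(C.e : ℤ)) < w ((θ - C.s θ) * (θ - C.s (C.s θ)))
  /-- A rational integer in the prime. -/
  p : ℕ
  /-- `p` lies in the prime. -/
  hp : w (p : E) < 1
  /-- `p` is prime to three. -/
  hp3 : Nat.Coprime p 3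

section Torus

/-- Multiplication by an element of `E[√D]`. -/
def IsT (D : E) (X : Matrix (Fin 2) (Fin 2) E) : Prop := ∃ a b, X = tmat D a b

variable {D : E} {X Y : Matrix (Fin 2) (Fin 2) E}

/-- `E[√D]` is closed under sums. -/
lemma IsT.add (hX : IsT D X) (hY : IsT D Y) : IsT D (X + Y) := by
  obtain ⟨a, b, rfl⟩ := hX
  obtain ⟨c, d, rfl⟩ := hY
  exact ⟨a + c, b + d, by ext i j; fin_cases i <;> fin_cases j <;> simp [tmat, mul_add]⟩

/-- `E[√D]` is closed under scalar multiples. -/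
lemma IsT.smul (c : E) (hX : IsT D X) : IsT D (c • X) := by
  obtain ⟨a, b, rfl⟩ := hX
  exact ⟨c * a, c * b, by ext i j; fin_cases i <;> fin_cases j <;> simp [tmat, mul_left_comm]⟩

/-- `E[√D]` is closed under products. -/
lemma IsT.mul (hX : IsT D X) (hY : IsT D Y) : IsT D (X * Y) := by
  obtain ⟨a, b, rfl⟩ := hX
  obtain ⟨c, d, rfl⟩ := hY
  exact ⟨_, _, tmat_mul D a b c d⟩

/-- `1` lies in `E[√D]`. -/
lemma isT_one : IsT D 1 := ⟨1, 0, (tmat_one D).symm⟩

/-- `E[√D]` is closed under differences. -/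
lemma IsT.sub (hX : IsT D X) (hY : IsT D Y) : IsT D (X - Y) := by
  rw [sub_eq_add_neg, ← neg_one_smul E Y]
  exact hX.add (hY.smul _)

end Torus

variable (C : CycExt v w)

/-- The automorphism has order three. -/
lemma sG_three (g : GL (Fin 2) E) : sG C (sG C (sG C g)) = g :=
  Units.ext (Matrix.ext fun _ _ => C.hs3 _)

/-- Rational elements are fixed. -/
lemma sG_iG (a : GL (Fin 2) F) : sG C (iG C a) = iG C a :=
  Units.ext (Matrix.ext fun _ _ => C.sι _)

/-- The automorphism preserves `E[√D]`. -/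
lemma isT_map {D : F} {X : Matrix (Fin 2) (Fin 2) E} (hX : IsT (C.ι D) X) :
    IsT (C.ι D) (X.map C.s) := by
  obtain ⟨a, b, rfl⟩ := hX
  exact ⟨C.s a, C.s b, by ext i j; fin_cases i <;> fin_cases j <;> simp [tmat, C.sι]⟩

/-- The automorphism preserves the torus. -/
lemma sG_mem_tTor {D : F} {g : GL (Fin 2) E} (hg : g ∈ tTor (C.ι D)) : sG C g ∈ tTor (C.ι D) :=
  isT_map C hg

/-- The inclusion carries the torus into the torus. -/
lemma iG_mem_tTor {D : F} {g : GL (Fin 2) F} (hg : g ∈ tTor D) : iG C g ∈ tTor (C.ι D) := by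
  obtain ⟨a, b, h⟩ := hg
  refine ⟨C.ι a, C.ι b, ?_⟩
  change (g : Matrix (Fin 2) (Fin 2) F).map C.ι = _
  rw [h]
  ext i j; fin_cases i <;> fin_cases j <;> simp [tmat]

/-- The inclusion carries regular elements to regular elements. -/
lemma treg_iG {D : F} {g : GL (Fin 2) F} (hg : TReg D g) : TReg (C.ι D) (iG C g) := by
  obtain ⟨A, B, hB, hgm⟩ := hg
  refine ⟨C.ι A, C.ι B, (map_ne_zero _).2 hB, ?_⟩
  change (g : Matrix (Fin 2) (Fin 2) F).map C.ι = _
  rw [hgm]
  ext i j; fin_cases i <;> fin_cases j <;> simp [tmat]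

/-- Twisted norms of torus elements lie in the torus. -/
lemma twN_mem_tTor {D : F} {g : GL (Fin 2) E} (hg : g ∈ tTor (C.ι D)) : twN C g ∈ tTor (C.ι D) :=
  (tTor _).mul_mem ((tTor _).mul_mem hg (sG_mem_tTor C hg)) (sG_mem_tTor C (sG_mem_tTor C hg))

/-- The twisted norm is multiplicative on the torus. -/
lemma twN_mul {D : F} {g h : GL (Fin 2) E} (hg : g ∈ tTor (C.ι D)) (hh : h ∈ tTor (C.ι D)) :
    twN C (g * h) = twN C g * twN C h := by
  have c1 := tTor_comm hh (sG_mem_tTor C hg)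
  have c2 := tTor_comm hh (sG_mem_tTor C (sG_mem_tTor C hg))
  have c3 := tTor_comm (sG_mem_tTor C hh) (sG_mem_tTor C (sG_mem_tTor C hg))
  simp only [twN, map_mul]
  calc g * h * (sG C g * sG C h) * (sG C (sG C g) * sG C (sG C h))
      = g * (h * sG C g) * (sG C h * sG C (sG C g)) * sG C (sG C h) := by group
    _ = g * (sG C g * h) * (sG C (sG C g) * sG C h) * sG C (sG C h) := by rw [c1, c3]
    _ = g * sG C g * (h * sG C (sG C g)) * (sG C h * sG C (sG C h)) := by group
    _ = g * sG C g * (sG C (sG C g) * h) * (sG C h * sG C (sG C h)) := by rw [c2]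
    _ = _ := by group

/-- The twisted norm of a rational element is its cube. -/
lemma twN_iG (a : GL (Fin 2) F) : twN C (iG C a) = iG C (a * a * a) := by
  rw [twN, sG_iG, sG_iG, map_mul, map_mul]

/-- Scaling multiplies the twisted norm by the norm of the scalar. -/
lemma twN_scal (c : Eˣ) (g : GL (Fin 2) E) :
    twN C (scal c * g) = scal (c * Units.map (C.s : E →* E) c
      * Units.map (C.s : E →* E) (Units.map (C.s : E →* E) c)) * twN C g := by
  simp only [twN, map_mul, map_scal]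
  set a := scal c
  set b := scal (Units.map (C.s : E →* E) c)
  have hb : ∀ x, b * x = x * b := scal_comm _
  have hd : ∀ x, scal (Units.map (C.s : E →* E) (Units.map (C.s : E →* E) c)) * x
      = x * scal (Units.map (C.s : E →* E) (Units.map (C.s : E →* E) c)) := scal_comm _
  set d := scal (Units.map (C.s : E →* E) (Units.map (C.s : E →* E) c))
  rw [scal_mul, scal_mul]
  calc a * g * (b * sG C g) * (d * sG C (sG C g)) = a * (g * b) * (sG C g * d) * sG C (sG C g) := by
         group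
    _ = a * (b * g) * (d * sG C g) * sG C (sG C g) := by rw [hb g, hd (sG C g)]
    _ = a * b * (g * d) * sG C g * sG C (sG C g) := by group
    _ = a * b * (d * g) * sG C g * sG C (sG C g) := by rw [hd g]
    _ = _ := by simp only [a, b, d, mul_assoc]

/-- Twisted norms of torus elements are fixed. -/
lemma sG_twN {D : F} {g : GL (Fin 2) E} (hg : g ∈ tTor (C.ι D)) : sG C (twN C g) = twN C g := by
  rw [twN, map_mul, map_mul, sG_three,
    tTor_comm ((tTor _).mul_mem (sG_mem_tTor C hg) (sG_mem_tTor C (sG_mem_tTor C hg)))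
      hg, ← mul_assoc]

/-- Fixed matrices come from `F`. -/
lemma exists_iG {g : GL (Fin 2) E} (hg : sG C g = g) : ∃ a, iG C a = g := by
  have h : ∀ i j, C.s ((g : Matrix (Fin 2) (Fin 2) E) i j) = (g : Matrix (Fin 2) (Fin 2) E) i j :=
    fun i j => congrFun
      (congrFun (congrArg (fun x : GL (Fin 2) E => (x : Matrix (Fin 2) (Fin 2) E)) hg) i) j
  choose a ha using fun i j => C.fix _ (h i j)
  set A : Matrix (Fin 2) (Fin 2) F := Matrix.of a
  have hA : A.map C.ι = (g : Matrix (Fin 2) (Fin 2) E) := Matrix.ext fun i j => ha i j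
  have hd : A.det ≠ 0 := fun h0 => (Matrix.GeneralLinearGroup.det g).ne_zero (by
    rw [Matrix.GeneralLinearGroup.val_det_apply, ← hA, show (A.map C.ι).det = C.ι A.det from
      (RingHom.map_det _ _).symm, h0, map_zero])
  exact ⟨Matrix.GeneralLinearGroup.mkOfDetNeZero A hd, Units.ext hA⟩

/-- A fixed element of the torus comes from the small torus. -/
lemma exists_iG_tTor {D : F} {g : GL (Fin 2) E} (hg : g ∈ tTor (C.ι D)) (h : sG C g = g) :
    ∃ a ∈ tTor D, iG C a = g := by
  obtain ⟨a, rfl⟩ := exists_iG C h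
  obtain ⟨x, y, e⟩ := hg
  have e' : ∀ i j, C.ι ((a : Matrix (Fin 2) (Fin 2) F) i j) = tmat (C.ι D) x y i j :=
    fun i j => congrFun (congrFun e i) j
  refine ⟨a, ⟨(a : Matrix (Fin 2) (Fin 2) F) 0 0, (a : Matrix (Fin 2) (Fin 2) F) 1 0, ?_⟩, rfl⟩
  have h00 := e' 0 0
  have h01 := e' 0 1
  have h10 := e' 1 0
  have h11 := e' 1 1
  simp [tmat] at h00 h01 h10 h11
  ext i j
  fin_cases i <;> fin_cases j <;> simp [tmat]
  · apply C.ι.injective; rw [h01, map_mul, h10]
  · apply C.ι.injective; rw [h11, h00]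

variable (L : LocDat C)

/-- The derivative at `θ` of the cubic with roots the conjugates of `θ`. -/
noncomputable def LocDat.cc : E := (L.θ - C.s L.θ) * (L.θ - C.s (C.s L.θ))

/-- This derivative is nonzero. -/
lemma LocDat.cc_ne_zero : L.cc C ≠ 0 := fun h => by
  have := L.hθe
  rw [show (L.θ - C.s L.θ) * (L.θ - C.s (C.s L.θ)) = L.cc C from rfl, h, map_zero] at this
  exact absurd this (not_lt.2 zero_le)

/-- The scalar resolvent. -/
noncomputable def resT (z r : E) : E := r + z * C.s r + z * C.s z * C.s (C.s r)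

/-- `z σ(resT) = resT + (N z - 1) r`. -/
lemma mul_s_resT (z r : E) :
    z * C.s (resT C z r) = resT C z r + (z * C.s z * C.s (C.s z) - 1) * r := by
  simp only [resT, map_add, map_mul, C.hs3]; ring

include L in
/-- Some integral element has resolvent at least as large as the derivative `cc`. -/
lemma exists_resT (z : E) :
    ∃ r, w r ≤ 1 ∧ w (L.cc C) ≤ w (resT C z r) := by
  by_contra! h
  have h1 := h 1 (by simp)
  have h2 := h L.θ L.hθ
  have h3 := h (L.θ * L.θ) (by rw [map_mul]; exact mul_le_one' L.hθ L.hθ)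
  have hθ' : w (C.s L.θ) ≤ 1 := by rw [C.hs]; exact L.hθ
  have hθ'' : w (C.s (C.s L.θ)) ≤ 1 := by rw [C.hs]; exact hθ'
  have e : L.cc C = C.s L.θ * C.s (C.s L.θ) * resT C z 1
      - (C.s L.θ + C.s (C.s L.θ)) * resT C z L.θ + resT C z (L.θ * L.θ) := by
    simp only [LocDat.cc, resT, map_one, map_mul]; ring
  refine lt_irrefl (w (L.cc C)) ?_
  conv_lhs => rw [e]
  refine w.map_add_lt (lt_of_le_of_lt (w.map_sub _ _) (max_lt ?_ ?_)) h3 <;> rw [map_mul]
  · exact lt_of_le_of_lt (mul_le_of_le_one_left' (by rw [map_mul]; exact mul_le_one' hθ' hθ'')) h1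
  · exact lt_of_le_of_lt (mul_le_of_le_one_left' ((w.map_add _ _).trans (max_le hθ' hθ''))) h2

include L in
/-- An element of norm one is `η / σ η` for some `η`. -/
theorem exists_h90 {z : E} (hz : z * C.s z * C.s (C.s z) = 1) :
    ∃ η : E, η ≠ 0 ∧ z * C.s η = η := by
  obtain ⟨r, -, hr⟩ := exists_resT C L z
  refine ⟨resT C z r, fun h => L.cc_ne_zero C ?_, by rw [mul_s_resT, hz]; ring⟩
  rw [h, map_zero, le_zero_iff, map_eq_zero] at hr
  exact hr

include L in
/-- Residual Hilbert 90. -/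
theorem exists_h90_res {z : E}
    (hz : w (z * C.s z * C.s (C.s z) - 1) ≤ WithZero.exp (-(C.e : ℤ))) :
    ∃ b : E, b ≠ 0 ∧ w (z * C.s b / b - 1) < 1 := by
  obtain ⟨r, hr1, hr⟩ := exists_resT C L z
  have hlt : WithZero.exp (-(C.e : ℤ)) < w (resT C z r) := L.hθe.trans_le hr
  have hb : resT C z r ≠ 0 := fun h => by
    rw [h, map_zero] at hlt; exact absurd hlt (not_lt.2 zero_le)
  refine ⟨_, hb, ?_⟩
  rw [div_sub_one hb, mul_s_resT, add_sub_cancel_left, map_div₀,
    div_lt_one₀ (zero_lt_iff.2 (w.ne_zero_iff.2 hb)), map_mul]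
  exact lt_of_le_of_lt ((mul_le_of_le_one_right' hr1).trans hz) hlt

/-- The determinant of a combination. -/
lemma det_comb (a b c : E) (A B M : Matrix (Fin 2) (Fin 2) E) :
    (a • A + b • B + c • M).det = a * a * A.det + b * b * B.det + c * c * M.det
      + a * b * ((A + B).det - A.det - B.det) + a * c * ((A + M).det - A.det - M.det)
      + b * c * ((B + M).det - B.det - M.det) := by
  simp [Matrix.det_fin_two]; ring

/-- The matrix resolvent `r + σ r • z + σ² r • z σ(z)`. -/
noncomputable def resM (z : Matrix (Fin 2) (Fin 2) E) (r : E) : Matrix (Fin 2) (Fin 2) E :=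
  r • 1 + C.s r • z + C.s (C.s r) • (z * z.map C.s)

/-- The matrix resolvent is additive. -/
lemma resM_add (z : Matrix (Fin 2) (Fin 2) E) (r r' : E) :
    resM C z (r + r') = resM C z r + resM C z r' := by
  simp only [resM, map_add, add_smul]; abel

include L in
/-- Some integral element has matrix resolvent with large determinant. -/
lemma exists_resM (z : Matrix (Fin 2) (Fin 2) E) :
    ∃ r, w r ≤ 1 ∧ w (L.cc C * L.cc C) ≤ w (resM C z r).det := by
  by_contra! h
  have hθ2 : w (L.θ * L.θ) ≤ 1 := by rw [map_mul]; exact mul_le_one' L.hθ L.hθ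
  have h1 : w (1 : E) ≤ 1 := by simp
  have hθ' : w (C.s L.θ) ≤ 1 := by rw [C.hs]; exact L.hθ
  have hθ'' : w (C.s (C.s L.θ)) ≤ 1 := by rw [C.hs]; exact hθ'
  set A := resM C z 1
  set B := resM C z L.θ
  set M := resM C z (L.θ * L.θ)
  have hbil : ∀ r r', w r ≤ 1 → w r' ≤ 1 → w ((resM C z r + resM C z r').det - (resM C z r).det
      - (resM C z r').det) < w (L.cc C * L.cc C) := fun r r' hr hr' => by
    rw [← resM_add]
    exact lt_of_le_of_lt (w.map_sub _ _) (max_lt (lt_of_le_of_lt (w.map_sub _ _)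
      (max_lt (h _ ((w.map_add _ _).trans (max_le hr hr'))) (h _ hr))) (h _ hr'))
  set a := C.s L.θ * C.s (C.s L.θ) with ha
  set b := -(C.s L.θ + C.s (C.s L.θ)) with hb
  have hwa : w a ≤ 1 := by rw [ha, map_mul]; exact mul_le_one' hθ' hθ''
  have hwb : w b ≤ 1 := by rw [hb, Valuation.map_neg]; exact (w.map_add _ _).trans (max_le hθ' hθ'')
  have e : a • A + b • B + (1 : E) • M = L.cc C • (1 : Matrix (Fin 2) (Fin 2) E) := by
    simp only [A, B, M, resM, map_one, map_mul, smul_add, smul_smul]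
    match_scalars <;> simp [ha, hb, LocDat.cc] <;> ring
  have hd := det_comb a b 1 A B M
  rw [e, Matrix.det_smul, Matrix.det_one, Fintype.card_fin, mul_one, pow_two] at hd
  refine lt_irrefl (w (L.cc C * L.cc C)) ?_
  conv_lhs => rw [hd]
  have hm : ∀ {x y : E}, w x ≤ 1 → w y < w (L.cc C * L.cc C) → w (x * y) < w (L.cc C * L.cc C) :=
    fun hx hy => by rw [map_mul]; exact lt_of_le_of_lt (mul_le_of_le_one_left' hx) hy
  have h2 : ∀ {x y : E}, w x ≤ 1 → w y ≤ 1 → w (x * y) ≤ 1 :=
    fun hx hy => by rw [map_mul]; exact mul_le_one' hx hy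
  exact w.map_add_lt (w.map_add_lt (w.map_add_lt (w.map_add_lt (w.map_add_lt
    (hm (h2 hwa hwa) (h 1 h1)) (hm (h2 hwb hwb) (h _ L.hθ))) (hm (h2 h1 h1) (h _ hθ2)))
    (hm (h2 hwa hwb) (hbil _ _ h1 L.hθ))) (hm (h2 hwa h1) (hbil _ _ h1 hθ2)))
    (hm (h2 hwb h1) (hbil _ _ L.hθ hθ2))

include L in
/-- **Approximate Hilbert 90 in the torus.** -/
theorem exists_twist_near {D : F} {z : GL (Fin 2) E} (hz : z ∈ tTor (C.ι D)) {B η : ℤ} (hB : 0 ≤ B)
    (hzB : Near w B (z : Matrix (Fin 2) (Fin 2) E))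
    (hN : Near w (-η) ((twN C z : Matrix (Fin 2) (Fin 2) E) - 1)) :
    ∃ τ ∈ tTor (C.ι D), Near w (2 * B + 2 * C.e - η)
      (((τ⁻¹ * z * sG C τ : GL (Fin 2) E) : Matrix (Fin 2) (Fin 2) E) - 1) := by
  set Z : Matrix (Fin 2) (Fin 2) E := ↑z
  obtain ⟨r, hr, hdet⟩ := exists_resM C L Z
  set t := resM C Z r with ht
  have hcc : w (L.cc C * L.cc C) ≥ WithZero.exp (-(2 * C.e : ℤ)) := by
    rw [map_mul, show -(2 * C.e : ℤ) = -(C.e : ℤ) + -(C.e : ℤ) by ring, WithZero.exp_add]
    exact mul_le_mul' L.hθe.le L.hθe.le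
  have hd0 : t.det ≠ 0 := fun h => by
    rw [h, map_zero, le_zero_iff, map_eq_zero, mul_self_eq_zero] at hdet
    exact L.cc_ne_zero C hdet
  have hzT : IsT (C.ι D) Z := hz
  have hzT' : IsT (C.ι D) (Z.map C.s) := isT_map C hzT
  have htT : IsT (C.ι D) t := ((isT_one.smul _).add (hzT.smul _)).add ((hzT.mul hzT').smul _)
  set τ := Matrix.GeneralLinearGroup.mkOfDetNeZero t hd0
  refine ⟨τ, htT, ?_⟩
  have hZs : Near w B (Z.map C.s) := hzB.map (s := (C.s : E →+* E)) C.hs
  have hr0 : ∀ {x : E}, w x ≤ 1 → w x ≤ WithZero.exp (0 : ℤ) := fun h => by simpa using h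
  have htB : Near w (2 * B) t := by
    refine ((((near_one (w := w) (r := 2 * B) (by omega)).smul (hr0 hr)).mono (by omega)).add
      ((hzB.smul (hr0 (by rw [C.hs]; exact hr))).mono (by omega))).add
      (((hzB.mul hZs).smul (hr0 (by rw [C.hs, C.hs]; exact hr))).mono (by omega))
  -- the defect
  have key : Z * t.map C.s = t + r • ((twN C z : Matrix (Fin 2) (Fin 2) E) - 1) := by
    have hmap : t.map C.s =
        C.s r • 1 + C.s (C.s r) • Z.map C.s + r • (Z.map C.s * (Z.map C.s).map C.s) := by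
      rw [ht, resM, Matrix.map_add _ (map_add C.s), Matrix.map_add _ (map_add C.s),
        Matrix.map_smul' _ _ _ (map_mul C.s), Matrix.map_smul' _ _ _ (map_mul C.s),
        Matrix.map_smul' _ _ _ (map_mul C.s), Matrix.map_mul, C.hs3,
        Matrix.map_one _ (map_zero C.s) (map_one C.s)]
    rw [hmap, twN, Units.val_mul, Units.val_mul]
    change _ = t + r • (Z * Z.map C.s * (Z.map C.s).map C.s - 1)
    rw [mul_add, mul_add, Matrix.mul_smul, Matrix.mul_smul, Matrix.mul_smul, mul_one, ht,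
      resM, smul_sub, Matrix.mul_assoc]
    abel
  have e : ((τ⁻¹ * z * sG C τ : GL (Fin 2) E) : Matrix (Fin 2) (Fin 2) E) - 1
      = t.det⁻¹ • (t.adjugate * (r • ((twN C z : Matrix (Fin 2) (Fin 2) E) - 1))) := by
    rw [Units.val_mul, Units.val_mul, Matrix.mul_assoc]
    change (τ⁻¹ : GL (Fin 2) E).val * (Z * t.map C.s) - 1 = _
    rw [key, mul_add, show (τ⁻¹ : GL (Fin 2) E).val * t = 1 from τ.inv_mul, add_sub_cancel_left,
      Matrix.coe_units_inv, Matrix.inv_def, Ring.inverse_eq_inv', Matrix.smul_mul]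
    rfl
  rw [e]
  have hdi : w t.det⁻¹ ≤ WithZero.exp (2 * C.e : ℤ) := by
    rw [map_inv₀, inv_le_comm₀ (zero_lt_iff.2 (w.ne_zero_iff.2 hd0))
      (zero_lt_iff.2 WithZero.exp_ne_zero), ← WithZero.exp_neg]
    exact hcc.le.trans hdet
  exact ((htB.adjugate.mul (hN.smul (hr0 hr))).smul hdi).mono (by omega)

end Fermat.LTG.Loc
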