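import Fermat.Agent.LTG.LocGlue
import Fermat.Agent.LTG.AutAct

/-!
# Matching kernels at a nonsplit place away from three

The twisted sums of the indicator of `Fˣ Γ₀(p ^ N)`, `N ≥ 1`, are the sums of one kernel on the
small field, for all tori and all equivariant degrees; non-vanishing gives local norms.
-/

set_option autoImplicit false
open Filter Set
open scoped Classical Matrix

namespace Fermat.LTG.Loc

open Fermat.LT

section Aux

variable {F : Type*} [Field F] [NumberField F]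

/-- Level subgroups have finite index in `Fˣ Γ₀`. -/
lemma relIndex_U0N_ne_zero (v : Place F) (n N : ℕ) :
    (UN (v.valuation F) n).relIndex (U0N (v.valuation F) N) ≠ 0 :=
  relIndex_UN_ne_zero v n (ρ := 1) fun h hh => by simpa using U0N_le_U0 _ _ hh

/-- Representatives of the residual units. -/
theorem exists_unit_reps (v : Place F) :
    ∃ Ts : Finset Fˣ, (∀ t ∈ Ts, v.valuation F (t : F) = 1) ∧
      ∀ a : Fˣ, v.valuation F (a : F) = 1 → ∃! t, t ∈ Ts ∧ v.valuation F ((a : F) / t - 1) < 1 := by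
  set V := v.valuation F
  have hiff : ∀ a t : Fˣ, V (a : F) = 1 → V (t : F) = 1 →
      (V ((a : F) / t - 1) < 1 ↔ resd V (a : F) = resd V (t : F)) := by
    intro a t ha ht
    rw [resd_eq_iff ha.le ht.le, div_sub_one t.ne_zero, map_div₀, ht, div_one]
  have := Fintype.ofFinite (Res v)
  let R := {z : Res v // ∃ a : Fˣ, V (a : F) = 1 ∧ resd V (a : F) = z}
  let g : R → Fˣ := fun z => z.2.choose
  have hg : ∀ z : R, V (g z : F) = 1 ∧ resd V (g z : F) = z.1 := fun z => z.2.choose_spec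
  refine ⟨Finset.univ.image g, fun t ht => ?_, fun a ha => ?_⟩
  · obtain ⟨z, -, rfl⟩ := Finset.mem_image.1 ht
    exact (hg z).1
  · set z : R := ⟨resd V (a : F), a, ha, rfl⟩
    refine ⟨g z, ⟨Finset.mem_image_of_mem g (Finset.mem_univ z),
      (hiff a _ ha (hg z).1).2 (hg z).2.symm⟩, ?_⟩
    rintro t ⟨ht, hlt⟩
    obtain ⟨z', -, rfl⟩ := Finset.mem_image.1 ht
    have h := (hiff a _ ha (hg z').1).1 hlt
    rw [(hg z').2] at h
    exact congrArg g (Subtype.ext h.symm)

/-- The indicator of `Γ₀` is the sum over the classes. -/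
lemma ite_U0N_eq_sum {v : Place F} {Ts : Finset Fˣ} (h1 : ∀ t ∈ Ts, v.valuation F (t : F) = 1)
    (h2 : ∀ a : Fˣ, v.valuation F (a : F) = 1 → ∃! t, t ∈ Ts ∧ v.valuation F ((a : F) / t - 1) < 1)
    (m : ℕ) (g : GL (Fin 2) F) :
    (if g ∈ U0N (v.valuation F) (m + 1) then (1 : ℂ) else 0)
      = ∑ t ∈ Ts, if Cos (v.valuation F) 0 m t g then (1 : ℂ) else 0 := by
  have hmem : ∀ t ∈ Ts, Cos (v.valuation F) 0 m t g → g ∈ U0N (v.valuation F) (m + 1) := by
    intro t ht h
    have hd : dg1 t ∈ U0N (v.valuation F) (m + 1) := by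
      refine le_withScalars _ ⟨mem_intGL_of_det (fun i j => ?_) ?_, ?_⟩
      · rw [coe_dg1]; fin_cases i <;> fin_cases j <;> simp [h1 t ht]
      · rw [coe_dg1, Matrix.det_fin_two_of]; simp [h1 t ht]
      · simp [coe_dg1]
    have := (U0N _ _).mul_mem hd (boxH_le_U0N m h)
    rwa [mul_inv_cancel_left] at this
  by_cases hg : g ∈ U0N (v.valuation F) (m + 1)
  · obtain ⟨a, ha, hat⟩ := exists_cos_of_mem_U0N hg
    obtain ⟨t, ⟨ht, hlt⟩, huniq⟩ := h2 a ha
    rw [if_pos hg,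
      Finset.sum_eq_single t (fun t' ht' hne => if_neg fun h => hne (huniq t' ⟨ht', ?_⟩))
      fun h => absurd ht h, if_pos (hat t hlt)]
    -- two classes of one element
    have h' := cos_unique (hat t hlt) h
    rw [show (a : F) / t' - 1 = ((a : F) / t - 1) * ((t : F) / t') + ((t : F) / t' - 1) by
      have := t.ne_zero; field_simp; ring]
    refine (v.valuation F).map_add_lt ?_ h'
    rw [map_mul, map_div₀ _ (t : F) (t' : F), h1 t ht, h1 t' ht', div_one, mul_one]
    exact hlt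
  · rw [if_neg hg, Finset.sum_eq_zero fun t ht => if_neg fun h => hg (hmem t ht h)]

/-- Sums of finitely many indicators over a fibre. -/
lemma tsum_sum_ite {X G ι : Type*} (d : X → G) (o : G) (Ts : Finset ι) (c : ι → ℂ)
    (P : ι → X → Prop) (hfin : ∀ t ∈ Ts, {x | P t x ∧ d x = o}.Finite) :
    ∑' x : {x // d x = o}, ∑ t ∈ Ts, c t * (if P t x.1 then 1 else 0)
      = ∑ t ∈ Ts, c t * ∑' x : {x // d x = o}, (if P t x.1 then (1 : ℂ) else 0) := by
  rw [Summable.tsum_finsetSum fun t ht => ?_]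
  · exact Finset.sum_congr rfl fun t _ => tsum_mul_left
  · refine summable_of_hasFiniteSupport
      (((hfin t ht).preimage Subtype.val_injective.injOn).subset ?_)
    intro x hx
    exact ⟨by_contra fun h => hx (by simp [h]), x.2⟩

end Aux

variable {K L : Type} [Field K] [NumberField K] [Field L] [NumberField L] [Algebra K L]
  {σ : L ≃ₐ[K] L} {v : Place K} {w : Place L}
  {C : CycExt (v.valuation K) (w.valuation L)}

omit [Algebra K L] in
/-- Deep congruence subgroups of the small field lie in the rational groups. -/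
lemma UN_le_HK {k : ℤ} {m n : ℕ} (h1 : -(n : ℤ) ≤ k) (h2 : k + m + 1 ≤ n) :
    UN (v.valuation K) n ≤ HK C k m := by
  rintro g ⟨c, hc⟩
  change iG C g ∈ boxH (w.valuation L) k m
  have h : iG C (scal c * g) ∈ boxH (w.valuation L) k m := by
    refine boxGrp_le_boxH (inJ_of_near (r := -((C.e * n : ℕ) : ℤ)) (fun i j => ?_) ?_ ?_)
    · change w.valuation L (C.ι _ - (1 : Matrix (Fin 2) (Fin 2) L) i j) ≤ _
      rw [show (1 : Matrix (Fin 2) (Fin 2) L) i j = C.ι ((1 : Matrix (Fin 2) (Fin 2) K) i j) by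
        fin_cases i <;> fin_cases j <;> simp, ← map_sub, C.hι]
      refine (pow_le_pow_left₀ zero_le (hc.2 i j) C.e).trans (le_of_eq ?_)
      rw [← WithZero.exp_nsmul]
      simp
    all_goals
      have := Nat.le_mul_of_pos_left n (Nat.pos_of_ne_zero C.he)
      omega
  rw [map_mul, map_scal] at h
  exact ((boxH _ k m).mul_mem_cancel_left (scal_mem_boxH _)).1 h

omit [Algebra K L] in
/-- `diag(s,1)` with a unit `s` normalises the rational group below. -/
lemma dg1_conj_HK {k : ℤ} {m : ℕ} {s : Kˣ} (hs : v.valuation K (s : K) = 1) :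
    ∀ h ∈ HK C k m, (dg1 s)⁻¹ * h * dg1 s ∈ HK C k m := fun h hh => by
  change iG C ((dg1 s)⁻¹ * h * dg1 s) ∈ boxH (w.valuation L) k m
  rw [map_mul, map_mul, map_inv, show iG C (dg1 s) = dg1 (uC C s) from map_dg1 _ s]
  exact dg1_conj_unit' (w_uC hs) hh

omit [Algebra K L] in
/-- The rational support condition is constant on the cosets of the rational group. -/
lemma ppt_out_iff {k : ℤ} {m n : ℕ} (hv : UN (v.valuation K) n ≤ HK C k m) {s : Kˣ}
    (hs : v.valuation K (s : K) = 1) {g₁ x : GL (Fin 2) K} :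
    PPt C k m s g₁ (iG C (x : GL (Fin 2) K ⧸ UN (v.valuation K) n).out) ↔
      PPt C k m s g₁ (iG C x) := by
  rw [← out_mem_KSet_iff hv hs]
  exact mk_mem_KSet hs

omit [Algebra K L] in
/-- **The rational support meets a fibre in a finite set.** -/
theorem finite_ppt (q : QDat K) {k : ℤ} {m n : ℕ} (hv : UN (v.valuation K) n ≤ HK C k m) {s : Kˣ}
    (hs : v.valuation K (s : K) = 1) {g₁ : GL (Fin 2) K} (hg : TReg q.D g₁)
    (dK : GL (Fin 2) K ⧸ UN (v.valuation K) n → q.Γ v)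
    (hdK : ∀ h ∈ tTor q.D, ∀ a, dK (h • a) = (h : PG K) • dK a)
    (hdK' : ∀ a, ∃ h ∈ tTor q.D, dK a = (h : PG K) • q.one v) :
    {a | PPt C k m s g₁ (iG C a.out) ∧ dK a = q.one v}.Finite := by
  let := MulAction.compHom (q.Γ v) (QuotientGroup.mk' (scalSub K))
  obtain ⟨ρ, hρu, hρ⟩ := exists_conj_U0 (C := C) (unifAt_spec v)
    (fun g h1 h2 => mem_U0_of_det h1 h2) k m
  set pr : GL (Fin 2) K ⧸ UN (v.valuation K) n → GL (Fin 2) K ⧸ U0 (v.valuation K) :=
    Quotient.map' (fun a => a * ρ) fun a a' h => by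
      rw [QuotientGroup.leftRel_apply] at h ⊢
      rw [show (a * ρ)⁻¹ * (a' * ρ) = ρ⁻¹ * (a⁻¹ * a') * ρ by group]
      exact hρ _ (hv h)
  have hpr : ∀ x : GL (Fin 2) K, pr x =
      ((x * ρ : GL (Fin 2) K) : GL (Fin 2) K ⧸ U0 (v.valuation K)) :=
    fun _ => rfl
  set S := {a : GL (Fin 2) K ⧸ UN (v.valuation K) n | PPt C k m s g₁ (iG C a.out)} with hS
  -- degrees on the two coset spaces
  have hd : IsDeg (tTor q.D) (q.one v) fun a => degV q v (pr a) := by
    refine ⟨fun h hh a => ?_, fun a => degV_mem q v (pr a)⟩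
    obtain ⟨x, rfl⟩ := QuotientGroup.mk_surjective a
    change _ = (h : PG K) • degV q v _
    rw [← degV_smul q v hh, MulAction.Quotient.smul_coe, hpr, hpr, MulAction.Quotient.smul_coe,
      smul_eq_mul, smul_eq_mul, mul_assoc]
  have hst : ∀ h ∈ tTor q.D, ∀ a ∈ S, h • a ∈ S := by
    intro h hh a ha
    obtain ⟨x, rfl⟩ := QuotientGroup.mk_surjective a
    simp only [S, Set.mem_ofPred_eq, MulAction.Quotient.smul_coe, smul_eq_mul,
        ppt_out_iff hv hs] at ha ⊢
    rwa [map_mul, ppt_tor_iff hg.mem (iG_mem_tTor C hh)]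
  obtain ⟨e⟩ := exists_equiv_fibre (T := tTor q.D) (fun a ha b hb => tTor_comm ha hb) hd
    (d' := dK) ⟨hdK, hdK'⟩ (S := S) hst
  -- it suffices to bound the fibre of `degV`
  suffices h : {a | a ∈ S ∧ degV q v (pr a) = q.one v}.Finite by
    have : Finite {a // a ∈ S ∧ degV q v (pr a) = q.one v} := h.to_subtype
    exact Set.finite_coe_iff.1 (Finite.of_equiv _ e)
  refine ((finite_fixed_degV q v hg).preimage' fun x _ => ?_).subset fun a ha => ⟨ha.2, ?_⟩
  · set Hρ := (U0 (v.valuation K)).comap (MulAut.conj ρ⁻¹).toMonoidHom with hHρ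
    have hfin := relIndex_UN_ne_zero v n (H := Hρ) (ρ := ρ) fun h hh => by
      simpa [Hρ, mul_assoc] using hh
    rw [Subgroup.relIndex, Subgroup.index_ne_zero_iff_finite] at hfin
    obtain ⟨y, rfl⟩ := QuotientGroup.mk_surjective x
    refine (Set.finite_range fun z : Hρ ⧸ (UN (v.valuation K) n).subgroupOf Hρ =>
      ((y * ρ⁻¹ * (z.out : GL (Fin 2) K) : GL (Fin 2) K) : GL (Fin 2) K ⧸ UN
        (v.valuation K) n)).subset
      fun a ha => ?_
    obtain ⟨x, rfl⟩ := QuotientGroup.mk_surjective a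
    simp only [Set.mem_preimage, Set.mem_singleton_iff, hpr] at ha
    replace ha := QuotientGroup.eq.1 ha.symm
    have hmem : ρ * y⁻¹ * x ∈ Hρ := by
      simpa [Hρ, mul_assoc] using ha
    refine ⟨((⟨_, hmem⟩ : Hρ) : Hρ ⧸ _), ?_⟩
    obtain ⟨⟨l, hl⟩, el⟩ :=
      QuotientGroup.mk_out_eq_mul ((UN (v.valuation K) n).subgroupOf Hρ) (⟨_, hmem⟩ : Hρ)
    refine QuotientGroup.eq.2 ?_
    rw [el, Subgroup.coe_mul, show (y * ρ⁻¹ * (ρ * y⁻¹ * x * (l : GL (Fin 2) K)))⁻¹ * x
      = (l : GL (Fin 2) K)⁻¹ by group]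
    exact (UN _ n).inv_mem (Subgroup.mem_subgroupOf.1 hl)
  · have hp := ha.1
    obtain ⟨x, rfl⟩ := QuotientGroup.mk_surjective a
    simp only [S, Set.mem_ofPred_eq, ppt_out_iff hv hs] at hp
    rw [hpr]
    obtain ⟨⟨u, hu⟩, eu⟩ := QuotientGroup.mk_out_eq_mul (U0 (v.valuation K)) (x * ρ)
    rw [eu]
    replace hp : (dg1 s)⁻¹ * (x⁻¹ * g₁ * x) ∈ HK C k m := by
      change iG C _ ∈ boxH (w.valuation L) k m
      rw [map_mul, map_mul, map_mul, map_inv, map_inv,
        show iG C (dg1 s) = dg1 (uC C s) from map_dg1 _ s]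
      exact hp
    have h := (U0 _).mul_mem (hρu s hs) (hρ _ hp)
    rw [show ρ⁻¹ * dg1 s * ρ * (ρ⁻¹ * ((dg1 s)⁻¹ * (x⁻¹ * g₁ * x)) * ρ)
      = ρ⁻¹ * (x⁻¹ * g₁ * x) * ρ by group] at h
    rw [show (x * ρ * u)⁻¹ * g₁ * (x * ρ * u) = u⁻¹ * (ρ⁻¹ * (x⁻¹ * g₁ * x) * ρ) * u by group]
    exact (U0 _).mul_mem ((U0 _).mul_mem ((U0 _).inv_mem hu) h) hu

/-- The indicator kernel of `Fˣ Γ₀`. -/
theorem exists_u0Ker {SL : Lev L} {m : ℕ} (hm : m + 1 ≤ SL.depth w) :
    ∃ kL : LKer SL w, ∀ a b : GL (Fin 2) L, kL (a : Vert SL w) (b : Vert SL w)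
      = if a⁻¹ * b ∈ U0N (w.valuation L) (m + 1) then 1 else 0 :=
  ⟨cosKer (U0N (w.valuation L) (m + 1)) 1 (fun h hh => by simpa using hh) (UN_le_U0N hm)
    (relIndex_U0N_ne_zero w _ _), fun a b =>
      (cosKer_apply_mk (S := SL) (v := w) _ _ _ _ _ a b).trans (by simp)⟩

/-- **Matching at a nonsplit place away from three.** -/
theorem exists_away (hc : Cyc3 K L σ) (hw : LiesOver K L w v)
    (hσ : mapPlace (σ : L ≃+* L) w = w) (h3 : v.valuation K 3 = 1) (m : ℕ) :
    ∃ M₀ : ℕ, ∀ (SK : Lev K) (SL : Lev L) (hS : Stable (σ : L ≃+* L) SL),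
      M₀ ≤ SK.depth v → m + 1 ≤ SL.depth w →
      ∃ kK : LKer SK v, ∀ kL : LKer SL w,
        (∀ a b : GL (Fin 2) L, kL (a : Vert SL w) (b : Vert SL w)
          = if a⁻¹ * b ∈ U0N (w.valuation L) (m + 1) then 1 else 0) →
        ∀ (q : QDat K) (g₀ : GL (Fin 2) K), TReg q.D g₀ →
          ∀ dK : Vert SK v → q.Γ v,
            (∀ h ∈ tTor q.D, ∀ a, dK (h • a) = (h : PG K) • dK a) →
            (∀ a, ∃ h ∈ tTor q.D, dK a = (h : PG K) • q.one v) →
            ((∑' a : {a : Vert SK v // dK a = q.one v}, kK a.1 (g₀ • a.1) ≠ 0) →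
              ∀ a₀ b₀ : K, (g₀ : Matrix (Fin 2) (Fin 2) K) = tmat q.D a₀ b₀ →
                IsLocNorm K L σ v q.D a₀ b₀) ∧
            ∀ (δ : GL (Fin 2) L) (c : Lˣ), δ ∈ tTor (algebraMap K L q.D) →
              twistN (σ : L ≃+* L) δ = scal c * iGL K L g₀ →
              ∀ dL : Vert SL w → q.Γ v,
                (∀ h ∈ tTor q.D, ∀ x, dL (iGL K L h • x) = (h : PG K) • dL x) →
                (∀ x, ∃ h ∈ tTor q.D, dL x = (h : PG K) • q.one v) →
                {x : Vert SL w | dL x = q.one v ∧ kL x (δ • Vert.amap hS hσ x) ≠ 0}.Finite ∧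
                ∑' x : {x : Vert SL w // dL x = q.one v}, kL x.1 (δ • Vert.amap hS hσ x.1)
                  = ∑' a : {a : Vert SK v // dK a = q.one v}, kK a.1 (g₀ • a.1) := by
  obtain ⟨D⟩ := exists_locDat hc hw hσ h3
  set C := hc.ext hw hσ
  obtain ⟨Ts, hT1, hT2⟩ := exists_unit_reps w
  have hmatch : ∀ t : Ts, _ := fun t => exists_match D 0 m t.1 (hT1 t.1 t.2)
  choose k s hs hmatch using hmatch
  refine ⟨Finset.univ.sup fun t : Ts => (k t).natAbs + m + 1, fun SK SL hS hSK hSL => ?_⟩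
  have hle : ∀ t : Ts, lev SK v ≤ HK C (k t) m := fun t => by
    have := (Finset.le_sup (f := fun t : Ts => (k t).natAbs + m + 1) (Finset.mem_univ t)).trans hSK
    exact UN_le_HK (by omega) (by omega)
  have hfinK : ∀ t : Ts, (lev SK v).relIndex (HK C (k t) m) ≠ 0 := fun t => by
    obtain ⟨ρ, -, hρ⟩ :=
      exists_conj_U0 (C := C) (unifAt_spec v) (fun g h1 h2 => mem_U0_of_det h1 h2) (k t) m
    exact relIndex_UN_ne_zero v _ hρ
  have hleL : lev SL w ≤ boxH (w.valuation L) 0 m := UN_le_boxH (by omega) (by omega)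
  have hfinL : (lev SL w).relIndex (boxH (w.valuation L) 0 m) ≠ 0 :=
    relIndex_UN_ne_zero w _ (ρ := 1) fun h hh => by simpa using U0N_le_U0 _ _ (boxH_le_U0N m hh)
  set cf : Ts → ℂ := fun t => ((lev SL w).relIndex (boxH (w.valuation L) 0 m) : ℂ)
    / ((lev SK v).relIndex (HK C (k t) m) : ℂ)
  refine ⟨combKer (Finset.univ : Finset Ts) cf fun t =>
    cosKer (HK C (k t) m) (dg1 (s t)) (dg1_conj_HK (hs t)) (hle t) (hfinK t),
    fun kL hkL q g₀ hg dK hdK hdK' => ?_⟩
  let := MulAction.compHom (q.Γ v) (QuotientGroup.mk' (scalSub K))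
  set PK : Ts → Vert SK v → Prop := fun t a => PPt C (k t) m (s t) g₀ (iG C a.out)
  have hfin : ∀ t : Ts, {a : Vert SK v | PK t a ∧ dK a = q.one v}.Finite := fun t =>
    finite_ppt q (hle t) (hs t) hg dK hdK hdK'
  have hvalK : ∀ a : Vert SK v, ∑ t : Ts, cf t *
      cosKer (HK C (k t) m) (dg1 (s t)) (dg1_conj_HK (hs t)) (hle t) (hfinK t) a (g₀ • a)
      = ∑ t : Ts, cf t * (if PK t a then 1 else 0) := by
    intro a
    refine Finset.sum_congr rfl fun t _ => ?_
    conv_lhs => rw [← QuotientGroup.out_eq' a]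
    rw [MulAction.Quotient.smul_coe, smul_eq_mul, cosKer_apply_mk]
    congr 1
    refine if_congr ?_ rfl rfl
    change iG C _ ∈ boxH (w.valuation L) (k t) m ↔ _
    simp only [PK, PPt, Cos, map_mul, map_inv,
      show iG C (dg1 (s t)) = dg1 (uC C (s t)) from map_dg1 _ _, mul_assoc]
  -- the rational sum, class by class
  have hKsum : ∑' a : {a : Vert SK v // dK a = q.one v},
      (combKer (Finset.univ : Finset Ts) cf fun t =>
      cosKer (HK C (k t) m) (dg1 (s t)) (dg1_conj_HK (hs t)) (hle t) (hfinK t)) a.1 (g₀ • a.1)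
      = ∑ t : Ts, cf t * ∑' a : {a : Vert SK v // dK a = q.one v},
          (if PK t a.1 then (1 : ℂ) else 0) := by
    rw [← tsum_sum_ite dK (q.one v) Finset.univ cf PK fun t _ => hfin t]
    exact tsum_congr fun a => hvalK a.1
  refine ⟨fun hne a₀ b₀ hg0 => ?_, fun δ c hδ hN dL hdL hdL' => ?_⟩
  · rw [hKsum] at hne
    obtain ⟨t, -, ht⟩ := Finset.exists_ne_zero_of_sum_ne_zero hne
    have hex : ∃ a : {a : Vert SK v // dK a = q.one v}, PK t a.1 := by
      by_contra! h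
      exact ht (by simp [h])
    obtain ⟨a, ha⟩ := hex
    exact ((hmatch t q.D g₀ hg).1 ⟨_, (out_mem_KSet_iff (hle t) (hs t) a.1).2 ha⟩).isLocNorm hc
      hw hσ hg0
  · set PL : Ts → Vert SL w → Prop := fun t x => LPt C 0 m t.1 δ x.out
    have hvalL : ∀ x : Vert SL w, kL x (δ • Vert.amap hS hσ x)
        = ∑ t : Ts, 1 * (if PL t x then (1 : ℂ) else 0) := by
      intro x
      conv_lhs => rw [← QuotientGroup.out_eq' x]
      rw [Vert.amap_mk, MulAction.Quotient.smul_coe, smul_eq_mul, hkL, ite_U0N_eq_sum hT1 hT2 m,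
        ← Finset.sum_coe_sort Ts]
      refine Finset.sum_congr rfl fun t _ => ?_
      rw [one_mul]
      refine if_congr ?_ rfl rfl
      simp only [PL, LPt, mul_assoc]
      rfl
    -- the twisted sum of each class
    have hone : ∀ t : Ts, {x : Vert SL w | PL t x ∧ dL x = q.one v}.Finite ∧
        ∑' x : {x : Vert SL w // dL x = q.one v}, (if PL t x.1 then (1 : ℂ) else 0)
          = cf t * ∑' a : {a : Vert SK v // dK a = q.one v}, (if PK t a.1 then (1 : ℂ) else 0) := by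
      intro t
      obtain ⟨f, hf, hbij⟩ := (hmatch t q.D g₀ hg).2 δ hδ c hN
      obtain ⟨ρ, -, hρ⟩ :=
        exists_conj_U0 (C := C) (unifAt_spec v) (fun g h1 h2 => mem_U0_of_det h1 h2) (k t) m
      exact tsum_twisted (C := C) (Γw := lev SL w) (Γv := lev SK v) (Γ := q.Γ v) (o := q.one v)
        (hs t) (hT1 t.1 t.2) hg.mem hδ hf hbij hleL hfinL
        (hle t) (hfinK t) hρ (d₀ := degV q v) ⟨fun h hh x => degV_smul q v hh x, degV_mem q v⟩
        (dK := dK) ⟨hdK, hdK'⟩ hdL hdL' (hfin t)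
    refine ⟨?_, ?_⟩
    · refine ((Set.finite_iUnion fun t : Ts => (hone t).1)).subset fun x hx => ?_
      obtain ⟨hx1, hx2⟩ := hx
      rw [hvalL] at hx2
      obtain ⟨t, -, ht⟩ := Finset.exists_ne_zero_of_sum_ne_zero hx2
      exact Set.mem_iUnion.2 ⟨t, (by_contra fun h => ht (by rw [if_neg h, mul_zero]) : PL t x), hx1⟩
    · rw [hKsum, tsum_congr fun x : {x : Vert SL w // dL x = q.one v} => hvalL x.1,
        tsum_sum_ite dL (q.one v) Finset.univ (fun _ => 1) PL fun t _ => (hone t).1]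
      exact Finset.sum_congr rfl fun t _ => by rw [one_mul, (hone t).2]

end Fermat.LTG.Loc
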