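import Fermat.Agent.LTG.LocHyp

/-!
# The order of a torus element at a hyperbolic element

Along conjugates `y = x₁ k`, `k ∈ Γ₀(p)`, in which `g` is nearly diagonal, an element of the algebra
of `g` has diagonal entries whose orders differ by a fixed integer.  It is additive and vanishes
exactly on the stabiliser of `x₁ Γ₀(p)`.
-/

set_option autoImplicit false
open scoped Matrix

namespace Fermat.LTG.Loc

open Fermat.LT

variable {E : Type*} [Field E] [NumberField E] (w : Valuation E (WithZero (Multiplicative ℤ)))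

/-- `t` is `α + β g`. -/
def InAlg (g t : GL (Fin 2) E) : Prop :=
  ∃ α β : E, (t : Matrix (Fin 2) (Fin 2) E) = α • 1 + β • nrm g

/-- The order `κ` of `t` at `x₁`. -/
def IsKap (x₁ g t : GL (Fin 2) E) (κ : ℤ) : Prop :=
  ∃ R : ℤ, 0 ≤ R ∧ ∀ r : ℤ, R ≤ r → ∀ k ∈ congU0 w 1, Apx w r (nrm ((x₁ * k)⁻¹ * g * (x₁ * k))) →
    ∀ W : Matrix (Fin 2) (Fin 2) E, W =
      (((x₁ * k)⁻¹ * t * (x₁ * k) : GL (Fin 2) E) : Matrix _ _ E) →
      Near w R W ∧ Apx w (r - R) W ∧ WithZero.exp (-R) ≤ w (W 0 0) ∧ WithZero.exp (-R) ≤ w (W 1 1) ∧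
        w (W 0 0) = WithZero.exp κ * w (W 1 1)

variable {w}

omit [NumberField E] in
/-- Conjugation preserves the algebra of an element. -/
lemma InAlg.conj {g t : GL (Fin 2) E} {α β : E}
    (h : (t : Matrix (Fin 2) (Fin 2) E) = α • 1 + β • nrm g) (y : GL (Fin 2) E) :
    ((y⁻¹ * t * y : GL (Fin 2) E) : Matrix (Fin 2) (Fin 2) E) = α • 1 + β • nrm (y⁻¹ * g * y) := by
  rw [nrm_conj, Units.val_mul, Units.val_mul, h, Matrix.mul_add, Matrix.add_mul, Matrix.mul_smul,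
    Matrix.smul_mul, Matrix.mul_one, ← Units.val_mul, inv_mul_cancel, Units.val_one,
      Matrix.mul_smul,
    Matrix.smul_mul]

omit [NumberField E] in
/-- The torus lies in the algebra of a regular element with nonzero trace. -/
lemma inAlg_of_tTor {D : E} {g t : GL (Fin 2) E} (hg : TReg D g)
    (htr : (g : Matrix (Fin 2) (Fin 2) E).trace ≠ 0) (ht : t ∈ tTor D) : InAlg g t := by
  obtain ⟨A, B, hB, hgm⟩ := hg
  obtain ⟨a, b, htm⟩ := ht
  refine ⟨a - b * A / B, b * (g : Matrix (Fin 2) (Fin 2) E).trace / B, ?_⟩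
  rw [nrm, smul_smul, htm, hgm]
  have h0 : (tmat D A B).trace ≠ 0 := hgm ▸ htr
  ext i j
  fin_cases i <;> fin_cases j <;> simp <;> field_simp <;> simp [tmat]; ring

omit [NumberField E] in
/-- The shape along the conjugates `x₁ k`. -/
lemma sh_at {e : ℤ} {g x₁ k : GL (Fin 2) E} (h : Hyp w e (x₁⁻¹ * g * x₁)) (hk : k ∈ congU0 w 1) :
    Sh w e (nrm ((x₁ * k)⁻¹ * g * (x₁ * k))) := by
  rw [show (x₁ * k)⁻¹ * g * (x₁ * k) = k⁻¹ * (x₁⁻¹ * g * x₁) * k by group]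
  exact (h.conj (le_withScalars _ hk)).sh

/-- Conjugates `x₁ k` make the element nearly diagonal to any precision. -/
lemma exists_at {e : ℤ} {g x₁ : GL (Fin 2) E} (h : Hyp w e (x₁⁻¹ * g * x₁)) (r : ℤ) :
    ∃ k ∈ congU0 w 1, Apx w r (nrm ((x₁ * k)⁻¹ * g * (x₁ * k))) := by
  obtain ⟨k, hk, hr⟩ := exists_refine h r
  exact ⟨k, hk, by rwa [show (x₁ * k)⁻¹ * g * (x₁ * k) = k⁻¹ * (x₁⁻¹ * g * x₁) * k by group]⟩

/-- The order at a hyperbolic element is unique. -/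
lemma IsKap.unique {e : ℤ} {g x₁ t : GL (Fin 2) E} (hy : Hyp w e (x₁⁻¹ * g * x₁)) {κ κ' : ℤ}
    (h : IsKap w x₁ g t κ) (h' : IsKap w x₁ g t κ') : κ = κ' := by
  obtain ⟨R, -, h⟩ := h
  obtain ⟨R', -, h'⟩ := h'
  obtain ⟨k, hk, hr⟩ := exists_at hy (max R R')
  obtain ⟨-, -, -, h11, he⟩ := h _ (le_max_left _ _) k hk hr _ rfl
  obtain ⟨-, -, -, -, he'⟩ := h' _ (le_max_right _ _) k hk hr _ rfl
  rw [he] at he'
  exact WithZero.exp_inj.1
    (mul_right_cancel₀ (ne_of_gt (lt_of_lt_of_le WithZero.exp_pos h11)) he')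

section

omit [NumberField E]

/-- The identity has order zero. -/
lemma IsKap.one (x₁ g : GL (Fin 2) E) : IsKap w x₁ g 1 0 := by
  refine ⟨0, le_rfl, fun r hr k hk _ W hW => ?_⟩
  rw [mul_one, inv_mul_cancel, Units.val_one] at hW
  subst hW
  exact ⟨near_one le_rfl, ⟨by simp, by simp⟩, by simp, by simp, by simp⟩

/-- The order is additive. -/
lemma IsKap.mul {g x₁ t t' : GL (Fin 2) E} {κ κ' : ℤ} (h : IsKap w x₁ g t κ)
    (h' : IsKap w x₁ g t' κ') :
    IsKap w x₁ g (t * t') (κ + κ') := by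
  obtain ⟨R, hR, h⟩ := h
  obtain ⟨R', hR', h'⟩ := h'
  refine ⟨2 * R + 2 * R' + 1, by omega, fun r hr k hk ha W hW => ?_⟩
  obtain ⟨n1, a1, p00, p11, e1⟩ := h r (by omega) k hk ha _ rfl
  obtain ⟨n2, a2, q00, q11, e2⟩ := h' r (by omega) k hk ha _ rfl
  rw [show (x₁ * k)⁻¹ * (t * t') * (x₁ * k) = ((x₁ * k)⁻¹ * t * (x₁ * k)) *
      ((x₁ * k)⁻¹ * t' * (x₁ * k)) by
    group, Units.val_mul] at hW
  set P := (((x₁ * k)⁻¹ * t * (x₁ * k) : GL (Fin 2) E) : Matrix (Fin 2) (Fin 2) E)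
  set Q := (((x₁ * k)⁻¹ * t' * (x₁ * k) : GL (Fin 2) E) : Matrix (Fin 2) (Fin 2) E)
  have hlow : ∀ {a b : E}, WithZero.exp (-R) ≤ w a → WithZero.exp (-R') ≤ w b →
      WithZero.exp (-R + -R') ≤ w (a * b) := fun ha hb => by
    rw [map_mul, WithZero.exp_add]; exact mul_le_mul' ha hb
  have small : ∀ {a b : E}, w a ≤ WithZero.exp (-(r - R)) → w b ≤ WithZero.exp (-(r - R')) →
      w (a * b) < WithZero.exp (-R + -R') := fun ha hb =>
    lt_of_le_of_lt (mul_le_exp ha hb le_rfl) (WithZero.exp_lt_exp.2 (by omega))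
  have w00 : w (W 0 0) = w (P 0 0 * Q 0 0) := by
    rw [hW, Matrix.mul_apply, Fin.sum_univ_two, Valuation.map_add_eq_of_lt_left]
    exact lt_of_lt_of_le (small a1.1 a2.2) (hlow p00 q00)
  have w11 : w (W 1 1) = w (P 1 1 * Q 1 1) := by
    rw [hW, Matrix.mul_apply, Fin.sum_univ_two, Valuation.map_add_eq_of_lt_right]
    exact lt_of_lt_of_le (small a1.2 a2.1) (hlow p11 q11)
  refine ⟨?_, ⟨?_, ?_⟩, ?_, ?_, ?_⟩
  · rw [hW]; exact (n1.mul n2).mono (by omega)
  · rw [hW, Matrix.mul_apply, Fin.sum_univ_two]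
    exact (w.map_add _ _).trans
      (max_le (mul_le_exp (n1 0 0) a2.1 (by omega)) (mul_le_exp a1.1 (n2 1 1) (by omega)))
  · rw [hW, Matrix.mul_apply, Fin.sum_univ_two]
    exact (w.map_add _ _).trans
      (max_le (mul_le_exp a1.2 (n2 0 0) (by omega)) (mul_le_exp (n1 1 1) a2.2 (by omega)))
  · rw [w00]; exact (WithZero.exp_le_exp.2 (by omega)).trans (hlow p00 q00)
  · rw [w11]; exact (WithZero.exp_le_exp.2 (by omega)).trans (hlow p11 q11)
  · rw [w00, w11, map_mul, map_mul, e1, e2, WithZero.exp_add]; ac_rfl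

/-- Powers multiply the order. -/
lemma IsKap.zpow {g x₁ t : GL (Fin 2) E} {κ : ℤ} (h : IsKap w x₁ g t κ)
    (h' : IsKap w x₁ g t⁻¹ (-κ)) (l : ℤ) : IsKap w x₁ g (t ^ l) (l * κ) := by
  induction l using Int.induction_on with
  | zero => rw [zpow_zero, zero_mul]; exact IsKap.one x₁ g
  | succ l ih =>
    rw [zpow_add, zpow_one]
    convert ih.mul h using 1
    ring
  | pred l ih =>
    rw [zpow_sub, zpow_one]
    convert ih.mul h' using 1
    ring

/-- Conjugates of one element close to diagonal have close diagonals. -/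
lemma diag_close {e e' r : ℤ} (hr : 0 ≤ r) {X Y : Matrix (Fin 2) (Fin 2) E} (hX : Sh w e X)
    (hY : Sh w e' Y) (aX : Apx w r X) (aY : Apx w r Y) (htX : X.trace = 1) (htY : Y.trace = 1)
    (hd : X.det = Y.det) :
    w (X 0 0 - Y 0 0) ≤ WithZero.exp (-r) ∧ w (X 1 1 - Y 1 1) ≤ WithZero.exp (-r) := by
  rw [Matrix.trace_fin_two] at htX htY
  rw [Matrix.det_fin_two, Matrix.det_fin_two] at hd
  have hu : w (1 - X 0 0 - Y 0 0) = 1 := by
    rw [show 1 - X 0 0 - Y 0 0 = X 1 1 - Y 0 0 by linear_combination -htX]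
    exact v_sub_eq_one hY.lt00 hX.eq11
  have h0 : w (X 0 0 - Y 0 0) ≤ WithZero.exp (-r) := by
    have e1 : w ((X 0 0 - Y 0 0) * (1 - X 0 0 - Y 0 0)) ≤ WithZero.exp (-r) := by
      rw [show (X 0 0 - Y 0 0) * (1 - X 0 0 - Y 0 0) = X 0 1 * X 1 0 - Y 0 1 * Y 1 0 by
        linear_combination hd - X 0 0 * htX + Y 0 0 * htY]
      exact (w.map_sub _ _).trans
        (max_le (mul_le_exp aX.1 aX.2 (by omega)) (mul_le_exp aY.1 aY.2 (by omega)))
    rwa [map_mul, hu, mul_one] at e1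
  refine ⟨h0, ?_⟩
  rwa [show X 1 1 - Y 1 1 = -(X 0 0 - Y 0 0) by linear_combination htX - htY, Valuation.map_neg]

/-- The determinant of the normalisation is invariant under conjugation. -/
lemma det_nrm_conj (g y : GL (Fin 2) E) : (nrm (y⁻¹ * g * y)).det = (nrm g).det := by
  rw [nrm_conj, Matrix.det_units_conj']

/-- Every element has an exponential bound. -/
lemma exists_exp_bound (x : E) : ∃ n : ℤ, 0 ≤ n ∧ w x ≤ WithZero.exp n := by
  rcases eq_or_ne (w x) 0 with h | h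
  · exact ⟨0, le_rfl, by simp [h]⟩
  exact ⟨|WithZero.log (w x)|, abs_nonneg _, by
    conv_lhs => rw [← WithZero.exp_log h]
    exact WithZero.exp_le_exp.2 (le_abs_self _)⟩

end

/-- **Existence.** An element of the algebra of a hyperbolic element has an order `κ` at `x₁`
(`IsKap`). -/
theorem exists_isKap {e : ℤ} {g x₁ t : GL (Fin 2) E} (hy : Hyp w e (x₁⁻¹ * g * x₁))
    (ht : InAlg g t) :
    ∃ κ, IsKap w x₁ g t κ := by
  obtain ⟨α, β, hab⟩ := ht
  obtain ⟨Ra, ha0, ha⟩ := exists_exp_bound (w := w) α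
  obtain ⟨Rb, hb0, hb⟩ := exists_exp_bound (w := w) β
  set R₀ := max Ra Rb
  have hα : w α ≤ WithZero.exp R₀ := le_exp_trans ha (le_max_left _ _)
  have hβ : w β ≤ WithZero.exp R₀ := le_exp_trans hb (le_max_right _ _)
  have hR₀ : 0 ≤ R₀ := ha0.trans (le_max_left _ _)
  set δ := WithZero.log (w (t : Matrix (Fin 2) (Fin 2) E).det)
  have hδ : w (t : Matrix (Fin 2) (Fin 2) E).det = WithZero.exp δ :=
    (WithZero.exp_log (w.ne_zero_iff.2 (Matrix.GeneralLinearGroup.det t).ne_zero)).symm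
  have := le_abs_self δ
  have := neg_abs_le δ
  set r₁ := 2 * R₀ + |δ| + 1 with hr₁
  have htr : ∀ k ∈ congU0 w 1, (nrm ((x₁ * k)⁻¹ * g * (x₁ * k))).trace = 1 := fun k hk => by
    refine trace_nrm (Hyp.trace_ne (e := e) (w := w) ?_)
    rw [show (x₁ * k)⁻¹ * g * (x₁ * k) = k⁻¹ * (x₁⁻¹ * g * x₁) * k by group]
    exact hy.conj (le_withScalars _ hk)
  -- far enough out, the entries of `W` have stable sizes
  have facts : ∀ r, r₁ ≤ r → ∀ k ∈ congU0 w 1, Apx w r (nrm ((x₁ * k)⁻¹ * g * (x₁ * k))) →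
      ∀ W, W = (((x₁ * k)⁻¹ * t * (x₁ * k) : GL (Fin 2) E) : Matrix (Fin 2) (Fin 2) E) →
      Near w R₀ W ∧ Apx w (r - R₀) W ∧ WithZero.exp (δ - R₀) ≤ w (W 0 0) ∧
          WithZero.exp (δ - R₀) ≤ w (W 1 1) := by
    intro r hr k hk ha W hW
    obtain ⟨s00, s01, s10, s11, -⟩ := sh_at hy hk
    have hdet : w W.det = WithZero.exp δ := by
      rw [hW, Units.val_mul, Units.val_mul, Matrix.det_units_conj', hδ]
    rw [InAlg.conj hab] at hW
    set X := nrm ((x₁ * k)⁻¹ * g * (x₁ * k))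
    have hX : Near w 0 X := fun i j => by
      fin_cases i <;> fin_cases j <;> simp [s00.le, s01, s10.le, s11.le]
    have hn : Near w R₀ W := by
      rw [hW]
      exact (((near_one le_rfl).smul hα).mono (by omega)).add ((hX.smul hβ).mono (by omega))
    have hax : Apx w (r - R₀) W := by
      rw [hW]
      exact ⟨by simpa [map_mul] using mul_le_exp hβ ha.1 (by omega : R₀ + -r ≤ -(r - R₀)),
        by simpa [map_mul] using mul_le_exp hβ ha.2 (by omega : R₀ + -r ≤ -(r - R₀))⟩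
    have hprod : w (W 0 0 * W 1 1) = WithZero.exp δ := by
      rw [show W 0 0 * W 1 1 = W.det + W 0 1 * W 1 0 by rw [Matrix.det_fin_two]; ring,
        Valuation.map_add_eq_of_lt_left, hdet]
      rw [hdet]
      exact lt_of_le_of_lt (mul_le_exp hax.1 hax.2 le_rfl) (WithZero.exp_lt_exp.2 (by omega))
    have hlow : ∀ {a b : E}, w (a * b) = WithZero.exp δ → w b ≤ WithZero.exp R₀ →
        WithZero.exp (δ - R₀) ≤ w a := fun {a b} hab hb => by
      rw [map_mul] at hab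
      have h' : WithZero.exp δ ≤ w a * WithZero.exp R₀ := hab.symm.le.trans (mul_le_mul' le_rfl hb)
      rw [show δ = (δ - R₀) + R₀ by ring, WithZero.exp_add] at h'
      exact le_of_mul_le_mul_right h' WithZero.exp_pos
    exact ⟨hn, hax, hlow hprod (hn 1 1), hlow (mul_comm (W 0 0) _ ▸ hprod) (hn 0 0)⟩
  obtain ⟨k₁, hk₁, ha₁⟩ := exists_at hy r₁
  set W₁ := (((x₁ * k₁)⁻¹ * t * (x₁ * k₁) : GL (Fin 2) E) : Matrix (Fin 2) (Fin 2) E)
  obtain ⟨-, -, l00, l11⟩ := facts r₁ le_rfl k₁ hk₁ ha₁ W₁ rfl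
  have n00 : w (W₁ 0 0) ≠ 0 := ne_of_gt (lt_of_lt_of_le WithZero.exp_pos l00)
  have n11 : w (W₁ 1 1) ≠ 0 := ne_of_gt (lt_of_lt_of_le WithZero.exp_pos l11)
  refine ⟨WithZero.log (w (W₁ 0 0)) - WithZero.log (w (W₁ 1 1)),
    r₁ + |δ|, by omega, fun r hr k hk ha W hW => ?_⟩
  obtain ⟨hn, hax, h00, h11⟩ := facts r (by omega) k hk ha W hW
  have hW₁ : W₁ = α • 1 + β • nrm ((x₁ * k₁)⁻¹ * g * (x₁ * k₁)) := InAlg.conj hab _
  have hW' := hW
  rw [InAlg.conj hab] at hW'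
  obtain ⟨c00, c11⟩ :=
    diag_close (by omega) (sh_at hy hk) (sh_at hy hk₁) (ha.mono (show r₁ ≤ r by omega)) ha₁
    (htr k hk) (htr k₁ hk₁) (by rw [det_nrm_conj, det_nrm_conj])
  -- the diagonal does not depend on the conjugation
  have same : ∀ i, w (nrm ((x₁ * k)⁻¹ * g * (x₁ * k)) i i - nrm ((x₁ * k₁)⁻¹ * g * (x₁ * k₁)) i i)
      ≤ WithZero.exp (-r₁) → WithZero.exp (δ - R₀) ≤ w (W₁ i i) → w (W i i) = w (W₁ i i) :=
          fun i hc hl => by
    refine w.map_eq_of_sub_lt (lt_of_lt_of_le (lt_of_le_of_lt ?_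
      (WithZero.exp_lt_exp.2 (show R₀ - r₁ < δ - R₀ by omega))) hl)
    rw [hW', hW₁,
        show (α • (1 : Matrix (Fin 2) (Fin 2) E) + β • nrm ((x₁ * k)⁻¹ * g * (x₁ * k))) i i
        - (α • (1 : Matrix (Fin 2) (Fin 2) E) + β • nrm ((x₁ * k₁)⁻¹ * g * (x₁ * k₁))) i i
      = β * (nrm ((x₁ * k)⁻¹ * g * (x₁ * k)) i i - nrm ((x₁ * k₁)⁻¹ * g * (x₁ * k₁)) i i) by
        simp; ring]
    exact mul_le_exp hβ hc (by omega)
  refine ⟨hn.mono (by omega), hax.mono (by omega), (WithZero.exp_le_exp.2 (by omega)).trans h00,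
    (WithZero.exp_le_exp.2 (by omega)).trans h11, ?_⟩
  rw [same 0 c00 l00, same 1 c11 l11, WithZero.exp_sub, WithZero.exp_log n00, WithZero.exp_log n11,
    div_mul_cancel₀ _ n11]

/-- An inverse has the opposite order. -/
lemma IsKap.inv {e : ℤ} {g x₁ t : GL (Fin 2) E} {κ : ℤ} (h : IsKap w x₁ g t κ)
    (hy : Hyp w e (x₁⁻¹ * g * x₁)) (ht : InAlg g t⁻¹) : IsKap w x₁ g t⁻¹ (-κ) := by
  obtain ⟨κ', h'⟩ := exists_isKap hy ht
  have h0 := h.mul h'
  rw [mul_inv_cancel] at h0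
  rwa [show -κ = κ' by linarith [h0.unique hy (IsKap.one _ _)]]

/-- A scaled conjugate of `t` by a point of the box is diagonal to any precision, with orders `κ`
and `0`. -/
lemma IsKap.scaled {g x₁ t : GL (Fin 2) E} {κ : ℤ} (h : IsKap w x₁ g t κ) {e : ℤ}
    (hy : Hyp w e (x₁⁻¹ * g * x₁)) (M : ℤ) :
    ∃ k ∈ congU0 w 1, ∃ c : Eˣ, ∀ G : Matrix (Fin 2) (Fin 2) E,
      G = ((scal c * ((x₁ * k)⁻¹ * t * (x₁ * k)) : GL (Fin 2) E) : Matrix (Fin 2) (Fin 2) E) →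
      w (G 0 0) = WithZero.exp κ ∧ w (G 1 1) = 1 ∧ Apx w M G := by
  obtain ⟨R, hR, h⟩ := h
  obtain ⟨k, hk, hr⟩ := exists_at hy (2 * R + |M|)
  have := le_abs_self M
  have := abs_nonneg M
  obtain ⟨-, ha, -, h11, he⟩ := h _ (by omega) k hk hr _ rfl
  set W := (((x₁ * k)⁻¹ * t * (x₁ * k) : GL (Fin 2) E) : Matrix (Fin 2) (Fin 2) E)
  have hv : w (W 1 1) ≠ 0 := ne_of_gt (lt_of_lt_of_le WithZero.exp_pos h11)
  refine ⟨k, hk, Units.mk0 (W 1 1)⁻¹ (inv_ne_zero (w.ne_zero_iff.1 hv)), fun G hG => ?_⟩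
  rw [coe_scal_mul, Units.val_mk0] at hG
  have hinv : w (W 1 1)⁻¹ ≤ WithZero.exp R := by
    rw [map_inv₀, inv_le_comm₀ (zero_lt_iff.2 hv) WithZero.exp_pos, ← WithZero.exp_neg]
    exact h11
  refine ⟨?_, ?_, ?_⟩
  · rw [hG, Matrix.smul_apply, smul_eq_mul, map_mul, map_inv₀, he, mul_comm, mul_assoc,
      mul_inv_cancel₀ hv, mul_one]
  · rw [hG, Matrix.smul_apply, smul_eq_mul, map_mul, map_inv₀, inv_mul_cancel₀ hv]
  · subst hG
    refine ⟨?_, ?_⟩ <;> rw [Matrix.smul_apply, smul_eq_mul]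
    exacts [mul_le_exp hinv ha.1 (by omega), mul_le_exp hinv ha.2 (by omega)]

/-- Order zero: the stabiliser. -/
theorem IsKap.mem_of_zero {g x₁ t : GL (Fin 2) E} (h : IsKap w x₁ g t 0) {e : ℤ}
    (hy : Hyp w e (x₁⁻¹ * g * x₁)) : x₁⁻¹ * t * x₁ ∈ U0N w 1 := by
  obtain ⟨k, hk, c, hG⟩ := h.scaled hy 1
  obtain ⟨g00, g11, a01, a10⟩ := hG _ rfl
  rw [WithZero.exp_zero] at g00
  set G := ((scal c * ((x₁ * k)⁻¹ * t * (x₁ * k)) : GL (Fin 2) E) : Matrix (Fin 2) (Fin 2) E) with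
    hGdef
  have hmem : scal c * ((x₁ * k)⁻¹ * t * (x₁ * k)) ∈ congU0 w 1 := by
    refine mem_congU0_of (fun i j => ?_) (lt_one_iff_le.2 a10) ?_
    · rw [← hGdef]
      fin_cases i <;> fin_cases j
      · exact g00.le
      · exact (lt_one_iff_le.2 a01).le
      · exact (lt_one_iff_le.2 a10).le
      · exact g11.le
    · rw [← hGdef, Matrix.det_fin_two, Valuation.map_sub_eq_of_lt_left, map_mul, g00, g11, one_mul]
      rw [map_mul, map_mul, g00, g11, one_mul]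
      exact lt_of_le_of_lt (mul_le_of_le_one_right' (lt_one_iff_le.2 a10).le) (lt_one_iff_le.2 a01)
  have := (U0N w 1).mul_mem ((U0N w 1).mul_mem (le_withScalars _ hk)
    (show (x₁ * k)⁻¹ * t * (x₁ * k) ∈ U0N w 1 from ⟨c, hmem⟩))
      ((U0N w 1).inv_mem (le_withScalars _ hk))
  rwa [show k * ((x₁ * k)⁻¹ * t * (x₁ * k)) * k⁻¹ = x₁⁻¹ * t * x₁ by group] at this

/-- The stabiliser has order zero. -/
theorem IsKap.zero_of_mem {g x₁ t : GL (Fin 2) E} {κ : ℤ} (h : IsKap w x₁ g t κ) {e : ℤ}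
    (hy : Hyp w e (x₁⁻¹ * g * x₁)) (hmem : x₁⁻¹ * t * x₁ ∈ U0N w 1) : κ = 0 := by
  obtain ⟨R, hR, h⟩ := h
  obtain ⟨k, hk, hr⟩ := exists_at hy R
  obtain ⟨-, -, -, h11, he⟩ := h R le_rfl k hk hr _ rfl
  have hW := (U0N w 1).mul_mem ((U0N w 1).mul_mem ((U0N w 1).inv_mem (le_withScalars _ hk)) hmem)
    (le_withScalars _ hk)
  rw [show k⁻¹ * (x₁⁻¹ * t * x₁) * k = (x₁ * k)⁻¹ * t * (x₁ * k) by group] at hW
  obtain ⟨c, hc⟩ := hW
  obtain ⟨-, -, -, c00, c11⟩ := congU0_spec hc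
  rw [coe_scal_mul, Matrix.smul_apply, smul_eq_mul, map_mul] at c00 c11
  rw [he, mul_left_comm, c11, mul_one, ← WithZero.exp_zero, WithZero.exp_inj] at c00
  exact c00

/-- Order `-e` gives hyperbolic elements. -/
theorem IsKap.hyp {g x₁ t : GL (Fin 2) E} {e d : ℤ} (he : 1 ≤ e) (h : IsKap w x₁ g t (-e))
    (hy : Hyp w d (x₁⁻¹ * g * x₁)) : Hyp w e (x₁⁻¹ * t * x₁) := by
  obtain ⟨k, hk, c, hG⟩ := h.scaled hy (e + 1)
  obtain ⟨g00, g11, a01, a10⟩ := hG _ rfl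
  have hy' : Hyp w e ((x₁ * k)⁻¹ * t * (x₁ * k)) := by
    refine ⟨c, ?_, ?_, ?_, g11, ?_⟩
    · rw [g00, ← WithZero.exp_zero, WithZero.exp_lt_exp]; omega
    · exact a01.trans (by rw [← WithZero.exp_zero, WithZero.exp_le_exp]; omega)
    · exact lt_of_le_of_lt a10 (by rw [← WithZero.exp_zero, WithZero.exp_lt_exp]; omega)
    · have e0 :=
        map_mul w (((scal c * ((x₁ * k)⁻¹ * t * (x₁ * k)) : GL (Fin 2) E) : Matrix (Fin 2)
        (Fin 2) E) 0 0)
        (((scal c * ((x₁ * k)⁻¹ * t * (x₁ * k)) : GL (Fin 2) E) : Matrix (Fin 2) (Fin 2) E) 1 1)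
      rw [g00, g11, mul_one] at e0
      rw [Matrix.det_fin_two, Valuation.map_sub_eq_of_lt_left, e0]
      rw [e0]
      exact lt_of_le_of_lt (mul_le_exp a01 a10 le_rfl) (WithZero.exp_lt_exp.2 (by omega))
  have := hy'.conj ((U0N w 1).inv_mem (le_withScalars _ hk))
  rwa [show k⁻¹⁻¹ * ((x₁ * k)⁻¹ * t * (x₁ * k)) * k⁻¹ = x₁⁻¹ * t * x₁ by group] at this

omit [NumberField E] in
/-- Orders of the diagonal of a hyperbolic element. -/
lemma Sh.val00 {e r : ℤ} {X : Matrix (Fin 2) (Fin 2) E} (h : Sh w e X) (ha : Apx w r X)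
    (hr : e < 2 * r) :
    w (X 0 0) = WithZero.exp (-e) := by
  obtain ⟨-, -, -, h11, hd⟩ := h
  have e1 : w (X 0 0 * X 1 1) = WithZero.exp (-e) := by
    rw [show X 0 0 * X 1 1 = X.det + X 0 1 * X 1 0 by rw [Matrix.det_fin_two]; ring,
      Valuation.map_add_eq_of_lt_left, hd]
    rw [hd]
    exact lt_of_le_of_lt (mul_le_exp ha.1 ha.2 le_rfl) (WithZero.exp_lt_exp.2 (by omega))
  rwa [map_mul, h11, mul_one] at e1

omit [NumberField E] in
/-- The element `g` has order `-e` at a conjugator making it hyperbolic of exponent `e`. -/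
theorem isKap_self {g x₁ : GL (Fin 2) E} {e : ℤ} (hy : Hyp w e (x₁⁻¹ * g * x₁)) :
    IsKap w x₁ g g (-e) := by
  have htr : (g : Matrix (Fin 2) (Fin 2) E).trace ≠ 0 := by
    have := hy.trace_ne
    rwa [Units.val_mul, Units.val_mul, Matrix.trace_units_conj'] at this
  set T := (g : Matrix (Fin 2) (Fin 2) E).trace with hT
  have hab : (g : Matrix (Fin 2) (Fin 2) E) = (0 : E) • 1 + T • nrm g := by
    rw [zero_smul, zero_add, nrm, smul_smul, mul_inv_cancel₀ htr, one_smul]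
  obtain ⟨l, hl⟩ : ∃ l, w T = WithZero.exp l := ⟨_, (WithZero.exp_log (w.ne_zero_iff.2 htr)).symm⟩
  refine ⟨|l| + |e| + 1, by positivity, fun r hr k hk ha W hW => ?_⟩
  rw [InAlg.conj hab, zero_smul, zero_add] at hW
  have hs := sh_at hy hk
  set X := nrm ((x₁ * k)⁻¹ * g * (x₁ * k))
  have := le_abs_self l
  have := neg_abs_le l
  have := le_abs_self e
  have := neg_abs_le e
  have h00 := hs.val00 ha (by omega)
  obtain ⟨s00, s01, s10, s11, -⟩ := hs
  have hX : Near w 0 X := fun i j => by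
    fin_cases i <;> fin_cases j <;> simp [s00.le, s01, s10.le, s11.le]
  subst hW
  refine ⟨(hX.smul hl.le).mono (by omega), ⟨?_, ?_⟩, ?_, ?_, ?_⟩
  · simpa [map_mul] using mul_le_exp hl.le ha.1 (by omega : l + -r ≤ -(r - (|l| + |e| + 1)))
  · simpa [map_mul] using mul_le_exp hl.le ha.2 (by omega : l + -r ≤ -(r - (|l| + |e| + 1)))
  · rw [Matrix.smul_apply, smul_eq_mul, map_mul, hl, h00, ← WithZero.exp_add,
      WithZero.exp_le_exp]; omega
  · rw [Matrix.smul_apply, smul_eq_mul, map_mul, hl, s11, mul_one, WithZero.exp_le_exp]; omega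
  · rw [Matrix.smul_apply, Matrix.smul_apply, smul_eq_mul, smul_eq_mul, map_mul,
      map_mul, h00, s11, hl, mul_one, mul_comm]

omit [NumberField E] in
/-- `p + g` has the order of `p`. -/
theorem isKap_pi {g x₁ t : GL (Fin 2) E} {e i : ℤ} (hy : Hyp w e (x₁⁻¹ * g * x₁)) (hi : 1 ≤ i)
    (hie : i < e) {p : E} (hp : w p = WithZero.exp (-i))
    (ht : (t : Matrix (Fin 2) (Fin 2) E) = p • 1 + nrm g) :
    IsKap w x₁ g t (-i) := by
  refine ⟨e + 1, by omega, fun r hr k hk ha W hW => ?_⟩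
  rw [InAlg.conj (α := p) (β := 1) (by rw [one_smul, ht]), one_smul] at hW
  have hs := sh_at hy hk
  set X := nrm ((x₁ * k)⁻¹ * g * (x₁ * k))
  have h00 := hs.val00 ha (by omega)
  obtain ⟨s00, s01, s10, s11, -⟩ := hs
  have hp1 : w p < 1 := by rw [hp, ← WithZero.exp_zero, WithZero.exp_lt_exp]; omega
  have hW00 : w (W 0 0) = WithZero.exp (-i) := by
    rw [show W 0 0 = p + X 0 0 by simp [hW], Valuation.map_add_eq_of_lt_left, hp]
    rw [hp, h00, WithZero.exp_lt_exp]; omega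
  have hW11 : w (W 1 1) = 1 := by
    rw [show W 1 1 = p + X 1 1 by simp [hW]]
    exact v_add_eq_one hp1 s11
  have h01 : W 0 1 = X 0 1 := by simp [hW]
  have h10 : W 1 0 = X 1 0 := by simp [hW]
  refine ⟨fun a b => ?_, ⟨?_, ?_⟩, ?_, ?_, ?_⟩
  · have h1 : (1 : WithZero (Multiplicative ℤ)) ≤ WithZero.exp (e + 1) := by
      rw [← WithZero.exp_zero, WithZero.exp_le_exp]; omega
    fin_cases a <;> fin_cases b
    · exact (hW00.le.trans (WithZero.exp_le_exp.2 (by omega)))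
    · exact le_of_eq_of_le (by rw [← h01]; rfl) (s01.trans h1)
    · exact le_of_eq_of_le (by rw [← h10]; rfl) (s10.le.trans h1)
    · exact hW11.le.trans h1
  · rw [h01]; exact le_exp_trans ha.1 (by omega)
  · rw [h10]; exact le_exp_trans ha.2 (by omega)
  · rw [hW00, WithZero.exp_le_exp]; omega
  · rw [hW11, ← WithZero.exp_zero, WithZero.exp_le_exp]; omega
  · rw [hW00, hW11, mul_one]

/-- The torus contains an element of order `-i` for `1 ≤ i < e`. -/
theorem exists_pi_elt {D : E} {g x₁ : GL (Fin 2) E} (hg : g ∈ tTor D) {e i : ℤ}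
    (hy : Hyp w e (x₁⁻¹ * g * x₁)) (hi : 1 ≤ i) (hie : i < e) {p : E}
    (hp : w p = WithZero.exp (-i)) :
    ∃ t ∈ tTor D, IsKap w x₁ g t (-i) := by
  set M : Matrix (Fin 2) (Fin 2) E := p • 1 + nrm g
  have hd : M.det ≠ 0 := by
    obtain ⟨k, hk, ha⟩ := exists_at hy e
    have hs := sh_at hy hk
    set X := nrm ((x₁ * k)⁻¹ * g * (x₁ * k)) with hX
    have e1 : M.det = (p • 1 + X).det := by
      rw [hX, nrm_conj, show p • (1 : Matrix (Fin 2) (Fin 2) E)
          = (((x₁ * k)⁻¹ : GL (Fin 2) E) : Matrix (Fin 2) (Fin 2) E) * (p • 1) *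
              ((x₁ * k : GL (Fin 2) E) : Matrix _ _ E) by
        rw [Matrix.mul_smul, Matrix.smul_mul, Matrix.mul_one, ← Units.val_mul, inv_mul_cancel,
          Units.val_one],
        ← Matrix.add_mul, ← Matrix.mul_add, Matrix.det_units_conj']
    have h00 := hs.val00 ha (by omega)
    obtain ⟨s00, s01, s10, s11, -⟩ := hs
    have hp1 : w p < 1 := by rw [hp, ← WithZero.exp_zero, WithZero.exp_lt_exp]; omega
    intro h0
    rw [e1, Matrix.det_fin_two] at h0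
    simp only [Matrix.add_apply, Matrix.smul_apply, Matrix.one_apply_eq, smul_eq_mul, mul_one,
      Matrix.one_apply_ne (show (0 : Fin 2) ≠ 1 by decide),
        Matrix.one_apply_ne (show (1 : Fin 2) ≠ 0 by decide),
      mul_zero, zero_add] at h0
    have hm : w ((p + X 0 0) * (p + X 1 1)) = WithZero.exp (-i) := by
      rw [map_mul, Valuation.map_add_eq_of_lt_left, hp, v_add_eq_one hp1 s11, mul_one]
      rw [hp, h00, WithZero.exp_lt_exp]; omega
    rw [sub_eq_zero.1 h0] at hm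
    exact absurd hm
      (ne_of_lt (lt_of_le_of_lt (mul_le_exp ha.1 ha.2 le_rfl) (WithZero.exp_lt_exp.2 (by omega))))
  refine ⟨Matrix.GeneralLinearGroup.mkOfDetNeZero M hd, ?_, isKap_pi hy hi hie hp rfl⟩
  exact (isT_one.smul _).add (IsT.smul _ (show IsT D (g : Matrix (Fin 2) (Fin 2) E) from hg))

section Hom

/-- Maps multiplying valuations preserve `Γ₀(p)`. -/
lemma map_congU0 {F : Type*} [Field F] [NumberField F]
    {v : Valuation F (WithZero (Multiplicative ℤ))} (f : F →+* E) {e₀ : ℕ} (he₀ : e₀ ≠ 0)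
    (hf : ∀ x, w (f x) = v x ^ e₀) {k : GL (Fin 2) F} (hk : k ∈ congU0 v 1) :
    Matrix.GeneralLinearGroup.map f k ∈ congU0 w 1 := by
  obtain ⟨hi, h10, hd, -, -⟩ := congU0_spec hk
  refine mem_congU0_of (fun i j => ?_) ?_ ?_
  · change w (f _) ≤ 1
    rw [hf]; exact pow_le_one₀ zero_le (hi i j)
  · change w (f _) < 1
    rw [hf]; exact pow_lt_one₀ zero_le h10 he₀
  · change w ((k : Matrix (Fin 2) (Fin 2) F).map f).det = 1
    rw [show ((k : Matrix (Fin 2) (Fin 2) F).map f).det = f (k : Matrix (Fin 2) (Fin 2) F).det from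
      (RingHom.map_det _ _).symm, hf, hd, one_pow]

omit [NumberField E] in
/-- Normalisation commutes with maps of fields. -/
lemma nrm_map {F : Type*} [Field F] (f : F →+* E) (g : GL (Fin 2) F) :
    nrm (Matrix.GeneralLinearGroup.map f g) = (nrm g).map f := by
  change ((g : Matrix (Fin 2) (Fin 2) F).map f).trace⁻¹ • (g : Matrix (Fin 2) (Fin 2) F).map f = _
  rw [nrm, Matrix.map_smul' _ _ _ (map_mul f), map_inv₀]
  simp [Matrix.trace_fin_two]

omit [NumberField E] in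
/-- A map multiplying valuations by `e₀` multiplies the exponent of hyperbolicity by `e₀`. -/
lemma Hyp.map {F : Type*} [Field F] {v : Valuation F (WithZero (Multiplicative ℤ))}
    (f : F →+* E) {e₀ : ℕ} (he₀ : e₀ ≠ 0) (hf : ∀ x, w (f x) = v x ^ e₀) {e : ℤ} {g : GL (Fin 2) F}
    (h : Hyp v e g) : Hyp w ((e₀ : ℤ) * e) (Matrix.GeneralLinearGroup.map f g) := by
  obtain ⟨c, h00, h01, h10, h11, hd⟩ := h
  refine ⟨Units.map (f : F →* E) c, ?_⟩
  rw [← map_scal, ← map_mul]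
  set G := scal c * g
  refine ⟨?_, ?_, ?_, ?_, ?_⟩
  · change w (f _) < 1
    rw [hf]; exact pow_lt_one₀ zero_le h00 he₀
  · change w (f _) ≤ 1
    rw [hf]; exact pow_le_one₀ zero_le h01
  · change w (f _) < 1
    rw [hf]; exact pow_lt_one₀ zero_le h10 he₀
  · change w (f _) = 1
    rw [hf, h11, one_pow]
  · change w ((G : Matrix (Fin 2) (Fin 2) F).map f).det = _
    rw [show ((G : Matrix (Fin 2) (Fin 2) F).map f).det = f (G : Matrix (Fin 2) (Fin 2) F).det from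
      (RingHom.map_det _ _).symm, hf, hd, ← WithZero.exp_nsmul, nsmul_eq_mul]
    congr 1
    ring

/-- **Orders in an extension.** An order `κ` at `v` becomes `e₀ κ` in an extension of ramification
index `e₀`. -/
theorem IsKap.lift {F : Type*} [Field F] [NumberField F]
    {v : Valuation F (WithZero (Multiplicative ℤ))} (f : F →+* E) {e₀ : ℕ} (he₀ : e₀ ≠ 0)
    (hf : ∀ x, w (f x) = v x ^ e₀) {e : ℤ} {g x₁ t : GL (Fin 2) F} {κ : ℤ} (h : IsKap v x₁ g t κ)
    (hy : Hyp v e (x₁⁻¹ * g * x₁)) (ht : InAlg g t) :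
    IsKap w (Matrix.GeneralLinearGroup.map f x₁) (Matrix.GeneralLinearGroup.map f g)
      (Matrix.GeneralLinearGroup.map f t) ((e₀ : ℤ) * κ) := by
  set M := Matrix.GeneralLinearGroup.map (n := Fin 2) f
  have hy' : Hyp w ((e₀ : ℤ) * e) ((M x₁)⁻¹ * M g * M x₁) := by
    rw [← map_inv, ← map_mul, ← map_mul]; exact hy.map f he₀ hf
  have ht' : InAlg (M g) (M t) := by
    obtain ⟨α, β, hab⟩ := ht
    refine ⟨f α, f β, ?_⟩
    change (t : Matrix (Fin 2) (Fin 2) F).map f = _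
    rw [hab, nrm_map, Matrix.map_add _ (map_add f), Matrix.map_smul' _ _ _ (map_mul f),
      Matrix.map_smul' _ _ _ (map_mul f), Matrix.map_one _ (map_zero f) (map_one f)]
  obtain ⟨κ', hκ'⟩ := exists_isKap hy' ht'
  obtain ⟨R', hR', h'⟩ := id hκ'
  obtain ⟨R, hR, h⟩ := h
  obtain ⟨k, hk, ha⟩ := exists_at hy (max R R')
  have hpow : ∀ {x : F} {j : ℤ}, 0 ≤ j → v x ≤ WithZero.exp (-j) → w (f x) ≤ WithZero.exp (-j) := by
    intro x j hj hx
    rw [hf]
    refine (pow_le_pow_left₀ zero_le hx e₀).trans ?_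
    rw [← WithZero.exp_nsmul, WithZero.exp_le_exp, nsmul_eq_mul]
    have : (1 : ℤ) ≤ (e₀ : ℤ) := by exact_mod_cast Nat.one_le_iff_ne_zero.2 he₀
    nlinarith
  have hmax : 0 ≤ max R R' := hR.trans (le_max_left _ _)
  obtain ⟨-, -, -, -, he'⟩ := h' _ (le_max_right _ _) (M k) (map_congU0 f he₀ hf hk) (by
    rw [← map_mul, ← map_inv, ← map_mul, ← map_mul, nrm_map]
    exact ⟨hpow hmax ha.1, hpow hmax ha.2⟩) _ rfl
  obtain ⟨-, -, -, h11, he⟩ := h _ (le_max_left _ _) k hk ha _ rfl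
  rw [← map_mul, ← map_inv, ← map_mul, ← map_mul] at he'
  set W := (((x₁ * k)⁻¹ * t * (x₁ * k) : GL (Fin 2) F) : Matrix (Fin 2) (Fin 2) F)
  change w (f (W 0 0)) = WithZero.exp κ' * w (f (W 1 1)) at he'
  rw [hf, hf, he, mul_pow, ← WithZero.exp_nsmul, nsmul_eq_mul] at he'
  have := mul_right_cancel₀ (pow_ne_zero _ (ne_of_gt (lt_of_lt_of_le WithZero.exp_pos h11))) he'
  rw [WithZero.exp_inj] at this
  rwa [this]

/-- **Orders under an automorphism fixing the element.** -/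
theorem IsKap.map_equiv (s : E ≃+* E) (hs : ∀ x, w (s x) = w x) {g x₁ t : GL (Fin 2) E} {κ : ℤ}
    (hg : Matrix.GeneralLinearGroup.map (s : E →+* E) g = g)
    (hx : Matrix.GeneralLinearGroup.map (s : E →+* E) x₁ = x₁) (h : IsKap w x₁ g t κ) :
    IsKap w x₁ g (Matrix.GeneralLinearGroup.map (s : E →+* E) t) κ := by
  set S := Matrix.GeneralLinearGroup.map (n := Fin 2) (s : E →+* E)
  obtain ⟨R, hR, h⟩ := h
  refine ⟨R, hR, fun r hr k hk ha W hW => ?_⟩
  set k' := Matrix.GeneralLinearGroup.map (n := Fin 2) (s.symm : E →+* E) k with hk'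
  have hsk : S k' = k := Units.ext (Matrix.ext fun i j => s.apply_symm_apply _)
  have hs' : ∀ x, w (s.symm x) = w x := fun x => by rw [← hs (s.symm x), s.apply_symm_apply]
  have hk'U : k' ∈ congU0 w 1 := map_congU0 (w := w) (v := w) (s.symm : E →+* E) one_ne_zero
    (fun x => by simpa using hs' x) hk
  have ha' : Apx w r (nrm ((x₁ * k')⁻¹ * g * (x₁ * k'))) := by
    rw [show (x₁ * k)⁻¹ * g * (x₁ * k) = S ((x₁ * k')⁻¹ * g * (x₁ * k')) by
      simp only [map_mul, map_inv, hg, hx, hsk, S], nrm_map] at ha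
    exact ⟨(hs _).symm.trans_le ha.1, (hs _).symm.trans_le ha.2⟩
  obtain ⟨n1, a1, p00, p11, e1⟩ := h r hr k' hk'U ha' _ rfl
  rw [show (x₁ * k)⁻¹ * S t * (x₁ * k) = S ((x₁ * k')⁻¹ * t * (x₁ * k')) by
    simp only [map_mul, map_inv, hx, hsk]] at hW
  subst hW
  exact ⟨n1.map hs, ⟨(hs _).trans_le a1.1, (hs _).trans_le a1.2⟩, p00.trans_eq (hs _).symm,
    p11.trans_eq (hs _).symm, ((hs _).trans e1).trans (congrArg _ (hs _).symm)⟩

end Hom

end Fermat.LTG.Loc
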