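import Fermat.Agent.LTG.LocFam
import Fermat.Agent.LTG.LocKap

/-!
# Arithmetic at a wildly ramified place over three

The determinant condition of the rational kernel; elements satisfying it are norms to every
precision; twisted hyperbolic elements give rational ones.
-/

set_option autoImplicit false
open scoped Matrix

namespace Fermat.LTG.Loc

open Fermat.LT

variable {F : Type*} [Field F] [NumberField F] {E : Type*} [Field E] [NumberField E]
  {v : Valuation F (WithZero (Multiplicative ℤ))} {w : Valuation E (WithZero (Multiplicative ℤ))}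
  (C : CycExt v w)

/-- The eigenvalues have the ratio of a norm modulo `p ^ 4`. -/
def NormRatio (g : GL (Fin 2) F) : Prop :=
  ∃ (α : E) (y : F), C.ι y = α * C.s α * C.s (C.s α) ∧ v y = WithZero.exp (-2 : ℤ) ∧
    v ((nrm g).det * ((1 + y) * (1 + y) / y) - 1) ≤ WithZero.exp (-4 : ℤ)

omit [NumberField E] [NumberField F] in
variable {C} in
/-- The norm ratio condition is invariant under conjugation. -/
lemma normRatio_conj {g : GL (Fin 2) F} (x : GL (Fin 2) F) :
    NormRatio C (x⁻¹ * g * x) ↔ NormRatio C g := by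
  simp only [NormRatio, det_nrm_conj]

/-- Cube roots near one. -/
theorem exists_cube (h3 : v 3 = WithZero.exp (-2 : ℤ)) {u : F}
    (hu : v (u - 1) ≤ WithZero.exp (-4 : ℤ)) (n : ℕ) : ∃ ζ : F, v (ζ - 1) ≤ WithZero.exp (-2 : ℤ) ∧
      v (ζ * ζ * ζ - u) ≤ WithZero.exp (-(4 + n : ℤ)) := by
  induction n with
  | zero =>
    refine ⟨1, by simp, ?_⟩
    rw [one_mul, one_mul, Valuation.map_sub_swap]
    simpa using hu
  | succ n ih =>
    obtain ⟨ζ, hζ, hn⟩ := ih
    have hζ1 : v ζ =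
      1 := v_eq_one_of_sub_lt
      (lt_of_le_of_lt hζ (by rw [← WithZero.exp_zero, WithZero.exp_lt_exp]; omega))
    have hζ0 : ζ ≠ 0 := fun h => by simp [h] at hζ1
    have h30 : (3 : F) ≠ 0 := fun h => WithZero.exp_ne_zero (h3.symm.trans (by rw [h, map_zero]))
    set x := (u - ζ * ζ * ζ) / (3 * (ζ * ζ * ζ)) with hxdef
    have hx : v x ≤ WithZero.exp (-(2 + n : ℤ)) := by
      have h3i : v (3 * (ζ * ζ * ζ))⁻¹ ≤ WithZero.exp (2 : ℤ) := by
        simp [map_inv₀, h3, hζ1]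
      rw [hxdef, div_eq_mul_inv]
      exact mul_le_exp (by rwa [Valuation.map_sub_swap] at hn) h3i (by omega)
    refine ⟨ζ * (1 + x), ?_, ?_⟩
    · rw [show ζ * (1 + x) - 1 = (ζ - 1) + ζ * x by ring]
      refine (v.map_add _ _).trans (max_le hζ ?_)
      rw [map_mul, hζ1, one_mul]; exact le_exp_trans hx (by omega)
    · have key : ζ * (1 + x) * (ζ * (1 + x)) * (ζ * (1 + x)) - u =
          ζ * ζ * ζ * (x * x * (3 + x)) := by
        have e : 3 * (ζ * ζ * ζ) * x = u - ζ * ζ * ζ := by rw [hxdef]; field_simp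
        linear_combination e
      rw [key, map_mul, map_mul, map_mul, hζ1, one_mul, one_mul, one_mul]
      refine mul_le_exp (mul_le_exp hx hx le_rfl)
        ((v.map_add _ _).trans (max_le h3.le (le_exp_trans hx (by omega)))) ?_
      push_cast; omega

omit [NumberField F] in
/-- Two roots of one equation with valuation `exp (-2)` have ratio congruent to one modulo
`exp (-4)`. -/
lemma ratio_close {d y y' : F} (hy : v y = WithZero.exp (-2 : ℤ))
    (hy' : v y' = WithZero.exp (-2 : ℤ))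
    (h : v (d * ((1 + y) * (1 + y) / y) - 1) ≤ WithZero.exp (-4 : ℤ))
    (h' : v (d * ((1 + y') * (1 + y') / y') - 1) ≤ WithZero.exp (-4 : ℤ)) :
    v (y' / y - 1) ≤ WithZero.exp (-4 : ℤ) := by
  have hlt : ∀ {x : F}, v x = WithZero.exp (-2 : ℤ) → v x < 1 := fun hx => by
    rw [hx, ← WithZero.exp_zero, WithZero.exp_lt_exp]; omega
  have h4 : WithZero.exp (-4 : ℤ) < (1 : WithZero (Multiplicative ℤ)) := by
    rw [← WithZero.exp_zero, WithZero.exp_lt_exp]; omega
  have hy0 : y ≠ 0 := fun h0 => WithZero.exp_ne_zero (hy.symm.trans (by rw [h0, map_zero]))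
  have hy0' : y' ≠ 0 := fun h0 => WithZero.exp_ne_zero (hy'.symm.trans (by rw [h0, map_zero]))
  have h1y : v (1 + y) = 1 := by rw [add_comm]; exact v_add' (hlt hy)
  have hd : v d = WithZero.exp (-2 : ℤ) := by
    have h1 := v_eq_one_of_sub_lt (lt_of_le_of_lt h h4)
    rw [map_mul, map_div₀, map_mul, h1y, hy, one_mul, one_div,
      mul_inv_eq_one₀ WithZero.exp_ne_zero] at h1
    exact h1
  have hu : v (y * y' - 1) = 1 := by
    rw [Valuation.map_sub_swap, sub_eq_add_neg, add_comm]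
    refine v_add' ?_
    rw [Valuation.map_neg, map_mul]
    exact mul_lt_one_of_lt_of_le (hlt hy) (hlt hy').le
  have key : d * ((1 + y') * (1 + y') / y') - 1 - (d * ((1 + y) * (1 + y) / y) - 1)
      = d * (y' - y) * (y * y' - 1) / (y * y') := by
    field_simp; ring
  have hle := (v.map_sub _ _).trans (max_le h' h)
  rw [key, map_div₀, map_mul, map_mul, map_mul, hd, hu, hy, hy', mul_one] at hle
  rw [div_sub_one hy0, map_div₀, hy]
  have e : WithZero.exp (-2 : ℤ) * v (y' - y) / (WithZero.exp (-2 : ℤ) * WithZero.exp (-2 : ℤ))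
      = v (y' - y) / WithZero.exp (-2 : ℤ) := mul_div_mul_left _ _ WithZero.exp_ne_zero
  rwa [e] at hle
where
  v_add' {x : F} (hx : v x < 1) : v (x + 1) = 1 := by
    rw [add_comm, Valuation.map_add_eq_of_lt_left _ (by rwa [map_one]), map_one]

/-- Close to `diag (a, 1)`. -/
def AppD (w : Valuation E (WithZero (Multiplicative ℤ))) (r : ℤ)
    (A : Matrix (Fin 2) (Fin 2) E) (a : E) :
    Prop :=
  Near w (-r) (A - !![a, 0; 0, 1])

omit [NumberField E] in
/-- A matrix close to `diag(a,1)` is integral. -/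
lemma AppD.near {r : ℤ} (hr : 0 ≤ r) {A : Matrix (Fin 2) (Fin 2) E} {a : E} (h : AppD w r A a)
    (ha : w a ≤ 1) : Near w 0 A := by
  have hD : Near w 0 (!![a, 0; 0, 1] : Matrix (Fin 2) (Fin 2) E) := fun i j => by
    fin_cases i <;> fin_cases j <;> simp [ha]
  have := (h.mono (show -r ≤ 0 by omega)).add hD
  rwa [sub_add_cancel] at this

omit [NumberField E] in
/-- Closeness to `diag(a, 1)` is multiplicative. -/
lemma AppD.mul {r : ℤ} (hr : 0 ≤ r) {A B : Matrix (Fin 2) (Fin 2) E} {a b : E} (hA : AppD w r A a)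
    (hB : AppD w r B b) (ha : w a ≤ 1) (hb : w b ≤ 1) : AppD w r (A * B) (a * b) := by
  have hD : Near w 0 (!![a, 0; 0, 1] : Matrix (Fin 2) (Fin 2) E) := fun i j => by
    fin_cases i <;> fin_cases j <;> simp [ha]
  have e : A * B - !![a * b, 0; 0, 1] =
      (A - !![a, 0; 0, 1]) * B + !![a, 0; 0, 1] * (B - !![b, 0; 0, 1]) := by
    rw [sub_mul, mul_sub, show (!![a * b, 0; 0, 1] : Matrix (Fin 2) (Fin 2) E) = !![a, 0; 0, 1] *
        !![b, 0; 0, 1] by
      ext i j; fin_cases i <;> fin_cases j <;> simp [Matrix.mul_apply, Fin.sum_univ_two]]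
    abel
  rw [AppD, e]
  exact ((Near.mul (show Near w (-r) _ from hA) (hB.near hr hb)).mono (by omega)).add
    ((Near.mul hD (show Near w (-r) _ from hB)).mono (by omega))

variable (he : C.e = 3)
include he

omit [NumberField F] [NumberField E] in
/-- Bounds in `E` of a rational element divide by the ramification index three. -/
lemma v_le_of_w_le {x : F} {j : ℤ} (h : w (C.ι x) ≤ WithZero.exp (-(3 * j))) :
    v x ≤ WithZero.exp (-j) := by
  rw [C.hι, he] at h
  rcases eq_or_ne (v x) 0 with h0 | h0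
  · simp [h0]
  rw [← WithZero.exp_log h0, ← WithZero.exp_nsmul, WithZero.exp_le_exp, nsmul_eq_mul] at h
  rw [← WithZero.exp_log h0, WithZero.exp_le_exp]
  push_cast at h
  omega

omit he [NumberField F] in
/-- A hyperbolic element close to diagonal has the ratio of its diagonal entries. -/
lemma ratio_of_apx {g Y : GL (Fin 2) F} {r : ℤ} {X : Matrix (Fin 2) (Fin 2) F}
    (hX : X = nrm (Y⁻¹ * g * Y)) (ha : Apx v r X) (hr4 : 6 ≤ 2 * r)
    (htr : (g : Matrix (Fin 2) (Fin 2) F).trace ≠ 0) (h00 : v (X 0 0) = WithZero.exp (-2 : ℤ))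
    (s11 : v (X 1 1) = 1) :
    v ((nrm g).det * ((1 + X 0 0 / X 1 1) * (1 + X 0 0 / X 1 1) / (X 0 0 / X 1 1)) - 1)
      ≤ WithZero.exp (-4 : ℤ) := by
  have hX11 : X 1 1 ≠ 0 := fun h => by simp [h] at s11
  set y₀ := X 0 0 / X 1 1 with hy₀
  have ht : X.trace = 1 := by
    rw [hX]
    exact trace_nrm (by rw [Units.val_mul, Units.val_mul, Matrix.trace_units_conj']; exact htr)
  rw [Matrix.trace_fin_two] at ht
  have h000 : X 0 0 ≠ 0 := fun h => WithZero.exp_ne_zero (h00.symm.trans (by rw [h, map_zero]))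
  rw [← det_nrm_conj g Y, ← hX, Matrix.det_fin_two]
  rw [show (X 0 0 * X 1 1 - X 0 1 * X 1 0) * ((1 + y₀) * (1 + y₀) / y₀) - 1
    = -(X 0 1 * X 1 0) * (X 0 0 * X 1 1)⁻¹ by
      rw [hy₀, show 1 + X 0 0 / X 1 1 = (X 1 1)⁻¹ by
        field_simp; linear_combination ht]
      field_simp; ring, map_mul, Valuation.map_neg, map_inv₀, map_mul _ (X 0 0), h00, s11, mul_one,
    ← WithZero.exp_neg]
  refine (mul_le_mul' (mul_le_exp ha.1 ha.2 le_rfl) le_rfl).trans ?_
  rw [← WithZero.exp_add, WithZero.exp_le_exp]; omega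

omit [NumberField F] [NumberField E] in
/-- Small elements stay small. -/
lemma w_le_of_v_le {x : F} {j : ℤ} (hj : 0 ≤ j) (hx : v x ≤ WithZero.exp (-j)) :
    w (C.ι x) ≤ WithZero.exp (-j) := by
  rw [C.hι, he]
  refine (pow_le_pow_left₀ zero_le hx 3).trans ?_
  rw [← WithZero.exp_nsmul, WithZero.exp_le_exp, nsmul_eq_mul]; omega

omit he [NumberField E] in
/-- An element of the algebra of a nearly diagonal matrix with nearly diagonal `(p, 1)`. -/
lemma exists_appD_of_apx {r : ℤ} {Xe : Matrix (Fin 2) (Fin 2) E} {p : E}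
    (hu : w (Xe 1 1 - Xe 0 0) = 1)
    (hsmallX : w (Xe 0 1) ≤ WithZero.exp (-r) ∧ w (Xe 1 0) ≤ WithZero.exp (-r))
    (hwp : w p = WithZero.exp (-2 : ℤ)) (hr : 3 ≤ r) :
    ∃ α' β' : E, AppD w r (α' • 1 + β' • Xe) p ∧ (α' • 1 + β' • Xe).det ≠ 0 := by
  have hp1 : w p ≤ 1 := by rw [hwp, ← WithZero.exp_zero, WithZero.exp_le_exp]; omega
  have hne : Xe 1 1 - Xe 0 0 ≠ 0 := fun h0 => by simp [h0] at hu
  set β' := (1 - p) / (Xe 1 1 - Xe 0 0) with hβ'
  set α' := p - β' * Xe 0 0 with hα'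
  refine ⟨α', β', ?_⟩
  have hβ1 : w β' ≤ 1 := by
    rw [map_div₀, hu, div_one]; exact (w.map_sub _ _).trans (max_le (by simp) hp1)
  set Γm : Matrix (Fin 2) (Fin 2) E := α' • 1 + β' • Xe with hΓm
  have e00 : Γm 0 0 = p := by simp [hΓm, hα']
  have e11 : Γm 1 1 = 1 := by simp [hΓm, hα', hβ']; field_simp; ring
  have hΓD : AppD w r Γm p := by
    intro i j
    fin_cases i <;> fin_cases j
    · simp [e00]
    · simpa [hΓm, map_mul] using mul_le_exp
        (show w β' ≤ WithZero.exp (0 : ℤ) by simpa using hβ1) hsmallX.1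
        (by omega : (0 : ℤ) + -r ≤ -r)
    · simpa [hΓm, map_mul] using mul_le_exp
        (show w β' ≤ WithZero.exp (0 : ℤ) by simpa using hβ1) hsmallX.2
        (by omega : (0 : ℤ) + -r ≤ -r)
    · simp [e11]
  refine ⟨hΓD, fun h0 => ?_⟩
  have hn := hΓD.near (by omega) hp1
  have h := hΓD
  rw [Matrix.det_fin_two, e00, e11, mul_one, sub_eq_zero] at h0
  have h01 : w (Γm 0 1) ≤ WithZero.exp (-r) := by simpa using h 0 1
  have h10 : w (Γm 1 0) ≤ 1 := by simpa using hn 1 0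
  have : w p ≤ WithZero.exp (-r) := by
    rw [h0, map_mul]; exact (mul_le_of_le_one_right' h10).trans h01
  rw [hwp, WithZero.exp_le_exp] at this
  omega

omit he [NumberField F] in
/-- The norm of a nearly diagonal element is nearly diagonal. -/
lemma AppD.norm {r : ℤ} (hr : 0 ≤ r) {A : Matrix (Fin 2) (Fin 2) E} {p : E} (h : AppD w r A p)
    (hp1 : w p ≤ 1) :
    AppD w r (A * A.map C.s * (A.map C.s).map C.s) (p * C.s p * C.s (C.s p)) := by
  have hsp : w (C.s p) ≤ 1 := by rw [C.hs]; exact hp1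
  have hmap : ∀ {A : Matrix (Fin 2) (Fin 2) E} {a : E}, AppD w r A a →
      AppD w r (A.map C.s) (C.s a) := fun {A a} h => by
    intro i j
    rw [show (A.map C.s - !![C.s a, 0; 0, 1]) i j = C.s ((A - !![a, 0; 0, 1]) i j) by
      fin_cases i <;> fin_cases j <;> simp, C.hs]
    exact h i j
  exact (h.mul hr (hmap h) hp1 hsp).mul hr (hmap (hmap h))
    (by rw [map_mul]; exact mul_le_one' hp1 hsp) (by rw [C.hs, C.hs]; exact hp1)

omit he [NumberField F] in
/-- A small correction in a conjugate is small. -/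
lemma near_scal_conj {R1 R2 l r : ℤ} {g N Y : GL (Fin 2) F} {X Nk : Matrix (Fin 2) (Fin 2) F}
    (hX : X = nrm (Y⁻¹ * g * Y))
    (hNk : Nk = ((Y⁻¹ * N * Y : GL (Fin 2) F) : Matrix (Fin 2) (Fin 2) F))
    (hYN : Near v R1 (Y : Matrix (Fin 2) (Fin 2) F))
    (hYN' : Near v R2 ((Y⁻¹ : GL (Fin 2) F) : Matrix (Fin 2) (Fin 2) F)) (hX11 : X 1 1 ≠ 0)
    (htr : (g : Matrix (Fin 2) (Fin 2) F).trace ≠ 0)
    (hc : v ((g : Matrix (Fin 2) (Fin 2) F).trace * X 1 1) ≤ WithZero.exp l)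
    (hD : Near v (-r) (Nk - (X 1 1)⁻¹ • X)) :
    Near v (l + (R1 + -r + R2))
      (((g : Matrix (Fin 2) (Fin 2) F).trace * X 1 1) • (N : Matrix (Fin 2) (Fin 2) F)
        - (g : Matrix (Fin 2) (Fin 2) F)) := by
  set Dm : Matrix (Fin 2) (Fin 2) F := Nk - (X 1 1)⁻¹ • X
  have e : ((g : Matrix (Fin 2) (Fin 2) F).trace * X 1 1) •
      ((Y : Matrix (Fin 2) (Fin 2) F) * Dm * ((Y⁻¹ : GL (Fin 2) F) : Matrix (Fin 2) (Fin 2) F))
      = ((g : Matrix (Fin 2) (Fin 2) F).trace * X 1 1) • (N : Matrix (Fin 2) (Fin 2) F)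
        - (g : Matrix (Fin 2) (Fin 2) F) := by
    have e1 : (Y : Matrix (Fin 2) (Fin 2) F) * Nk *
        ((Y⁻¹ : GL (Fin 2) F) : Matrix (Fin 2) (Fin 2) F) = N := by
      rw [hNk, ← Units.val_mul, ← Units.val_mul]; congr 1; group
    have e2 : (Y : Matrix (Fin 2) (Fin 2) F) * X *
        ((Y⁻¹ : GL (Fin 2) F) : Matrix (Fin 2) (Fin 2) F) = nrm g := by
      rw [hX, nrm_conj]
      simp only [← Matrix.mul_assoc, ← Units.val_mul, mul_inv_cancel, Units.val_one, Matrix.one_mul]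
      rw [Matrix.mul_assoc, ← Units.val_mul, mul_inv_cancel, Units.val_one, Matrix.mul_one]
    simp only [Dm, Matrix.mul_sub, Matrix.sub_mul, Matrix.mul_smul, Matrix.smul_mul,
      smul_sub, e1, e2]
    rw [smul_smul, mul_inv_cancel_right₀ hX11, nrm, smul_smul, mul_inv_cancel₀ htr, one_smul]
  rw [← e]
  exact ((hYN.mul hD).mul hYN').smul hc

/-- Nearly diagonal norms with the right ratio are close to the scaled element. -/
lemma v_sub_le_of_appD {r' : ℤ} (hr : 0 ≤ r') {X Nk : Matrix (Fin 2) (Fin 2) F} {z : F}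
    (ha : Apx v (3 * r') X) (s11 : v (X 1 1) = 1)
    (hdiff : v (z - X 0 0 / X 1 1) ≤ WithZero.exp (-(3 * r')))
    (hP : AppD w (3 * r') (Nk.map C.ι) (C.ι z)) (i j : Fin 2) :
    v (Nk i j - ((X 1 1)⁻¹ • X) i j) ≤ WithZero.exp (-r') := by
  have hX11 : X 1 1 ≠ 0 := fun h => by simp [h] at s11
  refine v_le_of_w_le C he ?_
  have hPij := hP i j
  have hsmall : ∀ {x : F}, v x ≤ WithZero.exp (-(3 * r')) → w (C.ι x) ≤ WithZero.exp (-(3 * r')) :=
    fun hx => w_le_of_v_le C he (by omega) hx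
  have hDj : w (((!![C.ι z, 0; 0, 1] : Matrix (Fin 2) (Fin 2) E) i j)
      - C.ι (((X 1 1)⁻¹ • X) i j)) ≤ WithZero.exp (-(3 * r')) := by
    have hinv : v (X 1 1)⁻¹ ≤ WithZero.exp (0 : ℤ) := by simp [s11]
    fin_cases i <;> fin_cases j
    · have := hsmall hdiff
      simpa [div_eq_inv_mul] using this
    · simpa [map_mul] using hsmall
        (mul_le_exp hinv ha.1 (by omega : (0 : ℤ) + -(3 * r') ≤ -(3 * r')))
    · simpa [map_mul] using hsmall
        (mul_le_exp hinv ha.2 (by omega : (0 : ℤ) + -(3 * r') ≤ -(3 * r')))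
    · simp [hX11]
  rw [map_sub, show C.ι (Nk i j) - C.ι (((X 1 1)⁻¹ • X) i j)
    = (Nk.map C.ι - !![C.ι z, 0; 0, 1]) i j
      + ((!![C.ι z, 0; 0, 1] : Matrix (Fin 2) (Fin 2) E) i j - C.ι (((X 1 1)⁻¹ • X) i j)) by
    rw [Matrix.sub_apply, Matrix.map_apply]; ring]
  exact (w.map_add _ _).trans (max_le hPij hDj)

omit he [NumberField E] [NumberField F] in
/-- A conjugate combination of one and the normalised matrix. -/
lemma coe_conj_smul_one_add {g Y : GL (Fin 2) F} {X : Matrix (Fin 2) (Fin 2) F}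
    (hX : X = nrm (Y⁻¹ * g * Y)) {γ₀ : GL (Fin 2) E} {α' β' : E}
    (hγ₀ : (γ₀ : Matrix (Fin 2) (Fin 2) E) = α' • 1 + β' • X.map C.ι) :
    ((iG C Y * γ₀ * (iG C Y)⁻¹ : GL (Fin 2) E) : Matrix (Fin 2) (Fin 2) E)
      = α' • 1 + β' • (nrm g).map C.ι := by
  set M := iG C Y with hM
  set Xe : Matrix (Fin 2) (Fin 2) E := X.map C.ι with hXe
  have e : Xe = ((M⁻¹ : GL (Fin 2) E) : Matrix (Fin 2) (Fin 2) E) * (nrm g).map C.ι *
      (M : Matrix _ _ E) := by
    rw [hXe, hX, nrm_conj, Matrix.map_mul, Matrix.map_mul, hM, ← map_inv]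
    rfl
  rw [Units.val_mul, Units.val_mul, hγ₀]
  rw [e, Matrix.mul_add, Matrix.add_mul, Matrix.mul_smul, Matrix.smul_mul, Matrix.mul_one,
    ← Units.val_mul, mul_inv_cancel, Units.val_one, Matrix.mul_smul, Matrix.smul_mul]
  simp only [← Matrix.mul_assoc, ← Units.val_mul, mul_inv_cancel, Units.val_one, Matrix.one_mul]
  rw [Matrix.mul_assoc, ← Units.val_mul, mul_inv_cancel, Units.val_one, Matrix.mul_one]

/-- **The condition gives norms of every precision.** -/
theorem nearNorm_of_normRatio (h3 : v 3 = WithZero.exp (-2 : ℤ)) {D : F} {g a : GL (Fin 2) F}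
    (hg : TReg D g) (hy : Hyp v 2 (a⁻¹ * g * a)) (hR : NormRatio C g) : NearNorm C D g := by
  obtain ⟨α, y, hαy, hvy, hrat⟩ := hR
  intro n
  have htr : (g : Matrix (Fin 2) (Fin 2) F).trace ≠ 0 := by
    have := hy.trace_ne
    rwa [Units.val_mul, Units.val_mul, Matrix.trace_units_conj'] at this
  obtain ⟨l, hl⟩ : ∃ l, v (g : Matrix (Fin 2) (Fin 2) F).trace = WithZero.exp l :=
    ⟨_, (WithZero.exp_log (v.ne_zero_iff.2 htr)).symm⟩
  obtain ⟨R1, hR1, hA1⟩ := exists_near (w := v) (a : Matrix (Fin 2) (Fin 2) F)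
  obtain ⟨R2, hR2, hA2⟩ := exists_near (w := v) ((a⁻¹ : GL (Fin 2) F) : Matrix (Fin 2) (Fin 2) F)
  have := le_abs_self l
  have := abs_nonneg l
  set r' : ℤ := n + |l| + R1 + R2 + 4 with hr'
  obtain ⟨k, hk, ha⟩ := exists_at hy (3 * r')
  have hs := sh_at hy hk
  set Y := a * k with hY
  set X := nrm (Y⁻¹ * g * Y) with hX
  have h00 := hs.val00 ha (by omega)
  obtain ⟨s00, s01, s10, s11, -⟩ := hs
  have hX11 : X 1 1 ≠ 0 := fun h => by simp [h] at s11
  set y₀ := X 0 0 / X 1 1 with hy₀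
  have hy₀v : v y₀ = WithZero.exp (-2 : ℤ) := by rw [map_div₀, s11, div_one, h00]
  have hrat₀ : v ((nrm g).det * ((1 + y₀) * (1 + y₀) / y₀) - 1) ≤ WithZero.exp (-4 : ℤ) :=
    ratio_of_apx (r := 3 * r') hX ha (by omega) htr h00 s11
  obtain ⟨ζ, hζ1, hζ⟩ := exists_cube h3 (ratio_close hvy hy₀v hrat hrat₀) (3 * r').toNat
  have hζv : v ζ =
    1 := v_eq_one_of_sub_lt
    (lt_of_le_of_lt hζ1 (by rw [← WithZero.exp_zero, WithZero.exp_lt_exp]; omega))
  have hdiff : v (ζ * ζ * ζ * y - y₀) ≤ WithZero.exp (-(3 * r')) := by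
    have hy0 : y ≠ 0 := fun h0 => WithZero.exp_ne_zero (hvy.symm.trans (by rw [h0, map_zero]))
    rw [show ζ * ζ * ζ * y - y₀ = (ζ * ζ * ζ - y₀ / y) * y by field_simp]
    exact mul_le_exp hζ hvy.le (by omega)
  set p : E := α * C.ι ζ with hp
  have hwα : w α = WithZero.exp (-2 : ℤ) := by
    have h := congrArg w hαy
    rw [C.hι, hvy, he, map_mul, map_mul, C.hs, C.hs, C.hs, ← pow_three'] at h
    exact (pow_left_inj₀ zero_le zero_le (by norm_num : (3 : ℕ) ≠ 0)).1 h.symm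
  have hwp : w p = WithZero.exp (-2 : ℤ) := by
    rw [hp, map_mul, hwα, C.hι, hζv, one_pow, mul_one]
  have hp1 : w p ≤ 1 := by rw [hwp, ← WithZero.exp_zero, WithZero.exp_le_exp]; omega
  -- the torus element with diagonal `(p, 1)`
  set M := iG C Y with hM
  set Xe : Matrix (Fin 2) (Fin 2) E := X.map C.ι with hXe
  have hu : w (Xe 1 1 - Xe 0 0) = 1 := by
    rw [hXe, Matrix.map_apply, Matrix.map_apply, ← map_sub, C.w_eq_one_iff]
    exact v_sub_eq_one s00 s11
  obtain ⟨α', β', hΓD, hΓd⟩ := exists_appD_of_apx (r := 3 * r') hu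
    ⟨w_le_of_v_le C he (by omega) ha.1, w_le_of_v_le C he (by omega) ha.2⟩ hwp (by omega)
  set Γm : Matrix (Fin 2) (Fin 2) E := α' • 1 + β' • Xe with hΓm
  set γ₀ := Matrix.GeneralLinearGroup.mkOfDetNeZero Γm hΓd
  set γ := M * γ₀ * M⁻¹ with hγ
  have hγ_eq : (γ : Matrix (Fin 2) (Fin 2) E) = α' • 1 + β' • (nrm g).map C.ι :=
    coe_conj_smul_one_add C hX (γ₀ := γ₀) rfl
  have hγT : γ ∈ tTor (C.ι D) := by
    obtain ⟨A, B, -, hgm⟩ := hg
    change IsT (C.ι D) _
    rw [hγ_eq, nrm, Matrix.map_smul' _ _ _ (map_mul C.ι)]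
    exact (isT_one.smul _).add ((IsT.smul _ ⟨C.ι A, C.ι B, by
      rw [hgm]; ext i j; fin_cases i <;> fin_cases j <;> simp [tmat]⟩).smul _)
  obtain ⟨N, hN, hNe⟩ := exists_iG_tTor C (twN_mem_tTor C hγT) (sG_twN C hγT)
  -- the conjugated norm
  set Nk := ((Y⁻¹ * N * Y : GL (Fin 2) F) : Matrix (Fin 2) (Fin 2) F) with hNk
  have hP : AppD w (3 * r') (Nk.map C.ι) (p * C.s p * C.s (C.s p)) := by
    have e : Nk.map C.ι = Γm * Γm.map C.s * (Γm.map C.s).map C.s := by
      change ((iG C (Y⁻¹ * N * Y) : GL (Fin 2) E) : Matrix (Fin 2) (Fin 2) E) = _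
      rw [map_mul, map_mul, map_inv, hNe, ← hM]
      change ((M⁻¹ * twN C (M * γ₀ * M⁻¹) * M : GL (Fin 2) E) : Matrix (Fin 2) (Fin 2) E) = _
      rw [show M⁻¹ * twN C (M * γ₀ * M⁻¹) * M = γ₀ * sG C γ₀ * sG C (sG C γ₀) by
        simp only [twN, map_mul, map_inv, hM, sG_iG]; group]
      rfl
    rw [e]
    exact hΓD.norm (C := C) (by omega) hp1
  have hnorm : p * C.s p * C.s (C.s p) = C.ι (ζ * ζ * ζ * y) := by
    rw [map_mul, map_mul, map_mul, hαy]
    simp only [hp, map_mul, C.sι]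
    ring
  rw [hnorm] at hP
  have hdist := v_sub_le_of_appD C he (by omega) ha s11 hdiff hP
  -- back to `g`
  refine ⟨γ, hγT, N, hN, hNe.symm, Units.mk0 ((g : Matrix (Fin 2) (Fin 2) F).trace * X 1 1)
    (mul_ne_zero htr hX11), fun i j => ?_⟩
  have hYN : Near v R1 (Y : Matrix (Fin 2) (Fin 2) F) := by
    have := hA1.mul (congU0_near hk)
    rwa [add_zero, ← Units.val_mul] at this
  have hYN' : Near v R2 ((Y⁻¹ : GL (Fin 2) F) : Matrix (Fin 2) (Fin 2) F) := by
    have := (congU0_near ((congU0 v 1).inv_mem hk)).mul hA2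
    rwa [zero_add, ← Units.val_mul, ← mul_inv_rev] at this
  have hc : v ((g : Matrix (Fin 2) (Fin 2) F).trace * X 1 1) ≤ WithZero.exp l := by
    rw [map_mul, hl, s11, mul_one]
  simpa [Matrix.sub_apply] using
    ((near_scal_conj (r := r') hX hNk hYN hYN' hX11 htr hc hdist).mono
      (show l + (R1 + -r' + R2) ≤ -(n : ℤ) by omega)) i j

omit he [NumberField E] in
/-- Hyperbolic shapes multiply and their exponents add. -/
lemma Sh.mul {e e' : ℤ} {G G' : Matrix (Fin 2) (Fin 2) E} (h : Sh w e G) (h' : Sh w e' G') :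
    Sh w (e + e') (G * G') := by
  obtain ⟨g00, g01, g10, g11, gd⟩ := h
  obtain ⟨f00, f01, f10, f11, fd⟩ := h'
  refine ⟨?_, ?_, ?_, ?_, ?_⟩ <;> simp only [Matrix.mul_apply, Fin.sum_univ_two, Matrix.det_mul]
  · exact w.map_add_lt (v_mul_lt_left g00 f00.le) (v_mul_lt_right g01 f10)
  · exact (w.map_add _ _).trans (max_le (v_mul_le_one g00.le f01) (v_mul_le_one g01 f11.le))
  · exact w.map_add_lt (v_mul_lt_left g10 f00.le) (v_mul_lt_right g11.le f10)
  · exact v_add_eq_one (v_mul_lt_left g10 f01) (by rw [map_mul, g11, f11, one_mul])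
  · rw [map_mul, gd, fd, ← WithZero.exp_add]; congr 1; ring

omit he [NumberField F] [NumberField E] in
/-- The conjugate of a shape has the same shape. -/
lemma Sh.map_s {e : ℤ} {H : Matrix (Fin 2) (Fin 2) E} (h : Sh w e H) : Sh w e (H.map C.s) := by
  obtain ⟨a, b, c', d, hd⟩ := h
  exact ⟨(C.hs _).trans_lt a, (C.hs _).trans_le b, (C.hs _).trans_lt c', (C.hs _).trans d, by
    rw [show (H.map C.s).det = C.s H.det from (RingHom.map_det (C.s : E →+* E) _).symm, C.hs, hd]⟩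

omit he [NumberField F] [NumberField E] in
/-- Twisted hyperbolic elements have hyperbolic norms. -/
theorem hyp_twN {δ x : GL (Fin 2) E} (h : Hyp w 2 (x⁻¹ * δ * sG C x)) :
    Hyp w 6 (x⁻¹ * twN C δ * x) := by
  obtain ⟨c, hc⟩ := h
  rw [conj_twN]
  set η := x⁻¹ * δ * sG C x
  have hsh : ∀ {H : GL (Fin 2) E}, Sh w 2 (H : Matrix (Fin 2) (Fin 2) E) →
      Sh w 2 ((sG C H : GL (Fin 2) E) : Matrix (Fin 2) (Fin 2) E) := fun h => h.map_s C
  obtain ⟨c', hc'⟩ : ∃ c' : Eˣ, twN C (scal c * η) = scal c' * twN C η := ⟨_, twN_scal C c η⟩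
  refine ⟨c', ?_⟩
  have h3 := (hc.mul (hsh hc)).mul (hsh (hsh hc))
  rw [← Units.val_mul, ← Units.val_mul] at h3
  change Sh w (2 + 2 + 2) ((scal c' * twN C η : GL (Fin 2) E) : Matrix (Fin 2) (Fin 2) E)
  rw [← hc']
  exact h3

omit he [NumberField F] [NumberField E] in
/-- A twisted norm and its rational element have the same normalised conjugates. -/
lemma nrm_conj_twN {g : GL (Fin 2) F} {δ : GL (Fin 2) E} {c₀ : Eˣ}
    (hN : twN C δ = scal c₀ * iG C g) (y : GL (Fin 2) E) :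
    nrm (y⁻¹ * twN C δ * y) = nrm (y⁻¹ * iG C g * y) := by
  rw [nrm_conj, nrm_conj, hN]
  congr 2
  rw [nrm, nrm, coe_scal_mul, Matrix.trace_smul, smul_smul, smul_eq_mul, mul_inv,
    mul_comm (c₀ : E)⁻¹, inv_mul_cancel_right₀ c₀.ne_zero]

omit he [NumberField F] [NumberField E] in
/-- The twisted conjugate intertwines the normalised norm with its conjugate. -/
lemma twN_intertwine {D : F} {g : GL (Fin 2) F} {δ : GL (Fin 2) E} {c₀ : Eˣ} (hg : g ∈ tTor D)
    (hδ : δ ∈ tTor (C.ι D)) (hN : twN C δ = scal c₀ * iG C g) (y : GL (Fin 2) E) :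
    nrm (y⁻¹ * twN C δ * y) * ((y⁻¹ * δ * sG C y : GL (Fin 2) E) : Matrix (Fin 2) (Fin 2) E)
      = ((y⁻¹ * δ * sG C y : GL (Fin 2) E) : Matrix (Fin 2) (Fin 2) E)
        * (nrm (y⁻¹ * twN C δ * y)).map C.s := by
  have hd : ∀ z, nrm ((δ⁻¹ * z)⁻¹ * iG C g * (δ⁻¹ * z)) = nrm (z⁻¹ * iG C g * z) := fun z => by
    congr 1
    rw [show (δ⁻¹ * z)⁻¹ * iG C g * (δ⁻¹ * z) = z⁻¹ * (δ * iG C g * δ⁻¹) * z by group,
      tTor_comm hδ (iG_mem_tTor C hg), mul_inv_cancel_right]
  have h := nrm_intertwine (δ⁻¹ * y) (sG C y) (iG C g)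
  rw [hd, show (δ⁻¹ * y)⁻¹ * sG C y = y⁻¹ * δ * sG C y by group] at h
  have hs : (nrm (y⁻¹ * twN C δ * y)).map C.s = nrm ((sG C y)⁻¹ * iG C g * sG C y) := by
    rw [nrm_conj_twN C hN]
    refine (nrm_map (C.s : E →+* E) (y⁻¹ * iG C g * y)).symm.trans ?_
    rw [show Matrix.GeneralLinearGroup.map (C.s : E →+* E) (y⁻¹ * iG C g * y)
      = (sG C y)⁻¹ * iG C g * sG C y by
        change sG C (y⁻¹ * iG C g * y) = _
        rw [map_mul, map_mul, map_inv, sG_iG]]
  rw [hs, nrm_conj_twN C hN]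
  exact h

omit he [NumberField F] [NumberField E] in
/-- The normalised norm is the normalised threefold product. -/
lemma nrm_conj_twN_eq {δ y : GL (Fin 2) E} {c : Eˣ} {G : Matrix (Fin 2) (Fin 2) E}
    (hG : G = ((scal c * (y⁻¹ * δ * sG C y) : GL (Fin 2) E) : Matrix (Fin 2) (Fin 2) E)) :
    nrm (y⁻¹ * twN C δ * y)
      = (G * G.map C.s * (G.map C.s).map C.s).trace⁻¹ • (G * G.map C.s * (G.map C.s).map C.s) := by
  set η := y⁻¹ * δ * sG C y with hη
  have e : scal (c * sU C c * sU C (sU C c)) * (y⁻¹ * twN C δ * y) = scal c * η * sG C (scal c * η)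
      * sG C (sG C (scal c * η)) := by
    rw [conj_twN, ← hη]
    exact (twN_scal C c η).symm
  have eP : G * G.map C.s * (G.map C.s).map C.s
      = ((c * sU C c * sU C (sU C c) : Eˣ) : E) •
          ((y⁻¹ * twN C δ * y : GL (Fin 2) E) : Matrix _ _ E) := by
    rw [← coe_scal_mul, e, hG]
    rfl
  rw [eP, Matrix.trace_smul, smul_smul, smul_eq_mul, mul_inv, nrm,
    mul_comm ((c * sU C c * sU C (sU C c) : Eˣ) : E)⁻¹, inv_mul_cancel_right₀ (Units.ne_zero _)]

omit he [NumberField F] [NumberField E] in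
/-- The product of a nearly diagonal matrix with its conjugates is nearly the diagonal product. -/
lemma triple_apx {r : ℤ} {G : Matrix (Fin 2) (Fin 2) E} (hG : Near w 0 G) (aG : Apx w r G) :
    w ((G * G.map C.s * (G.map C.s).map C.s) 0 0 - G 0 0 * C.s (G 0 0) * C.s (C.s (G 0 0)))
        ≤ WithZero.exp (-r) ∧
      w ((G * G.map C.s * (G.map C.s).map C.s) 1 1 - G 1 1 * C.s (G 1 1) * C.s (C.s (G 1 1)))
        ≤ WithZero.exp (-r) ∧
      w ((G * G.map C.s * (G.map C.s).map C.s) 0 1) ≤ WithZero.exp (-r) ∧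
      w ((G * G.map C.s * (G.map C.s).map C.s) 1 0) ≤ WithZero.exp (0 : ℤ) := by
  have h1 : ∀ i j, w (C.s (G i j)) ≤ WithZero.exp (0 : ℤ) := fun i j => (C.hs _).trans_le (hG i j)
  have h2 : ∀ i j, w (C.s (C.s (G i j))) ≤ WithZero.exp (0 : ℤ) :=
    fun i j => (C.hs _).trans_le (h1 i j)
  have a1 : w (C.s (G 0 1)) ≤ WithZero.exp (-r) := (C.hs _).trans_le aG.1
  have a2 : w (C.s (C.s (G 0 1))) ≤ WithZero.exp (-r) := (C.hs _).trans_le a1
  have b2 : w (C.s (C.s (G 1 0))) ≤ WithZero.exp (-r) := by rw [C.hs, C.hs]; exact aG.2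
  have row : ∀ i j, w (G i 0 * C.s (G 0 j) + G i 1 * C.s (G 1 j)) ≤ WithZero.exp (0 : ℤ) :=
      fun i j =>
    (w.map_add _ _).trans
      (max_le (mul_le_exp (hG i 0) (h1 0 j) le_rfl) (mul_le_exp (hG i 1) (h1 1 j) le_rfl))
  simp only [Matrix.mul_apply, Fin.sum_univ_two, Matrix.map_apply]
  refine ⟨?_, ?_, ?_, ?_⟩
  · rw [show (G 0 0 * C.s (G 0 0) + G 0 1 * C.s (G 1 0)) * C.s (C.s (G 0 0))
        + (G 0 0 * C.s (G 0 1) + G 0 1 * C.s (G 1 1)) * C.s (C.s (G 1 0))
        - G 0 0 * C.s (G 0 0) * C.s (C.s (G 0 0))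
      = G 0 1 * (C.s (G 1 0) * C.s (C.s (G 0 0)))
        + (G 0 0 * C.s (G 0 1) + G 0 1 * C.s (G 1 1)) * C.s (C.s (G 1 0)) by ring]
    exact (w.map_add _ _).trans
      (max_le (mul_le_exp aG.1 (mul_le_exp (h1 1 0) (h2 0 0) le_rfl) (by omega))
      (mul_le_exp (row 0 1) b2 (by omega)))
  · rw [show (G 1 0 * C.s (G 0 0) + G 1 1 * C.s (G 1 0)) * C.s (C.s (G 0 1))
        + (G 1 0 * C.s (G 0 1) + G 1 1 * C.s (G 1 1)) * C.s (C.s (G 1 1))
        - G 1 1 * C.s (G 1 1) * C.s (C.s (G 1 1))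
      = (G 1 0 * C.s (G 0 0) + G 1 1 * C.s (G 1 0)) * C.s (C.s (G 0 1))
        + G 1 0 * (C.s (G 0 1) * C.s (C.s (G 1 1))) by ring]
    exact (w.map_add _ _).trans (max_le (mul_le_exp (row 1 0) a2 (by omega))
      (mul_le_exp aG.2 (mul_le_exp (h1 0 1) (h2 1 1) le_rfl) (by omega)))
  · exact (w.map_add _ _).trans (max_le (mul_le_exp (row 0 0) a2 (by omega))
      (mul_le_exp
        ((w.map_add _ _).trans (max_le (mul_le_exp (hG 0 0) a1 (show 0 + -r ≤ -r by omega))
        (mul_le_exp aG.1 (h1 1 1) (by omega)))) (h2 1 1) (by omega)))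
  · exact (w.map_add _ _).trans (max_le (mul_le_exp (row 1 0) (h2 0 0) (by omega))
      (mul_le_exp (row 1 1) (h2 1 0) (by omega)))

omit he [NumberField E] in
/-- A nearly diagonal matrix satisfies the condition of its diagonal ratio. -/
lemma det_ratio_le {P : Matrix (Fin 2) (Fin 2) E} {a d : E} (hwa : w a = WithZero.exp (-6 : ℤ))
    (hwd : w d = 1) (h00 : w (P 0 0 - a) ≤ WithZero.exp (-20 : ℤ))
    (h11 : w (P 1 1 - d) ≤ WithZero.exp (-20 : ℤ)) (h01 : w (P 0 1) ≤ WithZero.exp (-20 : ℤ))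
    (h10 : w (P 1 0) ≤ WithZero.exp (0 : ℤ)) :
    w ((P.trace⁻¹ • P).det * ((1 + a / d) * (1 + a / d) / (a / d)) - 1) ≤
      WithZero.exp (-12 : ℤ) := by
  have ha0 : a ≠ 0 := fun h => WithZero.exp_ne_zero (hwa.symm.trans (by rw [h, map_zero]))
  have hd0 : d ≠ 0 := fun h => by simp [h] at hwd
  set T := a + d
  -- the trace is a unit close to `a + d`
  have hwT : w T = 1 :=
    v_add_eq_one (by rw [hwa, ← WithZero.exp_zero, WithZero.exp_lt_exp]; omega) hwd
  have hTP : w (P.trace - T) ≤ WithZero.exp (-20 : ℤ) := by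
    rw [Matrix.trace_fin_two, show P 0 0 + P 1 1 - (a + d) = (P 0 0 - a) + (P 1 1 - d) by ring]
    exact (w.map_add _ _).trans (max_le h00 h11)
  have hwP : w P.trace = 1 := by
    rw [← hwT]; exact w.map_eq_of_sub_lt
      (lt_of_le_of_lt hTP (by rw [hwT, ← WithZero.exp_zero, WithZero.exp_lt_exp]; omega))
  have hP0 : P.trace ≠ 0 := fun h => by simp [h] at hwP
  -- the determinant is close to `a d`
  have hprod : w (P.det - a * d) ≤ WithZero.exp (-20 : ℤ) := by
    rw [Matrix.det_fin_two, show P 0 0 * P 1 1 - P 0 1 * P 1 0 - a * d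
      = (P 0 0 - a) * P 1 1 + a * (P 1 1 - d) - P 0 1 * P 1 0 by ring]
    have hle : w (P 1 1) ≤ WithZero.exp (0 : ℤ) := by
      rw [show P 1 1 = d + (P 1 1 - d) by ring]
      exact (w.map_add _ _).trans (max_le (by simp [hwd]) (le_exp_trans h11 (by omega)))
    refine (w.map_sub _ _).trans
      (max_le ((w.map_add _ _).trans (max_le (mul_le_exp h00 hle (by omega))
      (mul_le_exp hwa.le h11 (by omega)))) (mul_le_exp h01 h10 (by omega)))
  -- the error combines the two, over a denominator of value `exp (-6)`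
  rw [Matrix.det_smul, Fintype.card_fin,
    show (P.trace⁻¹ ^ 2 * P.det) * ((1 + a / d) * (1 + a / d) / (a / d)) - 1
      = ((P.det - a * d) * (T * T) - a * d * ((P.trace - T) * (P.trace + T)))
        * (a * d * (P.trace * P.trace))⁻¹ by
      simp only [T]; field_simp; ring]
  have hden : w (a * d * (P.trace * P.trace))⁻¹ ≤ WithZero.exp (6 : ℤ) := by
    simp [map_inv₀, hwa, hwd, hwP]
  refine mul_le_exp (a := -20)
    ((w.map_sub _ _).trans (max_le (mul_le_exp hprod (b := 0) ?_ (by omega))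
    (mul_le_exp (a := -6) (b := -20) ?_ (mul_le_exp hTP (b := 0) ?_ le_rfl) (by omega))))
      hden (by omega)
  · simp [hwT]
  · rw [map_mul, hwa, hwd, mul_one]
  · exact (w.map_add _ _).trans (max_le (by simp [hwP]) (by simp [hwT]))

/-- **Twisted hyperbolic elements give the condition.** -/
theorem normRatio_of_twisted {D : F} {g : GL (Fin 2) F} {δ x : GL (Fin 2) E} {c₀ : Eˣ}
    (hg : g ∈ tTor D) (hδ : δ ∈ tTor (C.ι D)) (hN : twN C δ = scal c₀ * iG C g)
    (hy : Hyp w 2 (x⁻¹ * δ * sG C x)) : NormRatio C g := by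
  obtain ⟨k, hk, ha⟩ := exists_refine (hyp_twN C hy) 20
  set y := x * k with hyk
  have hk' : k ∈ U0N w 1 := le_withScalars _ hk
  have hsk : sG C k ∈ U0N w 1 := le_withScalars _ (map_congU0 (v := w) (C.s : E →+* E) one_ne_zero
    (fun z => by simpa using C.hs z) hk)
  have hy' : Hyp w 2 (y⁻¹ * δ * sG C y) := by
    have := hy.mul ((U0N w 1).inv_mem hk') hsk
    rwa [show k⁻¹ * (x⁻¹ * δ * sG C x) * sG C k = y⁻¹ * δ *
      sG C y by rw [hyk, map_mul]; group] at this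
  have hsh6 := (hyp_twN C hy').sh
  rw [show k⁻¹ * (x⁻¹ * twN C δ * x) * k = y⁻¹ * twN C δ * y by rw [hyk]; group] at ha
  set X := nrm (y⁻¹ * twN C δ * y) with hX
  obtain ⟨c, hc⟩ := hy'
  set G := ((scal c * (y⁻¹ * δ * sG C y) : GL (Fin 2) E) : Matrix (Fin 2) (Fin 2) E) with hG
  have hGn : Near w 0 G := fun i j => by
    obtain ⟨a, b, c', d, -⟩ := hc
    refine le_of_le_of_eq (b := (1 : WithZero (Multiplicative ℤ))) ?_ WithZero.exp_zero.symm
    fin_cases i <;> fin_cases j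
    exacts [a.le, b, c'.le, d.le]
  -- `G` is nearly diagonal
  have aG : Apx w 20 G := by
    have := apx_of_comm hsh6 (hsh6.map_s C) ha ⟨(C.hs _).trans_le ha.1,
        (C.hs _).trans_le ha.2⟩ hGn (by
      rw [hG, coe_scal_mul, Matrix.mul_smul, Matrix.smul_mul, twN_intertwine C hg hδ hN])
    simpa using this
  have hG00 := hc.val00 aG (by omega)
  obtain ⟨-, -, -, g11, -⟩ := hc
  obtain ⟨hP00, hP11, hP01, hP10⟩ := triple_apx C hGn aG
  set α := G 0 0 / G 1 1 with hα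
  obtain ⟨y₀, hy₀⟩ := C.fix (α * C.s α * C.s (C.s α)) (by simp only [map_mul, C.hs3]; ring)
  have hwα : w α = WithZero.exp (-2 : ℤ) := by rw [map_div₀, g11, div_one, hG00]
  -- the norm of `α = G₀₀ / G₁₁` gives the ratio
  refine ⟨α, y₀, hy₀, ?_, ?_⟩
  · have h := congrArg w hy₀
    rw [C.hι, he, map_mul, map_mul, C.hs, C.hs, C.hs, hwα, ← pow_three'] at h
    exact (pow_left_inj₀ zero_le zero_le (by norm_num : (3 : ℕ) ≠ 0)).1 h
  refine v_le_of_w_le C he (j := 4) ?_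
  rw [map_sub, map_one, map_mul, map_div₀, map_mul, map_add, map_one, hy₀,
    show C.ι (nrm g).det = X.det by
      rw [hX, nrm_conj_twN C hN, det_nrm_conj, nrm_map, RingHom.map_det]; rfl,
    show α * C.s α * C.s (C.s α)
        = (G 0 0 * C.s (G 0 0) * C.s (C.s (G 0 0))) / (G 1 1 * C.s (G 1 1) * C.s (C.s (G 1 1))) by
      simp only [hα, map_div₀]
      rw [div_mul_div_comm, div_mul_div_comm],
    hX, nrm_conj_twN_eq C hG]
  refine det_ratio_le ?_ ?_ hP00 hP11 hP01 hP10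
  · rw [map_mul, map_mul, C.hs, C.hs, C.hs, hG00, ← WithZero.exp_add, ← WithZero.exp_add]; rfl
  · rw [map_mul, map_mul, C.hs, C.hs, C.hs, g11, one_mul, one_mul]

omit [NumberField E] in
/-- **A rational hyperbolic conjugate.** If a rational regular torus element is conjugate over the
extension to a hyperbolic one of exponent `6`, it is over `F` to one of exponent `2`. -/
theorem exists_base (h2 : v 2 = 1) {D : F} {g : GL (Fin 2) F} (hg : TReg D g) {x : GL (Fin 2) E}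
    (hy : Hyp w 6 (x⁻¹ * iG C g * x)) : ∃ a : GL (Fin 2) F, Hyp v 2 (a⁻¹ * g * a) := by
  obtain ⟨A, B, hB, hgm⟩ := hg
  have htrE := hy.trace_ne
  rw [Units.val_mul, Units.val_mul, Matrix.trace_units_conj'] at htrE
  have hA : A ≠ 0 := fun h => htrE (by
    change ((g : Matrix (Fin 2) (Fin 2) F).map C.ι).trace = 0
    rw [hgm, h]
    simp [tmat, Matrix.trace_fin_two])
  have h20 : (2 : F) ≠ 0 := two_ne_zero
  set d := (nrm g).det with hd
  have hdv : v d = WithZero.exp (-2 : ℤ) := by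
    have h := hy.sh.det_eq
    rw [det_nrm_conj, nrm_map, show ((nrm g).map C.ι).det = C.ι d from
      (RingHom.map_det _ _).symm, C.hι, he,
      show (-6 : ℤ) = 3 • (-2 : ℤ) by rfl, WithZero.exp_nsmul] at h
    exact (pow_left_inj₀ zero_le zero_le (by norm_num : (3 : ℕ) ≠ 0)).1 h
  have hdform : d = (A * A - D * B * B) / (4 * (A * A)) := by
    rw [hd, nrm, Matrix.det_smul, Fintype.card_fin, hgm]
    simp [tmat, Matrix.det_fin_two_of, Matrix.trace_fin_two]
    field_simp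
    ring
  -- a nearby square root `s` of `q`
  set q := D * B * B / (A * A) with hq
  have hq1 : v (q - 1) = WithZero.exp (-2 : ℤ) := by
    rw [show q - 1 = -(4 * d) by rw [hdform, hq]; field_simp; ring, Valuation.map_neg, map_mul,
      show (4 : F) = 2 * 2 by norm_num, map_mul, h2, hdv, one_mul, one_mul]
  set s := 1 + (q - 1) / 2 with hs
  have hs1 : v (s - 1) = WithZero.exp (-2 : ℤ) := by
    rw [show s - 1 = (q - 1) / 2 by rw [hs]; ring, map_div₀, h2, div_one, hq1]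
  have hsv : v s = 1 :=
    v_eq_one_of_sub_lt (by rw [hs1, ← WithZero.exp_zero, WithZero.exp_lt_exp]; omega)
  have hs0 : s ≠ 0 := fun h => by simp [h] at hsv
  set r := -(A * s / B) with hr
  have hr0 : r ≠ 0 := neg_ne_zero.2 (div_ne_zero (mul_ne_zero hA hs0) hB)
  -- conjugate by the approximate eigenvectors
  set a := Matrix.GeneralLinearGroup.mkOfDetNeZero (!![r, -r; 1, 1] : Matrix (Fin 2) (Fin 2) F)
    (by rw [Matrix.det_fin_two_of]; ring_nf; exact mul_ne_zero hr0 h20)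
  refine ⟨a, Units.mk0 A⁻¹ (inv_ne_zero hA), ?_⟩
  set M : Matrix (Fin 2) (Fin 2) F :=
    !![1 - (q + s * s) / (2 * s), (s * s - q) / (2 * s); (q - s * s) / (2 * s),
      1 + (q + s * s) / (2 * s)]
  have e : ((scal (Units.mk0 A⁻¹ (inv_ne_zero hA)) * (a⁻¹ * g * a) : GL (Fin 2) F) : Matrix
      (Fin 2) (Fin 2) F)
      = M := by
    have e1 : (a : Matrix (Fin 2) (Fin 2) F) * M = A⁻¹ • ((g : Matrix (Fin 2) (Fin 2) F) * a) := by
      change (!![r, -r; 1, 1] : Matrix (Fin 2) (Fin 2) F) * M =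
        A⁻¹ • ((g : Matrix (Fin 2) (Fin 2) F) * !![r, -r; 1, 1])
      rw [hgm]
      ext i j
      fin_cases i <;> fin_cases j <;>
        simp [M, hr, hq, tmat, Matrix.mul_apply, Fin.sum_univ_two] <;>
        field_simp <;> ring
    rw [coe_scal_mul, Units.val_mk0, Units.val_mul, Units.val_mul, Matrix.mul_assoc,
      ← Matrix.mul_smul, ← e1,
      ← Matrix.mul_assoc, ← Units.val_mul, inv_mul_cancel, Units.val_one, Matrix.one_mul]
  rw [e]
  have hw2s : v (2 * s)⁻¹ ≤ WithZero.exp (0 : ℤ) := by simp [h2, hsv]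
  have hoff : v ((s * s - q) / (2 * s)) ≤ WithZero.exp (-4 : ℤ) := by
    rw [div_eq_mul_inv]
    refine mul_le_exp (a := -4) ?_ hw2s (by omega)
    rw [show s * s - q = (q - 1) / 2 * ((q - 1) / 2) by rw [hs]; field_simp; ring]
    refine mul_le_exp (a := -2) (b := -2) ?_ ?_ (by omega) <;> rw [map_div₀, h2, div_one, hq1]
  have h00 : v (M 0 0) < 1 := by
    rw [show M 0 0 = -((s - 1) * (s - 1) + (q - 1)) * (2 * s)⁻¹ by
      simp [M]; field_simp; ring, lt_one_iff_le]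
    refine mul_le_exp (a := -2) ?_ hw2s (by omega)
    rw [Valuation.map_neg]
    exact (v.map_add _ _).trans (max_le (mul_le_exp hs1.le hs1.le (by omega)) hq1.le)
  have hexp : WithZero.exp (-4 : ℤ) < (1 : WithZero (Multiplicative ℤ)) := by
    rw [← WithZero.exp_zero, WithZero.exp_lt_exp]; omega
  refine ⟨h00, ?_, ?_, ?_, ?_⟩
  · exact le_of_eq_of_le (by simp [M]) (hoff.trans hexp.le)
  · refine lt_of_eq_of_lt ?_ (lt_of_le_of_lt hoff hexp)
    rw [show M 1 0 = -((s * s - q) / (2 * s)) by simp [M]; ring, Valuation.map_neg]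
  · rw [show M 1 1 = -(M 0 0) + 2 by simp [M]; ring]
    exact v_add_eq_one (by rwa [Valuation.map_neg]) h2
  · rw [show M.det = -(q - 1) by simp [M, Matrix.det_fin_two_of]; field_simp; ring,
                                   Valuation.map_neg, hq1]

end Fermat.LTG.Loc
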