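import Fermat.Agent.LTG.LocAway
import Fermat.Agent.LTG.LocWildArith

/-!
# Matching kernels at a wildly ramified place over three

The twisted sums of the indicator of `Γ₀(p) diag(u,1) Γ₀(p)`, `ord u = 2`, are
the sums of a multiple of the indicator of the rational hyperbolic elements
with the ratio of a norm.

`exists_wild`, by the three pieces of `exists_pieces`; packaged in `LocPack`.
-/

set_option autoImplicit false
open Filter Set
open scoped Classical Matrix

namespace Fermat.LTG.Loc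

open Fermat.LT

section Kernel

variable {F : Type*} [Field F] [NumberField F] {E : Type*} [Field E] [NumberField E]
  {v : Valuation F (WithZero (Multiplicative ℤ))} {w : Valuation E (WithZero (Multiplicative ℤ))}
  (C : CycExt v w)

/-- Hyperbolic of exponent `2` and satisfying the norm ratio condition. -/
def WPred (g : GL (Fin 2) F) : Prop := Hyp v 2 g ∧ NormRatio C g

omit [NumberField F] in
/-- The normalisation ignores scalars. -/
lemma nrm_scal (c : Fˣ) (g : GL (Fin 2) F) : nrm (scal c * g) = nrm g := by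
  rw [nrm, nrm, coe_scal_mul, Matrix.trace_smul, smul_smul, smul_eq_mul, mul_inv,
    mul_comm (c : F)⁻¹, inv_mul_cancel_right₀ c.ne_zero]

omit [NumberField F] in
/-- Congruence elements are integral and close to one. -/
lemma near_of_congN {n : ℕ} {u : GL (Fin 2) F} (hu : u ∈ congN v n) :
    Near v 0 (u : Matrix (Fin 2) (Fin 2) F) ∧ Near v (-(n : ℤ))
      ((u : Matrix (Fin 2) (Fin 2) F) - 1) :=
  ⟨fun i j => by simpa using v_entry_le_one v hu.1 i j, fun i j => hu.2 i j⟩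

variable {C}

omit [NumberField E] [NumberField F] in
/-- The rational support is bi-invariant at depth at least four. -/
lemma WPred.mul {n : ℕ} (hn : 4 ≤ n) {g u u' : GL (Fin 2) F} (h : WPred C g) (hu : u ∈ UN v n)
    (hu' : u' ∈ UN v n) : WPred C (u * g * u') := by
  have hsub : UN v n ≤ U0N v 1 := UN_le_U0N (by omega)
  refine ⟨h.1.mul (hsub hu) (hsub hu'), ?_⟩
  obtain ⟨⟨c, hc⟩, α, y, hαy, hvy, hrat⟩ := h
  obtain ⟨a, ha⟩ := hu
  obtain ⟨b, hb⟩ := hu'
  refine ⟨α, y, hαy, hvy, ?_⟩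
  set U := scal a * u
  set U' := scal b * u'
  set G := scal c * g with hGdef
  have hval : U * G * U' = scal (a * c * b) * (u * g * u') := by
    rw [scal_mul, scal_mul]
    calc scal a * u * (scal c * g) * (scal b * u') = scal a * (u * scal c) * g * scal b * u' := by
           group
      _ = scal a * (scal c * u) * g * scal b * u' := by rw [scal_comm c u]
      _ = scal a * scal c * (u * g * scal b) * u' := by group
      _ = scal a * scal c * (scal b * (u * g)) * u' := by rw [scal_comm b (u * g)]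
      _ = _ := by group
  rw [← nrm_scal (a * c * b), ← hval]
  rw [← nrm_scal c, ← hGdef] at hrat
  obtain ⟨g00, g01, g10, g11, gd⟩ := hc
  have hGn : Near v 0 (G : Matrix (Fin 2) (Fin 2) F) := fun i j => by
    refine le_of_le_of_eq (b := (1 : WithZero (Multiplicative ℤ))) ?_ WithZero.exp_zero.symm
    fin_cases i <;> fin_cases j
    exacts [g00.le, g01, g10.le, g11.le]
  obtain ⟨U0', U1⟩ := near_of_congN ha
  obtain ⟨U0'', U1'⟩ := near_of_congN hb
  set M := ((U * G * U' : GL (Fin 2) F) : Matrix (Fin 2) (Fin 2) F)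
  set N := (G : Matrix (Fin 2) (Fin 2) F)
  -- `U G U'` is close to `G`
  have hdiff : Near v (-(n : ℤ)) (M - N) := by
    have e : M - N = ((U : Matrix (Fin 2) (Fin 2) F) - 1) * (N * (U' : Matrix (Fin 2) (Fin 2) F))
        + N * ((U' : Matrix (Fin 2) (Fin 2) F) - 1) := by
      change ((U * G * U' : GL (Fin 2) F) : Matrix (Fin 2) (Fin 2) F) - N = _
      rw [Units.val_mul, Units.val_mul]
      noncomm_ring
    rw [e]
    exact ((U1.mul (hGn.mul U0'')).mono (by omega)).add ((hGn.mul U1').mono (by omega))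
  have ht : v (N.trace) = 1 := by rw [Matrix.trace_fin_two]; exact v_add_eq_one g00 g11
  have ht4 : v (M.trace - N.trace) ≤ WithZero.exp (-4 : ℤ) := by
    rw [Matrix.trace_fin_two, Matrix.trace_fin_two, show M 0 0 + M 1 1 - (N 0 0 + N 1 1)
      = (M - N) 0 0 + (M - N) 1 1 by simp; ring]
    exact le_exp_trans ((v.map_add _ _).trans (max_le (hdiff 0 0) (hdiff 1 1))) (by omega)
  have ht' : v M.trace = 1 := by
    rw [← ht]
    exact v.map_eq_of_sub_lt
      (lt_of_le_of_lt ht4 (by rw [ht, ← WithZero.exp_zero, WithZero.exp_lt_exp]; omega))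
  have hUd : ∀ {W : GL (Fin 2) F}, W ∈ congN v n →
      v ((W : Matrix (Fin 2) (Fin 2) F).det - 1) ≤ WithZero.exp (-4 : ℤ) := fun {W} hW => by
    obtain ⟨w0, w1⟩ := near_of_congN hW
    rw [Matrix.det_fin_two, show (W : Matrix (Fin 2) (Fin 2) F) 0 0 *
        (W : Matrix (Fin 2) (Fin 2) F) 1 1
        - (W : Matrix (Fin 2) (Fin 2) F) 0 1 * (W : Matrix (Fin 2) (Fin 2) F) 1 0 - 1
      = ((W : Matrix (Fin 2) (Fin 2) F) - 1) 0 0 * (W : Matrix (Fin 2) (Fin 2) F) 1 1
        + ((W : Matrix (Fin 2) (Fin 2) F) - 1) 1 1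
        - ((W : Matrix (Fin 2) (Fin 2) F) - 1) 0 1 * (W : Matrix (Fin 2) (Fin 2) F) 1 0 by
          simp; ring]
    exact (v.map_sub _ _).trans
      (max_le ((v.map_add _ _).trans (max_le (mul_le_exp (w1 0 0) (w0 1 1) (by omega))
      (le_exp_trans (w1 1 1) (by omega)))) (mul_le_exp (w1 0 1) (w0 1 0) (by omega)))
  have hMd : M.det =
      (U : Matrix (Fin 2) (Fin 2) F).det * N.det * (U' : Matrix (Fin 2) (Fin 2) F).det := by
    change ((U * G * U' : GL (Fin 2) F) : Matrix (Fin 2) (Fin 2) F).det = _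
    rw [Units.val_mul, Units.val_mul, Matrix.det_mul, Matrix.det_mul]
  set f := (1 + y) * (1 + y) / y
  have hM0 : M.trace ≠ 0 := fun h => by simp [h] at ht'
  have hN0 : N.trace ≠ 0 := fun h => by simp [h] at ht
  set d := (nrm G).det
  -- the ratio changes by factors close to one
  have hd : (nrm (U * G * U')).det * f = d * f * ((U : Matrix (Fin 2) (Fin 2) F).det
      * (U' : Matrix (Fin 2) (Fin 2) F).det * (N.trace / M.trace * (N.trace / M.trace))) := by
    change (M.trace⁻¹ • M).det * f = (N.trace⁻¹ • N).det * f * _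
    rw [Matrix.det_smul, Matrix.det_smul, Fintype.card_fin, hMd]
    field_simp
  have hu4 : ∀ {x z : F}, v (x - 1) ≤ WithZero.exp (-4 : ℤ) → v (z - 1) ≤ WithZero.exp (-4 : ℤ) →
      v (x * z - 1) ≤ WithZero.exp (-4 : ℤ) := fun {x z} hx hz => by
    rw [show x * z - 1 = (x - 1) * (z - 1) + (x - 1) + (z - 1) by ring]
    exact (v.map_add _ _).trans
      (max_le ((v.map_add _ _).trans (max_le (mul_le_exp hx hz (by omega)) hx)) hz)
  have hq : v (N.trace / M.trace - 1) ≤ WithZero.exp (-4 : ℤ) := by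
    rw [div_sub_one hM0, map_div₀, ht', div_one, Valuation.map_sub_swap]
    exact ht4
  rw [hd]
  exact hu4 hrat (hu4 (hu4 (hUd ha) (hUd hb)) (hu4 hq hq))

omit [NumberField E] in
/-- The inclusion reflects `Γ₀(p)` with scalars. -/
lemma iG_reflect {x : GL (Fin 2) F} (h : iG C x ∈ U0N w 1) : x ∈ U0N v 1 := by
  obtain ⟨c, hc⟩ := h
  obtain ⟨hi, h10, hd, -, h11⟩ := congU0_spec hc
  rw [coe_scal_mul] at hi h10 hd h11
  set X := (x : Matrix (Fin 2) (Fin 2) F) with hX
  have hent : ∀ i j, ((iG C x : GL (Fin 2) E) : Matrix (Fin 2) (Fin 2) E) i j = C.ι (X i j) :=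
    fun _ _ => rfl
  simp only [Matrix.smul_apply, hent, smul_eq_mul] at hi h10 h11
  have hX11 : X 1 1 ≠ 0 := fun h => by simp [h] at h11
  have hc11 : w ((c : E) * C.ι (X 1 1)) = 1 := h11
  have hq : ∀ i j, w (C.ι (X i j / X 1 1)) = w ((c : E) * C.ι (X i j)) := fun i j => by
    rw [map_div₀, map_div₀, map_mul w (c : E)]
    rw [map_mul] at hc11
    rw [eq_inv_of_mul_eq_one_left hc11, div_eq_inv_mul]
  refine ⟨(Units.mk0 (X 1 1) hX11)⁻¹, mem_congU0_of (fun i j => ?_) ?_ ?_⟩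
  · rw [coe_scal_mul, Matrix.smul_apply, smul_eq_mul, Units.val_inv_eq_inv_val, Units.val_mk0, ← hX,
      ← div_eq_inv_mul, ← C.w_le_one_iff, hq]
    exact hi i j
  · rw [coe_scal_mul, Matrix.smul_apply, smul_eq_mul, Units.val_inv_eq_inv_val, Units.val_mk0, ← hX,
      ← div_eq_inv_mul, ← C.w_lt_one_iff, hq]
    exact h10
  · rw [coe_scal_mul, Matrix.det_smul, Fintype.card_fin, Units.val_inv_eq_inv_val,
      Units.val_mk0, ← hX, ← C.w_eq_one_iff, map_mul, map_pow, map_inv₀, map_mul, map_pow, map_inv₀]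
    rw [Matrix.det_smul, Fintype.card_fin, map_mul, map_pow, show
      ((iG C x : GL (Fin 2) E) : Matrix (Fin 2) (Fin 2) E).det = C.ι X.det from
        (RingHom.map_det _ _).symm] at hd
    rw [map_mul] at hc11
    rwa [← eq_inv_of_mul_eq_one_left hc11]

/-- The inclusion respects the groups `Fˣ Γ₀(p)`. -/
lemma iG_mem_U0N {x : GL (Fin 2) F} (hx : x ∈ U0N v 1) : iG C x ∈ U0N w 1 := by
  obtain ⟨c, hc⟩ := hx
  refine ⟨Units.map (C.ι : F →* E) c, ?_⟩
  rw [← map_scal, ← map_mul]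
  exact map_congU0 C.ι C.he C.hι hc

omit [NumberField F] in
/-- The automorphism respects the group `Eˣ Γ₀(p)`. -/
lemma sG_mem_U0N {k : GL (Fin 2) E} (hk : k ∈ U0N w 1) : sG C k ∈ U0N w 1 := by
  obtain ⟨c, hc⟩ := hk
  refine ⟨sU C c, ?_⟩
  rw [← map_scal, ← map_mul]
  exact map_congU0 (v := w) (C.s : E →+* E) one_ne_zero (fun z => by simpa using C.hs z) hc

omit [NumberField E] [NumberField F] in
/-- The rational support read at representatives of cosets. -/
lemma wPred_out_iff {n : ℕ} (hn : 4 ≤ n) (x y : GL (Fin 2) F) :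
    WPred C ((x : GL (Fin 2) F ⧸ UN v n).out⁻¹ * (y : GL (Fin 2) F ⧸ UN v n).out)
      ↔ WPred C (x⁻¹ * y) := by
  obtain ⟨⟨k, hk⟩, e⟩ := QuotientGroup.mk_out_eq_mul (UN v n) x
  obtain ⟨⟨k', hk'⟩, e'⟩ := QuotientGroup.mk_out_eq_mul (UN v n) y
  rw [e, e', show (x * k)⁻¹ * (y * k') = k⁻¹ * (x⁻¹ * y) * k' by group]
  refine ⟨fun h => ?_, fun h => h.mul hn ((UN v n).inv_mem hk) hk'⟩
  have := h.mul hn hk ((UN v n).inv_mem hk')
  rwa [show k * (k⁻¹ * (x⁻¹ * y) * k') * k'⁻¹ = x⁻¹ * y by group] at this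

omit [NumberField E] [NumberField F] in
/-- The conjugates in the rational support read at representatives of cosets. -/
lemma wPred_conj_out_iff {n : ℕ} (hn : 4 ≤ n) (g x : GL (Fin 2) F) :
    WPred C ((x : GL (Fin 2) F ⧸ UN v n).out⁻¹ * g * (x : GL (Fin 2) F ⧸ UN v n).out)
      ↔ WPred C (x⁻¹ * g * x) := by
  obtain ⟨⟨k, hk⟩, e⟩ := QuotientGroup.mk_out_eq_mul (UN v n) x
  rw [e, show (x * k)⁻¹ * g * (x * k) = k⁻¹ * (x⁻¹ * g * x) * k by group]
  refine ⟨fun h => ?_, fun h => h.mul hn ((UN v n).inv_mem hk) hk⟩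
  have := h.mul hn hk ((UN v n).inv_mem hk)
  rwa [show k * (k⁻¹ * (x⁻¹ * g * x) * k) * k⁻¹ = x⁻¹ * g * x by group] at this

omit [NumberField F] in
/-- The twisted support read at representatives of cosets. -/
lemma hyp_twist_out_iff {A : Subgroup (GL (Fin 2) E)} (hA : A ≤ U0N w 1) (δ y : GL (Fin 2) E) :
    Hyp w 2 ((y : GL (Fin 2) E ⧸ A).out⁻¹ * δ * sG C (y : GL (Fin 2) E ⧸ A).out)
      ↔ Hyp w 2 (y⁻¹ * δ * sG C y) := by
  obtain ⟨⟨k, hk⟩, e⟩ := QuotientGroup.mk_out_eq_mul A y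
  rw [e, map_mul, show (y * k)⁻¹ * δ * (sG C y * sG C k) = k⁻¹ * (y⁻¹ * δ * sG C y) *
    sG C k by group]
  refine ⟨fun h => ?_, fun h => h.mul ((U0N w 1).inv_mem (hA hk)) (sG_mem_U0N (hA hk))⟩
  have := h.mul (hA hk) ((U0N w 1).inv_mem (sG_mem_U0N (C := C) (hA hk)))
  rwa [show k * (k⁻¹ * (y⁻¹ * δ * sG C y) * sG C k) * (sG C k)⁻¹ = y⁻¹ * δ *
    sG C y by group] at this

variable (C) in
/-- The cosets carrying the rational support of `g`. -/
def wSet (g : GL (Fin 2) F) : Set (GL (Fin 2) F ⧸ U0N v 1) :=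
  {X | Hyp v 2 (X.out⁻¹ * g * X.out) ∧ NormRatio C g}

omit [NumberField E] [NumberField F] in
/-- A coset carries the rational support when any representative does. -/
lemma mk_mem_wSet {g : GL (Fin 2) F} (x : GL (Fin 2) F) :
    (x : GL (Fin 2) F ⧸ U0N v 1) ∈ wSet C g ↔ WPred C (x⁻¹ * g * x) := by
  obtain ⟨⟨k, hk⟩, e⟩ := QuotientGroup.mk_out_eq_mul (U0N v 1) x
  change Hyp v 2 _ ∧ _ ↔ Hyp v 2 _ ∧ _
  rw [e, show (x * k)⁻¹ * g * (x * k) = k⁻¹ * (x⁻¹ * g * x) * k by group, normRatio_conj]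
  refine and_congr_left fun _ => ⟨fun h => ?_, fun h => h.conj hk⟩
  have := h.conj ((U0N v 1).inv_mem hk)
  rwa [show k⁻¹⁻¹ * (k⁻¹ * (x⁻¹ * g * x) * k) * k⁻¹ = x⁻¹ * g * x by group] at this

variable (C) in
/-- A translate of the inclusion on cosets. -/
noncomputable def pieceMap (t : GL (Fin 2) E) :
    GL (Fin 2) F ⧸ U0N v 1 → GL (Fin 2) E ⧸ U0N w 1 :=
  Quotient.map' (fun a => t * iG C a) fun a a' h => by
    rw [QuotientGroup.leftRel_apply] at h ⊢
    have := iG_mem_U0N (C := C) h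
    rw [map_mul, map_inv] at this
    rwa [show (t * iG C a)⁻¹ * (t * iG C a') = (iG C a)⁻¹ * iG C a' by group]

/-- The translate of a coset of a representative. -/
lemma pieceMap_mk (t : GL (Fin 2) E) (a : GL (Fin 2) F) :
    pieceMap C t (a : GL (Fin 2) F ⧸ U0N v 1) =
      ((t * iG C a : GL (Fin 2) E) : GL (Fin 2) E ⧸ U0N w 1) :=
  rfl

end Kernel

variable {K L : Type} [Field K] [NumberField K] [Field L] [NumberField L] [Algebra K L]
  {σ : L ≃ₐ[K] L} {v : Place K} {w : Place L}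

omit [Algebra K L] in
/-- An element whose twisted norm is a scalar multiple of an element of order `-6` has
order `-2`. -/
lemma kap_eq_neg_two_of_twN {C : CycExt (v.valuation K) (w.valuation L)} {b : GL (Fin 2) K}
    {a δ : GL (Fin 2) L} {c₀ : Lˣ} (hy : Hyp (w.valuation L) 6 (a⁻¹ * iG C b * a))
    (hN : twN C δ = scal c₀ * iG C b) {κ κc : ℤ}
    (h0 : IsKap (w.valuation L) a (iG C b) δ κ) (h1 : IsKap (w.valuation L) a (iG C b) (sG C δ) κ)
    (h2 : IsKap (w.valuation L) a (iG C b) (sG C (sG C δ)) κ)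
    (hc : IsKap (w.valuation L) a (iG C b) (scal c₀) κc) : κ = -2 := by
  have h := (h0.mul h1).mul h2
  rw [show δ * sG C δ * sG C (sG C δ) = twN C δ from rfl, hN] at h
  have hc0 : κc = 0 := hc.zero_of_mem hy (by
    rw [mul_assoc, scal_comm, ← mul_assoc, inv_mul_cancel, one_mul]
    exact scal_mem_withScalars _ _)
  have := h.unique hy (hc.mul (isKap_self hy))
  omega

omit [Algebra K L] in
/-- **The three pieces of the twisted support.** -/
theorem exists_pieces {C : CycExt (v.valuation K) (w.valuation L)} (he : C.e = 3)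
    {D : K} {g : GL (Fin 2) K} (hg : TReg D g) {δ : GL (Fin 2) L}
    (hδ : δ ∈ tTor (C.ι D)) {c₀ : Lˣ} (hN : twN C δ = scal c₀ * iG C g) {a₀ : GL (Fin 2) K}
    (hy : Hyp (v.valuation K) 2 (a₀⁻¹ * g * a₀)) (hR : NormRatio C g) :
    ∃ τ : Fin 3 → GL (Fin 2) L, (∀ i, τ i ∈ tTor (C.ι D)) ∧
      (∀ i (a : GL (Fin 2) K), Hyp (v.valuation K) 2 (a⁻¹ * g * a) →
        Hyp (w.valuation L) 2 ((τ i * iG C a)⁻¹ * δ * sG C (τ i * iG C a))) ∧
      (∀ x, Hyp (w.valuation L) 2 (x⁻¹ * δ * sG C x) → ∃ i, ∃ a : GL (Fin 2) K,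
        WPred C (a⁻¹ * g * a) ∧ (τ i * iG C a)⁻¹ * x ∈ U0N (w.valuation L) 1) ∧
      ∀ i j (a a' : GL (Fin 2) K), Hyp (v.valuation K) 2 (a⁻¹ * g * a) →
        Hyp (v.valuation K) 2 (a'⁻¹ * g * a') →
        (τ i * iG C a)⁻¹ * (τ j * iG C a') ∈ U0N (w.valuation L) 1 → i = j := by
  have hyL : Hyp (w.valuation L) 6 ((iG C a₀)⁻¹ * iG C g * iG C a₀) := by
    have := Hyp.map (w := (w.valuation L)) C.ι C.he C.hι hy
    rw [he] at this
    rwa [map_mul, map_mul, map_inv] at this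
  have hgL : iG C g ∈ tTor (C.ι D) := iG_mem_tTor C hg.mem
  have hgR : TReg (C.ι D) (iG C g) := treg_iG C hg
  have htrL : ((iG C g : GL (Fin 2) L) : Matrix (Fin 2) (Fin 2) L).trace ≠ 0 := by
    have := hyL.trace_ne
    rwa [Units.val_mul, Units.val_mul, Matrix.trace_units_conj'] at this
  have htrK : (g : Matrix (Fin 2) (Fin 2) K).trace ≠ 0 := by
    have := hy.trace_ne
    rwa [Units.val_mul, Units.val_mul, Matrix.trace_units_conj'] at this
  have halg : ∀ t ∈ tTor (C.ι D), InAlg (iG C g) t := fun t ht => inAlg_of_tTor hgR htrL ht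
  have hex : ∀ t ∈ tTor (C.ι D), ∃ κ, IsKap (w.valuation L) (iG C a₀) (iG C g) t κ := fun t ht =>
    exists_isKap hyL (halg t ht)
  have hinv : ∀ {t : GL (Fin 2) L} {κ : ℤ}, t ∈ tTor (C.ι D) →
      IsKap (w.valuation L) (iG C a₀) (iG C g) t κ →
      IsKap (w.valuation L) (iG C a₀) (iG C g) t⁻¹ (-κ) :=
    fun ht h => h.inv hyL (halg _ ((tTor _).inv_mem ht))
  have hsmap : ∀ {t : GL (Fin 2) L} {κ : ℤ}, IsKap (w.valuation L) (iG C a₀) (iG C g) t κ →
      IsKap (w.valuation L) (iG C a₀) (iG C g) (sG C t) κ :=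
        fun h => h.map_equiv C.s C.hs (sG_iG C g) (sG_iG C a₀)
  -- the order of the twisting element
  obtain ⟨κδ, hκδ⟩ := hex δ hδ
  have hκ2 : κδ = -2 := by
    obtain ⟨κc, hc⟩ := hex _ (scal_mem_tTor (C.ι D) c₀)
    exact kap_eq_neg_two_of_twN hyL hN hκδ (hsmap hκδ) (hsmap (hsmap hκδ)) hc
  subst hκ2
  -- representatives
  have hrep : ∀ i : Fin 3, ∃ t ∈ tTor (C.ι D), IsKap (w.valuation L) (iG C a₀) (iG C g) t
      (-((i : ℤ) + 1)) := fun i =>
    exists_pi_elt hgL hyL (by omega) (by have := i.2; omega)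
      (p := unifAt w ^ ((i : ℕ) + 1)) (by
        rw [map_pow, unifAt_spec, ← WithZero.exp_nsmul]; congr 1; simp)
  choose τ hτ hκτ using hrep
  -- rational elements
  obtain ⟨h₁, hh₁, hκ₁⟩ := exists_pi_elt (w := (v.valuation K)) hg.mem hy (i := 1) le_rfl (by omega)
    (p := unifAt v) (unifAt_spec v)
  have hlift : ∀ {h : GL (Fin 2) K} {κ : ℤ}, h ∈ tTor D → IsKap (v.valuation K) a₀ g h κ →
      IsKap (w.valuation L) (iG C a₀) (iG C g) (iG C h) (3 * κ) := fun {h κ} hh hk => by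
    have := hk.lift (w := (w.valuation L)) C.ι C.he C.hι hy (inAlg_of_tTor hg htrK hh)
    rwa [he] at this
  have hpow : ∀ l : ℤ,
      IsKap (w.valuation L) (iG C a₀) (iG C g) (iG C (h₁ ^ l)) (-(3 * l)) := fun l => by
    have h3 := hlift hh₁ hκ₁
    have := h3.zpow (hinv (iG_mem_tTor C hh₁) h3) l
    rw [map_zpow]
    convert this using 1
    ring
  have hbase : ∀ a : GL (Fin 2) K, Hyp (v.valuation K) 2 (a⁻¹ * g * a) → ∃ h ∈ tTor D,
      a₀⁻¹ * h⁻¹ * a ∈ U0N (v.valuation K) 1 := fun a ha => exists_torus_mul hg.mem hy ha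
  have hlow : ∀ {x : GL (Fin 2) K}, x ∈ U0N (v.valuation K) 1 → iG C x ∈ U0N (w.valuation L) 1 :=
    fun hx => iG_mem_U0N hx
  refine ⟨τ, hτ, fun i a ha => ?_, fun x hx => ?_, fun i j a a' ha ha' hmem => ?_⟩
  -- the pieces lie in the twisted support
  · obtain ⟨h, hh, hk⟩ := hbase a ha
    set t := τ i * iG C h
    have ht : t ∈ tTor (C.ι D) := (tTor _).mul_mem (hτ i) (iG_mem_tTor C hh)
    obtain ⟨κ, hκ⟩ := hex t ht
    have hz := (hinv ht hκ).mul (hκδ.mul (hsmap hκ))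
    rw [show -κ + (-2 + κ) = -2 by ring] at hz
    have hH := hz.hyp (by omega) hyL
    have := hH.mul ((U0N (w.valuation L) 1).inv_mem (hlow hk)) (hlow hk)
    convert this using 1
    simp only [t, map_mul, map_inv, sG_iG]
    group
  -- they cover it
  · have h6 := hyp_twN C hx
    have h6' : Hyp (w.valuation L) 6 (x⁻¹ * iG C g * x) := by
      obtain ⟨c, hc⟩ := h6
      refine ⟨c * c₀, ?_⟩
      rwa [hN, show scal c * (x⁻¹ * (scal c₀ * iG C g) * x) = scal (c * c₀) * (x⁻¹ * iG C g * x) by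
        rw [scal_mul, ← mul_assoc x⁻¹, ← scal_comm]; group] at hc
    obtain ⟨t, ht, hxt⟩ := exists_torus_mul hgL hyL h6'
    obtain ⟨κ, hκ⟩ := hex t ht
    set i : Fin 3 := ⟨((-κ - 1) % 3).toNat, by omega⟩ with hi
    set l : ℤ := (-κ - 1) / 3
    have hil : -((i : ℤ) + 1) + -(3 * l) = κ := by
      simp only [hi, l]
      omega
    set t' := τ i * iG C (h₁ ^ l)
    have ht' : t' ∈ tTor (C.ι D) :=
      (tTor _).mul_mem (hτ i) (iG_mem_tTor C ((tTor D).zpow_mem hh₁ l))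
    have hz := (hinv ht' ((hκτ i).mul (hpow l))).mul hκ
    rw [hil, neg_add_cancel] at hz
    refine ⟨i, h₁ ^ l * a₀, ⟨?_, ?_⟩, ?_⟩
    · rwa [show (h₁ ^ l * a₀)⁻¹ * g * (h₁ ^ l * a₀) = a₀⁻¹ *
        ((h₁ ^ l)⁻¹ * g * h₁ ^ l) * a₀ by group,
        tTor_comm ((tTor D).inv_mem ((tTor D).zpow_mem hh₁ l)) hg.mem, inv_mul_cancel_right]
    · exact (normRatio_conj _).2 hR
    · have := (U0N (w.valuation L) 1).mul_mem (hz.mem_of_zero hyL) hxt
      rw [map_mul, show (τ i * (iG C (h₁ ^ l) * iG C a₀))⁻¹ * x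
        = (iG C a₀)⁻¹ * ((τ i * iG C (h₁ ^ l))⁻¹ * t) * iG C a₀ * ((iG C a₀)⁻¹ * t⁻¹ * x) by group]
      exact this
  -- they are disjoint, their orders being distinct modulo three
  · obtain ⟨h, hh, hk⟩ := hbase a ha
    obtain ⟨h', hh', hk'⟩ := hbase a' ha'
    set t := (τ i * iG C h)⁻¹ * (τ j * iG C h')
    have htij : (iG C a₀)⁻¹ * t * iG C a₀ ∈ U0N (w.valuation L) 1 := by
      have := (U0N (w.valuation L) 1).mul_mem ((U0N (w.valuation L) 1).mul_mem (hlow hk) hmem)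
        ((U0N (w.valuation L) 1).inv_mem (hlow hk'))
      convert this using 1
      simp only [t, map_mul, map_inv]
      group
    obtain ⟨κK, hκK⟩ := exists_isKap hy (inAlg_of_tTor hg htrK hh)
    obtain ⟨κK', hκK'⟩ := exists_isKap hy (inAlg_of_tTor hg htrK hh')
    have hi' := (hκτ i).mul (hlift hh hκK)
    have hj' := (hκτ j).mul (hlift hh' hκK')
    have h0 := ((hinv ((tTor _).mul_mem (hτ i) (iG_mem_tTor C hh)) hi').mul hj').zero_of_mem hyL
      htij
    refine Fin.ext ?_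
    have := i.2
    have := j.2
    omega

omit [Algebra K L] in
/-- **The rational support meets a fibre in a finite set.** -/
theorem finite_wild {C : CycExt (v.valuation K) (w.valuation L)} (q : QDat K) {n : ℕ} (hn : 4 ≤ n)
    {g : GL (Fin 2) K} (hg : TReg q.D g) (dK : GL (Fin 2) K ⧸ UN (v.valuation K) n → q.Γ v)
    (hdK : ∀ h ∈ tTor q.D, ∀ a, dK (h • a) = (h : PG K) • dK a)
    (hdK' : ∀ a, ∃ h ∈ tTor q.D, dK a = (h : PG K) • q.one v) :
    {a | WPred C (a.out⁻¹ * g * a.out) ∧ dK a = q.one v}.Finite := by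
  let := MulAction.compHom (q.Γ v) (QuotientGroup.mk' (scalSub K))
  have hle : UN (v.valuation K) n ≤ U0N (v.valuation K) 1 := UN_le_U0N (by omega)
  set pr : GL (Fin 2) K ⧸ UN (v.valuation K) n → GL (Fin 2) K ⧸ U0 (v.valuation K) :=
    fun a => Subgroup.quotientMapOfLE (U0N_le_U0 (v.valuation K) 1) (Subgroup.quotientMapOfLE hle a)
  have hd : IsDeg (tTor q.D) (q.one v) fun a => degV q v (pr a) := by
    refine ⟨fun h hh a => ?_, fun a => degV_mem q v (pr a)⟩
    obtain ⟨x, rfl⟩ := QuotientGroup.mk_surjective a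
    change _ = (h : PG K) • degV q v _
    rw [← degV_smul q v hh]
    rfl
  set S := {a : GL (Fin 2) K ⧸ UN (v.valuation K) n | WPred C (a.out⁻¹ * g * a.out)}
  have hout : ∀ x : GL (Fin 2) K, (x : GL (Fin 2) K ⧸ UN (v.valuation K) n) ∈ S ↔
      WPred C (x⁻¹ * g * x) :=
    fun x => wPred_conj_out_iff hn g x
  have hst : ∀ h ∈ tTor q.D, ∀ a ∈ S, h • a ∈ S := by
    intro h hh a ha
    obtain ⟨x, rfl⟩ := QuotientGroup.mk_surjective a
    rw [MulAction.Quotient.smul_coe, hout, smul_eq_mul]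
    rw [hout] at ha
    rwa [show (h * x)⁻¹ * g * (h * x) = x⁻¹ * (h⁻¹ * g * h) * x by group,
      tTor_comm ((tTor _).inv_mem hh) hg.mem, inv_mul_cancel_right]
  -- compare with the fibre of `degV`
  obtain ⟨e⟩ := exists_equiv_fibre (T := tTor q.D) (fun a ha b hb => tTor_comm ha hb) hd
    (d' := dK) ⟨hdK, hdK'⟩ (S := S) hst
  suffices h : {a | a ∈ S ∧ degV q v (pr a) = q.one v}.Finite by
    have : Finite {a // a ∈ S ∧ degV q v (pr a) = q.one v} := h.to_subtype
    exact Set.finite_coe_iff.1 (Finite.of_equiv _ e)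
  rcases Set.eq_empty_or_nonempty S with hS | ⟨b, hb⟩
  · simp [hS]
  obtain ⟨x₁, rfl⟩ := QuotientGroup.mk_surjective b
  rw [hout] at hb
  obtain ⟨h', hh', eh'⟩ := degV_mem q v ((x₁ : GL (Fin 2) K) : GL (Fin 2) K ⧸ U0 (v.valuation K))
  set a₀ := h'⁻¹ * x₁
  have ha₀ : Hyp (v.valuation K) 2 (a₀⁻¹ * g * a₀) := by
    rw [show a₀⁻¹ * g * a₀ = x₁⁻¹ * (h' * g * h'⁻¹) * x₁ by simp [a₀]; group,
      tTor_comm hh' hg.mem, mul_inv_cancel_right]
    exact hb.1
  have hd₀ : degV q v ((a₀ : GL (Fin 2) K) : GL (Fin 2) K ⧸ U0 (v.valuation K)) = q.one v := by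
    rw [show ((a₀ : GL (Fin 2) K) : GL (Fin 2) K ⧸ U0 (v.valuation K)) = h'⁻¹ •
      ((x₁ : GL (Fin 2) K) : GL (Fin 2) K ⧸ U0 (v.valuation K)) from rfl,
      degV_smul q v ((tTor _).inv_mem hh'), eh', QuotientGroup.mk_inv, inv_smul_smul]
  set H := (U0 (v.valuation K)).comap (MulAut.conj (q.cj v)).toMonoidHom
  obtain ⟨m, hm⟩ := exists_entry_bound (v.valuation K) a₀
  have hfinH : (UN (v.valuation K) (2 * m + n)).relIndex H ≠ 0 :=
    relIndex_UN_ne_zero v _ (ρ := (q.cj v)⁻¹) fun h hh => by rw [inv_inv]; exact hh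
  rw [Subgroup.relIndex, Subgroup.index_ne_zero_iff_finite] at hfinH
  have hfib : ∀ y : GL (Fin 2) K ⧸ U0N (v.valuation K) 1,
      (Subgroup.quotientMapOfLE hle ⁻¹' {y}).Finite := fun y =>
    Set.finite_coe_iff.1
        (Nat.finite_of_card_ne_zero (α := {z // Subgroup.quotientMapOfLE hle z = y}) (by
      rw [card_fibre_quotient hle y]; exact relIndex_U0N_ne_zero v n 1))
  refine ((Set.finite_range fun z : H ⧸ (UN (v.valuation K) (2 * m + n)).subgroupOf H =>
    (((z.out : GL (Fin 2) K) * a₀ : GL (Fin 2) K) : GL (Fin 2) K ⧸ U0N (v.valuation K) 1)).preimage'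
      fun y _ => hfib y).subset fun a ha => ?_
  obtain ⟨x, rfl⟩ := QuotientGroup.mk_surjective a
  obtain ⟨hx, hdx⟩ := ha
  rw [hout] at hx
  -- any two points differ by the torus
  obtain ⟨h, hh, hk⟩ := exists_torus_mul hg.mem ha₀ hx.1
  have hmem : h ∈ H := by
    have e1 : ((x : GL (Fin 2) K) : GL (Fin 2) K ⧸ U0 (v.valuation K)) =
        h • ((a₀ : GL (Fin 2) K) : GL (Fin 2) K ⧸ U0 (v.valuation K)) := by
      refine (QuotientGroup.eq.2 ?_).symm
      have := U0N_le_U0 (v.valuation K) 1 hk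
      change (h * a₀)⁻¹ * x ∈ U0 (v.valuation K)
      rwa [mul_inv_rev]
    have e2 : degV q v ((x : GL (Fin 2) K) : GL (Fin 2) K ⧸ U0 (v.valuation K)) = q.one v := hdx
    rw [e1, degV_smul q v hh, hd₀] at e2
    have e3 : q.toΓ v (h : GL (Fin 2) K ⧸ q.U v) = q.one v := by
      rw [QDat.toΓ_mk]
      conv_rhs => rw [← e2]
      change _ = (((h : PG K) * 1 : PG K) : PG K ⧸ q.Ub v)
      rw [mul_one]
    have e4 := (q.toΓ_eq_one_iff _).1 e3
    rw [QuotientGroup.eq, mul_one] at e4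
    have := ((q.U v).inv_mem_iff).1 e4
    exact QA.ugrp_le_U0 _ (q.φ_U this)
  refine ⟨((⟨h, hmem⟩ : H) : H ⧸ _), ?_⟩
  obtain ⟨⟨l, hl⟩, el⟩ :=
    QuotientGroup.mk_out_eq_mul ((UN (v.valuation K) (2 * m + n)).subgroupOf H) (⟨h, hmem⟩ : H)
  change _ = ((x : GL (Fin 2) K) : GL (Fin 2) K ⧸ U0N (v.valuation K) 1)
  beta_reduce
  rw [el]
  refine QuotientGroup.eq.2 ?_
  obtain ⟨c, hc⟩ := (UN (v.valuation K) _).inv_mem (Subgroup.mem_subgroupOf.1 hl)
  have hconj : a₀⁻¹ * (l : GL (Fin 2) K)⁻¹ * a₀ ∈ UN (v.valuation K) n := by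
    refine ⟨c, ?_⟩
    have := conj_mem_congN (v.valuation K) (g := a₀) hm hc.2
      ((congN (v.valuation K) _).inv_mem hc).2
    rwa [show a₀⁻¹ * (scal c * (l : GL (Fin 2) K)⁻¹) * a₀ = scal c *
        (a₀⁻¹ * (l : GL (Fin 2) K)⁻¹ * a₀) by
      rw [← mul_assoc a₀⁻¹ (scal c), ← scal_comm]; group] at this
  have := (U0N (v.valuation K) 1).mul_mem (hle hconj) hk
  convert this using 1
  simp only [Subgroup.coe_mul]
  group

/-- The kernel of the rational support. -/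
noncomputable def wildKer (C : CycExt (v.valuation K) (w.valuation L)) {SK : Lev K}
    (hSK : 4 ≤ SK.depth v) (cf : ℂ) : LKer SK v where
  toFun a b := if WPred C (a.out⁻¹ * b.out) then cf else 0
  invariant g a b := by
    obtain ⟨x, rfl⟩ := QuotientGroup.mk_surjective a
    obtain ⟨y, rfl⟩ := QuotientGroup.mk_surjective b
    have e : ∀ p q : GL (Fin 2) K, WPred C ((p : Vert SK v).out⁻¹ * (q : Vert SK v).out)
        ↔ WPred C (p⁻¹ * q) := wPred_out_iff hSK
    simp only [MulAction.Quotient.smul_coe, smul_eq_mul, e]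
    simp [mul_assoc]
  finite_row a := (finite_hyp_cosets v _ (by norm_num : (0 : ℤ) < 2)
      (u := (Units.mk0 (unifAt v) fun h => WithZero.exp_ne_zero
        ((unifAt_spec v).symm.trans (by rw [h, map_zero]))) ^ 2)
      (by rw [Units.val_pow_eq_pow_val, map_pow, Units.val_mk0, unifAt_spec,
            ← WithZero.exp_nsmul]; rfl)
      a.out).subset fun b hb => by
    by_contra hne
    exact hb (if_neg fun h => hne h.1)

omit [Algebra K L] in
/-- The rational kernel on the diagonal of a torus element. -/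
lemma wildKer_smul_self (C : CycExt (v.valuation K) (w.valuation L)) {SK : Lev K}
    (hSK : 4 ≤ SK.depth v) (cf : ℂ) (hle : lev SK v ≤ U0N (v.valuation K) 1) (g : GL (Fin 2) K)
    (a : Vert SK v) :
    wildKer C hSK cf a (g • a) = cf * if proj hle a ∈ wSet C g then 1 else 0 := by
  obtain ⟨x, rfl⟩ := QuotientGroup.mk_surjective a
  rw [MulAction.Quotient.smul_coe, smul_eq_mul, mul_ite, mul_one, mul_zero]
  refine if_congr ?_ rfl rfl
  refine (wPred_out_iff hSK x (g * x)).trans ?_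
  rw [show proj hle (x : Vert SK v) = (x : GL (Fin 2) K ⧸ U0N (v.valuation K) 1) from rfl,
    mk_mem_wSet, mul_assoc]

omit [Algebra K L] in
/-- The rational support meets a fibre of a level in a finite set. -/
lemma finite_wSet_fibre {C : CycExt (v.valuation K) (w.valuation L)} (q : QDat K) {SK : Lev K}
    (hSK : 4 ≤ SK.depth v) (hle : lev SK v ≤ U0N (v.valuation K) 1) {g : GL (Fin 2) K}
    (hg : TReg q.D g) (dK : Vert SK v → q.Γ v)
    (hdK : ∀ h ∈ tTor q.D, ∀ a, dK (h • a) = (h : PG K) • dK a)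
    (hdK' : ∀ a, ∃ h ∈ tTor q.D, dK a = (h : PG K) • q.one v) :
    {a : Vert SK v | proj hle a ∈ wSet C g ∧ dK a = q.one v}.Finite :=
  (finite_wild (C := C) q hSK hg dK hdK hdK').subset fun a ha => ⟨by
    obtain ⟨x, rfl⟩ := QuotientGroup.mk_surjective a
    exact (wPred_conj_out_iff hSK g x).2 ((mk_mem_wSet x).1 ha.1), ha.2⟩

omit [Algebra K L] in
/-- Without twisted points the rational support is empty. -/
lemma not_mem_wSet_of_no_twist {C : CycExt (v.valuation K) (w.valuation L)} (he : C.e = 3)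
    {D : K} {g : GL (Fin 2) K} (hg : TReg D g) {δ : GL (Fin 2) L}
    (hδ : δ ∈ tTor (C.ι D)) {c : Lˣ} (hN : twN C δ = scal c * iG C g)
    {A : Subgroup (GL (Fin 2) L)} (hA : A ≤ U0N (w.valuation L) 1)
    (h : ∀ x : GL (Fin 2) L ⧸ A, ¬ Hyp (w.valuation L) 2 (x.out⁻¹ * δ * sG C x.out))
    (X : GL (Fin 2) K ⧸ U0N (v.valuation K) 1) : X ∉ wSet C g := by
  intro hX
  obtain ⟨x, rfl⟩ := QuotientGroup.mk_surjective X
  obtain ⟨hx1, hx2⟩ := (mk_mem_wSet x).1 hX
  obtain ⟨τ, -, hmap, -, -⟩ := exists_pieces he hg hδ hN hx1 ((normRatio_conj x).1 hx2)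
  exact h _ ((hyp_twist_out_iff hA δ (τ 0 * iG C x)).2 (hmap 0 x hx1))

omit [Algebra K L] in
/-- The twisted support is the disjoint union of the three pieces. -/
lemma ite_twist_eq_sum {C : CycExt (v.valuation K) (w.valuation L)} {g : GL (Fin 2) K}
    {δ : GL (Fin 2) L} {τ : Fin 3 → GL (Fin 2) L}
    (hmap : ∀ i (a : GL (Fin 2) K), Hyp (v.valuation K) 2 (a⁻¹ * g * a) →
      Hyp (w.valuation L) 2 ((τ i * iG C a)⁻¹ * δ * sG C (τ i * iG C a)))
    (hcov : ∀ x, Hyp (w.valuation L) 2 (x⁻¹ * δ * sG C x) → ∃ i, ∃ a : GL (Fin 2) K,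
      WPred C (a⁻¹ * g * a) ∧ (τ i * iG C a)⁻¹ * x ∈ U0N (w.valuation L) 1)
    (hdis : ∀ i j (a a' : GL (Fin 2) K), Hyp (v.valuation K) 2 (a⁻¹ * g * a) →
      Hyp (v.valuation K) 2 (a'⁻¹ * g * a') →
      (τ i * iG C a)⁻¹ * (τ j * iG C a') ∈ U0N (w.valuation L) 1 → i = j)
    {A : Subgroup (GL (Fin 2) L)} (hA : A ≤ U0N (w.valuation L) 1) (x : GL (Fin 2) L ⧸ A) :
    (if Hyp (w.valuation L) 2 (x.out⁻¹ * δ * sG C x.out) then (1 : ℂ) else 0)
      = ∑ i : Fin 3, 1 * if proj hA x ∈ pieceMap C (τ i) '' wSet C g then 1 else 0 := by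
  obtain ⟨y, rfl⟩ := QuotientGroup.mk_surjective x
  have hmem : ∀ i, proj hA (y : GL (Fin 2) L ⧸ A) ∈ pieceMap C (τ i) '' wSet C g ↔
      ∃ a, WPred C (a⁻¹ * g * a) ∧ (τ i * iG C a)⁻¹ * y ∈ U0N (w.valuation L) 1 := by
    intro i
    constructor
    · rintro ⟨X, hX, e⟩
      obtain ⟨a, rfl⟩ := QuotientGroup.mk_surjective X
      rw [pieceMap_mk] at e
      exact ⟨a, (mk_mem_wSet a).1 hX, QuotientGroup.eq.1 e⟩
    · rintro ⟨a, ha, hk⟩
      exact ⟨_, (mk_mem_wSet a).2 ha, QuotientGroup.eq.2 hk⟩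
  rw [if_congr (hyp_twist_out_iff hA δ y) rfl rfl]
  by_cases hy : Hyp (w.valuation L) 2 (y⁻¹ * δ * sG C y)
  · obtain ⟨i, a, ha, hk⟩ := hcov y hy
    rw [if_pos hy, Finset.sum_eq_single i (fun j _ hj => ?_) fun h => absurd (Finset.mem_univ i) h,
      if_pos ((hmem i).2 ⟨a, ha, hk⟩), one_mul]
    rw [if_neg fun h => ?_, mul_zero]
    obtain ⟨a', ha', hk'⟩ := (hmem j).1 h
    refine hj (hdis j i a' a ha'.1 ha.1 ?_)
    have := (U0N (w.valuation L) 1).mul_mem hk' ((U0N (w.valuation L) 1).inv_mem hk)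
    rwa [show (τ j * iG C a')⁻¹ * y * ((τ i * iG C a)⁻¹ * y)⁻¹
      = (τ j * iG C a')⁻¹ * (τ i * iG C a) by group] at this
  · rw [if_neg hy, Finset.sum_eq_zero fun i _ => ?_]
    rw [if_neg fun h => hy ?_, mul_zero]
    obtain ⟨a, ha, hk⟩ := (hmem i).1 h
    have := (hmap i a ha.1).mul ((U0N (w.valuation L) 1).inv_mem hk) (sG_mem_U0N (C := C) hk)
    rwa [show ((τ i * iG C a)⁻¹ * y)⁻¹ * ((τ i * iG C a)⁻¹ * δ * sG C (τ i * iG C a))
      * sG C ((τ i * iG C a)⁻¹ * y) = y⁻¹ * δ * sG C y by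
        simp only [map_mul, map_inv]; group] at this

omit [Algebra K L] in
/-- One piece sums to the rational support, up to the ratio of the fibres. -/
lemma tsum_piece {C : CycExt (v.valuation K) (w.valuation L)} (q : QDat K) {g : GL (Fin 2) K}
    (hg : TReg q.D g) {t : GL (Fin 2) L} (ht : t ∈ tTor (C.ι q.D)) {SK : Lev K} {SL : Lev L}
    (hSK : 4 ≤ SK.depth v) (hleK : lev SK v ≤ U0N (v.valuation K) 1)
    (hleL : lev SL w ≤ U0N (w.valuation L) 1) (dK : Vert SK v → q.Γ v)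
    (hdK : ∀ h ∈ tTor q.D, ∀ a, dK (h • a) = (h : PG K) • dK a)
    (hdK' : ∀ a, ∃ h ∈ tTor q.D, dK a = (h : PG K) • q.one v) (dL : Vert SL w → q.Γ v)
    (hdL : ∀ h ∈ tTor q.D, ∀ x, dL (iG C h • x) = (h : PG K) • dL x)
    (hdL' : ∀ x, ∃ h ∈ tTor q.D, dL x = (h : PG K) • q.one v) :
    {x : Vert SL w | proj hleL x ∈ pieceMap C t '' wSet C g ∧ dL x = q.one v}.Finite ∧
      ∑' x : {x : Vert SL w // dL x = q.one v},
          (if proj hleL x.1 ∈ pieceMap C t '' wSet C g then (1 : ℂ) else 0)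
        = ((lev SL w).relIndex (U0N (w.valuation L) 1) : ℂ)
            / ((lev SK v).relIndex (U0N (v.valuation K) 1) : ℂ)
          * ∑' a : {a : Vert SK v // dK a = q.one v},
              (if proj hleK a.1 ∈ wSet C g then (1 : ℂ) else 0) := by
  let := MulAction.compHom (q.Γ v) (QuotientGroup.mk' (scalSub K))
  let _iY : MulAction (GL (Fin 2) K) (GL (Fin 2) L ⧸ U0N (w.valuation L) 1) :=
    MulAction.compHom _ (iG C)
  let _iY' : MulAction (GL (Fin 2) K) (GL (Fin 2) L ⧸ lev SL w) := MulAction.compHom _ (iG C)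
  have hsmul : ∀ h ∈ tTor q.D, ∀ X, pieceMap C t (h • X) = iG C h • pieceMap C t X := by
    intro h hh X
    obtain ⟨a, rfl⟩ := QuotientGroup.mk_surjective X
    rw [MulAction.Quotient.smul_coe, pieceMap_mk, pieceMap_mk, MulAction.Quotient.smul_coe,
      smul_eq_mul, smul_eq_mul, map_mul, ← mul_assoc, ← mul_assoc, tTor_comm ht (iG_mem_tTor C hh)]
  have hSXst : ∀ h ∈ tTor q.D, ∀ X ∈ wSet C g, h • X ∈ wSet C g := by
    intro h hh X hX
    obtain ⟨a, rfl⟩ := QuotientGroup.mk_surjective X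
    rw [mk_mem_wSet] at hX
    rw [MulAction.Quotient.smul_coe, mk_mem_wSet, smul_eq_mul, show (h * a)⁻¹ * g * (h * a)
      = a⁻¹ * (h⁻¹ * g * h) * a by
        group, tTor_comm ((tTor _).inv_mem hh) hg.mem, inv_mul_cancel_right]
    exact hX
  -- the piece map is a bijection on the support
  have hbij : Set.BijOn (pieceMap C t) (wSet C g) (pieceMap C t '' wSet C g) := by
    refine ⟨fun X hX => ⟨X, hX, rfl⟩, fun X hX Y hY e => ?_, fun Y hY => hY⟩
    obtain ⟨a, rfl⟩ := QuotientGroup.mk_surjective X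
    obtain ⟨a', rfl⟩ := QuotientGroup.mk_surjective Y
    rw [pieceMap_mk, pieceMap_mk, QuotientGroup.eq,
      show (t * iG C a)⁻¹ * (t * iG C a') = (iG C a)⁻¹ * iG C a' by group,
      ← map_inv, ← map_mul] at e
    exact QuotientGroup.eq.2 (iG_reflect e)
  have hd : IsDeg (tTor q.D) (q.one v) fun X : GL (Fin 2) K ⧸ U0N (v.valuation K) 1 =>
      degV q v (Subgroup.quotientMapOfLE (U0N_le_U0 (v.valuation K) 1) X) := by
    refine ⟨fun h hh X => ?_, fun X => degV_mem q v _⟩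
    obtain ⟨a, rfl⟩ := QuotientGroup.mk_surjective X
    change _ = (h : PG K) • degV q v _
    rw [← degV_smul q v hh]
    rfl
  have hSYst : ∀ h ∈ tTor q.D, ∀ Y ∈ pieceMap C t '' wSet C g,
      iG C h • Y ∈ pieceMap C t '' wSet C g := fun h hh Y ⟨X, hX, e⟩ =>
    ⟨h • X, hSXst h hh X hX, by rw [hsmul h hh, e]⟩
  -- match the two fibre sums
  convert tsum_match (T := tTor q.D) (fun a ha b hb => tTor_comm ha hb) (pX := proj hleK)
    (fun h _ x => proj_smul hleK h x) (relIndex_U0N_ne_zero v _ 1) (card_fibre_quotient hleK)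
    (pY := proj hleL) (fun h _ x => proj_smul hleL (iG C h) x) (relIndex_U0N_ne_zero w _ 1)
    (card_fibre_quotient hleL) hSXst (SY := pieceMap C t '' wSet C g) hSYst (f := pieceMap C t)
    hsmul hbij hd (dX := dK) ⟨hdK, hdK'⟩ (dY := dL) ⟨hdL, hdL'⟩
    (finite_wSet_fibre q hSK hleK hg dK hdK hdK') <;> rfl

/-- **Matching at a wildly ramified place over three.** -/
theorem exists_wild (hc : Cyc3 K L σ) (hw : LiesOver K L w v) (hσ : mapPlace (σ : L ≃+* L) w = w)
    (he : ramE v w = 3) (h3 : v.valuation K 3 = WithZero.exp (-2 : ℤ)) :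
    ∀ (SK : Lev K) (SL : Lev L) (hS : Stable (σ : L ≃+* L) SL), 4 ≤ SK.depth v → 1 ≤ SL.depth w →
      ∃ kK : LKer SK v, ∀ (u : Lˣ), w.valuation L (u : L) = WithZero.exp (-2 : ℤ) →
        ∀ kL : LKer SL w, (∀ a b : GL (Fin 2) L, kL (a : Vert SL w) (b : Vert SL w)
          = if ∃ k₁ ∈ U0N (w.valuation L) 1, ∃ k₂ ∈ U0N (w.valuation L) 1,
              a⁻¹ * b = k₁ * upMat u 0 * k₂ then 1 else 0) →
        ∀ (q : QDat K) (g₀ : GL (Fin 2) K), TReg q.D g₀ →
          ∀ dK : Vert SK v → q.Γ v,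
            (∀ h ∈ tTor q.D, ∀ a, dK (h • a) = (h : PG K) • dK a) →
            (∀ a, ∃ h ∈ tTor q.D, dK a = (h : PG K) • q.one v) →
            ((∑' a : {a : Vert SK v // dK a = q.one v}, kK a.1 (g₀ • a.1) ≠ 0) →
              ∀ a₀ b₀ : K, (g₀ : Matrix (Fin 2) (Fin 2) K) = tmat q.D a₀ b₀ →
                IsLocNorm K L σ v q.D a₀ b₀) ∧
            ∀ (δ : GL (Fin 2) L) (c : Lˣ), δ ∈ tTor (algebraMap K L q.D) →
              twistN (σ : L ≃+* L) δ = scal c * iGL K L g₀ →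
              ∀ dL : Vert SL w → q.Γ v,
                (∀ h ∈ tTor q.D, ∀ x, dL (iGL K L h • x) = (h : PG K) • dL x) →
                (∀ x, ∃ h ∈ tTor q.D, dL x = (h : PG K) • q.one v) →
                {x : Vert SL w | dL x = q.one v ∧ kL x (δ • Vert.amap hS hσ x) ≠ 0}.Finite ∧
                ∑' x : {x : Vert SL w // dL x = q.one v}, kL x.1 (δ • Vert.amap hS hσ x.1)
                  = ∑' a : {a : Vert SK v // dK a = q.one v}, kK a.1 (g₀ • a.1) := by
  intro SK SL hS hSK hSL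
  set C := hc.ext hw hσ
  have hCe : C.e = 3 := he
  have h2 : v.valuation K 2 = 1 := by
    rw [show (2 : K) = 3 - 1 by norm_num, Valuation.map_sub_swap]
    refine (Valuation.map_sub_eq_of_lt_left _ ?_).trans (map_one _)
    rw [map_one, h3, ← WithZero.exp_zero, WithZero.exp_lt_exp]; omega
  have hleK : lev SK v ≤ U0N (v.valuation K) 1 := UN_le_U0N (by omega)
  have hleL : lev SL w ≤ U0N (w.valuation L) 1 := UN_le_U0N (by omega)
  set nX := (lev SK v).relIndex (U0N (v.valuation K) 1)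
  set nY := (lev SL w).relIndex (U0N (w.valuation L) 1)
  set cf : ℂ := 3 * ((nY : ℂ) / (nX : ℂ))
  refine ⟨wildKer C hSK cf, fun u hu kL hkL q g₀ hg dK hdK hdK' => ?_⟩
  set SX := wSet C g₀
  have hvalK : ∀ a : Vert SK v, wildKer C hSK cf a (g₀ • a) =
      cf * if proj hleK a ∈ SX then 1 else 0 :=
    wildKer_smul_self C hSK cf hleK g₀
  refine ⟨fun hne a₀ b₀ hg0 => ?_, fun δ c hδ hN dL hdL hdL' => ?_⟩
  · have hex : ∃ a : {a : Vert SK v // dK a = q.one v}, proj hleK a.1 ∈ SX := by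
      by_contra! h
      exact hne (by simp [hvalK, h])
    obtain ⟨⟨a, hda⟩, ha⟩ := hex
    obtain ⟨x, rfl⟩ := QuotientGroup.mk_surjective a
    obtain ⟨hx1, hx2⟩ := (mk_mem_wSet x).1 ha
    exact (nearNorm_of_normRatio C hCe h3 hg hx1 ((normRatio_conj x).1 hx2)).isLocNorm hc hw hσ hg0
  have hN' : twN C δ = scal c * iG C g₀ := hN
  set LP : Vert SL w → Prop := fun x => Hyp (w.valuation L) 2 (x.out⁻¹ * δ * sG C x.out)
  have hvalL : ∀ x : Vert SL w, kL x (δ • Vert.amap hS hσ x) = if LP x then 1 else 0 := by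
    intro x
    conv_lhs => rw [← QuotientGroup.out_eq' x]
    rw [Vert.amap_mk, MulAction.Quotient.smul_coe, smul_eq_mul, hkL]
    refine if_congr ?_ rfl rfl
    rw [← hyp_iff_double (by norm_num : (0 : ℤ) < 2) hu, ← mul_assoc]
    rfl
  by_cases hLP : ∀ x : Vert SL w, ¬ LP x
  · -- no twisted points: the rational support is empty
    have hKempty : ∀ a : Vert SK v, proj hleK a ∉ SX := fun a =>
      not_mem_wSet_of_no_twist hCe hg hδ hN' hleL hLP _
    refine ⟨?_, ?_⟩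
    · refine Set.finite_empty.subset fun x hx => hx.2 ?_
      rw [hvalL, if_neg (hLP x)]
    · simp [hvalL, hvalK, hLP, hKempty]
  push Not at hLP
  obtain ⟨x₁, hx₁⟩ := hLP
  -- a twisted point gives a base point and three pieces
  have hR := normRatio_of_twisted C hCe hg.mem hδ hN' hx₁
  have h6 : Hyp (w.valuation L) 6 (x₁.out⁻¹ * iG C g₀ * x₁.out) := by
    obtain ⟨c', hc'⟩ := hyp_twN C hx₁
    refine ⟨c' * c, ?_⟩
    rwa [hN', show scal c' * (x₁.out⁻¹ * (scal c * iG C g₀) * x₁.out)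
      = scal (c' * c) * (x₁.out⁻¹ * iG C g₀ * x₁.out) by
        rw [scal_mul, ← mul_assoc x₁.out⁻¹, ← scal_comm]; group] at hc'
  obtain ⟨a₀, ha₀⟩ := exists_base C hCe h2 hg h6
  obtain ⟨τ, hτ, hmap, hcov, hdis⟩ := exists_pieces hCe hg hδ hN' ha₀ hR
  set SY : Fin 3 → Set (GL (Fin 2) L ⧸ U0N (w.valuation L) 1) := fun i => pieceMap C (τ i) '' SX
  have hsplit : ∀ x : Vert SL w,
      (if LP x then (1 : ℂ) else 0) = ∑ i : Fin 3, 1 * if proj hleL x ∈ SY i then 1 else 0 :=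
    ite_twist_eq_sum hmap hcov hdis hleL
  have hone := fun i => tsum_piece q hg (hτ i) hSK hleK hleL dK hdK hdK' dL hdL hdL'
  refine ⟨?_, ?_⟩
  · refine (Set.finite_iUnion fun i : Fin 3 => (hone i).1).subset fun x hx => ?_
    obtain ⟨hx1, hx2⟩ := hx
    rw [hvalL, hsplit] at hx2
    obtain ⟨i, -, hi⟩ := Finset.exists_ne_zero_of_sum_ne_zero hx2
    exact Set.mem_iUnion.2 ⟨i,
      (by_contra fun h => hi (by rw [if_neg h, mul_zero]) : proj hleL x ∈ SY i), hx1⟩
  · -- sum over the pieces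
    rw [tsum_congr fun x : {x : Vert SL w // dL x = q.one v} => (hvalL x.1).trans (hsplit x.1),
      tsum_sum_ite dL (q.one v) Finset.univ (fun _ => 1) (fun i x => proj hleL x ∈ SY i) fun i _ =>
        (hone i).1,
      tsum_congr fun a : {a : Vert SK v // dK a = q.one v} => hvalK a.1, tsum_mul_left]
    simp only [SY, SX, one_mul, (hone _).2, Finset.sum_const, Finset.card_univ, Fintype.card_fin,
      nsmul_eq_mul, cf]
    push_cast
    ring

end Fermat.LTG.Loc
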