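import Fermat.Agent.LTG.EllMatch
import Fermat.Agent.LTG.LocWild
import Fermat.Agent.LT.EllPack

/-!
# The nonsplit cases in the form of the interface of the elliptic comparison

With one place over `v` the families are single cosets; a multiple of matching kernels matches.

`locMatch_away` (`LocAway`) and `locMatch_wild` (`LocWild`) give the blocks of `LocBlock` their
matchings at the nonsplit places.
-/

set_option autoImplicit false
open Set
open scoped Classical Matrix

namespace Fermat.LTG.Loc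

open Fermat.LT

/-- A multiple of a kernel. -/
noncomputable def scaleKer {F : Type*} [Field F] [NumberField F] {S : Lev F} {v : Place F} (c : ℂ)
    (k : LKer S v) : LKer S v where
  toFun a b := c * k a b
  invariant g a b := by rw [k.invariant]
  finite_row a := (k.finite_row a).subset fun _ hb => right_ne_zero_of_mul hb

/-- The value of a scaled kernel. -/
lemma scaleKer_apply {F : Type*} [Field F] [NumberField F] {S : Lev F} {v : Place F} (c : ℂ)
    (k : LKer S v) (a b : Vert S v) : scaleKer c k a b = c * k a b := rfl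

variable {K L : Type} [Field K] [NumberField K] [Field L] [NumberField L] [Algebra K L]
  {σ : L ≃ₐ[K] L} {v : Place K} {w : Place L} {SK : Lev K} {SL : Lev L}

/-- Matching at a single place, for every equivariant pair of degrees. -/
def OneMatch (hS : Stable (σ : L ≃+* L) SL) (hσ : mapPlace (σ : L ≃+* L) w = w) (kL : LKer SL w)
    (kK : LKer SK v) : Prop :=
  ∀ (q : QDat K) (g₀ : GL (Fin 2) K), TReg q.D g₀ →
    ∀ dK : Vert SK v → q.Γ v,
      (∀ h ∈ tTor q.D, ∀ a, dK (h • a) = (h : PG K) • dK a) →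
      (∀ a, ∃ h ∈ tTor q.D, dK a = (h : PG K) • q.one v) →
      ((∑' a : {a : Vert SK v // dK a = q.one v}, kK a.1 (g₀ • a.1) ≠ 0) →
        ∀ a₀ b₀ : K, (g₀ : Matrix (Fin 2) (Fin 2) K) = tmat q.D a₀ b₀ →
          IsLocNorm K L σ v q.D a₀ b₀) ∧
      ∀ (δ : GL (Fin 2) L) (c : Lˣ), δ ∈ tTor (algebraMap K L q.D) →
        twistN (σ : L ≃+* L) δ = scal c * iGL K L g₀ →
        ∀ dL : Vert SL w → q.Γ v,
          (∀ h ∈ tTor q.D, ∀ x, dL (iGL K L h • x) = (h : PG K) • dL x) →
          (∀ x, ∃ h ∈ tTor q.D, dL x = (h : PG K) • q.one v) →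
          {x : Vert SL w | dL x = q.one v ∧ kL x (δ • Vert.amap hS hσ x) ≠ 0}.Finite ∧
          ∑' x : {x : Vert SL w // dL x = q.one v}, kL x.1 (δ • Vert.amap hS hσ x.1)
            = ∑' a : {a : Vert SK v // dK a = q.one v}, kK a.1 (g₀ • a.1)

variable {hS : Stable (σ : L ≃+* L) SL}

/-- **Matching at a single place gives the interface.** -/
theorem locMatch_single (hc : Cyc3 K L σ) (hw : LiesOver K L w v)
    (hσ : mapPlace (σ : L ≃+* L) w = w) {kL : LKer SL w} {kK : LKer SK v}
    (h : OneMatch hS hσ kL kK) (c : ℂ) (PL : ∀ u : Place L, LKer SL u)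
    (hPL : ∀ a b, PL w a b = c * kL a b) : LocMatch hS v PL (scaleKer c kK) := by
  -- `w` is the only place over `v`, so over-points are vertices at `w`
  have hall : ∀ u : placesOver K L v, u = ⟨w, hw⟩ := fun ⟨u, hu⟩ => by
    rw [LT.placesOver_singleton hc hw hσ, Set.mem_singleton_iff] at hu
    exact Subtype.ext hu
  let _ : Unique (placesOver K L v) := ⟨⟨⟨w, hw⟩⟩, hall⟩
  let ev : OverPt K SL v ≃ Vert SL w := Equiv.piUnique fun u : placesOver K L v => Vert SL u.1
  -- `degK` is torus equivariant with values in the orbit of `q.one`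
  have hKshape : ∀ q : QDat K, (∀ h ∈ tTor q.D, ∀ a : Vert SK v, degK q (h • a) =
      (h : PG K) • degK q a) ∧
      ∀ a : Vert SK v, ∃ h ∈ tTor q.D, degK q a = (h : PG K) • q.one v := fun q => by
    refine ⟨fun g hg a => by rw [← PG.mk_smul_vert, degK_smul q hg], fun a => ?_⟩
    obtain ⟨⟨γ, g, hg, rfl⟩, e⟩ := degK_mem q a
    exact ⟨g, hg, e⟩
  refine LocMatch.of_exists hS v PL _ (fun q g₀ δ e hg hδ hN => ?_) fun _ q g₀ a₀ b₀
    hg hg0 hne => ?_
  -- the single match gives the sum over an over-degree, and the vanishing clause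
  · obtain ⟨d, hd⟩ := exists_overDeg hc q SL v
    obtain ⟨hfin, hsum⟩ := (h q g₀ hg (degK q) (hKshape q).1 (hKshape q).2).2 δ e hδ hN
      (fun x => d (ev.symm x))
      (fun g hg x => by
        rw [show ev.symm (iGL K L g • x) = (g : PG K) • ev.symm x from ev.symm_apply_eq.2
          (congrArg (iGL K L g • ·) (ev.apply_symm_apply x)).symm, hd.smul g hg])
      fun x => by
        obtain ⟨⟨γ, g, hg, rfl⟩, e⟩ := hd.mem (ev.symm x)
        exact ⟨g, hg, e⟩
    have hval : ∀ x : OverPt K SL v,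
        OverPt.val hS PL δ x = c * kL (ev x) (δ • Vert.amap hS hσ (ev x)) := fun x => by
      rw [OverPt.val, finprod_unique, ← hPL]
      change PL w (x ⟨w, hw⟩) (δ • x.prev hS ⟨w, hw⟩) = _
      rw [x.prev_eq hS (u := ⟨w, hw⟩) (w := ⟨w, hw⟩) hσ]
      rfl
    refine ⟨d, hd, (hfin.image ev.symm).subset fun x hx =>
      ⟨ev x, ⟨?_, ?_⟩, ev.symm_apply_apply x⟩, ?_⟩
    · show d (ev.symm (ev x)) = _
      rw [ev.symm_apply_apply]; exact hx.1
    · have := hx.2
      rw [hval] at this
      exact right_ne_zero_of_mul this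
    · rw [← (ev.symm.subtypeEquiv (p := fun x => d (ev.symm x) = q.one v) (q := fun x =>
        d x = q.one v) fun x => Iff.rfl).tsum_eq fun x => OverPt.val hS PL δ x.1]
      simp only [Equiv.subtypeEquiv_apply, hval, Equiv.apply_symm_apply, scaleKer_apply]
      rw [tsum_mul_left, tsum_mul_left, hsum]
  · simp only [scaleKer_apply] at hne
    rw [tsum_mul_left] at hne
    exact (h q g₀ hg (degK q) (hKshape q).1 (hKshape q).2).1 (right_ne_zero_of_mul hne) a₀ b₀ hg0

/-- **The interface at a nonsplit place away from three.** -/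
theorem locMatch_away (hc : Cyc3 K L σ) (hw : LiesOver K L w v)
    (hσ : mapPlace (σ : L ≃+* L) w = w) (h3 : v.valuation K 3 = 1) (m : ℕ) :
    ∃ M₀ : ℕ, ∀ (SK : Lev K) (SL : Lev L) (hS : Stable (σ : L ≃+* L) SL),
      M₀ ≤ SK.depth v → m + 1 ≤ SL.depth w → ∀ c : ℂ,
      ∃ kK : LKer SK v, ∀ PL : ∀ u : Place L, LKer SL u,
        (∀ a b : GL (Fin 2) L, PL w (a : Vert SL w) (b : Vert SL w)
          = if a⁻¹ * b ∈ U0N (w.valuation L) (m + 1) then c else 0) →
        LocMatch hS v PL kK := by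
  obtain ⟨M₀, hM⟩ := exists_away hc hw hσ h3 m
  refine ⟨M₀, fun SK SL hS hK hL c => ?_⟩
  obtain ⟨kK, hkK⟩ := hM SK SL hS hK hL
  obtain ⟨kL, hkL⟩ := exists_u0Ker (SL := SL) (w := w) hL
  refine ⟨scaleKer c kK, fun PL hPL => locMatch_single hc hw hσ (hkK kL hkL) c PL fun a b => ?_⟩
  obtain ⟨x, rfl⟩ := QuotientGroup.mk_surjective a
  obtain ⟨y, rfl⟩ := QuotientGroup.mk_surjective b
  rw [hPL, hkL]
  split_ifs <;> simp

/-- **The interface at a wildly ramified place over three.** -/
theorem locMatch_wild (hc : Cyc3 K L σ) (hw : LiesOver K L w v) (hσ : mapPlace (σ : L ≃+* L) w = w)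
    (he : ramE v w = 3) (h3 : v.valuation K 3 = WithZero.exp (-2 : ℤ)) :
    ∀ (SK : Lev K) (SL : Lev L) (hS : Stable (σ : L ≃+* L) SL), 4 ≤ SK.depth v → 1 ≤ SL.depth w →
      ∃ kK : LKer SK v, ∀ (u : Lˣ), w.valuation L (u : L) = WithZero.exp (-2 : ℤ) →
        ∀ PL : ∀ u : Place L, LKer SL u,
        (∀ a b : GL (Fin 2) L, PL w (a : Vert SL w) (b : Vert SL w)
          = if ∃ k₁ ∈ U0N (w.valuation L) 1, ∃ k₂ ∈ U0N (w.valuation L) 1,
              a⁻¹ * b = k₁ * upMat u 0 * k₂ then 1 else 0) →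
        LocMatch hS v PL kK := by
  intro SK SL hS hK hL
  obtain ⟨kK, hkK⟩ := exists_wild hc hw hσ he h3 SK SL hS hK hL
  exact ⟨scaleKer 1 kK, fun u hu PL hPL =>
    locMatch_single hc hw hσ (hkK u hu (PL w) hPL) 1 PL fun a b => (one_mul _).symm⟩

end Fermat.LTG.Loc
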