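import Fermat.Agent.LT.LocSplit
import Fermat.Agent.LTG.EllMatch
import Fermat.Agent.LTG.KernComp

/-!
# Split places at levels of arbitrary depth

The small cosets are those of one place above when the depths agree; along the cycle of places the
twisted product becomes the composite kernel at the twisted norm.
-/

set_option autoImplicit false
open Filter Set
open scoped Classical Matrix

namespace Fermat.LTG.Loc

open Fermat.LT

section Map

variable {F : Type*} [Field F] [NumberField F] {E : Type*} [Field E] [NumberField E]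
  {SF : Lev F} {SE : Lev E} {v : Place F} {w : Place E}
  (f : F →+* E) (hf : ∀ x, w.valuation E (f x) = v.valuation F x)

include hf in
/-- Congruence levels are preserved. -/
lemma map_mem_UN_iff (n : ℕ) (g : GL (Fin 2) F) :
    Matrix.GeneralLinearGroup.map f g ∈ UN (w.valuation E) n ↔ g ∈ UN (v.valuation F) n := by
  rcases Nat.eq_zero_or_pos n with rfl | hn
  · rw [UN_zero, UN_zero, map_mem_U0_iff f hf]
  set g' := Matrix.GeneralLinearGroup.map f g with hg'
  have hgf : ∀ i j, (g' : Matrix (Fin 2) (Fin 2) E) i j = f ((g : Matrix (Fin 2) (Fin 2) F) i j) :=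
    fun i j => rfl
  have he : ∀ (d : Fˣ) (i j : Fin 2), ((scal (Units.map (f : F →* E) d) * g' : GL (Fin 2) E) :
      Matrix (Fin 2) (Fin 2) E) i j - (1 : Matrix (Fin 2) (Fin 2) E) i j
      = f (((scal d * g : GL (Fin 2) F) : Matrix (Fin 2) (Fin 2) F) i j
        - (1 : Matrix (Fin 2) (Fin 2) F) i j) := fun d i j => by
    rw [Units.val_mul, Units.val_mul, scal_coe, scal_coe, Matrix.scalar_apply, Matrix.scalar_apply,
      Matrix.diagonal_mul, Matrix.diagonal_mul, map_sub, map_mul, hgf]
    congr 1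
    fin_cases i <;> fin_cases j <;> simp
  have hlt : WithZero.exp (-(n : ℤ)) < (1 : WithZero (Multiplicative ℤ)) := by
    rw [← WithZero.exp_zero, WithZero.exp_lt_exp]; omega
  constructor
  · -- normalise by the upper left entry
    rintro ⟨c, hc⟩
    have h00 := hc.2 0 0
    rw [Units.val_mul, scal_coe, Matrix.scalar_apply, Matrix.diagonal_mul,
      Matrix.one_apply_eq, hgf] at h00
    set a := (g : Matrix (Fin 2) (Fin 2) F) 0 0
    have hu : w.valuation E ((c : E) * f a) = 1 := by
      rw [show (c : E) * f a = 1 +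
        ((c : E) * f a - 1) by ring, Valuation.map_add_eq_of_lt_left, map_one]
      rw [map_one]
      exact h00.trans_lt hlt
    have ha : a ≠ 0 := fun e => by simp [e] at hu
    have hb : ∀ i j, v.valuation F (((scal (Units.mk0 a⁻¹ (inv_ne_zero ha)) * g : GL (Fin 2) F) :
        Matrix (Fin 2) (Fin 2) F) i j - (1 : Matrix (Fin 2) (Fin 2) F) i j) ≤
            WithZero.exp (-(n : ℤ)) := by
      intro i j
      rw [← hf, ← he]
      have hij := hc.2 i j
      rw [Units.val_mul, scal_coe, Matrix.scalar_apply, Matrix.diagonal_mul, hgf] at hij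
      rw [Units.val_mul, scal_coe, Matrix.scalar_apply, Matrix.diagonal_mul, hgf]
      change w.valuation E (f a⁻¹ * _ - _) ≤ _
      rw [show f a⁻¹ * f ((g : Matrix (Fin 2) (Fin 2) F) i j) - (1 : Matrix (Fin 2) (Fin 2) E) i j
          = (((c : E) * f ((g : Matrix (Fin 2) (Fin 2) F) i j) - (1 : Matrix (Fin 2) (Fin 2) E) i j)
            - (1 : Matrix (Fin 2) (Fin 2) E) i j * ((c : E) * f a - 1)) / ((c : E) * f a) by
        have hfa : f a ≠ 0 := (map_ne_zero f).2 ha
        rw [map_inv₀]; field_simp; ring, map_div₀, hu, div_one]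
      refine ((w.valuation E).map_sub _ _).trans (max_le hij ?_)
      rw [map_mul]
      refine (mul_le_of_le_one_left' ?_).trans h00
      fin_cases i <;> fin_cases j <;> simp
    exact ⟨_, (mem_congGL_of_close fun i j => (hb i j).trans_lt hlt).1, hb⟩
  · rintro ⟨d, hd⟩
    -- conversely, map the scalar
    have hb : ∀ i j, w.valuation E (((scal (Units.map (f : F →* E) d) * g' : GL (Fin 2) E) :
        Matrix (Fin 2) (Fin 2) E) i j - (1 : Matrix (Fin 2) (Fin 2) E) i j) ≤
            WithZero.exp (-(n : ℤ)) :=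
      fun i j => by rw [he, hf]; exact hd.2 i j
    exact ⟨_, (mem_congGL_of_close fun i j => (hb i j).trans_lt hlt).1, hb⟩

variable (hd : SF.depth v = SE.depth w)
include hf hd

/-- Levels correspond along the map of local fields. -/
lemma map_mem_lev_iff' (g : GL (Fin 2) F) :
    Matrix.GeneralLinearGroup.map f g ∈ lev SE w ↔ g ∈ lev SF v := by
  rw [lev, lev, ← hd, map_mem_UN_iff f hf]

/-- A map of fields on cosets. -/
noncomputable def fmapV : Vert SF v → Vert SE w :=
  Quotient.map' (Matrix.GeneralLinearGroup.map f) fun a b h => by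
    rw [QuotientGroup.leftRel_apply] at h ⊢
    rw [← map_inv, ← map_mul]
    exact (map_mem_lev_iff' f hf hd _).2 h

/-- The map of cosets on representatives. -/
@[simp] lemma fmapV_mk (g : GL (Fin 2) F) :
    fmapV f hf hd (g : Vert SF v) =
      ((Matrix.GeneralLinearGroup.map f g : GL (Fin 2) E) : Vert SE w) := rfl

/-- The map of cosets is equivariant. -/
lemma fmapV_smul (g : GL (Fin 2) F) (a : Vert SF v) :
    fmapV f hf hd (g • a) = Matrix.GeneralLinearGroup.map f g • fmapV f hf hd a := by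
  obtain ⟨h, rfl⟩ := QuotientGroup.mk_surjective a
  rw [MulAction.Quotient.smul_coe, fmapV_mk, fmapV_mk, MulAction.Quotient.smul_coe, smul_eq_mul,
    smul_eq_mul, map_mul]

/-- The map of cosets is injective. -/
lemma fmapV_injective : Function.Injective (fmapV f hf hd) := fun a b h => by
  obtain ⟨g, rfl⟩ := QuotientGroup.mk_surjective a
  obtain ⟨g', rfl⟩ := QuotientGroup.mk_surjective b
  rw [fmapV_mk, fmapV_mk, QuotientGroup.eq, ← map_inv, ← map_mul, map_mem_lev_iff' f hf hd] at h
  exact QuotientGroup.eq.2 h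

/-- Pull back a kernel. -/
noncomputable def pullV (k : LKer SE w) : LKer SF v where
  toFun a b := k (fmapV f hf hd a) (fmapV f hf hd b)
  invariant g a b := by rw [fmapV_smul, fmapV_smul, k.invariant]
  finite_row a := Set.Finite.preimage (fmapV_injective f hf hd).injOn (k.finite_row _)

/-- The pulled back kernel. -/
lemma pullV_apply (k : LKer SE w) (a b : Vert SF v) :
    pullV f hf hd k a b = k (fmapV f hf hd a) (fmapV f hf hd b) := rfl

end Map

section Split

variable {K L : Type} [Field K] [NumberField K] [Field L] [NumberField L] [Algebra K L]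
  {σ : L ≃ₐ[K] L} {v : Place K} {w : Place L}
  (hw : LiesOver K L w v) (he : ramE v w = 1)
include hw he

variable (hn : pnorm w = pnorm v)
include hn

/-- Every matrix is a small one times a deeply congruent one. -/
lemma exists_smallN (g : GL (Fin 2) L) (n : ℕ) :
    ∃ k : GL (Fin 2) K, g⁻¹ * iGL K L k ∈ congN (w.valuation L) n := by
  set G : Matrix (Fin 2) (Fin 2) L := ((g⁻¹ : GL (Fin 2) L) : Matrix (Fin 2) (Fin 2) L)
  -- approximate the entries of `g` in `K`, beyond the size of `g⁻¹`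
  obtain ⟨m, hm⟩ := exists_entry_bound (w.valuation L) g
  choose k hk using fun i j =>
    LT.Split.exists_close hw he hn ((g : Matrix (Fin 2) (Fin 2) L) i j) (m + n + 1)
  set k' : Matrix (Fin 2) (Fin 2) K := Matrix.of k
  -- then `g⁻¹ k'` is congruent to one
  have hclose : ∀ i j, w.valuation L ((G * k'.map (algebraMap K L)) i j
      - (1 : Matrix (Fin 2) (Fin 2) L) i j) ≤ WithZero.exp (-((n + 1 : ℕ) : ℤ)) := by
    intro i j
    have e : (1 : Matrix (Fin 2) (Fin 2) L) = G * (g : Matrix (Fin 2) (Fin 2) L) := by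
      rw [← Units.val_mul, inv_mul_cancel, Units.val_one]
    rw [e, ← Matrix.sub_apply, ← Matrix.mul_sub, Matrix.mul_apply]
    refine (w.valuation L).map_sum_le fun l _ => ?_
    rw [map_mul, Matrix.sub_apply, Valuation.map_sub_swap]
    refine (mul_le_mul' (hm i l).2 (hk l j)).trans ?_
    rw [← WithZero.exp_add, WithZero.exp_le_exp]
    push_cast; omega
  have hlt : ∀ i j, w.valuation L ((G * k'.map (algebraMap K L)) i j
      - (1 : Matrix (Fin 2) (Fin 2) L) i j) < 1 := fun i j => (hclose i j).trans_lt (by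
    rw [← WithZero.exp_zero, WithZero.exp_lt_exp]; omega)
  -- so its determinant, and that of `k'`, is not zero
  have hdet : k'.det ≠ 0 := by
    intro h0
    have hd : (G * k'.map (algebraMap K L)).det = 0 := by
      rw [Matrix.det_mul, show (k'.map (algebraMap K L)).det = algebraMap K L k'.det from
        (RingHom.map_det _ _).symm, h0, map_zero, mul_zero]
    set M := G * k'.map (algebraMap K L)
    have hM : ∀ i j, w.valuation L (M i j) ≤ 1 := fun i j => by
      rw [← sub_add_cancel (M i j) ((1 : Matrix (Fin 2) (Fin 2) L) i j)]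
      refine ((w.valuation L).map_add _ _).trans (max_le (hlt i j).le ?_)
      fin_cases i <;> fin_cases j <;> simp
    have h00 := hlt 0 0
    have h11 := hlt 1 1
    have h01 := hlt 0 1
    simp only [Matrix.one_apply_eq, Matrix.one_apply_ne (show (0 : Fin 2) ≠ 1 by decide),
      sub_zero] at h00 h11 h01
    rw [Matrix.det_fin_two] at hd
    have h1 : w.valuation L ((M 0 0 - 1) * M 1 1 + (M 1 1 - 1) - M 0 1 * M 1 0) < 1 := by
      refine lt_of_le_of_lt ((w.valuation L).map_sub _ _)
        (max_lt (lt_of_le_of_lt ((w.valuation L).map_add _ _) (max_lt ?_ h11)) ?_)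
      · rw [map_mul]; exact lt_of_le_of_lt (mul_le_of_le_one_right' (hM 1 1)) h00
      · rw [map_mul]; exact lt_of_le_of_lt (mul_le_of_le_one_right' (hM 1 0)) h01
    rw [show (M 0 0 - 1) * M 1 1 + (M 1 1 - 1) - M 0 1 * M 1 0 = -1 by linear_combination hd,
      Valuation.map_neg, map_one] at h1
    exact lt_irrefl _ h1
  refine ⟨Matrix.GeneralLinearGroup.mkOfDetNeZero k' hdet, ?_⟩
  exact congN_anti _ (Nat.le_succ n) ⟨(mem_congGL_of_close hlt).1, hclose⟩

variable {SK : Lev K} {SL : Lev L} (hd : SK.depth v = SL.depth w)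
include hd

/-- The cosets of the small field are those at `w`. -/
noncomputable def vertEqv : Vert SK v ≃ Vert SL w :=
  Equiv.ofBijective (fmapV (algebraMap K L) (LT.Split.val_iota hw he) hd)
    ⟨fmapV_injective _ _ _, fun a => by
      obtain ⟨g, rfl⟩ := QuotientGroup.mk_surjective a
      obtain ⟨k, hk⟩ := exists_smallN hw he hn g (SL.depth w)
      refine ⟨(k : Vert SK v), ?_⟩
      rw [fmapV_mk, eq_comm, QuotientGroup.eq]
      exact mem_UN_of_congN _ hk⟩

/-- The bijection of cosets is the map of cosets. -/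
lemma vertEqv_apply (a : Vert SK v) :
    vertEqv hw he hn hd a = fmapV (algebraMap K L) (LT.Split.val_iota hw he) hd a := rfl

/-- The inverse bijection is equivariant. -/
lemma vertEqv_symm_smul (g : GL (Fin 2) K) (a : Vert SL w) :
    (vertEqv hw he hn hd).symm (iGL K L g • a) = g • (vertEqv hw he hn hd).symm a := by
  rw [Equiv.symm_apply_eq, vertEqv_apply, fmapV_smul, ← vertEqv_apply hw he hn hd,
    Equiv.apply_symm_apply]

end Split

section Cycle

variable {K L : Type} [Field K] [NumberField K] [Field L] [NumberField L] [Algebra K L]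
  {σ : L ≃ₐ[K] L} {v : Place K} {w : Place L}
  (hc : Cyc3 K L σ) (q : QDat K) (hw : LiesOver K L w v) (he : ramE v w = 1)
  (hn : pnorm w = pnorm v) (hmoved : mapPlace (σ : L ≃+* L) w ≠ w)
  {SK : Lev K} {SL : Lev L} (hd : SK.depth v = SL.depth w) (hS : Stable (σ : L ≃+* L) SL)

/-- The degree at a split place. -/
noncomputable def splitDeg (x : OverPt K SL v) : q.Γ v :=
  degK q ((vertEqv hw he hn hd).symm (x ⟨w, hw⟩))

/-- The split degree is equivariant. -/
lemma isOverDeg_splitDeg : IsOverDeg q (splitDeg q hw he hn hd) where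
  smul g hg x := by
    rw [splitDeg, splitDeg, OverPt.smul_apply, vertEqv_symm_smul, ← PG.mk_smul_vert, degK_smul q hg]
  mem x := degK_mem q _

variable (P : ∀ u : Place L, LKer SL u) (δ : GL (Fin 2) L)

/-- A kernel at the second place read at the first. -/
noncomputable def splitK2 : LKer SL w :=
  pullV ((σ : L ≃+* L) : L →+* L) (fun x => valuation_mapPlace (σ : L ≃+* L) w x) (hS w).symm
    (P (mapPlace (σ : L ≃+* L) w))

/-- A kernel at the third place read at the first. -/
noncomputable def splitK3 : LKer SL w :=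
  pullV ((σ : L ≃+* L) : L →+* L) (fun x => valuation_mapPlace (σ : L ≃+* L) w x) (hS w).symm
    (pullV ((σ : L ≃+* L) : L →+* L)
      (fun x => valuation_mapPlace (σ : L ≃+* L) (mapPlace (σ : L ≃+* L) w) x)
      (hS (mapPlace (σ : L ≃+* L) w)).symm
      (P (mapPlace (σ : L ≃+* L) (mapPlace (σ : L ≃+* L) w))))

/-- The composite kernel on the small field. -/
noncomputable def splitKer : LKer SK v :=
  pullV (algebraMap K L) (LT.Split.val_iota hw he) hd
    ((P w).comp ((splitK3 hS P).comp (splitK2 hS P)))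

include hc in
/-- Going round the cycle of places is the identity. -/
lemma amapV_cycle {u₁ u₂ u₃ : Place L} (h₁ : mapPlace (σ : L ≃+* L) u₁ = u₂)
    (h₂ : mapPlace (σ : L ≃+* L) u₂ = u₃) (h₃ : mapPlace (σ : L ≃+* L) u₃ = u₁) (a : Vert SL u₁) :
    Vert.amap hS h₃ (Vert.amap hS h₂ (Vert.amap hS h₁ a)) = a := by
  obtain ⟨g, rfl⟩ := QuotientGroup.mk_surjective a
  rw [Vert.amap_mk, Vert.amap_mk, Vert.amap_mk, mapGL_three hc]

variable (hw2 : LiesOver K L (mapPlace (σ : L ≃+* L) w) v)
  (hw3 : LiesOver K L (mapPlace (σ : L ≃+* L) (mapPlace (σ : L ≃+* L) w)) v)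

/-- The three components read at the first place. -/
noncomputable def splitTriple (hc : Cyc3 K L σ) (x : OverPt K SL v) :
    Vert SL w × Vert SL w × Vert SL w :=
  (x ⟨w, hw⟩,
    Vert.amap hS (show mapPlace (σ : L ≃+* L) (mapPlace (σ : L ≃+* L) (mapPlace (σ : L ≃+* L) w))
    = w from hc.mapPlace_three w) (Vert.amap hS rfl (x ⟨(mapPlace (σ : L ≃+* L) w), hw2⟩)),
    Vert.amap hS (show mapPlace (σ : L ≃+* L) (mapPlace (σ : L ≃+* L) (mapPlace (σ : L ≃+* L) w))
      = w from hc.mapPlace_three w) (x ⟨(mapPlace (σ : L ≃+* L) (mapPlace (σ : L ≃+* L) w)), hw3⟩))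

include hmoved in
/-- Reading the three components at the first place is bijective. -/
lemma splitTriple_bijective :
    Function.Bijective (splitTriple hw hS hw2 hw3 hc : OverPt K SL v → _) := by
  obtain ⟨h21, h31, h32⟩ := LT.Split.distinct hc hmoved
  refine ⟨fun x y h => ?_, fun p => ?_⟩
  · have e1 : x ⟨w, hw⟩ = y ⟨w, hw⟩ := congrArg Prod.fst h
    have e2 := congrArg (fun p : Vert SL w × Vert SL w × Vert SL w =>
      Vert.amap hS (rfl : mapPlace (σ : L ≃+* L) w = (mapPlace (σ : L ≃+* L) w)) p.2.1) h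
    have e3 := congrArg (fun p : Vert SL w × Vert SL w × Vert SL w =>
      Vert.amap hS (rfl : mapPlace (σ : L ≃+* L) (mapPlace (σ : L ≃+* L) w) =
        (mapPlace (σ : L ≃+* L) (mapPlace (σ : L ≃+* L) w)))
        (Vert.amap hS (rfl : mapPlace (σ : L ≃+* L) w = (mapPlace (σ : L ≃+* L) w)) p.2.2)) h
    simp only [splitTriple, amapV_cycle hc hS] at e2 e3
    funext ⟨u, hu⟩
    rcases hc.eq_or_eq_mapPlace hw hu with rfl | rfl | rfl
    exacts [e1, e2, e3]
  · obtain ⟨a, b, c⟩ := p
    let B : OverPt K SL v := OverPt.base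
    let x : OverPt K SL v := Function.update (Function.update (Function.update B ⟨w, hw⟩ a)
      ⟨(mapPlace (σ : L ≃+* L) w), hw2⟩
      (Vert.amap hS rfl b)) ⟨(mapPlace (σ : L ≃+* L) (mapPlace (σ : L ≃+* L) w)), hw3⟩
        (Vert.amap hS rfl
        (Vert.amap hS (rfl : mapPlace (σ : L ≃+* L) w = (mapPlace (σ : L ≃+* L) w)) c))
    refine ⟨x, ?_⟩
    have n12 : (⟨w, hw⟩ : placesOver K L v) ≠ ⟨(mapPlace (σ : L ≃+* L) w), hw2⟩ :=
      fun e => h21 (congrArg Subtype.val e).symm
    have n13 : (⟨w, hw⟩ : placesOver K L v) ≠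
      ⟨(mapPlace (σ : L ≃+* L) (mapPlace (σ : L ≃+* L) w)), hw3⟩ :=
      fun e => h31 (congrArg Subtype.val e).symm
    have n23 : (⟨(mapPlace (σ : L ≃+* L) w), hw2⟩ : placesOver K L v) ≠
      ⟨(mapPlace (σ : L ≃+* L) (mapPlace (σ : L ≃+* L) w)), hw3⟩ :=
      fun e => h32 (congrArg Subtype.val e).symm
    simp only [splitTriple, x, Function.update_self, Function.update_of_ne n12,
      Function.update_of_ne n13, Function.update_of_ne n23, amapV_cycle hc hS]

include hmoved in
/-- The product in the three components. -/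
lemma val_splitTriple (x : OverPt K SL v) :
    OverPt.val hS P δ x
      = (P w) (splitTriple hw hS hw2 hw3 hc x).1 (δ • (splitTriple hw hS hw2 hw3 hc x).2.2)
        * splitK3 hS P (splitTriple hw hS hw2 hw3 hc x).2.2
            (mapGL (σ : L ≃+* L) δ • (splitTriple hw hS hw2 hw3 hc x).2.1)
        * splitK2 hS P (splitTriple hw hS hw2 hw3 hc x).2.1
            (mapGL (σ : L ≃+* L) (mapGL (σ : L ≃+* L) δ) • (splitTriple hw hS hw2 hw3 hc x).1) := by
  obtain ⟨h21, h31, h32⟩ := LT.Split.distinct hc hmoved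
  have h3 : mapPlace (σ : L ≃+* L) (mapPlace (σ : L ≃+* L) (mapPlace (σ : L ≃+* L) w)) = w :=
    hc.mapPlace_three w
  have : Finite (placesOver K L v) := (hc.finite_placesOver v).to_subtype
  let _ := Fintype.ofFinite (placesOver K L v)
  have huniv : (Finset.univ : Finset (placesOver K L v)) =
      {⟨w, hw⟩, ⟨(mapPlace (σ : L ≃+* L) w), hw2⟩,
      ⟨(mapPlace (σ : L ≃+* L) (mapPlace (σ : L ≃+* L) w)), hw3⟩} := by
    refine Finset.ext fun ⟨u, hu⟩ => ?_
    simp only [Finset.mem_univ, Finset.mem_insert, Finset.mem_singleton, Subtype.mk.injEq, true_iff]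
    exact hc.eq_or_eq_mapPlace hw hu
  rw [OverPt.val, finprod_eq_prod_of_fintype, huniv, Finset.prod_insert, Finset.prod_insert,
    Finset.prod_singleton, x.prev_eq hS
      (u := ⟨(mapPlace (σ : L ≃+* L) (mapPlace (σ : L ≃+* L) w)), hw3⟩) (w := ⟨w, hw⟩) h3,
    x.prev_eq hS (u := ⟨w, hw⟩) (w := ⟨(mapPlace (σ : L ≃+* L) w), hw2⟩) rfl,
    x.prev_eq hS (u := ⟨(mapPlace (σ : L ≃+* L) w), hw2⟩)
      (w := ⟨(mapPlace (σ : L ≃+* L) (mapPlace (σ : L ≃+* L) w)), hw3⟩) rfl]
  · rw [mul_assoc, mul_comm ((P (mapPlace (σ : L ≃+* L) w)) _ _)]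
    have f2 : ∀ a b, splitK2 hS P a b =
      P (mapPlace (σ : L ≃+* L) w) (Vert.amap hS rfl a) (Vert.amap hS rfl b) := fun a b => rfl
    have f3 : ∀ a b, splitK3 hS P a b =
        P (mapPlace (σ : L ≃+* L) (mapPlace (σ : L ≃+* L) w))
        (Vert.amap hS rfl
        (Vert.amap hS (rfl : mapPlace (σ : L ≃+* L) w = (mapPlace (σ : L ≃+* L) w)) a))
        (Vert.amap hS rfl (Vert.amap hS (rfl : mapPlace (σ : L ≃+* L) w =
          (mapPlace (σ : L ≃+* L) w)) b)) := fun a b => rfl
    simp only [splitTriple, f2, f3, Vert.amap_smul, amapV_cycle hc hS, mapGL_three hc]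
  · simp only [Finset.mem_singleton, Subtype.mk.injEq]
    exact fun e => h32 e.symm
  · simp only [Finset.mem_insert, Finset.mem_singleton, Subtype.mk.injEq]
    rintro (e | e)
    exacts [h21 e.symm, h31 e.symm]

variable {g₀ : GL (Fin 2) K} {c : Lˣ} (hN : twistN (σ : L ≃+* L) δ = scal c * iGL K L g₀)
  (hg : TReg q.D g₀)
include hc hN hg hmoved hw hw2 hw3 he hn hd hS

/-- A finite set carrying the product. -/
lemma split_support : ∃ A : Finset (Vert SK v),
    (∀ a ∈ A, degK q a = q.one v) ∧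
    ∀ x : OverPt K SL v, splitDeg q hw he hn hd x = q.one v → OverPt.val hS P δ x ≠ 0 →
      (vertEqv hw he hn hd).symm (x ⟨w, hw⟩) ∈ A := by
  obtain ⟨D₁, hD₁⟩ := (P w).exists_lvl_bound
  obtain ⟨D₂, hD₂⟩ := (splitK2 hS P).exists_lvl_bound
  obtain ⟨D₃, hD₃⟩ := (splitK3 hS P).exists_lvl_bound
  refine ⟨(finite_boundedK (S := SK) q (v := v) hg (D₁ + D₃ + D₂)).toFinset, fun a ha =>
    ((Set.Finite.mem_toFinset _).1 ha).1, fun x hdeg hne =>
      (Set.Finite.mem_toFinset _).2 ⟨hdeg, ?_⟩⟩
  rw [val_splitTriple hc hw hmoved hS P δ hw2 hw3] at hne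
  set a := (splitTriple hw hS hw2 hw3 hc x).1
  set b := (splitTriple hw hS hw2 hw3 hc x).2.1
  set c' := (splitTriple hw hS hw2 hw3 hc x).2.2
  set a₀ := (vertEqv hw he hn hd).symm (x ⟨w, hw⟩)
  have hl : ∀ (g : GL (Fin 2) L) (p r : Vert SL w),
      lvl (w.valuation L) (p.out⁻¹ * (g • r).out) = lvl (w.valuation L) (p.out⁻¹ * g * r.out) := by
    intro g p r
    obtain ⟨⟨u, hu⟩, e⟩ := QuotientGroup.mk_out_eq_mul (lev SL w) (g * r.out)
    rw [show g • r = ((g * r.out : GL (Fin 2) L) : Vert SL w) by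
      conv_lhs => rw [← QuotientGroup.out_eq' r]
      rfl, e, ← mul_assoc, ← mul_assoc, lvl_mul_right _ (lev_le_U0 SL w hu)]
  have h1 := hD₁ _ _ (left_ne_zero_of_mul (left_ne_zero_of_mul hne))
  have h2 := hD₃ _ _ (right_ne_zero_of_mul (left_ne_zero_of_mul hne))
  have h3 := hD₂ _ _ (right_ne_zero_of_mul hne)
  rw [hl] at h1 h2 h3
  -- the supports of the kernels bound the level of the twisted norm
  have hh : lvl (w.valuation L) (a.out⁻¹ * twistN (σ : L ≃+* L) δ * a.out) ≤ D₁ + D₃ + D₂ := by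
    rw [show a.out⁻¹ * twistN (σ : L ≃+* L) δ * a.out = (a.out⁻¹ * δ * c'.out) *
        ((c'.out⁻¹ * mapGL (σ : L ≃+* L) δ * b.out)
        * (b.out⁻¹ * mapGL (σ : L ≃+* L) (mapGL (σ : L ≃+* L) δ) * a.out)) by rw [twistN]; group]
    refine (lvl_mul_le _ _ _).trans ?_
    have := lvl_mul_le (w.valuation L) (c'.out⁻¹ * mapGL (σ : L ≃+* L) δ * b.out)
      (b.out⁻¹ * mapGL (σ : L ≃+* L) (mapGL (σ : L ≃+* L) δ) * a.out)
    omega
  have ea : a = ((iGL K L a₀.out : GL (Fin 2) L) : Vert SL w) := by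
    change x ⟨w, hw⟩ = _
    rw [← (vertEqv hw he hn hd).apply_symm_apply (x ⟨w, hw⟩), vertEqv_apply]
    change fmapV (algebraMap K L) (LT.Split.val_iota hw he) hd a₀ = _
    conv_lhs => rw [← QuotientGroup.out_eq' a₀]
    rfl
  -- transfer the bound to `K`
  obtain ⟨⟨u, hu⟩, eu⟩ := QuotientGroup.mk_out_eq_mul (lev SL w) (iGL K L a₀.out)
  rw [ea, eu, hN] at hh
  rw [show (iGL K L a₀.out * u)⁻¹ * (scal c * iGL K L g₀) * (iGL K L a₀.out * u)
      = u⁻¹ * (scal c * iGL K L (a₀.out⁻¹ * g₀ * a₀.out)) * u by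
    rw [map_mul, map_mul, map_inv, mul_inv_rev]
    rw [show (u : GL (Fin 2) L)⁻¹ * (iGL K L a₀.out)⁻¹ * (scal c * iGL K L g₀) *
      (iGL K L a₀.out * u)
      = u⁻¹ * ((iGL K L a₀.out)⁻¹ * scal c * iGL K L g₀ * iGL K L a₀.out) * u by group,
      ← scal_comm c (iGL K L a₀.out)⁻¹]
    group, lvl_mul_right _ (lev_le_U0 SL w hu), lvl_mul_left _ ((U0 _).inv_mem (lev_le_U0 SL w hu)),
    lvl_mul_left _ (scal_mem_withScalars _ c), iGL,
      lvl_map (algebraMap K L) (LT.Split.val_iota hw he)] at hh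
  exact hh

/-- **The split sum.** At a split place the sum over the triples of cosets of trivial degree is the
sum on `K` of `splitKer`, and has finitely many nonzero terms. -/
theorem split_sum_eq :
    {x : OverPt K SL v | splitDeg q hw he hn hd x = q.one v ∧ OverPt.val hS P δ x ≠ 0}.Finite ∧
    ∑' x : {x : OverPt K SL v // splitDeg q hw he hn hd x = q.one v}, OverPt.val hS P δ x.1
      = ∑' a : {a : Vert SK v // degK q a = q.one v}, splitKer hw he hd hS P a.1 (g₀ • a.1) := by
  obtain ⟨A, hA1, hA⟩ := split_support hc q hw he hn hmoved hd hS P δ hw2 hw3 hN hg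
  set e := vertEqv hw he hn hd
  obtain ⟨hfin, hsum⟩ := LT.tsum_cycle_triple (P w) (splitK3 hS P) (splitK2 hS P) (P w).row
    (splitK3 hS P).row LKer.mem_row LKer.mem_row (splitK3 hS P).invariant (splitK2 hS P).invariant
    (δ := δ) (δ' := mapGL (σ : L ≃+* L) δ) (δ'' := mapGL (σ : L ≃+* L) (mapGL (σ : L ≃+* L) δ))
    (g := iGL K L g₀) (fun a => (congrArg (· • a) hN).trans (by rw [mul_smul, scal_smul_vert]))
    (Equiv.ofBijective _ (splitTriple_bijective hc hw hmoved hS hw2 hw3))
    (OverPt.val hS P δ) (val_splitTriple hc hw hmoved hS P δ hw2 hw3)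
    (deg := fun a => degK q (e.symm a) = q.one v) (A.image e)
    (fun a ha => by
      obtain ⟨a₀, ha₀, rfl⟩ := Finset.mem_image.1 ha
      rw [Equiv.symm_apply_apply]; exact hA1 a₀ ha₀)
    fun x hx hne => Finset.mem_image.2 ⟨_, hA x hx hne, e.apply_symm_apply _⟩
  refine ⟨hfin, hsum.trans ?_⟩
  refine ((e.subtypeEquiv fun a => by rw [Equiv.symm_apply_apply]).tsum_eq _).symm.trans
    (tsum_congr fun a => ?_)
  rw [splitKer, pullV_apply, fmapV_smul]
  simp only [← LKer.comp_eq_sum]
  rfl

end Cycle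

/-- **Matching at a split place**: any kernels above, their composite below. -/
theorem locMatch_split {K L : Type} [Field K] [NumberField K] [Field L] [NumberField L]
    [Algebra K L] {σ : L ≃ₐ[K] L} {v : Place K} {w : Place L} (hc : Cyc3 K L σ)
    (hw : LiesOver K L w v) (he : ramE v w = 1) (hn : pnorm w = pnorm v)
    (hmoved : mapPlace (σ : L ≃+* L) w ≠ w) {SK : Lev K} {SL : Lev L} (hd : SK.depth v = SL.depth w)
    (hS : Stable (σ : L ≃+* L) SL) (P : ∀ u : Place L, LKer SL u) :
    LocMatch hS v P (splitKer hw he hd hS P) := by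
  refine LocMatch.of_exists hS v P _ (fun q g₀ δ c hg _ hN => ⟨splitDeg q hw he hn hd,
    isOverDeg_splitDeg q hw he hn hd,
    split_sum_eq hc q hw he hn hmoved hd hS P δ (hw.mapPlace σ) ((hw.mapPlace σ).mapPlace σ) hN hg⟩)
    fun h1 => ?_
  rcases hc.trichotomy hw with ⟨h3, -⟩ | ⟨-, hfix, -⟩
  · omega
  · exact absurd hfix hmoved

end Fermat.LTG.Loc
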