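import Fermat.Agent.LT.Sys.Geo
import Fermat.Agent.LTG.LocPack
import Fermat.Agent.LTG.LocSplit
import Fermat.Agent.LTG.Test

/-!
# Blocks for a given exponent function

Levels deep enough, normalised indicators of `Fˣ Γ₀(p ^ N w)` above, at the wild places over three
the double coset kernel of trace two, and matching kernels below.
-/

set_option autoImplicit false
open Filter Set
open scoped Classical Matrix

namespace Fermat.LTG.Loc

open Fermat.LT

section Kernels

variable {F : Type*} [Field F] [NumberField F] {S : Lev F} {w : Place F}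

/-- The normalised indicator kernel of `Fˣ Γ₀(p ^ N)`. -/
theorem exists_normU0Ker {N : ℕ} (hN : N ≤ S.depth w) :
    ∃ k : LKer S w, ∀ a b : GL (Fin 2) F, k (a : Vert S w) (b : Vert S w)
      = if a⁻¹ * b ∈ U0N (w.valuation F) N then (((lev S w).relIndex (U0N (w.valuation F) N) : ℂ))⁻¹
        else 0 := by
  refine ⟨scaleKer (((lev S w).relIndex (U0N (w.valuation F) N) : ℂ))⁻¹
    (cosKer (U0N (w.valuation F) N) 1 (fun h hh => by simpa using hh) (UN_le_U0N hN)
    (relIndex_U0N_ne_zero w _ _)), fun a b => ?_⟩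
  rw [scaleKer_apply, cosKer_apply_mk]
  simp

/-- The double coset kernel. -/
theorem exists_doubleKer (hS : 1 ≤ S.depth w) {u : Fˣ}
    (hu : w.valuation F (u : F) = WithZero.exp (-2 : ℤ)) :
    ∃ k : LKer S w, ∀ a b : GL (Fin 2) F, k (a : Vert S w) (b : Vert S w)
      = if ∃ k₁ ∈ U0N (w.valuation F) 1, ∃ k₂ ∈ U0N (w.valuation F) 1,
          a⁻¹ * b = k₁ * upMat u 0 * k₂ then 1 else 0 := by
  have hle : lev S w ≤ U0N (w.valuation F) 1 := UN_le_U0N hS
  have key : ∀ x y : GL (Fin 2) F,
      Hyp (w.valuation F) 2 ((x : Vert S w).out⁻¹ * (y : Vert S w).out) ↔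
          Hyp (w.valuation F) 2 (x⁻¹ * y) := by
    intro x y
    obtain ⟨⟨k, hk⟩, e⟩ := QuotientGroup.mk_out_eq_mul (lev S w) x
    obtain ⟨⟨k', hk'⟩, e'⟩ := QuotientGroup.mk_out_eq_mul (lev S w) y
    rw [e, e', show (x * k)⁻¹ * (y * k') = k⁻¹ * (x⁻¹ * y) * k' by group]
    refine ⟨fun h => ?_, fun h => h.mul ((U0N _ 1).inv_mem (hle hk)) (hle hk')⟩
    have := h.mul (hle hk) ((U0N _ 1).inv_mem (hle hk'))
    rwa [show k * (k⁻¹ * (x⁻¹ * y) * k') * k'⁻¹ = x⁻¹ * y by group] at this
  refine ⟨{ toFun := fun a b => if Hyp (w.valuation F) 2 (a.out⁻¹ * b.out) then 1 else 0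
            invariant := fun g a b => ?_
            finite_row := fun a => (finite_hyp_cosets w _ (by norm_num) hu a.out).subset fun b hb =>
              (by_contra fun hne => hb (if_neg hne)) }, fun a b => ?_⟩
  · obtain ⟨x, rfl⟩ := QuotientGroup.mk_surjective a
    obtain ⟨y, rfl⟩ := QuotientGroup.mk_surjective b
    simp only [MulAction.Quotient.smul_coe, smul_eq_mul, key]
    simp [mul_assoc]
  · exact if_congr ((key a b).trans (hyp_iff_double (by norm_num) hu _)) rfl rfl

end Kernels

variable {K L : Type} [Field K] [NumberField K] [Field L] [NumberField L] [Algebra K L]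
  {σ : L ≃ₐ[K] L}

/-- The places of the level below, for exponents `N`. -/
def inLev (N : Place L → ℕ) (v : Place K) : Prop :=
  (∃ w, LiesOver K L w v ∧ N w ≠ 0) ∨ v ∈ ramSet K L ∨ v.valuation K 3 ≠ 1

/-- The places over three fixed by `σ`: the wild places. -/
def IsWild (σ : L ≃ₐ[K] L) (w : Place L) : Prop :=
  mapPlace (σ : L ≃+* L) w = w ∧ (below K w).valuation K 3 ≠ 1

/-- The kernel of a block at `w`: the normalised congruence subgroup, or the double coset of
`diag(u, 1)` at a wild place. -/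
def IsBlockKer (σ : L ≃ₐ[K] L) (N : Place L → ℕ) {T : Lev L} {w : Place L} (u : Lˣ)
    (k : LKer T w) : Prop :=
  (w ∈ T → ¬ IsWild σ w → ∀ a b : GL (Fin 2) L, k (a : Vert T w) (b : Vert T w)
    = if a⁻¹ * b ∈ U0N (w.valuation L) (N w)
      then (((lev T w).relIndex (U0N (w.valuation L) (N w)) : ℂ))⁻¹ else 0) ∧
  (IsWild σ w → ∀ a b : GL (Fin 2) L, k (a : Vert T w) (b : Vert T w)
    = if ∃ k₁ ∈ U0N (w.valuation L) 1, ∃ k₂ ∈ U0N (w.valuation L) 1,
        a⁻¹ * b = k₁ * upMat u 0 * k₂ then 1 else 0)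

/-- The depth needed below `w` to match a kernel at a place away from three fixed by `σ`. -/
noncomputable def matchDepth (hc : Cyc3 K L σ) (N : Place L → ℕ) (w : Place L) : ℕ :=
  if h : mapPlace (σ : L ≃+* L) w = w ∧ (below K w).valuation K 3 = 1 then
    (locMatch_away hc (liesOver_below w) h.1 h.2 (N w - 1)).choose else 0

/-- Block kernels exist at every place. -/
lemma exists_blockKer (N : Place L → ℕ) (T : Lev L) (hNle : ∀ w, N w ≤ T.depth w)
    (hwd : ∀ w, IsWild σ w → 4 ≤ T.depth w) (w : Place L) {u : Lˣ}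
    (hu : w.valuation L (u : L) = WithZero.exp (-2 : ℤ)) :
    ∃ k : LKer T w, IsBlockKer σ N u k := by
  by_cases hw : IsWild σ w
  · obtain ⟨k, hk⟩ := exists_doubleKer (S := T)
      (show 1 ≤ T.depth w by have := hwd w hw; omega) hu
    exact ⟨k, fun _ h => absurd hw h, fun _ => hk⟩
  · obtain ⟨k, hk⟩ := exists_normU0Ker (S := T) (hNle w)
    exact ⟨k, fun _ _ => hk, fun h => absurd h hw⟩

/-- The kernels of a block on the upper field match kernels below when the levels are large. -/
lemma exists_locMatch (hc : Cyc3 K L σ) (N : Place L → ℕ)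
    (hram : ∀ w : Place L, mapPlace (σ : L ≃+* L) w = w → below K w ∈ ramSet K L → 1 ≤ N w)
    (hwild : ∀ w : Place L, IsWild σ w →
      N w = 1 ∧ ramE (below K w) w = 3 ∧ (below K w).valuation K 3 = WithZero.exp (-2 : ℤ))
    {S : Lev K} {T : Lev L} (hstab : Stable (σ : L ≃+* L) T)
    (hTS : ∀ w, T.depth w = S.depth (below K w)) (hmemS : ∀ v, v ∈ S → inLev N v)
    (hmemT : ∀ {v : Place K} {w : Place L}, LiesOver K L w v → (w ∈ T ↔ v ∈ S))
    (hfour : ∀ w, inLev N (below K w) → 4 ≤ T.depth w) (hNle : ∀ w, N w ≤ T.depth w)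
    (hMle : ∀ w, inLev N (below K w) → matchDepth hc N w ≤ T.depth w)
    (u : Place L → Lˣ) (hu : ∀ w : Place L, w.valuation L (u w : L) = WithZero.exp (-2 : ℤ))
    (P : ∀ w, LKer T w) (hP : ∀ w, IsBlockKer σ N (u w) (P w))
    (v : Place K) : ∃ kK : LKer S v, v ∈ S → LocMatch hstab v P kK := by
  by_cases hv : v ∈ S
  swap
  · exact ⟨LKer.one S v, fun h => absurd h hv⟩
  obtain ⟨w, hw⟩ := exists_liesOver (L := L) v
  obtain rfl := liesOver_iff_below.1 hw
  have hd : S.depth (below K w) = T.depth w := (hTS w).symm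
  rcases hc.trichotomy hw with ⟨-, he, hn, hmv⟩ | ⟨-, hσ, he⟩
  · exact ⟨_, fun _ => locMatch_split hc hw he hn hmv hd hstab P⟩
  have hin := hmemS _ hv
  have h4 := hfour w hin
  have hM := hMle w hin
  by_cases h3 : (below K w).valuation K 3 = 1
  · have hN1 : 1 ≤ N w := by
      rcases hin with ⟨w', hw', hne⟩ | h | h
      · rcases hc.eq_or_eq_mapPlace hw hw' with rfl | rfl | rfl
        · omega
        · rw [hσ] at hne; omega
        · rw [hσ, hσ] at hne; omega
      · exact hram w hσ h
      · exact absurd h3 h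
    have hspec := (locMatch_away hc (liesOver_below w) hσ h3 (N w - 1)).choose_spec
    have hMw : matchDepth hc N w = _ := dif_pos (show _ ∧ _ from ⟨hσ, h3⟩)
    obtain ⟨kK, hkK⟩ := hspec S T hstab (by rw [← hMw, hd]; exact hM) (by have := hNle w; omega)
      (((lev T w).relIndex (U0N (w.valuation L) (N w)) : ℂ))⁻¹
    refine ⟨kK, fun _ => hkK P fun a b => ?_⟩
    rw [(hP w).1 ((hmemT hw).2 hv) (fun h => h.2 h3) a b, show N w - 1 + 1 = N w by omega]
  · have hW : IsWild σ w := ⟨hσ, h3⟩
    obtain ⟨-, he3, h32⟩ := hwild w hW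
    obtain ⟨kK, hkK⟩ := locMatch_wild hc hw hσ he3 h32 S T hstab (by rw [hd]; exact h4) (by omega)
    exact ⟨kK, fun _ => hkK (u w) (hu w) P ((hP w).2 hW)⟩

/-- **Blocks exist**: levels above the exponents, the kernels of the multiplicity argument above. -/
theorem exists_block (hc : Cyc3 K L σ) (N : Place L → ℕ) (hN : {w | N w ≠ 0}.Finite)
    (hram : ∀ w : Place L, mapPlace (σ : L ≃+* L) w = w → below K w ∈ ramSet K L → 1 ≤ N w)
    (hwild : ∀ w : Place L, IsWild σ w →
      N w = 1 ∧ ramE (below K w) w = 3 ∧ (below K w).valuation K 3 = WithZero.exp (-2 : ℤ)) :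
    ∃ B : Block K L σ,
      (∀ w, w ∈ B.T ↔ inLev N (below K w)) ∧
      (∀ w, N w ≤ B.T.depth w) ∧
      (∀ w, w ∈ B.T → ¬ IsWild σ w → ∀ a b : GL (Fin 2) L,
        B.locL w (a : Vert B.T w) (b : Vert B.T w)
        = if a⁻¹ * b ∈ U0N (w.valuation L) (N w)
          then (((lev B.T w).relIndex (U0N (w.valuation L) (N w)) : ℂ))⁻¹ else 0) ∧
      (∀ w, IsWild σ w → ∃ u : Lˣ, w.valuation L (u : L) = WithZero.exp (-2 : ℤ) ∧
        ∀ a b : GL (Fin 2) L, B.locL w (a : Vert B.T w) (b : Vert B.T w)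
          = if ∃ k₁ ∈ U0N (w.valuation L) 1, ∃ k₂ ∈ U0N (w.valuation L) 1,
              a⁻¹ * b = k₁ * upMat u 0 * k₂ then 1 else 0) := by
  have : Finite {v : Place K | inLev N v} := by
    have h3 : {v : Place K | v.valuation K 3 ≠ 1}.Finite :=
      eventually_cofinite.1 (eventually_valuation_eq_one (three_ne_zero : (3 : K) ≠ 0))
    refine (((hN.image (below K)).union ((LT.Sys.finite_ramSet (K := K) (L := L)).union h3)).subset
      ?_).to_subtype
    rintro v (⟨w, hw, hne⟩ | h | h)
    · exact Or.inl ⟨w, hne, liesOver_iff_below.1 hw⟩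
    · exact Or.inr (Or.inl h)
    · exact Or.inr (Or.inr h)
  -- bounds from the matching
  set M : Place L → ℕ := matchDepth hc N
  set D : Place K → ℕ := fun v => if inLev N v then
    max 4 ((hc.finite_placesOver v).toFinset.sup fun w => max (N w) (M w)) else 0
  let S : Lev K := ⟨D, (Set.toFinite {v : Place K | inLev N v}).subset fun v hv => by
    by_contra h; exact hv (if_neg h)⟩
  let T : Lev L := ⟨fun w => D (below K w), by
    refine ((Set.toFinite {v : Place K | inLev N v}).biUnion fun v _ =>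
      hc.finite_placesOver v).subset
      fun w hw => Set.mem_biUnion (x := below K w) ?_ (liesOver_below w)
    by_contra h; exact hw (if_neg h)⟩
  have hmemS : ∀ v, v ∈ S ↔ inLev N v := fun v => by
    change D v ≠ 0 ↔ _
    by_cases h : inLev N v <;> simp [D, h]
  have hmemT : ∀ {v : Place K} {w : Place L}, LiesOver K L w v → (w ∈ T ↔ v ∈ S) :=
      fun {v w} h => by
    change D (below K w) ≠ 0 ↔ D v ≠ 0
    rw [liesOver_iff_below.1 h]
  have hstab : Stable (σ : L ≃+* L) T := fun w => by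
    change D (below K (mapPlace (σ : L ≃+* L) w)) = D (below K w)
    rw [liesOver_iff_below.1 ((liesOver_below w).mapPlace σ)]
  have hbound : ∀ w, inLev N (below K w) →
      4 ≤ T.depth w ∧ N w ≤ T.depth w ∧ M w ≤ T.depth w := by
    intro w hw
    have hmem : w ∈ (hc.finite_placesOver (below K w)).toFinset :=
      (Set.Finite.mem_toFinset _).2 (liesOver_below w)
    have := Finset.le_sup (f := fun w => max (N w) (M w)) hmem
    change 4 ≤ D _ ∧ N w ≤ D _ ∧ M w ≤ D _
    simp only [D, if_pos hw]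
    simp only [le_max_iff, max_le_iff] at this ⊢
    omega
  choose h4le hNle' hMle using hbound
  have hNle : ∀ w, N w ≤ T.depth w := fun w => by
    by_cases h : N w = 0
    · omega
    · exact hNle' w (Or.inl ⟨w, liesOver_below w, h⟩)
  have hex : ∀ w : Place L, ∃ u : Lˣ, w.valuation L (u : L) = WithZero.exp (-2 : ℤ) := fun w => by
    refine ⟨Units.mk0 (unifAt w)
      (fun h => WithZero.exp_ne_zero ((unifAt_spec w).symm.trans (by rw [h, map_zero]))) ^ 2, ?_⟩
    rw [Units.val_pow_eq_pow_val, map_pow, Units.val_mk0, unifAt_spec, ← WithZero.exp_nsmul]; rfl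
  choose u hu using hex
  have hPex := fun w => exists_blockKer (σ := σ) N T hNle
    (fun w hw => h4le w (Or.inr (Or.inr hw.2))) w (hu w)
  choose P hP using hPex
  have hKex : ∀ v : Place K, ∃ kK : LKer S v, v ∈ S → LocMatch hstab v P kK :=
    exists_locMatch hc N hram hwild hstab (fun _ => rfl) (fun v hv => (hmemS v).1 hv) hmemT
      h4le hNle
      hMle u hu P hP
  choose kK hkK using hKex
  let B : Block K L σ :=
    { S := S
      T := T
      stable := hstab
      mem_iff := hmemT
      ram_mem := fun v hv => (hmemS v).2 (Or.inr (Or.inl hv))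
      three_mem := fun v hv => (hmemS v).2 (Or.inr (Or.inr hv))
      locK := kK
      locL := P
      matched := hkK }
  exact ⟨B, fun w => (hmemT (liesOver_below w)).trans (hmemS _), hNle,
    fun w hw hn => (hP w).1 hw hn, fun w hw => ⟨u w, hu w, (hP w).2 hw⟩⟩

end Fermat.LTG.Loc
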