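import Mathlib

/-!
# Fibre counts of degree maps

Two equivariant degree maps for an abelian torus give fibres of the same size in every stable set;
hence counts through a map with constant fibres do not depend on the chosen degree.
-/

set_option autoImplicit false
open scoped Classical

namespace Fermat.LTG.Loc

variable {M X Y Γ : Type*} [Group M] [MulAction M X] [MulAction M Y] [MulAction M Γ]
  {T : Subgroup M}

/-- An equivariant map to the orbit of `o`. -/
structure IsDeg (T : Subgroup M) (o : Γ) (d : X → Γ) : Prop where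
  /-- The map is equivariant for `T`. -/
  smul : ∀ t ∈ T, ∀ x, d (t • x) = t • d x
  /-- Every value lies in the orbit of `o`. -/
  mem : ∀ x, ∃ t ∈ T, d x = t • o

/-- A degree composed with an equivariant map is a degree. -/
lemma IsDeg.comp {o : Γ} {d : X → Γ} (h : IsDeg T o d) {p : Y → X}
    (hp : ∀ t ∈ T, ∀ y, p (t • y) = t • p y) : IsDeg T o (d ∘ p) where
  smul t ht y := by simp [hp t ht, h.smul t ht]
  mem y := h.mem (p y)

/-- **Two degrees, equivalent fibres.** Two degree maps for an abelian torus have equinumerous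
fibres over `o` in every stable set. -/
theorem exists_equiv_fibre (hT : ∀ a ∈ T, ∀ b ∈ T, a * b = b * a) {o : Γ} {d d' : X → Γ}
    (hd : IsDeg T o d) (hd' : IsDeg T o d') {S : Set X} (hS : ∀ t ∈ T, ∀ x ∈ S, t • x ∈ S) :
    Nonempty ({x : X // x ∈ S ∧ d x = o} ≃ {x : X // x ∈ S ∧ d' x = o}) := by
  let C : X → Set M := fun x => {g | g ∈ T ∧ g • d' x = d x}
  have hne : ∀ x, (C x).Nonempty := fun x => by
    obtain ⟨a, ha, ea⟩ := hd.mem x
    obtain ⟨b, hb, eb⟩ := hd'.mem x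
    exact ⟨a * b⁻¹, T.mul_mem ha (T.inv_mem hb), by rw [eb, ea, smul_smul, inv_mul_cancel_right]⟩
  let sh : Set M → M := fun s => if h : s.Nonempty then h.some else 1
  have hsh : ∀ x, sh (C x) ∈ T ∧ sh (C x) • d' x = d x := fun x => by
    have := (hne x).some_mem
    simp only [sh, dif_pos (hne x)]
    exact this
  have hinv : ∀ t ∈ T, ∀ x, C (t • x) = C x := fun t ht x => by
    ext g
    refine and_congr_right fun hg => ?_
    rw [hd.smul t ht, hd'.smul t ht, smul_smul, hT g hg t ht, ← smul_smul, smul_left_cancel_iff]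
  refine ⟨{
    toFun := fun x => ⟨sh (C x.1) • x.1, hS _ (hsh x.1).1 _ x.2.1, ?_⟩
    invFun := fun y => ⟨(sh (C y.1))⁻¹ • y.1, hS _ (T.inv_mem (hsh y.1).1) _ y.2.1, ?_⟩
    left_inv := fun x => Subtype.ext ?_
    right_inv := fun y => Subtype.ext ?_ }⟩
  · rw [hd'.smul _ (hsh x.1).1, (hsh x.1).2, x.2.2]
  · rw [hd.smul _ (T.inv_mem (hsh y.1).1), inv_smul_eq_iff]
    exact (hsh y.1).2.symm.trans (congrArg _ y.2.2)
  · dsimp only
    rw [hinv _ (hsh x.1).1, inv_smul_smul]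
  · dsimp only
    rw [hinv _ (T.inv_mem (hsh y.1).1), smul_inv_smul]

/-- Pulling back along a map with fibres of size `n`. -/
theorem exists_equiv_preimage {p : Y → X} {n : ℕ} (hn : n ≠ 0)
    (hcard : ∀ x, Nat.card {y // p y = x} = n) (P : X → Prop) :
    Nonempty ({y : Y // P (p y)} ≃ {x : X // P x} × Fin n) := by
  have hfin : ∀ x, Finite {y // p y = x} := fun x =>
    Nat.finite_of_card_ne_zero (by rw [hcard]; exact hn)
  let e : ∀ x, {y // p y = x} ≃ Fin n := fun x =>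
    (Finite.equivFinOfCardEq (hcard x))
  refine ⟨{
    toFun := fun y => (⟨p y.1, y.2⟩, e (p y.1) ⟨y.1, rfl⟩)
    invFun := fun z => ⟨((e z.1.1).symm z.2).1, by rw [((e z.1.1).symm z.2).2]; exact z.1.2⟩
    left_inv := fun y => Subtype.ext (by simp)
    right_inv := ?_ }⟩
  rintro ⟨⟨x, hx⟩, i⟩
  have key : ∀ (z : Y) (x : X) (h : p z = x), e (p z) ⟨z, rfl⟩ = e x ⟨z, h⟩ := by
    intro z x h; subst h; rfl
  exact Prod.ext (Subtype.ext ((e x).symm i).2)
    ((key _ x ((e x).symm i).2).trans ((e x).apply_symm_apply i))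

section Count

variable {X' Y' : Type*} [MulAction M X'] [MulAction M Y']

/-- **Counting through a matching of supports.** -/
theorem exists_equiv_count (hT : ∀ a ∈ T, ∀ b ∈ T, a * b = b * a) {o : Γ}
    {pX : X' → X} (hpX : ∀ t ∈ T, ∀ x, pX (t • x) = t • pX x) {nX : ℕ} (hnX : nX ≠ 0)
    (hcX : ∀ x, Nat.card {y // pX y = x} = nX)
    {pY : Y' → Y} (hpY : ∀ t ∈ T, ∀ x, pY (t • x) = t • pY x) {nY : ℕ} (hnY : nY ≠ 0)
    (hcY : ∀ x, Nat.card {y // pY y = x} = nY)
    {SX : Set X} {SY : Set Y} (hSX : ∀ t ∈ T, ∀ x ∈ SX, t • x ∈ SX)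
    (hSY : ∀ t ∈ T, ∀ y ∈ SY, t • y ∈ SY)
    {f : X → Y} (hf : ∀ t ∈ T, ∀ x, f (t • x) = t • f x) (hbij : Set.BijOn f SX SY)
    {d : X → Γ} (hd : IsDeg T o d) {dX : X' → Γ} (hdX : IsDeg T o dX)
    {dY : Y' → Γ} (hdY : IsDeg T o dY) :
    Nonempty ({x : X' // pX x ∈ SX ∧ dX x = o} × Fin nY ≃
      {y : Y' // pY y ∈ SY ∧ dY y = o} × Fin nX) := by
  let back : ∀ y : Y', pY y ∈ SY → X := fun y h => (hbij.2.2 h).choose
  have hback : ∀ y h, back y h ∈ SX ∧ f (back y h) = pY y := fun y h => (hbij.2.2 h).choose_spec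
  let d' : Y' → Γ := fun y => if h : pY y ∈ SY then d (back y h) else dY y
  have hst : ∀ t ∈ T, ∀ y, pY (t • y) ∈ SY ↔ pY y ∈ SY := fun t ht y => by
    rw [hpY t ht]
    exact ⟨fun h => by simpa using hSY _ (T.inv_mem ht) _ h, hSY t ht _⟩
  have hd'' : IsDeg T o d' := by
    constructor
    · intro t ht y
      by_cases h : pY y ∈ SY
      · have h' := (hst t ht y).2 h
        simp only [d', dif_pos h, dif_pos h']
        rw [← hd.smul t ht]
        refine congrArg d (hbij.2.1 (hback _ h').1 (hSX t ht _ (hback y h).1) ?_)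
        rw [(hback _ h').2, hf t ht, (hback y h).2, hpY t ht]
      · simp only [d', dif_neg h, dif_neg (mt (hst t ht y).1 h)]
        exact hdY.smul t ht y
    · intro y
      by_cases h : pY y ∈ SY
      · simp only [d', dif_pos h]; exact hd.mem _
      · simp only [d', dif_neg h]; exact hdY.mem _
  obtain ⟨e1⟩ := exists_equiv_fibre hT (hd.comp hpX) hdX
    (S := pX ⁻¹' SX) fun t ht x hx => by rw [Set.mem_preimage, hpX t ht]; exact hSX t ht _ hx
  obtain ⟨e2⟩ := exists_equiv_fibre hT hd'' hdY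
    (S := pY ⁻¹' SY) fun t ht x hx => by rw [Set.mem_preimage, hpY t ht]; exact hSY t ht _ hx
  obtain ⟨e3⟩ := exists_equiv_preimage hnX hcX fun x => x ∈ SX ∧ d x = o
  -- the degree on the preimage of the large support comes from the small one
  let Q : Y → Prop := fun y => ∃ x ∈ SX, f x = y ∧ d x = o
  have hQ : ∀ y, (pY y ∈ SY ∧ d' y = o) ↔ Q (pY y) := fun y => by
    constructor
    · rintro ⟨h, h0⟩
      simp only [d', dif_pos h] at h0
      exact ⟨_, (hback y h).1, (hback y h).2, h0⟩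
    · rintro ⟨x, hx, hfx, h0⟩
      have h : pY y ∈ SY := hfx ▸ hbij.1 hx
      refine ⟨h, ?_⟩
      simp only [d', dif_pos h]
      rwa [hbij.2.1 (hback y h).1 hx ((hback y h).2.trans hfx.symm)]
  obtain ⟨e4⟩ := exists_equiv_preimage hnY hcY Q
  let ef : {x : X // x ∈ SX ∧ d x = o} ≃ {y : Y // Q y} :=
    Equiv.ofBijective (fun x => ⟨f x.1, x.1, x.2.1, rfl, x.2.2⟩) ⟨fun a b h => Subtype.ext
      (hbij.2.1 a.2.1 b.2.1 (congrArg Subtype.val h)), by
        rintro ⟨y, x, hx, rfl, h0⟩; exact ⟨⟨x, hx, h0⟩, rfl⟩⟩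
  let E2 : {y : Y' // Q (pY y)} ≃ {y : Y' // pY y ∈ SY ∧ dY y = o} :=
    (Equiv.subtypeEquivRight fun y => (hQ y).symm).trans e2
  let E1 : {x : X' // pX x ∈ SX ∧ dX x = o} ≃ {x : X // x ∈ SX ∧ d x = o} × Fin nX :=
    e1.symm.trans e3
  let E3 : {y : Y' // pY y ∈ SY ∧ dY y = o} ≃ {x : X // x ∈ SX ∧ d x = o} × Fin nY :=
    (E2.symm.trans e4).trans (ef.symm.prodCongr (Equiv.refl _))
  exact ⟨((E1.prodCongr (Equiv.refl _)).trans (Equiv.prodAssoc _ _ _)).trans
    ((((Equiv.refl _).prodCongr (Equiv.prodComm _ _)).trans (Equiv.prodAssoc _ _ _).symm).trans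
      (E3.symm.prodCongr (Equiv.refl _)))⟩

end Count

section Sum

/-- A sum of an indicator is a count. -/
lemma tsum_indicator_eq_card {Z : Type*} (P Q : Z → Prop) [Finite {z : Z // Q z ∧ P z}] :
    ∑' z : {z : Z // P z}, (if Q z.1 then (1 : ℂ) else 0) =
      (Nat.card {z : Z // Q z ∧ P z} : ℂ) := by
  have hfin : {z : {z : Z // P z} | Q z.1}.Finite := by
    refine Set.finite_coe_iff.1 (Finite.of_injective
      (fun z : {z : {z : Z // P z} // Q z.1} => (⟨z.1.1, z.2, z.1.2⟩ : {z : Z // Q z ∧ P z})) ?_)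
    intro a b h
    exact Subtype.ext (Subtype.ext (congrArg (fun c => c.1) h))
  rw [tsum_eq_sum (s := hfin.toFinset) fun z hz => if_neg (by simpa using hz),
    Finset.sum_congr rfl fun z (hz : z ∈ hfin.toFinset) => if_pos (by simpa using hz),
    Finset.sum_const, nsmul_eq_mul, mul_one, ← Nat.card_eq_card_finite_toFinset hfin]
  congr 1
  exact Nat.card_congr ⟨fun z => ⟨z.1.1, z.2, z.1.2⟩, fun z => ⟨⟨z.1, z.2.2⟩, z.2.1⟩,
    fun _ => rfl, fun _ => rfl⟩

variable {X' Y' : Type*} [MulAction M X'] [MulAction M Y']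

/-- **Sums through a matching of supports.** -/
theorem tsum_match (hT : ∀ a ∈ T, ∀ b ∈ T, a * b = b * a) {o : Γ}
    {pX : X' → X} (hpX : ∀ t ∈ T, ∀ x, pX (t • x) = t • pX x) {nX : ℕ} (hnX : nX ≠ 0)
    (hcX : ∀ x, Nat.card {y // pX y = x} = nX)
    {pY : Y' → Y} (hpY : ∀ t ∈ T, ∀ x, pY (t • x) = t • pY x) {nY : ℕ} (hnY : nY ≠ 0)
    (hcY : ∀ x, Nat.card {y // pY y = x} = nY)
    {SX : Set X} {SY : Set Y} (hSX : ∀ t ∈ T, ∀ x ∈ SX, t • x ∈ SX)
    (hSY : ∀ t ∈ T, ∀ y ∈ SY, t • y ∈ SY)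
    {f : X → Y} (hf : ∀ t ∈ T, ∀ x, f (t • x) = t • f x) (hbij : Set.BijOn f SX SY)
    {d : X → Γ} (hd : IsDeg T o d) {dX : X' → Γ} (hdX : IsDeg T o dX)
    {dY : Y' → Γ} (hdY : IsDeg T o dY) (hfin : {x | pX x ∈ SX ∧ dX x = o}.Finite) :
    {y | pY y ∈ SY ∧ dY y = o}.Finite ∧
      ∑' y : {y : Y' // dY y = o}, (if pY y.1 ∈ SY then (1 : ℂ) else 0)
        = (nY : ℂ) / (nX : ℂ) * ∑' x : {x : X' // dX x = o},
          (if pX x.1 ∈ SX then (1 : ℂ) else 0) := by
  obtain ⟨e⟩ := exists_equiv_count hT hpX hnX hcX hpY hnY hcY hSX hSY hf hbij hd hdX hdY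
  have : Finite {x : X' // pX x ∈ SX ∧ dX x = o} := hfin.to_subtype
  have : Nonempty (Fin nX) := ⟨⟨0, Nat.pos_of_ne_zero hnX⟩⟩
  have : Finite ({y : Y' // pY y ∈ SY ∧ dY y = o} × Fin nX) := Finite.of_equiv _ e
  have hY : Finite {y : Y' // pY y ∈ SY ∧ dY y = o} := Finite.prod_left (Fin nX)
  refine ⟨Set.finite_coe_iff.1 hY, ?_⟩
  rw [tsum_indicator_eq_card (fun y => dY y = o) fun y => pY y ∈ SY,
    tsum_indicator_eq_card (fun x => dX x = o) fun x => pX x ∈ SX]
  have h := Nat.card_congr e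
  simp only [Nat.card_prod, Nat.card_eq_fintype_card, Fintype.card_fin] at h
  field_simp
  rw [← Nat.cast_mul, ← Nat.cast_mul, mul_comm (nY : ℕ), h]

end Sum

/-- The fibres of the projection of cosets have the relative index as cardinal. -/
lemma card_fibre_quotient {G : Type*} [Group G] {A B : Subgroup G} (h : A ≤ B) (x : G ⧸ B) :
    Nat.card {y : G ⧸ A // Subgroup.quotientMapOfLE h y = x} = A.relIndex B := by
  obtain ⟨g, rfl⟩ := QuotientGroup.mk_surjective x
  rw [Subgroup.relIndex, Subgroup.index]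
  symm
  refine Nat.card_congr (Equiv.ofBijective (fun b => Quotient.liftOn' b
    (fun b : B => (⟨((g * b : G) : G ⧸ A), QuotientGroup.eq.2 (by simp)⟩ :
      {y : G ⧸ A // Subgroup.quotientMapOfLE h y = (g : G ⧸ B)})) ?_) ⟨?_, ?_⟩)
  · intro b b' hb
    rw [QuotientGroup.leftRel_apply, Subgroup.mem_subgroupOf] at hb
    refine Subtype.ext (QuotientGroup.eq.2 ?_)
    simpa [mul_assoc] using hb
  · intro b b' hb
    obtain ⟨b, rfl⟩ := QuotientGroup.mk_surjective b
    obtain ⟨b', rfl⟩ := QuotientGroup.mk_surjective b'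
    have h' : ((g * b : G) : G ⧸ A) = ((g * b' : G) : G ⧸ A) := congrArg Subtype.val hb
    rw [QuotientGroup.eq] at h' ⊢
    rw [Subgroup.mem_subgroupOf]
    simpa [mul_assoc] using h'
  · rintro ⟨y, hy⟩
    obtain ⟨k, rfl⟩ := QuotientGroup.mk_surjective y
    have hk : g⁻¹ * k ∈ B := by
      have := QuotientGroup.eq.1 hy
      simpa using B.inv_mem this
    refine ⟨((⟨g⁻¹ * k, hk⟩ : B) : B ⧸ A.subgroupOf B), Subtype.ext ?_⟩
    change ((g * (g⁻¹ * k) : G) : G ⧸ A) = _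
    rw [mul_inv_cancel_left]

end Fermat.LTG.Loc
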