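import Fermat.Agent.LTG.LocFam
import Fermat.Agent.LTG.LocFib

/-!
# The matching of local kernels at a nonsplit place away from three

`exists_match` pairs the class `diag(t,1) H` over `E` with a class `diag(s,1) H'` over `F`;
`tsum_twisted` is the resulting equality of fibre sums for any levels and any degree maps.
-/

set_option autoImplicit false
open scoped Matrix Classical

namespace Fermat.LTG.Loc

open Fermat.LT

variable {F : Type*} [Field F] {E : Type*} [Field E] {v : Valuation F (WithZero (Multiplicative ℤ))}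
  {w : Valuation E (WithZero (Multiplicative ℤ))} (C : CycExt v w)

/-- The rational group below the lattice group. -/
noncomputable def HK (k : ℤ) (m : ℕ) : Subgroup (GL (Fin 2) F) := (boxH w k m).comap (iG C)

/-- Rational cosets `a` with `a⁻¹ g a` in the class of `s`. -/
def KSet (k : ℤ) (m : ℕ) (s : Fˣ) (g₁ : GL (Fin 2) F) : Set (GL (Fin 2) F ⧸ HK C k m) :=
  {X | PPt C k m s g₁ (iG C X.out)}

/-- Cosets `x` with `x⁻¹ δ σ(x)` in the class of `t`. -/
def LSet (k : ℤ) (m : ℕ) (t : Eˣ) (δ : GL (Fin 2) E) : Set (GL (Fin 2) E ⧸ boxH w k m) :=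
  {X | LPt C k m t δ X.out}

variable {C}

/-- The rational support in terms of a representative. -/
lemma mk_mem_KSet {k : ℤ} {m : ℕ} {s : Fˣ} (hs : v (s : F) = 1) {g₁ : GL (Fin 2) F}
    {a : GL (Fin 2) F} :
    (a : GL (Fin 2) F ⧸ HK C k m) ∈ KSet C k m s g₁ ↔ PPt C k m s g₁ (iG C a) := by
  obtain ⟨⟨h, hh⟩, e⟩ := QuotientGroup.mk_out_eq_mul (HK C k m) a
  change PPt C k m s g₁ (iG C (a : GL (Fin 2) F ⧸ HK C k m).out) ↔ _
  rw [e, map_mul]
  refine ⟨fun h' => ?_, fun h' => h'.mul_right hs hh⟩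
  have := h'.mul_right hs ((boxH w k m).inv_mem (show iG C h ∈ boxH w k m from hh))
  rwa [mul_inv_cancel_right] at this

/-- The twisted support condition is constant on cosets. -/
lemma LPt.mul_right {k : ℤ} {m : ℕ} {t : Eˣ} (ht : w t = 1) {δ x h : GL (Fin 2) E}
    (hx : LPt C k m t δ x) (hh : h ∈ boxH w k m) : LPt C k m t δ (x * h) := by
  have h1 : Cos w k m t (h⁻¹ * (x⁻¹ * δ * sG C x)) := by
    have := (cos_one_iff.2 ((boxH w k m).inv_mem hh)).mul ht hx
    rwa [one_mul] at this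
  rw [LPt, map_mul, show (x * h)⁻¹ * δ * (sG C x * sG C h) = h⁻¹ * (x⁻¹ * δ * sG C x) *
    sG C h by group, cos_mul_iff (map_mem_boxH C.hs hh)]
  exact h1

/-- Membership in the twisted support via a representative. -/
lemma mk_mem_LSet {k : ℤ} {m : ℕ} {t : Eˣ} (ht : w t = 1) {δ x : GL (Fin 2) E} :
    (x : GL (Fin 2) E ⧸ boxH w k m) ∈ LSet C k m t δ ↔ LPt C k m t δ x := by
  obtain ⟨⟨h, hh⟩, e⟩ := QuotientGroup.mk_out_eq_mul (boxH w k m) x
  change LPt C k m t δ (x : GL (Fin 2) E ⧸ boxH w k m).out ↔ _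
  rw [e]
  refine ⟨fun h' => ?_, fun h' => h'.mul_right ht hh⟩
  have := h'.mul_right ht ((boxH w k m).inv_mem hh)
  rwa [mul_inv_cancel_right] at this

/-- Moving `t` along `b / σ b` moves the lattice. -/
lemma cos_translate {k : ℤ} {m : ℕ} {t b : Eˣ} {β : ℤ} (hb : w b = WithZero.exp β)
    (a : GL (Fin 2) E) :
    Cos w k m t ((dg1 b)⁻¹ * a * dg1 (sU C b)) ↔ Cos w (k + β) m (t * b / sU C b) a := by
  have hu : w ((sU C b / b : Eˣ) : E) = 1 := by
    rw [Units.val_div_eq_div_val, map_div₀, w_sU, div_self (w.ne_zero_iff.2 b.ne_zero)]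
  have key : ∀ g, g ∈ boxH w k m ↔ dg1 b * g * (dg1 b)⁻¹ ∈ boxH w (k + β) m := by
    refine fun g => ⟨dg1_conj_mem hb, fun h => ?_⟩
    have := dg1_conj_mem (b := b⁻¹) (β := -β)
      (by rw [Units.val_inv_eq_inv_val, map_inv₀, hb, WithZero.exp_neg]) h
    rw [map_inv, inv_inv, show k + β + -β = k by ring] at this
    rwa [show (dg1 b)⁻¹ * (dg1 b * g * (dg1 b)⁻¹) * dg1 b = g by group] at this
  rw [Cos, key, Cos, show dg1 b * ((dg1 t)⁻¹ * ((dg1 b)⁻¹ * a * dg1 (sU C b))) * (dg1 b)⁻¹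
      = (dg1 b * ((dg1 t)⁻¹ * (dg1 b)⁻¹)) * a * (dg1 (sU C b) * (dg1 b)⁻¹) by group,
    show dg1 b * ((dg1 t)⁻¹ * (dg1 b)⁻¹) = (dg1 t)⁻¹ by
      rw [← map_inv, ← map_inv, ← map_mul, ← map_mul];
        congr 1; rw [mul_comm t⁻¹, mul_inv_cancel_left],
    ← map_inv dg1 b, ← map_mul, ← div_eq_mul_inv]
  constructor
  · intro h
    have := dg1_conj_mem_unit hu h
    rwa [show dg1 (sU C b / b) * ((dg1 t)⁻¹ * a * dg1 (sU C b / b)) * (dg1 (sU C b / b))⁻¹
      = dg1 (sU C b / b) * (dg1 t)⁻¹ * a by group,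
      show dg1 (sU C b / b) * (dg1 t)⁻¹ = (dg1 (t * b / sU C b))⁻¹ by
        rw [← map_inv, ← map_inv, ← map_mul]; congr 1; simp [div_eq_mul_inv, mul_comm,
            mul_assoc]] at this
  · intro h
    have := dg1_conj_unit' hu h
    rwa [show (dg1 (sU C b / b))⁻¹ * ((dg1 (t * b / sU C b))⁻¹ * a)
      = ((dg1 (sU C b / b))⁻¹ * (dg1 (t * b / sU C b))⁻¹) * a by group,
      show (dg1 (sU C b / b))⁻¹ * (dg1 (t * b / sU C b))⁻¹ = (dg1 t)⁻¹ by
        rw [← map_inv, ← map_inv, ← map_inv, ← map_mul]; congr 1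
        simp [div_eq_mul_inv, mul_comm, mul_left_comm, mul_assoc]] at this

variable (L : LocDat C)

include L in
/-- The matching from a class whose family exists. -/
theorem exists_map {k k' : ℤ} {m : ℕ} {t t' b : Eˣ} {s : Fˣ} {β : ℤ} (hb : w b = WithZero.exp β)
    (hk : k' = k + β) (ht : w t = 1) (ht' : w t' = 1) (hs : v (s : F) = 1)
    (htt : w (((t * b / sU C b : Eˣ) : E) / t' - 1) < 1)
    (hts : uC C s = t' * sU C t' * sU C (sU C t')) {D : F} {g₁ : GL (Fin 2) F} (hg : TReg D g₁)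
    (hfam : ∀ x, PPt C k' m s g₁ x → Fam C k' m D s t' g₁)
    {δ : GL (Fin 2) E} (hδ : δ ∈ tTor (C.ι D)) {c₀ : Eˣ} (hN : twN C δ = scal c₀ * iG C g₁) :
    ∃ f : GL (Fin 2) F ⧸ HK C k' m → GL (Fin 2) E ⧸ boxH w k m,
      (∀ h ∈ tTor D, ∀ X, f (h • X) = iG C h • f X) ∧
      Set.BijOn f (KSet C k' m s g₁) (LSet C k m t δ) := by
  -- the condition on the large side, moved
  have hmove : ∀ y, LPt C k m t δ (y * dg1 b) ↔ LPt C k' m t' δ y := fun y => by
    rw [LPt, LPt, map_mul, show sG C (dg1 b) = dg1 (sU C b) from map_dg1 _ b,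
      show (y * dg1 b)⁻¹ * δ * (sG C y * dg1 (sU C b)) =
        (dg1 b)⁻¹ * (y⁻¹ * δ * sG C y) * dg1 (sU C b) by group,
      cos_translate hb, ← hk, cos_congr htt]
  have hdesc : ∀ h, h ∈ HK C k' m → (dg1 b)⁻¹ * iG C h * dg1 b ∈ boxH w k m := fun h hh => by
    have := dg1_conj_mem (b := b⁻¹) (β := -β)
      (by rw [Units.val_inv_eq_inv_val, map_inv₀, hb, WithZero.exp_neg])
        (show iG C h ∈ boxH w k' m from hh)
    rwa [map_inv, inv_inv, show k' + -β = k by rw [hk]; ring] at this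
  obtain ⟨τ, hτ, hτy⟩ : ∃ τ ∈ tTor (C.ι D), ∀ y, LPt C k' m t' δ (τ * y) ↔
      (PPt C k' m s g₁ y ∧ y⁻¹ * sG C y ∈ boxH w k' m) := by
    by_cases hex : ∃ x, PPt C k' m s g₁ x
    · obtain ⟨x, hx⟩ := hex
      exact exists_tau L hs ht' hts hg (hfam x hx) hδ hN
    · exact ⟨1, one_mem _,
        fun y => iff_of_false (fun h => hex ⟨_, h.ppt ht' hts hN⟩) fun h => hex ⟨_, h.1⟩⟩
  let f : GL (Fin 2) F ⧸ HK C k' m → GL (Fin 2) E ⧸ boxH w k m :=
    Quotient.map' (fun a => τ * iG C a * dg1 b) fun a a' h => by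
      rw [QuotientGroup.leftRel_apply] at h ⊢
      have := hdesc _ h
      rw [map_mul, map_inv] at this
      rwa [show (τ * iG C a * dg1 b)⁻¹ * (τ * iG C a' * dg1 b)
        = (dg1 b)⁻¹ * ((iG C a)⁻¹ * iG C a') * dg1 b by group]
  have hf : ∀ a : GL (Fin 2) F, f (a : GL (Fin 2) F ⧸ HK C k' m)
      = ((τ * iG C a * dg1 b : GL (Fin 2) E) : GL (Fin 2) E ⧸ boxH w k m) := fun _ => rfl
  refine ⟨f, fun h hh X => ?_, ?_, ?_, ?_⟩
  · obtain ⟨a, rfl⟩ := QuotientGroup.mk_surjective X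
    rw [MulAction.Quotient.smul_coe, hf, hf, MulAction.Quotient.smul_coe, smul_eq_mul,
      smul_eq_mul, map_mul, ← mul_assoc τ, tTor_comm hτ (iG_mem_tTor C hh)]
    simp only [mul_assoc]
  · intro X hX
    obtain ⟨a, rfl⟩ := QuotientGroup.mk_surjective X
    rw [mk_mem_KSet hs] at hX
    rw [hf, mk_mem_LSet ht, hmove, hτy]
    exact ⟨hX, by rw [sG_iG, inv_mul_cancel]; exact one_mem _⟩
  · intro X _ Y _ hXY
    obtain ⟨a, rfl⟩ := QuotientGroup.mk_surjective X
    obtain ⟨a', rfl⟩ := QuotientGroup.mk_surjective Y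
    rw [hf, hf, QuotientGroup.eq] at hXY
    refine QuotientGroup.eq.2 ?_
    change iG C (a⁻¹ * a') ∈ boxH w k' m
    have := dg1_conj_mem hb hXY
    rw [← hk] at this
    rw [map_mul, map_inv]
    rwa [show dg1 b * ((τ * iG C a * dg1 b)⁻¹ * (τ * iG C a' * dg1 b)) * (dg1 b)⁻¹
      = (iG C a)⁻¹ * iG C a' by group] at this
  · intro Y hY
    obtain ⟨x, rfl⟩ := QuotientGroup.mk_surjective Y
    rw [mk_mem_LSet ht] at hY
    set y := τ⁻¹ * (x * (dg1 b)⁻¹)
    have hx : x = τ * y * dg1 b := by simp [y, mul_assoc]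
    rw [hx, hmove, hτy] at hY
    obtain ⟨a, ha⟩ := exists_rational L hY.2
    refine ⟨(a : GL (Fin 2) F ⧸ HK C k' m), ?_, ?_⟩
    · rw [mk_mem_KSet hs]
      have := hY.1.mul_right hs ((boxH w k' m).inv_mem ha)
      rwa [show y * ((iG C a)⁻¹ * y)⁻¹ = iG C a by group] at this
    · rw [hf, QuotientGroup.eq, hx]
      have := dg1_conj_mem (b := b⁻¹) (β := -β)
        (by rw [Units.val_inv_eq_inv_val, map_inv₀, hb, WithZero.exp_neg]) ha
      rw [map_inv, inv_inv, show k' + -β = k by rw [hk]; ring] at this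
      rwa [show (τ * iG C a * dg1 b)⁻¹ * (τ * y * dg1 b) = (dg1 b)⁻¹ * ((iG C a)⁻¹ * y) *
        dg1 b by group]

include L in
/-- **Matching of the class of `t`.** For a unit `t` of `E` some unit `s` of `F` has rational cosets
occurring only at norms and carried bijectively and equivariantly onto those of `t`. -/
theorem exists_match (k : ℤ) (m : ℕ) (t : Eˣ) (ht : w t = 1) :
    ∃ (k' : ℤ) (s : Fˣ), v (s : F) = 1 ∧ ∀ (D : F) (g₁ : GL (Fin 2) F), TReg D g₁ →
      ((KSet C k' m s g₁).Nonempty → NearNorm C D g₁) ∧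
      ∀ δ ∈ tTor (C.ι D), ∀ c₀ : Eˣ, twN C δ = scal c₀ * iG C g₁ →
        ∃ f : GL (Fin 2) F ⧸ HK C k' m → GL (Fin 2) E ⧸ boxH w k m,
          (∀ h ∈ tTor D, ∀ X, f (h • X) = iG C h • f X) ∧
          Set.BijOn f (KSet C k' m s g₁) (LSet C k m t δ) := by
  set n : E := (t : E) * C.s t * C.s (C.s t) with hn
  obtain ⟨s₀, hs₀⟩ := C.fix n (by simp only [hn, map_mul, C.hs3]; ring)
  have hs₀1 : v s₀ = 1 := by
    rw [← C.w_eq_one_iff, hs₀, hn, map_mul, map_mul, C.hs, C.hs, C.hs, ht, one_mul, one_mul]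
  have hs₀0 : s₀ ≠ 0 := fun h => by simp [h] at hs₀1
  have hn1 : w n = 1 := by rw [← hs₀]; exact (C.w_eq_one_iff _).2 hs₀1
  by_cases hgen : w (n * n - 1) = 1
  · -- distinct classes
    set s : Fˣ := Units.mk0 s₀ hs₀0
    have hts : uC C s = t * sU C t * sU C (sU C t) := Units.ext hs₀
    have hne : w (C.ι (s : F) * C.ι (s : F) - 1) = 1 := by rw [Units.val_mk0, hs₀]; exact hgen
    refine ⟨k, s, hs₀1, fun D g₁ hg =>
      ⟨fun ⟨X, hX⟩ => (fam_split L hs₀1 ht hts hne hg.mem hX).nearNorm,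
      fun δ hδ c₀ hN => exists_map (b := 1) (β := 0) L (by simp) (by ring) ht ht hs₀1 ?_ hts hg
        (fun x hx => fam_split L hs₀1 ht hts hne hg.mem hx) hδ hN⟩⟩
    simp
  · -- a class congruent to a sign
    have hlt : w (n * n - 1) < 1 := lt_of_le_of_ne ((w.map_sub _ _).trans (max_le
      (by rw [map_mul, hn1, one_mul]) (by simp))) hgen
    obtain ⟨ε, hε, hεn⟩ : ∃ ε : Fˣ, ε * ε = 1 ∧ w (n * C.ι (ε : F) - 1) < 1 := by
      rw [show n * n - 1 = (n - 1) * (n + 1) by ring, map_mul] at hlt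
      rcases lt_or_ge (w (n - 1)) 1 with h | h
      · exact ⟨1, by simp, by simpa using h⟩
      · refine ⟨-1, by simp, ?_⟩
        rw [Units.val_neg, Units.val_one, map_neg, map_one, show n * -1 - 1 = -(n + 1) by ring,
          Valuation.map_neg]
        exact lt_of_le_of_lt (le_mul_of_one_le_left' h) hlt
    have hεv : v (ε : F) = 1 := by
      have h1 : v (ε : F) * v (ε : F) = 1 := by
        rw [← map_mul, ← Units.val_mul, hε, Units.val_one, map_one]
      rcases lt_trichotomy (v (ε : F)) 1 with h | h | h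
      · exact absurd h1 (mul_lt_one_of_lt_of_le h h.le).ne
      · exact h
      · exact absurd h1 (one_lt_mul_of_lt_of_le' h h.le).ne'
    have hεε : C.ι (ε : F) * C.ι (ε : F) = 1 := by
      rw [← map_mul, ← Units.val_mul, hε, Units.val_one, map_one]
    set z : E := C.ι (ε : F) / t
    have hz : w (z * C.s z * C.s (C.s z) - 1) ≤ WithZero.exp (-(C.e : ℤ)) := by
      have h3 : z * C.s z * C.s (C.s z) = C.ι ((ε : F) / s₀) := by
        simp only [z, map_div₀, C.sι, hs₀, hn]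
        have := t.ne_zero
        field_simp
        linear_combination hεε
      rw [h3, ← map_one C.ι, ← map_sub, C.hι]
      have h4 : v ((ε : F) / s₀ - 1) ≤ WithZero.exp (-1 : ℤ) := by
        rw [← lt_one_iff_le, ← C.w_lt_one_iff, map_sub, map_one, map_div₀, hs₀]
        have hn0 : n ≠ 0 := fun h => by simp [h] at hn1
        rw [div_sub_one hn0, map_div₀, hn1, div_one, show C.ι (ε : F) - n
          = -(C.ι (ε : F) * (n * C.ι (ε : F) - 1)) by linear_combination n * hεε,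
          Valuation.map_neg, map_mul, w_uC' hεv, one_mul]
        exact hεn
      refine (pow_le_pow_left₀ zero_le h4 C.e).trans ?_
      rw [← WithZero.exp_nsmul]; simp
    -- Hilbert 90 modulo the ideal
    obtain ⟨b₀, hb₀, hb⟩ := exists_h90_res C L hz
    set b : Eˣ := Units.mk0 b₀ hb₀
    obtain ⟨β, hβ⟩ : ∃ β, w (b : E) = WithZero.exp β :=
      ⟨_, (WithZero.exp_log (w.ne_zero_iff.2 b.ne_zero)).symm⟩
    have hts : uC C ε = uC C ε * sU C (uC C ε) * sU C (sU C (uC C ε)) := by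
      rw [sU_uC, sU_uC, ← map_mul, ← map_mul, hε, one_mul]
    have htt : w (((t * b / sU C b : Eˣ) : E) / (uC C ε : Eˣ) - 1) < 1 := by
      set u := z * C.s b₀ / b₀
      have hu1 : w u = 1 := v_eq_one_of_sub_lt hb
      have e : ((t * b / sU C b : Eˣ) : E) / (uC C ε : Eˣ) = u⁻¹ := by
        simp [u, z, b, div_eq_mul_inv, mul_comm, mul_left_comm, mul_assoc]
      have hu0 : u ≠ 0 := fun h => by simp [h] at hu1
      rw [e, show u⁻¹ - 1 = -(u - 1) / u by rw [neg_div, sub_div, div_self hu0, one_div]; ring,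
        map_div₀, hu1, div_one, Valuation.map_neg]
      exact hb
    refine ⟨k + β, ε, hεv, fun D g₁ hg => ⟨fun ⟨X, hX⟩ => (fam_sign L hε hg.mem hX).nearNorm,
      fun δ hδ c₀ hN => exists_map L hβ rfl ht (w_uC hεv) hεv htt hts hg
        (fun x hx => fam_sign L hε hg.mem hx) hδ hN⟩⟩
where
  w_uC' {s : Fˣ} (hs : v (s : F) = 1) : w (C.ι (s : F)) = 1 := (C.w_eq_one_iff _).2 hs

section Degree

variable {ϖ : F} (hϖ : v ϖ = WithZero.exp (-1 : ℤ))
include hϖ

/-- The rational groups are conjugate into `U0`. -/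
theorem exists_conj_U0
    (hint : ∀ g : GL (Fin 2) F, (∀ i j, v ((g : Matrix (Fin 2) (Fin 2) F) i j) ≤ 1) →
      v (g : Matrix (Fin 2) (Fin 2) F).det = 1 → g ∈ U0 v) (k : ℤ) (m : ℕ) :
    ∃ ρ : GL (Fin 2) F, (∀ u : Fˣ, v (u : F) = 1 → ρ⁻¹ * dg1 u * ρ ∈ U0 v) ∧
      ∀ h ∈ HK C k m, ρ⁻¹ * h * ρ ∈ U0 v := by
  set e : ℤ := (C.e : ℤ)
  have he : 0 < e := by simpa [e] using Nat.pos_of_ne_zero C.he
  set j : ℤ := k / e
  have hϖ0 : ϖ ≠ 0 := fun h => WithZero.exp_ne_zero (by rw [← hϖ, h, map_zero])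
  set π : Fˣ := (Units.mk0 ϖ hϖ0) ^ (-j)
  have hπ : v (π : F) = WithZero.exp j := by
    simp [π, Units.val_zpow_eq_zpow_val, map_zpow₀, hϖ, ← WithZero.exp_zsmul]
  -- conjugate by `π`
  refine ⟨dg1 π, fun u hu => ?_, fun h hh => ?_⟩
  · rw [← map_inv, ← map_mul, ← map_mul, mul_comm π⁻¹ u, inv_mul_cancel_right]
    refine hint _ (fun i j => ?_) ?_
    · rw [coe_dg1]; fin_cases i <;> fin_cases j <;> simp [hu]
    · rw [coe_dg1, Matrix.det_fin_two_of]; simp [hu]
  obtain ⟨c, u, hu, hhu⟩ := mem_boxH.1 (show iG C h ∈ boxH w k m from hh)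
  obtain ⟨h00, h11, h01, h10⟩ := id hu
  simp only [Matrix.sub_apply, Matrix.one_apply_eq,
    Matrix.one_apply_ne (show (0 : Fin 2) ≠ 1 by decide),
    Matrix.one_apply_ne (show (1 : Fin 2) ≠ 0 by decide), sub_zero] at h00 h11 h01 h10
  have hij : ∀ i j, C.ι ((h : Matrix (Fin 2) (Fin 2) F) i j) =
      (c : E) * (u : Matrix (Fin 2) (Fin 2) E) i j := by
    intro i j
    have := congrArg (fun g : GL (Fin 2) E => (g : Matrix (Fin 2) (Fin 2) E)) hhu
    rw [coe_scal_mul] at this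
    exact congrFun (congrFun this i) j
  set H := (h : Matrix (Fin 2) (Fin 2) F) with hH
  have hu00 := v_eq_one_of_sub_lt h00
  have hH00 : H 0 0 ≠ 0 := fun h0 => by
    have := hij 0 0
    rw [h0, map_zero, eq_comm, mul_eq_zero] at this
    rcases this with h' | h'
    · exact c.ne_zero h'
    · simp [h'] at hu00
  have hent : ∀ i l, w (C.ι (H i l / H 0 0)) = w ((u : Matrix (Fin 2) (Fin 2) E) i l) :=
      fun i l => by
    rw [map_div₀, hij, hij, mul_div_mul_left _ _ c.ne_zero, map_div₀, hu00, div_one]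
  -- the entries of `h` are bounded
  have b01 : v (H 0 1 / H 0 0) ≤ WithZero.exp j := by
    have h' := (hent 0 1).trans_le h01
    rw [C.hι] at h'
    rcases eq_or_ne (v (H 0 1 / H 0 0)) 0 with h0 | h0
    · simp [h0]
    rw [← WithZero.exp_log h0, ← WithZero.exp_nsmul, WithZero.exp_le_exp, nsmul_eq_mul] at h'
    rw [← WithZero.exp_log h0, WithZero.exp_le_exp]
    exact (Int.le_ediv_iff_mul_le he).2 (by rw [mul_comm]; exact h')
  have b10 : v (H 1 0 / H 0 0) ≤ WithZero.exp (-j) := by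
    have h' := (hent 1 0).trans_le h10
    rw [C.hι] at h'
    rcases eq_or_ne (v (H 1 0 / H 0 0)) 0 with h0 | h0
    · simp [h0]
    rw [← WithZero.exp_log h0, ← WithZero.exp_nsmul, WithZero.exp_le_exp, nsmul_eq_mul] at h'
    rw [← WithZero.exp_log h0, WithZero.exp_le_exp]
    have h1 := Int.mul_ediv_add_emod k e
    have h3 := Int.emod_nonneg k he.ne'
    set l := WithZero.log (v (H 1 0 / H 0 0))
    have h4 : e * (l + j) < e * 1 := by
      rw [mul_add, mul_one]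
      change e * l + e * (k / e) < e
      have : e * l ≤ -(k + m + 1) := h'
      omega
    have := lt_of_mul_lt_mul_left h4 he.le
    omega
  have b11 : v (H 1 1 / H 0 0) ≤ 1 := by
    rw [← C.w_le_one_iff, hent, v_eq_one_of_sub_lt h11]
  have hdet : v (H.det / (H 0 0 * H 0 0)) = 1 := by
    rw [← C.w_eq_one_iff]
    have hd : C.ι (H.det / (H 0 0 * H 0 0))
        = (u : Matrix (Fin 2) (Fin 2) E).det /
            ((u : Matrix (Fin 2) (Fin 2) E) 0 0 * (u : Matrix (Fin 2) (Fin 2) E) 0 0) := by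
      rw [Matrix.det_fin_two, Matrix.det_fin_two]
      simp only [map_div₀, map_sub, map_mul, hij]
      have := c.ne_zero
      field_simp
    rw [hd, map_div₀, map_mul, v_eq_one_of_sub_lt (InJ.det_sub_one hu), hu00, one_mul, div_one]
  set c₀ : Fˣ := Units.mk0 (H 0 0)⁻¹ (inv_ne_zero hH00)
  have hm := hint (scal c₀ * ((dg1 π)⁻¹ * h * dg1 π)) ?_ ?_
  · have := (U0 v).mul_mem (scal_mem_withScalars (intGL v) c₀⁻¹) hm
    rwa [← mul_assoc, ← scal_mul, inv_mul_cancel,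
      show (scal (1 : Fˣ) : GL (Fin 2) F) = 1 by simp [scal], one_mul] at this
  · intro i l
    have e : ((scal c₀ * ((dg1 π)⁻¹ * h * dg1 π) : GL (Fin 2) F) : Matrix (Fin 2) (Fin 2) F)
        = !![1, H 0 1 / H 0 0 * (π : F)⁻¹; H 1 0 / H 0 0 * (π : F), H 1 1 / H 0 0] := by
      rw [coe_scal_mul, ← map_inv dg1, Units.val_mul, Units.val_mul, coe_dg1, coe_dg1, ← hH]
      ext i l
      fin_cases i <;> fin_cases l <;>
        simp [Matrix.mul_apply, Matrix.vecMul, dotProduct, Fin.sum_univ_two, c₀] <;> field_simp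
    rw [e]
    fin_cases i <;> fin_cases l
    · simp
    · have hπi : v (π : F)⁻¹ ≤ WithZero.exp (-j) := by rw [map_inv₀, hπ, WithZero.exp_neg]
      have := mul_le_exp b01 hπi (by omega : j + -j ≤ 0)
      rw [WithZero.exp_zero] at this
      exact le_of_eq_of_le (by simp) this
    · have := mul_le_exp b10 hπ.le (by omega : -j + j ≤ 0)
      rw [WithZero.exp_zero] at this
      exact le_of_eq_of_le (by simp) this
    · exact le_of_eq_of_le (by simp) b11
  · rw [det_scal_mul]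
    simp only [Units.val_mul]
    rw [Matrix.det_units_conj', ← hH]
    rw [show (c₀ : F) * c₀ * H.det = H.det / (H 0 0 * H 0 0) by simp [c₀]; field_simp]
    exact hdet

end Degree

section Sum

/-- The map forgetting the level. -/
def proj {G : Type*} [Group G] {A B : Subgroup G} (h : A ≤ B) (x : G ⧸ A) : G ⧸ B :=
  Subgroup.quotientMapOfLE h x

/-- Projecting cosets is equivariant. -/
lemma proj_smul {G : Type*} [Group G] {A B : Subgroup G} (h : A ≤ B) (g : G) (x : G ⧸ A) :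
    proj h (g • x) = g • proj h x := by
  obtain ⟨a, rfl⟩ := QuotientGroup.mk_surjective x
  rfl

variable {k k' : ℤ} {m : ℕ}

/-- Twisted support through a finer level. -/
lemma out_mem_LSet_iff {Γw : Subgroup (GL (Fin 2) E)} (hw : Γw ≤ boxH w k m) {t : Eˣ} (ht : w t = 1)
    {δ : GL (Fin 2) E} (x : GL (Fin 2) E ⧸ Γw) :
    proj hw x ∈ LSet C k m t δ ↔ LPt C k m t δ x.out := by
  conv_lhs => rw [← QuotientGroup.out_eq' x]
  exact mk_mem_LSet ht

/-- The rational support at a deeper level is the preimage. -/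
lemma out_mem_KSet_iff {Γv : Subgroup (GL (Fin 2) F)} (hv : Γv ≤ HK C k m) {s : Fˣ}
    (hs : v (s : F) = 1) {g₁ : GL (Fin 2) F} (x : GL (Fin 2) F ⧸ Γv) :
    proj hv x ∈ KSet C k m s g₁ ↔ PPt C k m s g₁ (iG C x.out) := by
  conv_lhs => rw [← QuotientGroup.out_eq' x]
  exact mk_mem_KSet hs

/-- **Twisted fibre sums of the class of `t` are rational ones of the class of `s`.** -/
theorem tsum_twisted {D : F} {s : Fˣ} (hs : v (s : F) = 1) {t : Eˣ} (ht : w t = 1)
    {g₁ : GL (Fin 2) F} (hg : g₁ ∈ tTor D) {δ : GL (Fin 2) E} (hδ : δ ∈ tTor (C.ι D))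
    {f : GL (Fin 2) F ⧸ HK C k' m → GL (Fin 2) E ⧸ boxH w k m}
    (hf : ∀ h ∈ tTor D, ∀ X, f (h • X) = iG C h • f X)
    (hbij : Set.BijOn f (KSet C k' m s g₁) (LSet C k m t δ))
    {Γw : Subgroup (GL (Fin 2) E)} (hw : Γw ≤ boxH w k m) (hwi : Γw.relIndex (boxH w k m) ≠ 0)
    {Γv : Subgroup (GL (Fin 2) F)} (hv : Γv ≤ HK C k' m) (hvi : Γv.relIndex (HK C k' m) ≠ 0)
    {Γ : Type*} [MulAction (GL (Fin 2) F) Γ] {o : Γ}
    {ρ : GL (Fin 2) F} (hρ : ∀ h ∈ HK C k' m, ρ⁻¹ * h * ρ ∈ U0 v)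
    {d₀ : GL (Fin 2) F ⧸ U0 v → Γ} (hd₀ : IsDeg (tTor D) o d₀)
    {dK : GL (Fin 2) F ⧸ Γv → Γ} (hdK : IsDeg (tTor D) o dK)
    {dL : GL (Fin 2) E ⧸ Γw → Γ}
    (hdL : ∀ h ∈ tTor D, ∀ x, dL (iG C h • x) = h • dL x) (hdL' : ∀ x, ∃ h ∈ tTor D, dL x = h • o)
    (hfin : {a : GL (Fin 2) F ⧸ Γv | PPt C k' m s g₁ (iG C a.out) ∧ dK a = o}.Finite) :
    {x : GL (Fin 2) E ⧸ Γw | LPt C k m t δ x.out ∧ dL x = o}.Finite ∧
      ∑' x : {x : GL (Fin 2) E ⧸ Γw // dL x = o}, (if LPt C k m t δ x.1.out then (1 : ℂ) else 0)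
        = (Γw.relIndex (boxH w k m) : ℂ) / (Γv.relIndex (HK C k' m) : ℂ)
          * ∑' a : {a : GL (Fin 2) F ⧸ Γv // dK a = o},
            (if PPt C k' m s g₁ (iG C a.1.out) then (1 : ℂ) else 0) := by
  let _iY : MulAction (GL (Fin 2) F) (GL (Fin 2) E ⧸ boxH w k m) := MulAction.compHom _ (iG C)
  let _iY' : MulAction (GL (Fin 2) F) (GL (Fin 2) E ⧸ Γw) := MulAction.compHom _ (iG C)
  let d : GL (Fin 2) F ⧸ HK C k' m → Γ := fun X =>
    d₀ (Quotient.map' (fun a => a * ρ) (fun a a' h => by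
      rw [QuotientGroup.leftRel_apply] at h ⊢
      rw [show (a * ρ)⁻¹ * (a' * ρ) = ρ⁻¹ * (a⁻¹ * a') * ρ by group]
      exact hρ _ h) X)
  have hd : IsDeg (tTor D) o d := by
    constructor
    · intro h hh X
      obtain ⟨a, rfl⟩ := QuotientGroup.mk_surjective X
      change d₀ _ = h • d₀ _
      rw [← hd₀.smul h hh]
      exact congrArg d₀ (congrArg QuotientGroup.mk (mul_assoc h a ρ))
    · exact fun X => hd₀.mem _
  -- both supports are stable under the torus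
  have hSX : ∀ h ∈ tTor D, ∀ X ∈ KSet C k' m s g₁, h • X ∈ KSet C k' m s g₁ := by
    intro h hh X hX
    obtain ⟨a, rfl⟩ := QuotientGroup.mk_surjective X
    rw [MulAction.Quotient.smul_coe, smul_eq_mul, mk_mem_KSet hs, map_mul,
      ppt_tor_iff hg (iG_mem_tTor C hh)]
    rwa [mk_mem_KSet hs] at hX
  have hSY : ∀ h ∈ tTor D, ∀ Y ∈ LSet C k m t δ, h • Y ∈ LSet C k m t δ := by
    intro h hh Y hY
    obtain ⟨x, rfl⟩ := QuotientGroup.mk_surjective Y
    change iG C h • (x : GL (Fin 2) E ⧸ boxH w k m) ∈ _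
    rw [MulAction.Quotient.smul_coe, smul_eq_mul, mk_mem_LSet ht]
    rw [mk_mem_LSet ht] at hY
    rw [LPt, map_mul, sG_iG, show (iG C h * x)⁻¹ * δ * (iG C h * sG C x)
      = x⁻¹ * ((iG C h)⁻¹ * δ * iG C h) * sG C x by group,
      tTor_comm ((tTor _).inv_mem (iG_mem_tTor C hh)) hδ, inv_mul_cancel_right]
    exact hY
  have hsetK : ∀ a : GL (Fin 2) F ⧸ Γv, proj hv a ∈ KSet C k' m s g₁ ↔
      PPt C k' m s g₁ (iG C a.out) :=
    out_mem_KSet_iff hv hs
  have hsetL : ∀ x : GL (Fin 2) E ⧸ Γw, proj hw x ∈ LSet C k m t δ ↔ LPt C k m t δ x.out :=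
    out_mem_LSet_iff hw ht
  -- match the two fibre sums
  have h := tsum_match (T := tTor D) (fun a ha b hb => tTor_comm ha hb) (o := o)
    (pX := proj hv) (fun h _ x => proj_smul hv h x) hvi (card_fibre_quotient hv)
    (pY := proj hw) (fun h _ x => proj_smul hw (iG C h) x) hwi (card_fibre_quotient hw)
    hSX hSY (f := f) hf hbij hd hdK (dY := dL) ⟨hdL, hdL'⟩ (hfin.subset fun a ha =>
      ⟨(hsetK a).1 ha.1, ha.2⟩)
  refine ⟨h.1.subset fun x hx => ⟨(hsetL x).2 hx.1, hx.2⟩, ?_⟩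
  simp only [hsetK, hsetL] at h
  exact h.2

end Sum

end Fermat.LTG.Loc
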