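import Fermat.Agent.LTG.Kern
import Fermat.Agent.LTG.Mult.Statement
import Fermat.Agent.LTG.LocMain

/-!
# Kernels of classes of lattice groups at a place, finiteness of indices

`cosKer` is the kernel of a class and `combKer` a combination; `relIndex_UN_ne_zero` is the
finiteness.
-/

set_option autoImplicit false
open scoped Classical Matrix

namespace Fermat.LTG.Loc

open Fermat.LT

section Local

variable {F : Type*} [Field F] [NumberField F] {v : Valuation F (WithZero (Multiplicative ℤ))}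

/-- An integral matrix with unit determinant lies in `Fˣ GL₂(O)`. -/
lemma mem_U0_of_det {g : GL (Fin 2) F}
    (h : ∀ i j, v ((g : Matrix (Fin 2) (Fin 2) F) i j) ≤ 1)
    (hd : v (g : Matrix (Fin 2) (Fin 2) F).det = 1) : g ∈ U0 v :=
  le_withScalars _ (mem_intGL_of_det h hd)

omit [NumberField F] in
/-- Deep congruence subgroups lie in the lattice groups. -/
lemma UN_le_boxH {k : ℤ} {m n : ℕ} (h1 : -(n : ℤ) ≤ k) (h2 : k + m + 1 ≤ n) :
    UN v n ≤ boxH v k m := fun g ⟨c, hc⟩ =>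
  ⟨c, inJ_of_near (r := -(n : ℤ)) hc.2 h1 (by omega)⟩

/-- Scalars times `1 + J` for `k = 0` lie in the scalars times `Γ₀`. -/
lemma boxH_le_U0N (m : ℕ) : boxH v 0 m ≤ U0N v (m + 1) := by
  intro g hg
  obtain ⟨c, u, hu, rfl⟩ := mem_boxH.1 hg
  refine (U0N v _).mul_mem (scal_mem_withScalars _ c) (le_withScalars _ ⟨?_, ?_⟩)
  · refine mem_intGL_of_det (fun i j => ?_) (v_eq_one_of_sub_lt (InJ.det_sub_one hu))
    have := near_box hu i j
    simpa using this
  · simpa using hu.2.2.2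

omit [NumberField F] in
/-- The classes of `Γ₀` modulo `1 + J`. -/
lemma exists_cos_of_mem_U0N {m : ℕ} {g : GL (Fin 2) F} (hg : g ∈ U0N v (m + 1)) :
    ∃ a : Fˣ, v (a : F) = 1 ∧ ∀ t : Fˣ, v ((a : F) / t - 1) < 1 → Cos v 0 m t g := by
  obtain ⟨c, hc, hc10⟩ := hg
  set k := scal c * g with hk
  set M := (k : Matrix (Fin 2) (Fin 2) F) with hM
  have hint := fun i j => v_entry_le_one v hc i j
  have h10 : v (M 1 0) < 1 :=
    lt_of_le_of_lt hc10 (by rw [← WithZero.exp_zero, WithZero.exp_lt_exp]; omega)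
  have hdet : v M.det = 1 := by
    obtain ⟨k0, hk0⟩ := hc
    have hu : IsUnit (k0 : Matrix (Fin 2) (Fin 2) v.integer).det :=
      (Matrix.isUnit_iff_isUnit_det _).1 k0.isUnit
    refine Eq.trans (congrArg v ?_)
      ((Valuation.integer.integers v).isUnit_iff_valuation_eq_one.1 hu)
    rw [hM, ← hk0]
    exact (RingHom.map_det v.integer.subtype _).symm
  -- the diagonal entries are units
  have hprod : v (M 0 0 * M 1 1) = 1 := by
    have e : M 0 0 * M 1 1 = M.det + M 0 1 * M 1 0 := by rw [Matrix.det_fin_two]; ring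
    rw [e, Valuation.map_add_eq_of_lt_left, hdet]
    rw [hdet, map_mul]
    exact lt_of_le_of_lt (mul_le_of_le_one_left' (hint 0 1)) h10
  have h00 : v (M 0 0) = 1 := le_antisymm (hint 0 0) (not_lt.1 fun h => by
    rw [map_mul] at hprod
    exact (lt_of_le_of_lt (mul_le_of_le_one_right' (hint 1 1)) h).ne hprod)
  have h11 : v (M 1 1) = 1 := by rwa [map_mul, h00, one_mul] at hprod
  have n0 : M 0 0 ≠ 0 := fun h => by simp [h] at h00
  have n1 : M 1 1 ≠ 0 := fun h => by simp [h] at h11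
  refine ⟨Units.mk0 (M 0 0 / M 1 1) (div_ne_zero n0 n1), by simp [h00, h11], fun t ht => ?_⟩
  rw [Units.val_mk0] at ht
  have ht1 : v (t : F) = 1 := by
    have h := v_eq_one_of_sub_lt ht
    rw [map_div₀, map_div₀, h00, h11, div_one, one_div, inv_eq_one] at h
    exact h
  set c' : Fˣ := (Units.mk0 (M 1 1) n1)⁻¹ * c
  refine ⟨c', ?_⟩
  change InJ v 0 m _
  -- the rescaled matrix lies in the box
  have e : ((scal c' * ((dg1 t)⁻¹ * g) : GL (Fin 2) F) : Matrix (Fin 2) (Fin 2) F)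
      = !![M 0 0 / M 1 1 / t, M 0 1 / M 1 1 / t; M 1 0 / M 1 1, 1] := by
    rw [show scal c' * ((dg1 t)⁻¹ * g) = scal (Units.mk0 (M 1 1) n1)⁻¹ * ((dg1 t)⁻¹ * k) by
      simp only [c', hk, scal_mul]
      rw [mul_assoc (scal _) (scal c), ← mul_assoc (scal c) (dg1 t)⁻¹,
        scal_comm c (dg1 t)⁻¹, mul_assoc],
      coe_scal_mul, Units.val_mul, ← map_inv, coe_dg1, ← hM]
    ext i j
    fin_cases i <;> fin_cases j <;>
      simp [Matrix.vecMul, dotProduct, Fin.sum_univ_two] <;> field_simp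
  rw [e]
  refine ⟨?_, ?_, ?_, ?_⟩
  · simpa using ht
  · simp
  · simpa [ht1, h11] using hint 0 1
  · simpa [h11] using hc10

omit [NumberField F] in
/-- The class of an element is unique. -/
lemma cos_unique {m : ℕ} {t t' : Fˣ} {g : GL (Fin 2) F} (h : Cos v 0 m t g) (h' : Cos v 0 m t' g) :
    v ((t : F) / t' - 1) < 1 := by
  have hmem : dg1 (t / t') ∈ boxH v 0 m := by
    have := (boxH v 0 m).mul_mem h' ((boxH v 0 m).inv_mem h)
    rw [show (dg1 t')⁻¹ * g * ((dg1 t)⁻¹ * g)⁻¹ =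
      (dg1 t')⁻¹ * dg1 t by group, ← map_inv, ← map_mul] at this
    rwa [div_eq_inv_mul]
  obtain ⟨c, u, hu, e⟩ := mem_boxH.1 hmem
  have e' := congrArg (fun g : GL (Fin 2) F => (g : Matrix (Fin 2) (Fin 2) F)) e
  rw [coe_scal_mul, coe_dg1] at e'
  have e00 := congrFun (congrFun e' 0) 0
  have e11 := congrFun (congrFun e' 1) 1
  simp at e00 e11
  obtain ⟨h00, h11, -, -⟩ := hu
  simp at h00 h11
  have hu1 := v_eq_one_of_sub_lt h11
  rw [e00, show (c : F) * (u : Matrix (Fin 2) (Fin 2) F) 0 0 - 1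
    = (c : F) *
        (((u : Matrix (Fin 2) (Fin 2) F) 0 0 - 1) - ((u : Matrix (Fin 2) (Fin 2) F) 1 1 - 1)) by
      rw [mul_sub, mul_sub, mul_sub, ← e11]; ring, map_mul]
  have hc1 : v (c : F) = 1 := by
    have := congrArg v e11
    rw [map_one, map_mul, hu1, mul_one] at this
    exact this.symm
  rw [hc1, one_mul]
  exact lt_of_le_of_lt (v.map_sub _ _) (max_lt h00 h11)

end Local

variable {F : Type*} [Field F] [NumberField F]

/-- A congruence subgroup has finite index in every group conjugate into `U0`. -/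
theorem relIndex_UN_ne_zero (v : Place F) (n : ℕ) {H : Subgroup (GL (Fin 2) F)} {ρ : GL (Fin 2) F}
    (hρ : ∀ h ∈ H, ρ⁻¹ * h * ρ ∈ U0 (v.valuation F)) :
    (UN (v.valuation F) n).relIndex H ≠ 0 := by
  obtain ⟨r, hr⟩ := exists_entry_bound (v.valuation F) ρ⁻¹
  obtain ⟨s, -, hs⟩ := exists_finset_U0_cosetN v (2 * r + n)
  choose rep hrep1 hrep2 using hs
  rw [Subgroup.relIndex, Subgroup.index_ne_zero_iff_finite]
  let f : H ⧸ (UN (v.valuation F) n).subgroupOf H → {g // g ∈ s} := fun x =>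
    ⟨rep _ (hρ _ x.out.2), hrep1 _ _⟩
  refine Finite.of_injective f fun x y hxy => ?_
  rw [← QuotientGroup.out_eq' x, ← QuotientGroup.out_eq' y, QuotientGroup.eq,
    Subgroup.mem_subgroupOf]
  have h := congrArg Subtype.val hxy
  simp only [f] at h
  set a : GL (Fin 2) F := ↑x.out
  set b : GL (Fin 2) F := ↑y.out
  have h1 := hrep2 _ (hρ a x.out.2)
  have h2 := hrep2 _ (hρ b y.out.2)
  rw [h] at h1
  have h3 := (UN (v.valuation F) (2 * r + n)).mul_mem h1 ((UN (v.valuation F) _).inv_mem h2)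
  set g := rep _ (hρ b y.out.2)
  rw [show (ρ⁻¹ * a * ρ)⁻¹ * g * ((ρ⁻¹ * b * ρ)⁻¹ * g)⁻¹ = ρ⁻¹ * (a⁻¹ * b) * ρ by group] at h3
  obtain ⟨c, hc⟩ := h3
  refine ⟨c, ?_⟩
  have := conj_mem_congN (v.valuation F) (g := ρ⁻¹) (m := r) (n := n) hr hc.2
    ((congN (v.valuation F) _).inv_mem hc).2
  rwa [inv_inv, show ρ * (scal c * (ρ⁻¹ * (a⁻¹ * b) * ρ)) * ρ⁻¹ = scal c * (a⁻¹ * b) by
    rw [← mul_assoc ρ, ← scal_comm]; group] at this

/-- The kernel of the class `d H`. -/
noncomputable def cosKer {S : Lev F} {v : Place F} (H : Subgroup (GL (Fin 2) F)) (d : GL (Fin 2) F)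
    (hd : ∀ h ∈ H, d⁻¹ * h * d ∈ H) (hle : lev S v ≤ H) (hfin : (lev S v).relIndex H ≠ 0) :
    LKer S v where
  toFun a b := if d⁻¹ * (a.out⁻¹ * b.out) ∈ H then 1 else 0
  invariant g a b := by
    obtain ⟨x, rfl⟩ := QuotientGroup.mk_surjective a
    obtain ⟨y, rfl⟩ := QuotientGroup.mk_surjective b
    have key : ∀ x y : GL (Fin 2) F,
        (d⁻¹ * ((x : Vert S v).out⁻¹ * (y : Vert S v).out) ∈ H ↔ d⁻¹ * (x⁻¹ * y) ∈ H) := by
      intro x y
      obtain ⟨⟨k, hk⟩, e⟩ := QuotientGroup.mk_out_eq_mul (lev S v) x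
      obtain ⟨⟨k', hk'⟩, e'⟩ := QuotientGroup.mk_out_eq_mul (lev S v) y
      rw [e, e', show d⁻¹ * ((x * k)⁻¹ * (y * k')) = (d⁻¹ * k⁻¹ * d) *
        (d⁻¹ * (x⁻¹ * y)) * k' by group,
        H.mul_mem_cancel_right (hle hk'), H.mul_mem_cancel_left (hd _ (H.inv_mem (hle hk)))]
    simp only [MulAction.Quotient.smul_coe, smul_eq_mul, key]
    simp [mul_assoc]
  finite_row a := by
    rw [Subgroup.relIndex, Subgroup.index_ne_zero_iff_finite] at hfin
    refine (Set.finite_range fun x : H ⧸ (lev S v).subgroupOf H =>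
      ((a.out * d * (x.out : GL (Fin 2) F) : GL (Fin 2) F) : Vert S v)).subset fun b hb => ?_
    simp only [Set.mem_ofPred_eq, ne_eq, ite_eq_right_iff, one_ne_zero, imp_false, not_not] at hb
    refine ⟨((⟨_, hb⟩ : H) : H ⧸ (lev S v).subgroupOf H), ?_⟩
    obtain ⟨⟨k, hk⟩, e⟩ := QuotientGroup.mk_out_eq_mul ((lev S v).subgroupOf H) (⟨_, hb⟩ : H)
    change ((_ : GL (Fin 2) F) : Vert S v) = b
    conv_rhs => rw [← QuotientGroup.out_eq' b]
    rw [e, QuotientGroup.eq]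
    rw [Subgroup.mem_subgroupOf] at hk
    simp only [Subgroup.coe_mul]
    rw [show (a.out * d * (d⁻¹ * (a.out⁻¹ * b.out) * (k : GL (Fin 2) F)))⁻¹ * b.out =
      (k : GL (Fin 2) F)⁻¹ by group]
    exact (lev S v).inv_mem hk

/-- The kernel of a class does not depend on representatives. -/
lemma cosKer_apply_mk {S : Lev F} {v : Place F} (H : Subgroup (GL (Fin 2) F)) (d : GL (Fin 2) F)
    (hd : ∀ h ∈ H, d⁻¹ * h * d ∈ H) (hle : lev S v ≤ H) (hfin : (lev S v).relIndex H ≠ 0)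
    (x y : GL (Fin 2) F) :
    cosKer H d hd hle hfin (x : Vert S v) (y : Vert S v) =
      if d⁻¹ * (x⁻¹ * y) ∈ H then 1 else 0 := by
  obtain ⟨⟨k, hk⟩, e⟩ := QuotientGroup.mk_out_eq_mul (lev S v) x
  obtain ⟨⟨k', hk'⟩, e'⟩ := QuotientGroup.mk_out_eq_mul (lev S v) y
  change (if d⁻¹ * ((x : Vert S v).out⁻¹ * (y : Vert S v).out) ∈ H then (1 : ℂ) else 0) = _
  refine if_congr ?_ rfl rfl
  rw [e, e', show d⁻¹ * ((x * k)⁻¹ * (y * k')) = (d⁻¹ * k⁻¹ * d) * (d⁻¹ * (x⁻¹ * y)) * k' by group,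
    H.mul_mem_cancel_right (hle hk'), H.mul_mem_cancel_left (hd _ (H.inv_mem (hle hk)))]

/-- A linear combination of kernels at one place. -/
noncomputable def combKer {S : Lev F} {v : Place F} {ι : Type*} (T : Finset ι) (c : ι → ℂ)
    (k : ι → LKer S v) : LKer S v where
  toFun a b := ∑ i ∈ T, c i * k i a b
  invariant g a b := Finset.sum_congr rfl fun i _ => by rw [(k i).invariant]
  finite_row a := by
    refine (T.finite_toSet.biUnion fun i _ => (k i).finite_row a).subset fun b hb => ?_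
    obtain ⟨i, hi, hne⟩ := Finset.exists_ne_zero_of_sum_ne_zero hb
    exact Set.mem_biUnion hi (right_ne_zero_of_mul hne)

end Fermat.LTG.Loc
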