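import Fermat.Agent.LTG.LocMatch

/-!
# Torus elements with prescribed norm

Powers of the element itself, and `1 + (t - 1) e` with `e` the residual idempotent of the element,
have norms close to it.
-/

set_option autoImplicit false
open scoped Matrix

namespace Fermat.LTG.Loc

open Fermat.LT

variable {F : Type*} [Field F] {E : Type*} [Field E] {v : Valuation F (WithZero (Multiplicative ℤ))}
  {w : Valuation E (WithZero (Multiplicative ℤ))} {C : CycExt v w} {k : ℤ} {m : ℕ}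

/-- `g₁` is a norm from the torus to every precision, up to scalars. -/
def NearNorm (C : CycExt v w) (D : F) (g₁ : GL (Fin 2) F) : Prop :=
  ∀ n : ℕ, ∃ γ ∈ tTor (C.ι D), ∃ N ∈ tTor D, twN C γ = iG C N ∧ ∃ c : Fˣ, ∀ i j,
    v ((c : F) * (N : Matrix (Fin 2) (Fin 2) F) i j - (g₁ : Matrix (Fin 2) (Fin 2) F) i j)
      ≤ WithZero.exp (-(n : ℤ))

/-- A family gives norms of every precision. -/
theorem Fam.nearNorm {D : F} {s : Fˣ} {t : Eˣ} {g₁ : GL (Fin 2) F} (h : Fam C k m D s t g₁) :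
    NearNorm C D g₁ := by
  obtain ⟨B, -, hfam⟩ := h
  intro n
  obtain ⟨R, hR0, hR⟩ := exists_near (w := w) (iG C g₁ : Matrix (Fin 2) (Fin 2) E)
  obtain ⟨γ, hγ, -, -, -, c, hW⟩ := hfam (R.toNat + C.e * n)
  obtain ⟨N, hN, hNe⟩ := exists_iG_tTor C (twN_mem_tTor C hγ) (sG_twN C hγ)
  refine ⟨γ, hγ, N, hN, hNe.symm, c, fun i j => ?_⟩
  set W := scal (uC C c) * twN C γ * (iG C g₁)⁻¹
  have e : ((W : Matrix (Fin 2) (Fin 2) E) - 1) * (iG C g₁ : Matrix (Fin 2) (Fin 2) E)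
      = (C.ι c) •
          (N : Matrix (Fin 2) (Fin 2) F).map C.ι - (g₁ : Matrix (Fin 2) (Fin 2) F).map C.ι := by
    rw [sub_mul, one_mul, ← Units.val_mul, show W * iG C g₁ = scal (uC C c) * iG C N by
      rw [hNe]; exact inv_mul_cancel_right _ _, coe_scal_mul]
    rfl
  have hle := ((hW.mul hR).mono (r' := -((C.e * n : ℕ) : ℤ)) (by push_cast; omega)) i j
  rw [e, Matrix.sub_apply, Matrix.smul_apply, Matrix.map_apply, Matrix.map_apply,
    smul_eq_mul, ← map_mul, ← map_sub, C.hι] at hle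
  by_contra hlt
  rw [not_le] at hlt
  have := pow_lt_pow_left₀ hlt zero_le C.he
  rw [← WithZero.exp_nsmul] at this
  refine absurd (lt_of_lt_of_le this hle) (not_lt.2 (le_of_eq ?_))
  congr 1
  push_cast
  simp

/-- A prime-to-three exponent has an inverse of three. -/
lemma exists_exponent {P : ℕ} (hP : Nat.Coprime P 3) : ∃ q i : ℕ, 3 * i = 1 + q * P := by
  have h3 : P % 3 ≠ 0 := fun h => absurd ((Nat.Prime.coprime_iff_not_dvd Nat.prime_three).1 hP.symm)
    (not_not.2 (Nat.dvd_of_mod_eq_zero h))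
  rcases (by omega : P % 3 = 1 ∨ P % 3 = 2) with h | h
  · exact ⟨2, (1 + 2 * P) / 3, by omega⟩
  · exact ⟨1, (1 + 1 * P) / 3, by omega⟩

/-- Scalars close to one lie in `1 + J`. -/
lemma mem_scal_box {c : Eˣ} (h : w ((c : E) - 1) < 1) : scal c ∈ boxGrp w k m := by
  simp [mem_boxGrp, InJ, scal_coe, h]

/-- Conjugation is multiplicative. -/
lemma conj_mul' (x a b : GL (Fin 2) E) : x⁻¹ * (a * b) * x = x⁻¹ * a * x * (x⁻¹ * b * x) := by group

/-- Conjugation commutes with powers. -/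
lemma conj_pow' (x a : GL (Fin 2) E) (i : ℕ) : x⁻¹ * a ^ i * x = (x⁻¹ * a * x) ^ i := by
  have := (conj_pow (a := x⁻¹) (b := a) (i := i))
  simpa using this.symm

/-- Bounds for a conjugate give bounds for the element. -/
lemma near_conj {Rx r : ℤ} {x g : GL (Fin 2) E} (hx : Near w Rx (x : Matrix (Fin 2) (Fin 2) E))
    (hx' : Near w Rx ((x⁻¹ : GL (Fin 2) E) : Matrix (Fin 2) (Fin 2) E))
    (hg : Near w r ((x⁻¹ * g * x : GL (Fin 2) E) : Matrix (Fin 2) (Fin 2) E)) :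
    Near w (Rx + r + Rx) (g : Matrix (Fin 2) (Fin 2) E) := by
  have := (hx.mul hg).mul hx'
  rwa [← Units.val_mul, ← Units.val_mul, show x * (x⁻¹ * g * x) * x⁻¹ = g by group] at this

/-- Powers of an element conjugate into `1 + J` tend to one. -/
lemma exists_pow_conj {p : ℕ} (hp : w (p : E) < 1) {x : GL (Fin 2) E} {Rx : ℤ}
    (hx : Near w Rx (x : Matrix (Fin 2) (Fin 2) E))
    (hx' : Near w Rx ((x⁻¹ : GL (Fin 2) E) : Matrix (Fin 2) (Fin 2) E)) (η : ℕ) :
    ∃ n, ∀ G : GL (Fin 2) E, x⁻¹ * G * x ∈ boxGrp w k m →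
      Near w (-(η : ℤ)) (((G ^ p ^ n : GL (Fin 2) E) : Matrix (Fin 2) (Fin 2) E) - 1) := by
  obtain ⟨n, hn⟩ := exists_pow_near (w := w) (k := k) (m := m) hp (η + 2 * Rx.toNat)
  refine ⟨n, fun G hG => ?_⟩
  have h := hn n le_rfl _ hG
  rw [← conj_pow'] at h
  have h2 := (hx.mul h).mul hx'
  rw [mul_sub, sub_mul, mul_one, ← Units.val_mul, ← Units.val_mul, ← Units.val_mul, mul_inv_cancel,
    Units.val_one, show x * (x⁻¹ * G ^ p ^ n * x) * x⁻¹ = G ^ p ^ n by group] at h2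
  exact h2.mono (by omega)

/-- If the square of a unit is far from one, both shifts of the unit by one are units. -/
lemma w_sub_add_one_eq {S : E} (hwS : w S = 1) (hne : w (S * S - 1) = 1) :
    w (S - 1) = 1 ∧ w (S + 1) = 1 := by
  have h1 : w (S - 1) ≤ 1 := (w.map_sub _ _).trans (max_le hwS.le (by simp))
  have h2 : w (S + 1) ≤ 1 := (w.map_add _ _).trans (max_le hwS.le (by simp))
  rw [show S * S - 1 = (S - 1) * (S + 1) by ring, map_mul] at hne
  refine ⟨le_antisymm h1 (not_lt.1 fun h => ?_), le_antisymm h2 (not_lt.1 fun h => ?_)⟩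
  · exact (lt_of_le_of_lt (mul_le_of_le_one_right' h2) h).ne hne
  · exact (lt_of_le_of_lt (mul_le_of_le_one_left' h1) h).ne hne

/-- At a point of the class `s` the element is a scalar times `diag (s, 1)`, its trace fixing the
scalar. -/
lemma PPt.exists_conj_form {s : Fˣ} {g₁ : GL (Fin 2) F} {x : GL (Fin 2) E} (hx : PPt C k m s g₁ x)
    (hs1 : v (s : F) = 1) (hS1 : w (C.ι (s : F) + 1) = 1) :
    ∃ (μ : Eˣ) (u : GL (Fin 2) E) (τ : Eˣ), u ∈ boxGrp w k m ∧
      x⁻¹ * iG C g₁ * x = scal μ * (dg1 (uC C s) * u) ∧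
      C.ι (g₁ : Matrix (Fin 2) (Fin 2) F).trace = (μ : E) * τ ∧
      w ((C.ι (s : F) + 1) / τ - 1) < 1 := by
  set S : E := C.ι (s : F) with hS
  have hwS : w S = 1 := w_uC hs1
  obtain ⟨μ, u, hu, hxu⟩ := mem_boxH.1 hx
  have hxg : x⁻¹ * iG C g₁ * x = scal μ * (dg1 (uC C s) * u) := by
    rw [show x⁻¹ * iG C g₁ * x = dg1 (uC C s) * ((dg1 (uC C s))⁻¹ * (x⁻¹ * iG C g₁ * x)) from
      (mul_inv_cancel_left _ _).symm, hxu, ← mul_assoc, ← scal_comm, mul_assoc]
  obtain ⟨h00, h11, -, -⟩ := id hu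
  simp only [Matrix.sub_apply, Matrix.one_apply_eq] at h00 h11
  set τ := S * (u : Matrix (Fin 2) (Fin 2) E) 0 0 + (u : Matrix (Fin 2) (Fin 2) E) 1 1
  have hτ : w (τ - (S + 1)) < 1 := by
    rw [show τ - (S + 1) = S * ((u : Matrix (Fin 2) (Fin 2) E) 0 0 - 1)
      + ((u : Matrix (Fin 2) (Fin 2) E) 1 1 - 1) by simp only [τ]; ring]
    refine w.map_add_lt ?_ h11
    rw [map_mul, hwS, one_mul]
    exact h00
  have hτ1 : w τ = 1 := by
    rw [show τ = (S + 1) + (τ - (S + 1)) by ring, Valuation.map_add_eq_of_lt_left, hS1]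
    rwa [hS1]
  have hτ0 : τ ≠ 0 := fun h => by simp [h] at hτ1
  refine ⟨μ, u, Units.mk0 τ hτ0, hu, hxg, ?_, ?_⟩
  · have h := congrArg (fun g : GL (Fin 2) E => (g : Matrix (Fin 2) (Fin 2) E).trace) hxg
    simp only [coe_scal_mul, Matrix.trace_smul] at h
    simp only [Units.val_mul] at h
    rw [Matrix.trace_units_conj'] at h
    rw [Units.val_mk0]
    refine Eq.trans ?_ (h.trans ?_)
    · simp [Matrix.trace_fin_two]
    · rw [smul_eq_mul]
      simp [τ, coe_dg1, Matrix.trace_fin_two, Matrix.vecMul, dotProduct, Fin.sum_univ_two, hS]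
  · rw [Units.val_mk0, div_sub_one hτ0, map_div₀, hτ1, div_one, Valuation.map_sub_swap]
    exact hτ

/-- Rescaled by `(s + 1) / tr` the element lies in the class `s` at every point. -/
lemma PPt.bcos_normalised {s : Fˣ} {g₁ : GL (Fin 2) F} {x : GL (Fin 2) E} (hx : PPt C k m s g₁ x)
    (hs1 : v (s : F) = 1) (hS1 : w (C.ι (s : F) + 1) = 1) {c₁ : Fˣ}
    (hc₁ : (c₁ : F) = ((s : F) + 1) / (g₁ : Matrix (Fin 2) (Fin 2) F).trace) :
    BCos w k m (uC C s) (x⁻¹ * iG C (scal c₁ * g₁) * x) := by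
  obtain ⟨μ, u, τ, hu, hxg, htrx, hτ⟩ := hx.exists_conj_form hs1 hS1
  have hc : uC C c₁ * μ = Units.mk0 ((C.ι (s : F) + 1) / τ) (by
      intro h; rw [h, zero_sub, Valuation.map_neg, map_one] at hτ; exact lt_irrefl _ hτ) := by
    refine Units.ext ?_
    simp only [uC, Units.val_mul, Units.coe_map, Units.val_mk0, MonoidHom.coe_coe, hc₁,
      map_div₀, map_add, map_one, htrx]
    have h1 := μ.ne_zero
    have h2 := τ.ne_zero
    field_simp
  rw [BCos, map_mul, map_scal, ← mul_assoc x⁻¹, ← scal_comm, mul_assoc (scal (uC C c₁)),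
    mul_assoc (scal (uC C c₁)), hxg, ← mul_assoc (scal _), ← scal_mul, hc, ← mul_assoc (dg1 _)⁻¹,
    ← scal_comm, mul_assoc, inv_mul_cancel_left]
  exact (boxGrp w k m).mul_mem (mem_scal_box (by rw [Units.val_mk0]; exact hτ)) hu

variable (C) in
/-- The residual idempotent of an element of the class `s`. -/
noncomputable def idemS (s : Fˣ) (g' : GL (Fin 2) F) : Matrix (Fin 2) (Fin 2) E :=
  (C.ι (s : F) - 1)⁻¹ • ((iG C g' : Matrix (Fin 2) (Fin 2) E) - 1)

/-- `1 + (a - 1) e` lies in the class `a`. -/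
lemma inJ_conj_add_smul_idemS {s : Fˣ} {g' : GL (Fin 2) F} {x : GL (Fin 2) E} (hs1 : v (s : F) = 1)
    (hS : w (C.ι (s : F) - 1) = 1) (hb : BCos w k m (uC C s) (x⁻¹ * iG C g' * x)) {a : Eˣ}
    (ha : w (a : E) = 1) :
    InJ w k m ((((dg1 a)⁻¹ : GL (Fin 2) E) : Matrix (Fin 2) (Fin 2) E)
      * (((x⁻¹ : GL (Fin 2) E) : Matrix (Fin 2) (Fin 2) E) * (1 + ((a : E) - 1) • idemS C s g')
        * (x : Matrix (Fin 2) (Fin 2) E)) - 1) := by
  have hS10 : C.ι (s : F) - 1 ≠ 0 := fun h => by simp [h] at hS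
  obtain ⟨u, hu, hue⟩ : ∃ u ∈ boxGrp w k m, x⁻¹ * iG C g' * x = dg1 (uC C s) * u :=
    ⟨_, hb, (mul_inv_cancel_left _ _).symm⟩
  have hxE : ((x⁻¹ : GL (Fin 2) E) : Matrix (Fin 2) (Fin 2) E) * idemS C s g' *
      (x : Matrix (Fin 2) (Fin 2) E)
      = (!![1, 0; 0, 0] : Matrix (Fin 2) (Fin 2) E)
        + (C.ι (s : F) - 1)⁻¹ •
            ((dg1 (uC C s) : Matrix (Fin 2) (Fin 2) E) * ((u : Matrix (Fin 2) (Fin 2) E) - 1)) := by
    simp only [idemS, Matrix.mul_smul, Matrix.smul_mul, mul_sub, sub_mul, mul_one,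
      ← Units.val_mul, hue, inv_mul_cancel, Units.val_one]
    rw [eq_comm, ← eq_sub_iff_add_eq, ← smul_sub, sub_sub_sub_cancel_left, eq_inv_smul_iff₀ hS10]
    ext i j
    fin_cases i <;> fin_cases j <;> simp [coe_dg1]
  have hexp : ((x⁻¹ : GL (Fin 2) E) : Matrix (Fin 2) (Fin 2) E) * (1 + ((a : E) - 1) • idemS C s g')
      * (x : Matrix (Fin 2) (Fin 2) E)
      = (dg1 a : Matrix (Fin 2) (Fin 2) E) + (((a : E) - 1) * (C.ι (s : F) - 1)⁻¹) •
        ((dg1 (uC C s) : Matrix (Fin 2) (Fin 2) E) * ((u : Matrix (Fin 2) (Fin 2) E) - 1)) := by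
    rw [mul_add, add_mul, mul_one, ← Units.val_mul, inv_mul_cancel, Units.val_one, Matrix.mul_smul,
      Matrix.smul_mul, hxE, smul_add, smul_smul, ← add_assoc]
    congr 1
    ext i j
    fin_cases i <;> fin_cases j <;> simp [coe_dg1]
  rw [hexp, mul_add, ← Units.val_mul, inv_mul_cancel, Units.val_one, add_sub_cancel_left,
    Matrix.mul_smul]
  refine InJ.smul ?_ ?_
  · rw [map_mul, map_inv₀, hS, inv_one, mul_one]
    exact (w.map_sub _ _).trans (max_le ha.le (by simp))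
  · rw [← map_inv dg1]
    exact (InJ.dg1_mul (w_uC hs1) hu).dg1_mul (by simp [ha])

/-- The automorphism moves `1 + (a - 1) e` to `1 + (σ a - 1) e`. -/
lemma map_one_add_smul_idemS (s : Fˣ) (g' : GL (Fin 2) F) (a : E) :
    (1 + (a - 1) • idemS C s g').map C.s = 1 + (C.s a - 1) • idemS C s g' := by
  have hfix : (idemS C s g').map C.s = idemS C s g' := by
    simp only [idemS]
    rw [Matrix.map_smul' _ _ _ (map_mul C.s), map_inv₀, map_sub, map_one, C.sι,
      Matrix.map_sub _ (map_sub C.s), Matrix.map_one _ (map_zero C.s) (map_one C.s)]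
    congr 2
    exact congrArg Units.val (sG_iG C g')
  rw [Matrix.map_add _ (map_add C.s), Matrix.map_one _ (map_zero C.s) (map_one C.s),
    Matrix.map_smul' _ _ _ (map_mul C.s), map_sub, map_one, hfix]

/-- A torus element of the class `t` whose norm is rational of the class `s`. -/
lemma exists_bcos_twN {D : F} {s : Fˣ} {t : Eˣ} (hs1 : v (s : F) = 1) (ht : w t = 1)
    (hts : uC C s = t * sU C t * sU C (sU C t)) (hS : w (C.ι (s : F) - 1) = 1)
    {g' : GL (Fin 2) F} (hg' : g' ∈ tTor D) {P : GL (Fin 2) E → Prop} {x₀ : GL (Fin 2) E}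
    (hx₀ : P x₀) (hg'P : ∀ x, P x → BCos w k m (uC C s) (x⁻¹ * iG C g' * x)) :
    ∃ γ₀ ∈ tTor (C.ι D), ∃ n₀ ∈ tTor D, iG C n₀ = twN C γ₀ ∧
      (∀ x, P x → BCos w k m t (x⁻¹ * γ₀ * x)) ∧
      ∀ x, P x → BCos w k m (uC C s) (x⁻¹ * iG C n₀ * x) := by
  have hEiT : IsT (C.ι D) (idemS C s g') :=
    ((show IsT (C.ι D) (iG C g' : Matrix (Fin 2) (Fin 2) E) from iG_mem_tTor C hg').sub
      isT_one).smul _
  have hEi : ∀ x, P x → ∀ a : Eˣ, w (a : E) = 1 → _ := fun x hx a ha =>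
    inJ_conj_add_smul_idemS hs1 hS (hg'P x hx) (a := a) ha
  set M₀ : Matrix (Fin 2) (Fin 2) E := 1 + ((t : E) - 1) • idemS C s g'
  have hM₀ : M₀.det ≠ 0 := fun h => by
    have := v_eq_one_of_sub_lt (hEi x₀ hx₀ t ht).det_sub_one
    simp [Matrix.det_mul, M₀, h] at this
  set γ₀ := Matrix.GeneralLinearGroup.mkOfDetNeZero M₀ hM₀
  have hγ₀T : γ₀ ∈ tTor (C.ι D) := isT_one.add (hEiT.smul _)
  have hm1 : M₀.map C.s = 1 + (C.s t - 1) • idemS C s g' := map_one_add_smul_idemS s g' (t : E)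
  have hm2 : (M₀.map C.s).map C.s = 1 + (C.s (C.s t) - 1) • idemS C s g' := by
    rw [hm1, map_one_add_smul_idemS]
  have hb0 : ∀ x, P x → BCos w k m t (x⁻¹ * γ₀ * x) := fun x hx => by
    rw [BCos, mem_boxGrp, Units.val_mul, Units.val_mul, Units.val_mul]
    exact hEi x hx t ht
  have hb1 : ∀ x, P x → BCos w k m (sU C t) (x⁻¹ * sG C γ₀ * x) := fun x hx => by
    rw [BCos, mem_boxGrp, Units.val_mul, Units.val_mul, Units.val_mul]
    have := hEi x hx (sU C t) (by rw [w_sU]; exact ht)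
    rwa [show ((sU C t : Eˣ) : E) = C.s t from rfl, ← hm1] at this
  have hb2 : ∀ x, P x → BCos w k m (sU C (sU C t)) (x⁻¹ * sG C (sG C γ₀) * x) := fun x hx => by
    rw [BCos, mem_boxGrp, Units.val_mul, Units.val_mul, Units.val_mul]
    have := hEi x hx (sU C (sU C t)) (by rw [w_sU, w_sU]; exact ht)
    rwa [show ((sU C (sU C t) : Eˣ) : E) = C.s (C.s t) from rfl, ← hm2] at this
  obtain ⟨n₀, hn₀, hn₀e⟩ := exists_iG_tTor C (twN_mem_tTor C hγ₀T) (sG_twN C hγ₀T)
  have hn₀b : ∀ x, P x → BCos w k m (uC C s) (x⁻¹ * iG C n₀ * x) := fun x hx => by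
    have := ((hb0 x hx).mul (by rw [w_sU]; exact ht) (hb1 x hx)).mul
      (by rw [w_sU, w_sU]; exact ht) (hb2 x hx)
    rw [← conj_mul', ← conj_mul', ← hts] at this
    rwa [hn₀e]
  exact ⟨γ₀, hγ₀T, n₀, hn₀, hn₀e, hb0, hn₀b⟩

variable (L : LocDat C)

/-- If the class `s` of `g₁` at `x` is `±1`, the conjugate by `x` of the square of `g₁`,
normalised by `s / det g₁`, lies in `1 + J`. -/
theorem sq_conj_mem_boxGrp {s : Fˣ} (hs2 : s * s = 1) {g₁ : GL (Fin 2) F} {x : GL (Fin 2) E}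
    (hx : PPt C k m s g₁ x) :
    x⁻¹ * iG C (scal (s / Matrix.GeneralLinearGroup.det g₁) * (g₁ * g₁)) * x ∈ boxGrp w k m := by
  set cG : Fˣ := s / Matrix.GeneralLinearGroup.det g₁
  set G : GL (Fin 2) F := scal cG * (g₁ * g₁)
  have hs1 : v (s : F) = 1 := by
    have h : v (s : F) * v (s : F) = 1 := by
      rw [← map_mul, ← Units.val_mul, hs2, Units.val_one, map_one]
    rcases lt_trichotomy (v (s : F)) 1 with h1 | h1 | h1
    · exact absurd h (mul_lt_one_of_lt_of_le h1 h1.le).ne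
    · exact h1
    · exact absurd h (one_lt_mul_of_lt_of_le' h1 h1.le).ne'
  have hd2 : (dg1 (uC C s) : GL (Fin 2) E) * dg1 (uC C s) = 1 := by
    rw [← map_mul, ← map_mul, hs2, map_one, map_one]
  -- `x⁻¹ g₁ x = μ d u` with `d = dg1 s` of square one and `u` in the box
  obtain ⟨μ, u, hu, hxu⟩ := mem_boxH.1 hx
  set d := dg1 (uC C s)
  have hxg : x⁻¹ * iG C g₁ * x = scal μ * (d * u) := by
    rw [show x⁻¹ * iG C g₁ * x = d * (d⁻¹ * (x⁻¹ * iG C g₁ * x)) from
      (mul_inv_cancel_left _ _).symm, hxu, ← mul_assoc, ← scal_comm, mul_assoc]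
  have hdet := congrArg Matrix.GeneralLinearGroup.det hxg
  have hdi : d⁻¹ = d := inv_eq_of_mul_eq_one_right hd2
  -- `d` normalises the box
  have hdud : d * u * d ∈ boxGrp w k m := by
    have := dg1_conj_box_unit (w_uC (C := C) hs1) hu
    change d * u * d⁻¹ ∈ _ at this
    rwa [hdi] at this
  -- `det u` is close to one; by determinants the two scalars multiply to its inverse
  have hu1 : w (((Matrix.GeneralLinearGroup.det u)⁻¹ : Eˣ) - 1 : E) < 1 := by
    have h1 : w (((Matrix.GeneralLinearGroup.det u : Eˣ) : E) - 1) < 1 := InJ.det_sub_one hu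
    have h0 := v_eq_one_of_sub_lt h1
    rw [Units.val_inv_eq_inv_val, show ((Matrix.GeneralLinearGroup.det u : Eˣ) : E)⁻¹ - 1
      = -(((Matrix.GeneralLinearGroup.det u : Eˣ) : E) - 1) /
          ((Matrix.GeneralLinearGroup.det u : Eˣ) : E) by
        rw [neg_div, sub_div, div_self (Units.ne_zero _), one_div]; ring, map_div₀, h0, div_one,
          Valuation.map_neg]
    exact h1
  have hscal : uC C cG * (μ * μ) = (Matrix.GeneralLinearGroup.det u)⁻¹ := by
    refine eq_inv_of_mul_eq_one_left (Units.ext ?_)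
    have h := congrArg Units.val hdet
    simp only [Matrix.GeneralLinearGroup.val_det_apply] at h
    rw [det_scal_mul] at h
    simp only [Units.val_mul] at h
    rw [Matrix.det_units_conj', Matrix.det_mul, show (d : Matrix (Fin 2) (Fin 2) E).det = C.ι s by
      simp [d, coe_dg1, Matrix.det_fin_two_of]] at h
    have hg0 : (g₁ : Matrix (Fin 2) (Fin 2) F).det ≠ 0 :=
      (Matrix.GeneralLinearGroup.det g₁).ne_zero
    have h' : C.ι (g₁ : Matrix (Fin 2) (Fin 2) F).det =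
        (μ : E) * μ * (C.ι s * (u : Matrix (Fin 2) (Fin 2) E).det) := by
      rw [← h]; exact RingHom.map_det _ _
    have hd0 : C.ι (g₁ : Matrix (Fin 2) (Fin 2) F).det ≠ 0 := (map_ne_zero _).2 hg0
    simp only [cG, uC, Units.val_mul, Units.coe_map, Units.val_div_eq_div_val,
      Matrix.GeneralLinearGroup.val_det_apply, MonoidHom.coe_coe, map_div₀, Units.val_one]
    field_simp
    rw [h']
    ring
  -- so the conjugate of `G` is `(det u)⁻¹ (d u d) u`, a product in the box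
  have e : x⁻¹ * iG C G * x = scal (Matrix.GeneralLinearGroup.det u)⁻¹ * (d * u * d * u) := by
    rw [← hscal, map_mul (iG C), map_mul (iG C), map_scal,
      show x⁻¹ * (scal (uC C cG) * (iG C g₁ * iG C g₁)) * x
      = scal (uC C cG) * ((x⁻¹ * iG C g₁ * x) * (x⁻¹ * iG C g₁ * x)) by
        rw [← mul_assoc x⁻¹, ← scal_comm]; group, hxg, scal_mul, scal_mul]
    simp only [mul_assoc]
    congr 2
    rw [← mul_assoc u (scal μ), ← scal_comm μ u]
    simp only [← mul_assoc]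
    rw [← scal_comm μ d]
  rw [e]
  exact (boxGrp w k m).mul_mem (mem_scal_box hu1) ((boxGrp w k m).mul_mem hdud hu)

/-- With `G = c • g²` commuting with `g`, the cube of `g G^j` times `c / g` is a power of `G`. -/
lemma scal_cube_eq_pow {c : Fˣ} {g G : GL (Fin 2) F} (hG : G = scal c * (g * g))
    (hc : Commute G g) (j : ℕ) :
    scal c * (g * G ^ j * (g * G ^ j) * (g * G ^ j)) * g⁻¹ = G ^ (3 * j + 1) := by
  have h := (hc.symm.pow_right j).mul_pow 3
  rw [← pow_mul, pow_three', pow_three'] at h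
  rw [h, ← mul_assoc, mul_assoc _ (G ^ (j * 3)), ((hc.pow_left _).inv_right).eq, ← mul_assoc,
    ← mul_assoc, mul_inv_cancel_right, ← hG, ← pow_succ', mul_comm j]

include L in
/-- The family when the class is `±1`. -/
theorem fam_sign {D : F} {s : Fˣ} (hs2 : s * s = 1) {g₁ : GL (Fin 2) F} (hg : g₁ ∈ tTor D)
    {x₀ : GL (Fin 2) E} (hx₀ : PPt C k m s g₁ x₀) : Fam C k m D s (uC C s) g₁ := by
  set cG : Fˣ := s / Matrix.GeneralLinearGroup.det g₁
  set G : GL (Fin 2) F := scal cG * (g₁ * g₁)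
  have hG : ∀ x, PPt C k m s g₁ x → x⁻¹ * iG C G * x ∈ boxGrp w k m :=
    fun x hx => sq_conj_mem_boxGrp hs2 hx
  -- bounds for `x₀`, `g₁` and their inverses give the radius
  obtain ⟨Rx, hRx0, hRx⟩ := exists_near (w := w) (x₀ : Matrix (Fin 2) (Fin 2) E)
  obtain ⟨Rx', hRx'0, hRx'⟩ :=
    exists_near (w := w) ((x₀⁻¹ : GL (Fin 2) E) : Matrix (Fin 2) (Fin 2) E)
  obtain ⟨R, hR0, hR⟩ := exists_near (w := w) (iG C g₁ : Matrix (Fin 2) (Fin 2) E)
  obtain ⟨R', hR'0, hR'⟩ :=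
    exists_near (w := w) (((iG C g₁)⁻¹ : GL (Fin 2) E) : Matrix (Fin 2) (Fin 2) E)
  have hk := abs_nonneg k
  have hX := hRx.mono (show Rx ≤ Rx + Rx' by omega)
  have hX' := hRx'.mono (show Rx' ≤ Rx + Rx' by omega)
  refine ⟨R + R' + (2 * (Rx + Rx') + |k|), by omega, fun η => ?_⟩
  -- a high `p`-power of the box is close to one, and some `3 j + 1` is a multiple of that power
  obtain ⟨n, hn⟩ := exists_pow_conj (k := k) (m := m) L.hp hX hX' η
  obtain ⟨q, i, hi⟩ :=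
    exists_exponent (P := 2 * L.p ^ n) (Nat.Coprime.mul_left (by norm_num) (L.hp3.pow_left n))
  obtain ⟨j, rfl⟩ : ∃ j, i = 2 * j + 1 := by
    refine ⟨i / 2, ?_⟩
    have : q * (2 * L.p ^ n) = 2 * (q * L.p ^ n) := by ring
    omega
  have hj : 3 * j + 1 = q * L.p ^ n := by
    have : q * (2 * L.p ^ n) = 2 * (q * L.p ^ n) := by ring
    omega
  have hGT : G ∈ tTor D := (tTor D).mul_mem (scal_mem_tTor _ _) ((tTor D).mul_mem hg hg)
  -- `g₁ * G ^ j` is the required element of the torus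
  refine ⟨iG C (g₁ * G ^ j), iG_mem_tTor C ((tTor D).mul_mem hg ((tTor D).pow_mem hGT j)), ?_, ?_,
    fun x hx => ?_, cG, ?_⟩
  · have hbox := (boxGrp w k m).pow_mem (hG x₀ hx₀) j
    rw [← conj_pow'] at hbox
    have := hR.mul (near_conj hX hX' (near_box hbox))
    rw [← map_pow, ← Units.val_mul, ← map_mul] at this
    exact this.mono (by omega)
  · have hbox := (boxGrp w k m).inv_mem ((boxGrp w k m).pow_mem (hG x₀ hx₀) j)
    rw [← conj_pow', show (x₀⁻¹ * iG C G ^ j * x₀)⁻¹ = x₀⁻¹ * (iG C G ^ j)⁻¹ * x₀ by group] at hbox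
    have := (near_conj hX hX' (near_box hbox)).mul hR'
    rw [← map_pow, ← map_inv, ← map_inv, ← Units.val_mul, ← map_mul, ← mul_inv_rev] at this
    rw [← map_inv]
    exact this.mono (by omega)
  · rw [map_mul, map_pow, conj_mul', cos_mul_iff (boxGrp_le_boxH (by
      rw [conj_pow']; exact (boxGrp w k m).pow_mem (hG x hx) j))]
    exact hx
  -- its scaled cube over `g₁` is `G ^ (3 j + 1)`, hence close
  · rw [twN_iG]
    have e := scal_cube_eq_pow (g := g₁) (G := G) rfl (tTor_comm hGT hg) j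
    have e' : scal (uC C cG) * iG C (g₁ * G ^ j * (g₁ * G ^ j) * (g₁ * G ^ j)) * (iG C g₁)⁻¹
        = iG C G ^ (3 * j + 1) := by
      rw [← map_scal, ← map_inv, ← map_mul, ← map_mul, e, map_pow]
    rw [e', hj, pow_mul]
    refine hn _ ?_
    rw [conj_pow']
    exact (boxGrp w k m).pow_mem (hG x₀ hx₀) q

include L in
/-- The family when the two classes are distinct. -/
theorem fam_split {D : F} {s : Fˣ} {t : Eˣ} (hs1 : v (s : F) = 1) (ht : w t = 1)
    (hts : uC C s = t * sU C t * sU C (sU C t)) (hne : w (C.ι (s : F) * C.ι (s : F) - 1) = 1)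
    {g₁ : GL (Fin 2) F} (hg : g₁ ∈ tTor D)
    {x₀ : GL (Fin 2) E} (hx₀ : PPt C k m s g₁ x₀) : Fam C k m D s t g₁ := by
  obtain ⟨hSm, hSp⟩ := w_sub_add_one_eq (S := C.ι (s : F)) (w_uC hs1) hne
  obtain ⟨μ₀, -, τ₀, -, -, htr0, -⟩ := hx₀.exists_conj_form hs1 hSp
  set tr : F := (g₁ : Matrix (Fin 2) (Fin 2) F).trace
  have htrne : tr ≠ 0 := fun h => by
    rw [h, map_zero] at htr0
    exact (mul_ne_zero μ₀.ne_zero τ₀.ne_zero) htr0.symm
  have hs0 : (s : F) + 1 ≠ 0 := fun h => by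
    rw [← map_one C.ι, ← map_add, h, map_zero, map_zero] at hSp
    exact zero_ne_one hSp
  set c₁ : Fˣ := Units.mk0 (((s : F) + 1) / tr) (div_ne_zero hs0 htrne)
  set g' := scal c₁ * g₁
  have hg' : g' ∈ tTor D := (tTor D).mul_mem (scal_mem_tTor _ _) hg
  have hg'P : ∀ x, PPt C k m s g₁ x → BCos w k m (uC C s) (x⁻¹ * iG C g' * x) :=
    fun x hx => hx.bcos_normalised hs1 hSp (c₁ := c₁) (Units.val_mk0 _)
  -- a common element `n₀` of the torus
  obtain ⟨γ₀, hγ₀T, n₀, hn₀, hn₀e, hb0, hn₀b⟩ :=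
    exists_bcos_twN (P := PPt C k m s g₁) hs1 ht hts hSm hg' hx₀ hg'P
  set g₂ := g' * n₀⁻¹
  have hg₂T : g₂ ∈ tTor D := (tTor D).mul_mem hg' ((tTor D).inv_mem hn₀)
  have hg₂ : ∀ x, PPt C k m s g₁ x → x⁻¹ * iG C g₂ * x ∈ boxGrp w k m := fun x hx => by
    have h := (hg'P x hx).mul (by rw [Units.val_inv_eq_inv_val, map_inv₀, w_uC hs1, inv_one])
      ((hn₀b x hx).inv (w_uC hs1))
    rw [mul_inv_cancel, bcos_one_iff, show (x⁻¹ * iG C n₀ * x)⁻¹ = x⁻¹ * (iG C n₀)⁻¹ * x by group,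
      ← conj_mul', ← map_inv, ← map_mul] at h
    exact h
  obtain ⟨Rx, hRx0, hRx⟩ := exists_near (w := w) (x₀ : Matrix (Fin 2) (Fin 2) E)
  obtain ⟨Rx', hRx'0, hRx'⟩ :=
    exists_near (w := w) ((x₀⁻¹ : GL (Fin 2) E) : Matrix (Fin 2) (Fin 2) E)
  have hX := hRx.mono (show Rx ≤ Rx + Rx' by omega)
  have hX' := hRx'.mono (show Rx' ≤ Rx + Rx' by omega)
  have hk := abs_nonneg k
  refine ⟨2 * (Rx + Rx') + |k|, by omega, fun η => ?_⟩
  obtain ⟨n, hn⟩ := exists_pow_conj (k := k) (m := m) L.hp hX hX' η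
  obtain ⟨q, i, hi⟩ := exists_exponent (P := L.p ^ n) (L.hp3.pow_left n)
  set γ := γ₀ * iG C (g₂ ^ i)
  -- `γ` lies in the class of `t` along the family
  have hγP : ∀ x, PPt C k m s g₁ x → BCos w k m t (x⁻¹ * γ * x) := fun x hx => by
    have h := (hb0 x hx).mul (t' := 1) (by simp)
      (bcos_one_iff.2 ((boxGrp w k m).pow_mem (hg₂ x hx) i))
    rwa [mul_one, ← conj_pow', ← conj_mul', ← map_pow] at h
  refine ⟨γ, (tTor _).mul_mem hγ₀T (iG_mem_tTor C ((tTor D).pow_mem hg₂T i)), ?_, ?_,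
    fun x hx => (hγP x hx).cos, c₁⁻¹, ?_⟩
  · exact (near_conj hX hX' ((hγP x₀ hx₀).near ht)).mono (by omega)
  · have := ((hγP x₀ hx₀).inv ht).near (by simp [ht])
    rw [show (x₀⁻¹ * γ * x₀)⁻¹ = x₀⁻¹ * γ⁻¹ * x₀ by group] at this
    exact (near_conj hX hX' this).mono (by omega)
  · -- its twisted norm is a power of `g₂`
    have hNγ : twN C γ = iG C (g' * g₂ ^ (q * L.p ^ n)) := by
      rw [twN_mul C hγ₀T (iG_mem_tTor C ((tTor D).pow_mem hg₂T i)), twN_iG, ← hn₀e, ← map_mul]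
      congr 1
      rw [← pow_add, ← pow_add,
        show i + i + i = 1 + q * L.p ^ n by omega, pow_add, pow_one, ← mul_assoc]
      congr 1
      simp only [g₂]
      rw [tTor_comm hg' ((tTor D).inv_mem hn₀), mul_inv_cancel_left]
    have hW : scal (uC C c₁⁻¹) * twN C γ * (iG C g₁)⁻¹ = iG C g₂ ^ (q * L.p ^ n) := by
      rw [hNγ, ← map_scal, ← map_inv, ← map_mul, ← map_mul, ← map_pow]
      congr 1
      simp only [g']
      rw [← mul_assoc, ← mul_assoc, ← scal_mul, inv_mul_cancel,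
        show (scal (1 : Fˣ) : GL (Fin 2) F) = 1 by simp [scal],
        one_mul, mul_assoc, tTor_comm ((tTor D).pow_mem hg₂T _) ((tTor D).inv_mem hg),
          mul_inv_cancel_left]
    rw [hW, pow_mul]
    refine hn _ ?_
    rw [conj_pow']
    exact (boxGrp w k m).pow_mem (hg₂ x₀ hx₀) q

end Fermat.LTG.Loc
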