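import Fermat.Agent.LT.LocLMatch
import Fermat.Agent.LTG.LocCls

/-!
# The local matching in a cyclic cubic extension of number fields

The hypotheses of the matching at a fixed place away from three, local norms, and the degree of
vertices with its finiteness.
-/

set_option autoImplicit false
open NumberField Set
open scoped Matrix

namespace Fermat.LTG.Loc

open Fermat.LT

variable {K L : Type} [Field K] [NumberField K] [Field L] [NumberField L] [Algebra K L]
  {σ : L ≃ₐ[K] L}

/-- The data of a fixed place away from three. -/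
theorem exists_locDat (hc : Cyc3 K L σ) {v : Place K} {w : Place L} (hw : LiesOver K L w v)
    (hσ : mapPlace (σ : L ≃+* L) w = w) (h3 : v.valuation K 3 = 1) :
    Nonempty (LocDat (hc.ext hw hσ)) := by
  set C := hc.ext hw hσ
  -- a unit generator of the extension
  obtain ⟨θ, hθ, hθe⟩ : ∃ θ, w.valuation L θ ≤ 1 ∧
      WithZero.exp (-(C.e : ℤ)) < w.valuation L ((θ - C.s θ) * (θ - C.s (C.s θ))) := by
    have hval : ∀ θ, w.valuation L ((θ - C.s θ) * (θ - C.s (C.s θ)))
        = w.valuation L (C.s θ - θ) * w.valuation L (C.s θ - θ) := fun θ => by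
      rw [map_mul, Valuation.map_sub_swap]
      congr 1
      rw [← C.hs (θ - C.s (C.s θ)), map_sub, C.hs3]
    rcases hc.trichotomy hw with ⟨-, -, -, hmv⟩ | ⟨-, -, ⟨he, hn⟩ | ⟨he, hn⟩⟩
    · exact absurd hσ hmv
    · refine ⟨unifAt w, by rw [unifAt_spec, ← WithZero.exp_zero, WithZero.exp_le_exp]; omega, ?_⟩
      have hπ := unifAt_spec w
      have hge : WithZero.exp (-1 : ℤ) ≤ w.valuation L (C.s (unifAt w) - unifAt w) := by
        by_contra! hlt
        obtain ⟨⟨k, hk, -⟩, hav⟩ := C.avg_spec h3 (r := unifAt w)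
          (by rw [hπ, ← WithZero.exp_zero, WithZero.exp_le_exp]; omega)
        have hlt' : w.valuation L (C.avg (unifAt w) - unifAt w) < WithZero.exp (-1 : ℤ) :=
          lt_of_le_of_lt (hav le_rfl) hlt
        have e : w.valuation L (C.avg (unifAt w)) = WithZero.exp (-1 : ℤ) := by
          rw [show C.avg (unifAt w) = unifAt w + (C.avg (unifAt w) - unifAt w) by ring,
            Valuation.map_add_eq_of_lt_left, hπ]
          rwa [hπ]
        rw [← hk, C.hι, show C.e = 3 from he] at e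
        have hne : v.valuation K k ≠ 0 :=
          fun h0 => WithZero.exp_ne_zero (e.symm.trans (by rw [h0, zero_pow (by norm_num)]))
        rw [← WithZero.exp_log hne, ← WithZero.exp_nsmul, WithZero.exp_inj, nsmul_eq_mul] at e
        omega
      rw [hval, show C.e = 3 from he]
      refine lt_of_lt_of_le ?_ (mul_le_mul' hge hge)
      rw [← WithZero.exp_add, WithZero.exp_lt_exp]
      omega
    · obtain ⟨θ, hθ, hθ1⟩ := hc.exists_moved hw hσ hn h3
      refine ⟨θ, hθ, ?_⟩
      rw [hval, show w.valuation L (C.s θ - θ) = 1 from hθ1, show C.e = 1 from he, mul_one,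
        ← WithZero.exp_zero, WithZero.exp_lt_exp]
      omega
  have hmem : ((pnorm v : ℕ) : 𝓞 K) ∈ v.asIdeal := Ideal.absNorm_mem v.asIdeal
  -- assemble the data
  refine ⟨{
    h3 := C.w_three h3
    θ := θ
    hθ := hθ
    hθe := hθe
    p := pnorm v
    hp := ?_
    hp3 := by rw [← natCard_residue]; exact (coprime_three h3).symm }⟩
  rw [← map_natCast C.ι, C.w_lt_one_iff]
  have h := (v.valuation_lt_one_iff_mem (K := K) ((pnorm v : ℕ) : 𝓞 K)).2 hmem
  exact (congrArg (fun x => v.valuation K x < 1) (map_natCast (algebraMap (𝓞 K) K) (pnorm v))).mp h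

/-- Norms of every precision are local norms. -/
theorem NearNorm.isLocNorm (hc : Cyc3 K L σ) {v : Place K} {w : Place L} (hw : LiesOver K L w v)
    (hσ : mapPlace (σ : L ≃+* L) w = w) {D a₀ b₀ : K} {g₀ : GL (Fin 2) K}
    (hg : (g₀ : Matrix (Fin 2) (Fin 2) K) = tmat D a₀ b₀) (h : NearNorm (hc.ext hw hσ) D g₀) :
    IsLocNorm K L σ v D a₀ b₀ := by
  intro n
  obtain ⟨γ, ⟨x, y, hxy⟩, N, ⟨N₀, N₁, hN1⟩, hN, c, hcl⟩ := h n
  refine ⟨x, y, c, N₀, N₁, c.ne_zero, ?_, ?_, ?_, ?_⟩
  · have hxy' : (γ : Matrix (Fin 2) (Fin 2) L) = tmat (algebraMap K L D) x y := hxy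
    rw [twNorm, ← hxy', ← mapGL_tmat (σ := σ) hxy',
      ← mapGL_tmat (σ := σ) (mapGL_tmat (σ := σ) hxy'),
      ← iGL_tmat hN1, ← Units.val_mul, ← Units.val_mul]
    exact congrArg Units.val hN
  · rw [← det_tmat, ← hN1]
    exact (Matrix.GeneralLinearGroup.det N).ne_zero
  · simpa [hN1, hg, tmat] using hcl 0 0
  · simpa [hN1, hg, tmat] using hcl 1 0

section Degree

variable (q : QDat K) (v : Place K)

/-- The degree of vertices. -/
noncomputable def degV (x : GL (Fin 2) K ⧸ U0 (v.valuation K)) : q.Γ v :=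
  q.toΓ v (q.degU v (q.cj v • x))

/-- The degree of vertices is equivariant for the torus. -/
lemma degV_smul {g : GL (Fin 2) K} (hg : g ∈ tTor q.D) (x : GL (Fin 2) K ⧸ U0 (v.valuation K)) :
    degV q v (g • x) = (g : PG K) • degV q v x := by
  rw [degV, degV, ← q.toΓ_smul, smul_smul, show q.cj v * g = q.φ v g * q.cj v by
    rw [q.φ_apply]; group, mul_smul, QDat.degU, (q.reps v).deg_smul _ hg]
  rfl

/-- Every degree of a vertex is a torus translate of the trivial one. -/
lemma degV_mem (x : GL (Fin 2) K ⧸ U0 (v.valuation K)) :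
    ∃ h ∈ tTor q.D, degV q v x = (h : PG K) • q.one v := by
  obtain ⟨h, hh, e⟩ := (q.reps v).deg_mem (unifAt_spec v) (q.cj v • x)
  refine ⟨h, hh, ?_⟩
  rw [degV, QDat.degU, e, QDat.toΓ_mk, QDat.one]
  change _ = (((h : PG K) * 1 : PG K) : PG K ⧸ q.Ub v)
  rw [mul_one]

/-- Fixed vertices of trivial degree are finitely many. -/
theorem finite_fixed_degV {g₀ : GL (Fin 2) K} (hg : TReg q.D g₀) :
    {x : GL (Fin 2) K ⧸ U0 (v.valuation K) | degV q v x = q.one v ∧
      x.out⁻¹ * g₀ * x.out ∈ U0 (v.valuation K)}.Finite := by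
  have hv : v ∉ (∅ : Set (Place K)) := Set.notMem_empty v
  refine (((q.finite_fixed (S := (∅ : Set (Place K))) (v := v) hg).image (vertEquiv hv))).subset ?_
  rintro x ⟨hx, hU⟩
  refine ⟨(vertEquiv hv).symm x, ⟨?_, ?_⟩, Equiv.apply_symm_apply _ _⟩
  · rw [QDat.degAt, QDat.toOrd, ← vertEquiv_apply hv, Equiv.apply_symm_apply]
    exact hx
  · set a := (vertEquiv hv).symm x
    have e : ((a.out : GL (Fin 2) K) : GL (Fin 2) K ⧸ U0 (v.valuation K)) = x := by
      rw [← Vert.proj_out, ← vertEquiv_apply hv]; exact Equiv.apply_symm_apply _ _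
    obtain ⟨⟨k, hk⟩, ek⟩ := QuotientGroup.mk_out_eq_mul (U0 (v.valuation K)) a.out
    rw [e] at ek
    rw [ek] at hU
    have := (U0 _).mul_mem ((U0 _).mul_mem hk hU) ((U0 _).inv_mem hk)
    rwa [show k * ((a.out * k)⁻¹ * g₀ * (a.out * k)) * k⁻¹ = a.out⁻¹ * g₀ * a.out by group] at this

end Degree

end Fermat.LTG.Loc
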