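import Fermat.Agent.LTG.LocCls

/-!
# Elements hyperbolic modulo the prime

`Hyp w e g`: some multiple of `g` lies in `(p O; p O^×)` with determinant of order `e`.  Their
normalisation `g / tr g` is nearly diagonal after conjugation in `Γ₀(p)`, and two conjugates of one
element differ by an element of the torus.
-/

set_option autoImplicit false
open scoped Matrix

namespace Fermat.LTG.Loc

open Fermat.LT

variable {E : Type*} [Field E] [NumberField E]

section Local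

variable (w : Valuation E (WithZero (Multiplicative ℤ)))

/-- `(p O; p O^×)` with determinant of order `e`. -/
structure Sh (e : ℤ) (G : Matrix (Fin 2) (Fin 2) E) : Prop where
  /-- The upper left entry lies in the prime. -/
  lt00 : w (G 0 0) < 1
  /-- The upper right entry is integral. -/
  le01 : w (G 0 1) ≤ 1
  /-- The lower left entry lies in the prime. -/
  lt10 : w (G 1 0) < 1
  /-- The lower right entry is a unit. -/
  eq11 : w (G 1 1) = 1
  /-- The determinant has order `e`. -/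
  det_eq : w G.det = WithZero.exp (-e)

/-- Hyperbolic modulo `p`. -/
def Hyp (e : ℤ) (g : GL (Fin 2) E) : Prop :=
  ∃ c : Eˣ, Sh w e ((scal c * g : GL (Fin 2) E) : Matrix (Fin 2) (Fin 2) E)

/-- The multiple of trace one. -/
noncomputable def nrm (g : GL (Fin 2) E) : Matrix (Fin 2) (Fin 2) E :=
  (g : Matrix (Fin 2) (Fin 2) E).trace⁻¹ • (g : Matrix (Fin 2) (Fin 2) E)

/-- Nearly diagonal. -/
def Apx (r : ℤ) (X : Matrix (Fin 2) (Fin 2) E) : Prop :=
  w (X 0 1) ≤ WithZero.exp (-r) ∧ w (X 1 0) ≤ WithZero.exp (-r)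

variable {w}

section

omit [NumberField E]

/-- Nearly diagonal to a lower precision. -/
lemma Apx.mono {r r' : ℤ} {X : Matrix (Fin 2) (Fin 2) E} (h : Apx w r X) (hr : r' ≤ r) :
    Apx w r' X :=
  ⟨le_exp_trans h.1 (by omega), le_exp_trans h.2 (by omega)⟩

/-- Products of integers are integral. -/
lemma v_mul_le_one {x y : E} (hx : w x ≤ 1) (hy : w y ≤ 1) : w (x * y) ≤ 1 := by
  rw [map_mul]; exact mul_le_one' hx hy

/-- Small times integral is small. -/
lemma v_mul_lt_left {x y : E} (hx : w x < 1) (hy : w y ≤ 1) : w (x * y) < 1 := by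
  rw [map_mul]; exact lt_of_le_of_lt (mul_le_of_le_one_right' hy) hx

/-- Integral times small is small. -/
lemma v_mul_lt_right {x y : E} (hx : w x ≤ 1) (hy : w y < 1) : w (x * y) < 1 := by
  rw [map_mul]; exact lt_of_le_of_lt (mul_le_of_le_one_left' hx) hy

/-- A small perturbation of a unit is a unit. -/
lemma v_add_eq_one {x y : E} (hx : w x < 1) (hy : w y = 1) : w (x + y) = 1 := by
  rw [add_comm, Valuation.map_add_eq_of_lt_left _ (by rwa [hy]), hy]

/-- A small perturbation of a unit is a unit. -/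
lemma v_sub_eq_one {x y : E} (hx : w x < 1) (hy : w y = 1) : w (y - x) = 1 := by
  rw [sub_eq_neg_add]; exact v_add_eq_one (by rwa [Valuation.map_neg]) hy

/-- The entries of `Γ₀(p)`. -/
lemma congU0_spec {k : GL (Fin 2) E} (hk : k ∈ congU0 w 1) :
    (∀ i j, w ((k : Matrix (Fin 2) (Fin 2) E) i j) ≤ 1) ∧
      w ((k : Matrix (Fin 2) (Fin 2) E) 1 0) < 1 ∧
      w (k : Matrix (Fin 2) (Fin 2) E).det = 1 ∧ w ((k : Matrix (Fin 2) (Fin 2) E) 0 0) = 1 ∧
      w ((k : Matrix (Fin 2) (Fin 2) E) 1 1) = 1 := by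
  have hint := fun i j => v_entry_le_one w hk.1 i j
  have h10 : w ((k : Matrix (Fin 2) (Fin 2) E) 1 0) < 1 :=
    lt_one_iff_le.2 (by simpa using hk.2)
  have hdet : w (k : Matrix (Fin 2) (Fin 2) E).det = 1 := by
    obtain ⟨k0, hk0⟩ := hk.1
    have hu : IsUnit (k0 : Matrix (Fin 2) (Fin 2) w.integer).det :=
      (Matrix.isUnit_iff_isUnit_det _).1 k0.isUnit
    refine Eq.trans (congrArg w ?_)
      ((Valuation.integer.integers w).isUnit_iff_valuation_eq_one.1 hu)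
    rw [← hk0]
    exact (RingHom.map_det w.integer.subtype _).symm
  have hprod : w ((k : Matrix (Fin 2) (Fin 2) E) 0 0 * (k : Matrix (Fin 2) (Fin 2) E) 1 1) = 1 := by
    rw [show (k : Matrix (Fin 2) (Fin 2) E) 0 0 * (k : Matrix (Fin 2) (Fin 2) E) 1 1
      = (k : Matrix (Fin 2) (Fin 2) E) 0 1 * (k : Matrix (Fin 2) (Fin 2) E) 1 0
        + (k : Matrix (Fin 2) (Fin 2) E).det by rw [Matrix.det_fin_two]; ring]
    exact v_add_eq_one (v_mul_lt_right (hint 0 1) h10) hdet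
  rw [map_mul] at hprod
  have h00 := le_antisymm (hint 0 0) (not_lt.1 fun h =>
    (lt_of_le_of_lt (mul_le_of_le_one_right' (hint 1 1)) h).ne hprod)
  exact ⟨hint, h10, hdet, h00, by rwa [h00, one_mul] at hprod⟩

end

/-- An integral matrix with small lower left entry and unit determinant lies in `Γ₀(p)`. -/
lemma mem_congU0_of {k : GL (Fin 2) E} (h : ∀ i j, w ((k : Matrix (Fin 2) (Fin 2) E) i j) ≤ 1)
    (h10 : w ((k : Matrix (Fin 2) (Fin 2) E) 1 0) < 1)
    (hd : w (k : Matrix (Fin 2) (Fin 2) E).det = 1) :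
    k ∈ congU0 w 1 :=
  ⟨mem_intGL_of_det h hd, by simpa using lt_one_iff_le.1 h10⟩

section

omit [NumberField E]

/-- Elements of `Γ₀(p)` are integral. -/
lemma congU0_near {k : GL (Fin 2) E} (hk : k ∈ congU0 w 1) :
    Near w 0 (k : Matrix (Fin 2) (Fin 2) E) := fun i j => by
  simpa using (congU0_spec hk).1 i j

/-- The shape is stable under `Γ₀(p)` on the left. -/
lemma Sh.mul_left {e : ℤ} {G : Matrix (Fin 2) (Fin 2) E} (hG : Sh w e G) {k : GL (Fin 2) E}
    (hk : k ∈ congU0 w 1) : Sh w e ((k : Matrix (Fin 2) (Fin 2) E) * G) := by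
  obtain ⟨ki, k10, kd, k00, k11⟩ := congU0_spec hk
  obtain ⟨g00, g01, g10, g11, gd⟩ := hG
  refine ⟨?_, ?_, ?_, ?_, ?_⟩ <;> simp only [Matrix.mul_apply, Fin.sum_univ_two, Matrix.det_mul]
  · exact w.map_add_lt (v_mul_lt_right (ki _ _) g00) (v_mul_lt_right (ki _ _) g10)
  · exact (w.map_add _ _).trans (max_le (v_mul_le_one (ki _ _) g01) (v_mul_le_one (ki _ _) g11.le))
  · exact w.map_add_lt (v_mul_lt_left k10 g00.le) (v_mul_lt_right k11.le g10)
  · exact v_add_eq_one (v_mul_lt_left k10 g01) (by rw [map_mul, k11, g11, one_mul])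
  · rw [map_mul, kd, gd, one_mul]

/-- The shape is stable under `Γ₀(p)` on the right. -/
lemma Sh.mul_right {e : ℤ} {G : Matrix (Fin 2) (Fin 2) E} (hG : Sh w e G) {k : GL (Fin 2) E}
    (hk : k ∈ congU0 w 1) : Sh w e (G * (k : Matrix (Fin 2) (Fin 2) E)) := by
  obtain ⟨ki, k10, kd, k00, k11⟩ := congU0_spec hk
  obtain ⟨g00, g01, g10, g11, gd⟩ := hG
  refine ⟨?_, ?_, ?_, ?_, ?_⟩ <;> simp only [Matrix.mul_apply, Fin.sum_univ_two, Matrix.det_mul]
  · exact w.map_add_lt (v_mul_lt_left g00 (ki _ _)) (v_mul_lt_right g01 k10)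
  · exact (w.map_add _ _).trans (max_le (v_mul_le_one g00.le (ki _ _)) (v_mul_le_one g01 (ki _ _)))
  · exact w.map_add_lt (v_mul_lt_left g10 (ki _ _)) (v_mul_lt_right g11.le k10)
  · exact v_add_eq_one (v_mul_lt_left g10 (ki _ _)) (by rw [map_mul, k11, g11, one_mul])
  · rw [map_mul, kd, gd, mul_one]

/-- Hyperbolicity modulo `p` is bi-invariant under `Γ₀(p)` with scalars. -/
lemma Hyp.mul {e : ℤ} {g k k' : GL (Fin 2) E} (h : Hyp w e g) (hk : k ∈ U0N w 1)
    (hk' : k' ∈ U0N w 1) :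
    Hyp w e (k * g * k') := by
  obtain ⟨c, hc⟩ := h
  obtain ⟨a, ha⟩ := hk
  obtain ⟨b, hb⟩ := hk'
  refine ⟨a * c * b, ?_⟩
  have h1 := (hc.mul_left ha).mul_right hb
  rw [← Units.val_mul, ← Units.val_mul] at h1
  rwa [show scal a * k * (scal c * g) * (scal b * k') = scal (a * c * b) * (k * g * k') by
    rw [scal_mul, scal_mul]
    calc scal a * k * (scal c * g) * (scal b * k') = scal a * (k * scal c) * g * scal b * k' := by
           group
      _ = scal a * (scal c * k) * g * scal b * k' := by rw [scal_comm c k]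
      _ = scal a * scal c * (k * g * scal b) * k' := by group
      _ = scal a * scal c * (scal b * (k * g)) * k' := by rw [scal_comm b (k * g)]
      _ = _ := by group] at h1

/-- Hyperbolicity is stable under conjugation by `Fˣ Γ₀(p)`. -/
lemma Hyp.conj {e : ℤ} {g k : GL (Fin 2) E} (h : Hyp w e g) (hk : k ∈ U0N w 1) :
    Hyp w e (k⁻¹ * g * k) := h.mul ((U0N w 1).inv_mem hk) hk

/-- The normalisation has trace one. -/
lemma trace_nrm {g : GL (Fin 2) E} (h : (g : Matrix (Fin 2) (Fin 2) E).trace ≠ 0) :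
    (nrm g).trace = 1 := by
  rw [nrm, Matrix.trace_smul, smul_eq_mul, inv_mul_cancel₀ h]

/-- A hyperbolic element has nonzero trace. -/
lemma Hyp.trace_ne {e : ℤ} {g : GL (Fin 2) E} (h : Hyp w e g) :
    (g : Matrix (Fin 2) (Fin 2) E).trace ≠ 0 := fun h0 => by
  obtain ⟨c, g00, -, -, g11, -⟩ := h
  have h1 := v_add_eq_one g00 g11
  rw [coe_scal_mul, Matrix.smul_apply, Matrix.smul_apply, smul_eq_mul, smul_eq_mul, ← mul_add,
    ← Matrix.trace_fin_two, h0, mul_zero, map_zero] at h1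
  exact zero_ne_one h1

/-- The normalisation of a hyperbolic element has the hyperbolic shape. -/
lemma Hyp.sh {e : ℤ} {g : GL (Fin 2) E} (h : Hyp w e g) : Sh w e (nrm g) := by
  obtain ⟨c, hc⟩ := h
  rw [coe_scal_mul] at hc
  obtain ⟨g00, g01, g10, g11, gd⟩ := hc
  set M := (g : Matrix (Fin 2) (Fin 2) E)
  have h1 : w ((c : E) * M.trace) = 1 := by
    rw [Matrix.trace_fin_two, mul_add]; exact v_add_eq_one g00 g11
  have hu : w ((c : E) * M.trace)⁻¹ = 1 := by rw [map_inv₀, h1, inv_one]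
  have e' : nrm g = ((c : E) * M.trace)⁻¹ • ((c : E) • M) := by
    rw [nrm, smul_smul, mul_inv, mul_comm ((c : E))⁻¹, inv_mul_cancel_right₀ c.ne_zero]
  rw [e']
  refine ⟨?_, ?_, ?_, ?_, ?_⟩
  · rw [Matrix.smul_apply, smul_eq_mul]; exact v_mul_lt_right hu.le g00
  · rw [Matrix.smul_apply, smul_eq_mul]; exact v_mul_le_one hu.le g01
  · rw [Matrix.smul_apply, smul_eq_mul]; exact v_mul_lt_right hu.le g10
  · rw [Matrix.smul_apply, smul_eq_mul, map_mul, hu, g11, one_mul]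
  · rw [Matrix.det_smul, Fintype.card_fin, map_mul, map_pow, hu, one_pow, one_mul, gd]

/-- Normalisation commutes with conjugation. -/
lemma nrm_conj (x g : GL (Fin 2) E) :
    nrm (x⁻¹ * g * x) = ((x⁻¹ : GL (Fin 2) E) : Matrix (Fin 2) (Fin 2) E) * nrm g *
      (x : Matrix (Fin 2) (Fin 2) E) := by
  simp only [nrm, Units.val_mul]
  rw [Matrix.trace_units_conj', Matrix.mul_smul, Matrix.smul_mul]

end

/-- `(1 0; y 1)`. -/
noncomputable def lowMat (y : E) : GL (Fin 2) E :=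
  Matrix.GeneralLinearGroup.mkOfDetNeZero !![1, 0; y, 1] (by simp [Matrix.det_fin_two_of])

/-- The lower unipotent matrix. -/
lemma coe_lowMat (y : E) : (lowMat y : Matrix (Fin 2) (Fin 2) E) = !![1, 0; y, 1] := rfl

/-- The inverse lower unipotent matrix. -/
lemma coe_lowMat_inv (y : E) :
    ((lowMat y)⁻¹ : GL (Fin 2) E).val = !![1, 0; -y, 1] := by
  rw [Matrix.coe_units_inv, Matrix.inv_def, coe_lowMat, Matrix.det_fin_two_of,
    Matrix.adjugate_fin_two_of]
  simp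

omit [NumberField E] in
/-- The inverse upper unipotent matrix. -/
lemma coe_upMat_one_inv (x : E) : ((upMat 1 x)⁻¹ : GL (Fin 2) E).val = !![1, -x; 0, 1] := by
  rw [Matrix.coe_units_inv, Matrix.inv_def, coe_upMat, Matrix.det_fin_two_of,
    Matrix.adjugate_fin_two_of]
  simp

/-- Lower unipotents with small entry lie in `Γ₀(p)`. -/
lemma lowMat_mem {y : E} (hy : w y < 1) : lowMat y ∈ congU0 w 1 := by
  refine mem_congU0_of (fun i j => ?_) (by simpa [coe_lowMat] using hy)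
    (by simp [coe_lowMat, Matrix.det_fin_two_of])
  fin_cases i <;> fin_cases j <;> simp [coe_lowMat, hy.le]

/-- Upper unipotents with integral entry lie in `Γ₀(p)`. -/
lemma upMat_one_mem {x : E} (hx : w x ≤ 1) : upMat 1 x ∈ congU0 w 1 := by
  refine mem_congU0_of (fun i j => ?_) (by simp) (by simp [Matrix.det_fin_two_of])
  fin_cases i <;> fin_cases j <;> simp [hx]

/-- **Conjugation to nearly diagonal form.** -/
theorem exists_refine {e : ℤ} {g : GL (Fin 2) E} (h : Hyp w e g) (r : ℤ) :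
    ∃ k ∈ congU0 w 1, Apx w r (nrm (k⁻¹ * g * k)) := by
  -- improve the approximation step by step
  have step : ∀ n : ℕ, ∃ k ∈ congU0 w 1,
      w (nrm (k⁻¹ * g * k) 1 0) ≤ WithZero.exp (-((n : ℤ) + 1)) := by
    intro n
    induction n with
    | zero => exact ⟨1, one_mem _, by simpa [lt_one_iff_le] using h.sh.lt10⟩
    | succ n ih =>
      obtain ⟨k, hk, hn⟩ := ih
      obtain ⟨a00, a01, a10, a11, -⟩ := (h.conj (le_withScalars _ hk)).sh
      set M := nrm (k⁻¹ * g * k) with hM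
      have hu : w (M 1 1 - M 0 0) = 1 := v_sub_eq_one a00 a11
      have hne : M 1 1 - M 0 0 ≠ 0 := fun h0 => by simp [h0] at hu
      set y := -(M 1 0) / (M 1 1 - M 0 0)
      have hy : w y = w (M 1 0) := by rw [map_div₀, hu, div_one, Valuation.map_neg]
      refine ⟨k * lowMat y, (congU0 w 1).mul_mem hk (lowMat_mem (hy.trans_lt a10)), ?_⟩
      rw [show (k * lowMat y)⁻¹ * g * (k * lowMat y) = (lowMat y)⁻¹ * (k⁻¹ * g * k) *
        lowMat y by group, nrm_conj, coe_lowMat, coe_lowMat_inv, ← hM]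
      have hyd : y * (M 1 1 - M 0 0) = -(M 1 0) := div_mul_cancel₀ _ hne
      have e1 : (!![1, 0; -y, 1] * M * !![1, 0; y, 1] : Matrix (Fin 2) (Fin 2) E) 1 0 =
          -(M 0 1 * (y * y)) := by
        clear_value y
        simp [Matrix.mul_apply, Matrix.vecMul, dotProduct, Fin.sum_univ_two]
        linear_combination hyd
      rw [e1, Valuation.map_neg, map_mul]
      refine (mul_le_of_le_one_left' a01).trans ?_
      refine mul_le_exp (a := -((n : ℤ) + 1)) (b := -((n : ℤ) + 1)) (hy.trans_le hn)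
        (hy.trans_le hn) ?_
      push_cast; omega
  obtain ⟨k, hk, hn⟩ := step r.toNat
  obtain ⟨a00, a01, a10, a11, -⟩ := (h.conj (le_withScalars _ hk)).sh
  set M := nrm (k⁻¹ * g * k) with hM
  have hu : w (M 1 1 - M 0 0) = 1 := v_sub_eq_one a00 a11
  have hne : M 1 1 - M 0 0 ≠ 0 := fun h0 => by simp [h0] at hu
  set x := M 0 1 / (M 1 1 - M 0 0)
  have hx : w x ≤ 1 := by rwa [map_div₀, hu, div_one]
  have hxd : x * (M 1 1 - M 0 0) = M 0 1 := div_mul_cancel₀ _ hne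
  refine ⟨k * upMat 1 x, (congU0 w 1).mul_mem hk (upMat_one_mem hx), ?_⟩
  -- conjugate away the upper entry
  rw [show (k * upMat 1 x)⁻¹ * g * (k * upMat 1 x) = (upMat 1 x)⁻¹ * (k⁻¹ * g * k) *
    upMat 1 x by group, nrm_conj, coe_upMat_one_inv, ← hM, coe_upMat]
  refine ⟨?_, ?_⟩
  · rw [show (!![1, -x; 0, 1] * M * !![((1 : Eˣ) : E), x; 0, 1] : Matrix (Fin 2) (Fin 2) E) 0 1
      = -(M 1 0 * (x * x)) by clear_value x; simp [Matrix.mul_apply, Matrix.vecMul, dotProduct,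
                                Fin.sum_univ_two]; linear_combination -hxd,
      Valuation.map_neg, map_mul]
    exact (mul_le_of_le_one_right' (v_mul_le_one hx hx)).trans (le_exp_trans hn (by omega))
  · rw [show (!![1, -x; 0, 1] * M * !![((1 : Eˣ) : E), x; 0, 1] : Matrix (Fin 2) (Fin 2) E) 1 0
      = M 1 0 by simp [Matrix.mul_apply, Matrix.vecMul, dotProduct, Fin.sum_univ_two]]
    exact le_exp_trans hn (by omega)

omit [NumberField E] in
/-- What intertwines nearly diagonal elements is nearly diagonal. -/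
lemma apx_of_comm {e r R : ℤ} {X Y Z : Matrix (Fin 2) (Fin 2) E} (hX : Sh w e X) (hY : Sh w e Y)
    (aX : Apx w r X) (aY : Apx w r Y) (hZ : Near w R Z) (h : X * Z = Z * Y) : Apx w (r - R) Z := by
  have h01 := congrFun (congrFun h 0) 1
  have h10 := congrFun (congrFun h 1) 0
  simp only [Matrix.mul_apply, Fin.sum_univ_two] at h01 h10
  constructor
  · rw [show Z 0 1 = (X 0 1 * Z 1 1 - Z 0 0 * Y 0 1) / (Y 1 1 - X 0 0) by
      rw [eq_div_iff fun h0 => by simpa [h0] using v_sub_eq_one hX.lt00 hY.eq11]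
      linear_combination -h01, map_div₀, v_sub_eq_one hX.lt00 hY.eq11, div_one]
    exact (w.map_sub _ _).trans (max_le (mul_le_exp aX.1 (hZ 1 1) (by omega))
      (mul_le_exp (hZ 0 0) aY.1 (by omega)))
  · rw [show Z 1 0 = (Z 1 1 * Y 1 0 - X 1 0 * Z 0 0) / (X 1 1 - Y 0 0) by
      rw [eq_div_iff fun h0 => by simpa [h0] using v_sub_eq_one hY.lt00 hX.eq11]
      linear_combination h10, map_div₀, v_sub_eq_one hY.lt00 hX.eq11, div_one]
    exact (w.map_sub _ _).trans (max_le (mul_le_exp (hZ 1 1) aY.2 (by omega))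
      (mul_le_exp aX.2 (hZ 0 0) (by omega)))

omit [NumberField E] in
/-- `a⁻¹ b` intertwines the normalisations of two conjugates. -/
lemma nrm_intertwine (a b g : GL (Fin 2) E) :
    nrm (a⁻¹ * g * a) * ((a⁻¹ * b : GL (Fin 2) E) : Matrix (Fin 2) (Fin 2) E)
      = ((a⁻¹ * b : GL (Fin 2) E) : Matrix (Fin 2) (Fin 2) E) * nrm (b⁻¹ * g * b) := by
  rw [nrm_conj, nrm_conj, Units.val_mul]
  simp only [mul_assoc, Units.mul_inv_cancel_left]

/-- A matrix with the diagonal and determinant of `z` up to small corners differs from `z` by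
`congU0 w 1`. -/
lemma exists_congU0_of_diag {R r δ : ℤ} {z : GL (Fin 2) E} {T : Matrix (Fin 2) (Fin 2) E}
    (hr0 : 0 ≤ r) (hr : 2 * R - r < δ) (hZR : Near w R (z : Matrix (Fin 2) (Fin 2) E))
    (hZd : w (z : Matrix (Fin 2) (Fin 2) E).det = WithZero.exp δ)
    (aZ : Apx w (r - R) (z : Matrix (Fin 2) (Fin 2) E))
    (T00 : T 0 0 = (z : Matrix (Fin 2) (Fin 2) E) 0 0)
    (T11 : T 1 1 = (z : Matrix (Fin 2) (Fin 2) E) 1 1)
    (T01 : w (T 0 1) ≤ WithZero.exp (R - r)) (T10 : w (T 1 0) ≤ WithZero.exp (R - r)) :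
    ∃ τ : GL (Fin 2) E, (τ : Matrix (Fin 2) (Fin 2) E) = T ∧ τ⁻¹ * z ∈ congU0 w 1 := by
  set Z := (z : Matrix (Fin 2) (Fin 2) E) with hZ
  have hsmall : ∀ {x : E}, w x ≤ WithZero.exp (2 * R - r) → w x < WithZero.exp δ := fun h =>
    lt_of_le_of_lt h (WithZero.exp_lt_exp.2 hr)
  have z01 := aZ.1
  have z10 := aZ.2
  -- `T` and `z` share the diagonal, so the determinants have the same valuation
  have hTd : w T.det = WithZero.exp δ := by
    have e1 : T.det = Z.det + (Z 0 1 * Z 1 0 - T 0 1 * T 1 0) := by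
      rw [Matrix.det_fin_two, Matrix.det_fin_two, T00, T11]; ring
    rw [e1, Valuation.map_add_eq_of_lt_left, hZd]
    rw [hZd]
    refine lt_of_le_of_lt (w.map_sub _ _) (max_lt (hsmall (mul_le_exp z01 z10 ?_))
      (hsmall (mul_le_exp T01 T10 ?_))) <;> omega
  have hTd0 : T.det ≠ 0 := fun h0 => WithZero.exp_ne_zero (hTd.symm.trans (by rw [h0, map_zero]))
  refine ⟨Matrix.GeneralLinearGroup.mkOfDetNeZero T hTd0, rfl, ?_⟩
  set τ := Matrix.GeneralLinearGroup.mkOfDetNeZero T hTd0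
  have hτ : (τ : Matrix (Fin 2) (Fin 2) E) = T := rfl
  -- `adj T * Z` is bounded by `exp δ`, strictly off the diagonal
  have hmul : ∀ i j, w ((T.adjugate * Z) i j) ≤ WithZero.exp δ ∧
      (i ≠ j → w ((T.adjugate * Z) i j) < WithZero.exp δ) := by
    have d0 : w (Z 0 0 * Z 1 1) ≤ WithZero.exp δ := by
      rw [show Z 0 0 * Z 1 1 = Z.det + Z 0 1 * Z 1 0 by rw [Matrix.det_fin_two]; ring]
      exact (w.map_add _ _).trans (max_le hZd.le (hsmall (mul_le_exp z01 z10 (by omega))).le)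
    intro i j
    rw [Matrix.mul_apply, Fin.sum_univ_two, Matrix.adjugate_fin_two]
    fin_cases i <;> fin_cases j <;> simp [T00, T11]
    · exact (w.map_add _ _).trans (max_le (by rw [mul_comm]; exact d0)
        (by rw [Valuation.map_neg]; exact (hsmall (mul_le_exp T01 (hZR 1 0) (by omega))).le))
    · refine ⟨le_of_lt ?_, ?_⟩ <;>
      exact w.map_add_lt (hsmall (mul_le_exp (hZR 1 1) z01 (by omega)))
        (by rw [Valuation.map_neg]; exact hsmall (mul_le_exp T01 (hZR 1 1) (by omega)))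
    · refine ⟨le_of_lt ?_, ?_⟩ <;>
      exact w.map_add_lt
        (by rw [Valuation.map_neg]; exact hsmall (mul_le_exp T10 (hZR 0 0) (by omega)))
        (hsmall (mul_le_exp (hZR 0 0) z10 (by omega)))
    · exact (w.map_add _ _).trans (max_le
        (by rw [Valuation.map_neg]; exact (hsmall (mul_le_exp T10 (hZR 0 1) (by omega))).le) d0)
  have he : ((τ⁻¹ * z : GL (Fin 2) E) : Matrix (Fin 2) (Fin 2) E) =
      T.det⁻¹ • (T.adjugate * Z) := by
    rw [Units.val_mul, Matrix.coe_units_inv, Matrix.inv_def, Ring.inverse_eq_inv',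
      Matrix.smul_mul, hτ]
  have hsc : ∀ x : E, w (T.det⁻¹ * x) = WithZero.exp (-δ) * w x := fun x => by
    rw [map_mul, map_inv₀, hTd, WithZero.exp_neg]
  have hexp : WithZero.exp (-δ) * WithZero.exp δ = (1 : WithZero (Multiplicative ℤ)) := by
    rw [← WithZero.exp_add, neg_add_cancel, WithZero.exp_zero]
  -- dividing by `det T` gives an element of `congU0`
  refine mem_congU0_of (fun i j => ?_) ?_ ?_
  · rw [he, Matrix.smul_apply, smul_eq_mul, hsc, ← hexp]
    exact mul_le_mul' le_rfl (hmul i j).1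
  · rw [he, Matrix.smul_apply, smul_eq_mul, hsc, ← hexp]
    exact mul_lt_mul_of_pos_left ((hmul 1 0).2 (by decide)) (WithZero.exp_pos)
  · rw [Units.val_mul, Matrix.det_mul, map_mul, Matrix.coe_units_inv, Matrix.det_nonsing_inv,
      Ring.inverse_eq_inv', map_inv₀, hτ, hTd, ← hZ, hZd, inv_mul_cancel₀ WithZero.exp_ne_zero]

/-- **Two conjugates differ by the torus.** -/
theorem exists_torus_mul {D : E} {e : ℤ} {g x₁ x₂ : GL (Fin 2) E} (hg : g ∈ tTor D)
    (h1 : Hyp w e (x₁⁻¹ * g * x₁)) (h2 : Hyp w e (x₂⁻¹ * g * x₂)) :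
    ∃ t ∈ tTor D, x₁⁻¹ * t⁻¹ * x₂ ∈ U0N w 1 := by
  set z₀ := x₁⁻¹ * x₂
  obtain ⟨R, hR0, hR⟩ := exists_near (w := w) (z₀ : Matrix (Fin 2) (Fin 2) E)
  have hd0 : w (z₀ : Matrix (Fin 2) (Fin 2) E).det ≠ 0 :=
    w.ne_zero_iff.2 (Matrix.GeneralLinearGroup.det z₀).ne_zero
  set δ := WithZero.log (w (z₀ : Matrix (Fin 2) (Fin 2) E).det) with hδ
  set r : ℤ := 2 * R - δ + |δ| + 1 with hr
  have := le_abs_self δ
  have := neg_abs_le δ
  obtain ⟨k₁, hk₁, a₁⟩ := exists_refine h1 r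
  obtain ⟨k₂, hk₂, a₂⟩ := exists_refine h2 r
  set y₁ := x₁ * k₁ with hy₁
  set y₂ := x₂ * k₂ with hy₂
  rw [show k₁⁻¹ * (x₁⁻¹ * g * x₁) * k₁ = y₁⁻¹ * g * y₁ by simp [hy₁]; group] at a₁
  rw [show k₂⁻¹ * (x₂⁻¹ * g * x₂) * k₂ = y₂⁻¹ * g * y₂ by simp [hy₂]; group] at a₂
  -- both conjugates are nearly diagonal
  have s₁ : Sh w e (nrm (y₁⁻¹ * g * y₁)) := by
    have := (h1.conj (le_withScalars _ hk₁)).sh
    rwa [show k₁⁻¹ * (x₁⁻¹ * g * x₁) * k₁ = y₁⁻¹ * g * y₁ by simp [hy₁]; group] at this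
  have s₂ : Sh w e (nrm (y₂⁻¹ * g * y₂)) := by
    have := (h2.conj (le_withScalars _ hk₂)).sh
    rwa [show k₂⁻¹ * (x₂⁻¹ * g * x₂) * k₂ = y₂⁻¹ * g * y₂ by simp [hy₂]; group] at this
  set z := y₁⁻¹ * y₂ with hz
  set Z := (z : Matrix (Fin 2) (Fin 2) E) with hZ
  set X := nrm (y₁⁻¹ * g * y₁) with hX
  have hzk : z = k₁⁻¹ * z₀ * k₂ := by simp [hz, hy₁, hy₂, z₀]; group
  have hZR : Near w R Z := by
    have := ((congU0_near ((congU0 w 1).inv_mem hk₁)).mul hR).mul (congU0_near hk₂)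
    rw [zero_add, add_zero, ← Units.val_mul, ← Units.val_mul, ← hzk] at this
    exact this
  have hZd : w Z.det = WithZero.exp δ := by
    rw [hZ, hzk, Units.val_mul, Units.val_mul, Matrix.det_mul, Matrix.det_mul, map_mul, map_mul,
      (congU0_spec ((congU0 w 1).inv_mem hk₁)).2.2.1, (congU0_spec hk₂).2.2.1, one_mul, mul_one, hδ,
      WithZero.exp_log hd0]
  have hcomm : X * Z = Z * nrm (y₂⁻¹ * g * y₂) := nrm_intertwine y₁ y₂ g
  -- so the intertwiner `Z` is nearly diagonal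
  have aZ := apx_of_comm s₁ s₂ a₁ a₂ hZR hcomm
  have hu := v_sub_eq_one s₁.lt00 s₁.eq11
  have hne : X 1 1 - X 0 0 ≠ 0 := fun h0 => by simp [h0] at hu
  set β := (Z 1 1 - Z 0 0) / (X 1 1 - X 0 0) with hβ
  set α := Z 0 0 - β * X 0 0 with hα
  have hβR : w β ≤ WithZero.exp R := by
    rw [map_div₀, hu, div_one]; exact (w.map_sub _ _).trans (max_le (hZR 1 1) (hZR 0 0))
  -- replace it by an element `T` of the torus algebra
  set T : Matrix (Fin 2) (Fin 2) E := α • 1 + β • X with hT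
  have T00 : T 0 0 = Z 0 0 := by simp [hT, hα]
  have T11 : T 1 1 = Z 1 1 := by
    simp [hT, hα, hβ]; field_simp; ring
  have T01 : w (T 0 1) ≤ WithZero.exp (R - r) := by
    simpa [hT, map_mul] using mul_le_exp hβR a₁.1 (by omega : R + -r ≤ R - r)
  have T10 : w (T 1 0) ≤ WithZero.exp (R - r) := by
    simpa [hT, map_mul] using mul_le_exp hβR a₁.2 (by omega : R + -r ≤ R - r)
  obtain ⟨τ, hτ, hP⟩ :=
    exists_congU0_of_diag (by omega : 0 ≤ r) (by omega : 2 * R - r < δ) hZR hZd aZ T00 T11 T01 T10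
  refine ⟨y₁ * τ * y₁⁻¹, ?_, ?_⟩
  · change IsT D _
    rw [Units.val_mul, Units.val_mul, hτ, hT, Matrix.mul_add, Matrix.add_mul, Matrix.mul_smul,
      Matrix.smul_mul, Matrix.mul_one, ← Units.val_mul, mul_inv_cancel, Units.val_one,
        Matrix.mul_smul,
      Matrix.smul_mul, hX, nrm_conj]
    rw [show (y₁ : Matrix (Fin 2) (Fin 2) E) *
        (((y₁⁻¹ : GL (Fin 2) E) : Matrix (Fin 2) (Fin 2) E) * nrm g
        * (y₁ : Matrix (Fin 2) (Fin 2) E)) *
            ((y₁⁻¹ : GL (Fin 2) E) : Matrix (Fin 2) (Fin 2) E) = nrm g by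
      simp only [← Matrix.mul_assoc, ← Units.val_mul, mul_inv_cancel, Units.val_one, Matrix.one_mul]
      rw [Matrix.mul_assoc, ← Units.val_mul, mul_inv_cancel, Units.val_one, Matrix.mul_one]]
    exact (isT_one.smul _).add
      ((IsT.smul _ (show IsT D (g : Matrix (Fin 2) (Fin 2) E) from hg)).smul _)
  · rw [show x₁⁻¹ * (y₁ * τ * y₁⁻¹)⁻¹ * x₂ = k₁ * (τ⁻¹ * z) * k₂⁻¹ by simp [hz, hy₁, hy₂]; group]
    exact le_withScalars _ ((congU0 w 1).mul_mem ((congU0 w 1).mul_mem hk₁ hP)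
      ((congU0 w 1).inv_mem hk₂))

/-- `Γ₀(p) diag(u, 1) Γ₀(p)`. -/
theorem hyp_iff_double {e : ℤ} (he : 0 < e) {u : Eˣ} (hu : w (u : E) = WithZero.exp (-e))
    (g : GL (Fin 2) E) :
    Hyp w e g ↔ ∃ k₁ ∈ U0N w 1, ∃ k₂ ∈ U0N w 1, g = k₁ * upMat u 0 * k₂ := by
  constructor
  · rintro ⟨c, hc⟩
    -- normalise by `c`; a lower unipotent clears the bottom left entry
    set G := ((scal c * g : GL (Fin 2) E) : Matrix (Fin 2) (Fin 2) E) with hG
    obtain ⟨g00, g01, g10, g11, gd⟩ := hc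
    have n11 : G 1 1 ≠ 0 := fun h => by simp [h] at g11
    have gd0 : G.det ≠ 0 := fun h => WithZero.exp_ne_zero (gd.symm.trans (by rw [h, map_zero]))
    have hval : w (G.det / (G 1 1 * (u : E))) = 1 := by
      rw [map_div₀, map_mul, gd, g11, hu, one_mul, div_self WithZero.exp_ne_zero]
    have hd : (!![G.det / (G 1 1 * (u : E)), G 0 1; 0, G 1 1] : Matrix (Fin 2) (Fin 2) E).det ≠
        0 := by
      simp [Matrix.det_fin_two_of, n11, gd0]
    set k₁ := Matrix.GeneralLinearGroup.mkOfDetNeZero _ hd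
    have hk₁ : k₁ ∈ congU0 w 1 := by
      refine mem_congU0_of (fun i j => ?_) (by simp [k₁]) ?_
      · fin_cases i <;> fin_cases j <;> simp [k₁, hval, g01, g11]
      · change w (Matrix.det !![G.det / (G 1 1 * (u : E)), G 0 1; 0, G 1 1]) = 1
        rw [Matrix.det_fin_two_of, mul_zero, sub_zero, map_mul, hval, g11, one_mul]
    refine ⟨scal c⁻¹ * k₁, (U0N w 1).mul_mem (scal_mem_withScalars _ _) (le_withScalars _ hk₁),
      lowMat (G 1 0 / G 1 1), le_withScalars _ (lowMat_mem (by rwa [map_div₀, g11, div_one])), ?_⟩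
    -- the upper factor, `diag(u, 1)` and the lower one give back `G`
    have e1 : k₁ * upMat u 0 * lowMat (G 1 0 / G 1 1) = scal c * g := by
      refine Units.ext ?_
      rw [Units.val_mul, Units.val_mul, coe_upMat, coe_lowMat, ← hG]
      change !![G.det / (G 1 1 * (u : E)), G 0 1; 0, G 1 1] * _ * _ = _
      have hud : (u : E) ≠ 0 := u.ne_zero
      ext i j
      fin_cases i <;> fin_cases j <;> simp [Matrix.mul_apply, Fin.sum_univ_two]
      · rw [Matrix.det_fin_two]; field_simp; ring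
      · field_simp
    rw [mul_assoc (scal c⁻¹), mul_assoc (scal c⁻¹), e1, ← mul_assoc, ← scal_mul, inv_mul_cancel]
    simp [scal]
  · rintro ⟨k₁, hk₁, k₂, hk₂, rfl⟩
    -- conversely `diag(u, 1)` is hyperbolic, and `Hyp` is stable on both sides
    refine Hyp.mul ⟨1, ?_⟩ hk₁ hk₂
    rw [show (scal (1 : Eˣ) : GL (Fin 2) E) = 1 by simp [scal], one_mul, coe_upMat]
    refine ⟨?_, ?_, ?_, ?_, ?_⟩ <;> simp [Matrix.det_fin_two_of, hu]
    rw [← WithZero.exp_zero, ← WithZero.exp_neg, WithZero.exp_lt_exp]; omega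

end Local

/-- Finitely many cosets of congruence subgroups in a hyperbolic class. -/
theorem finite_hyp_cosets (v : Place E) (n : ℕ) {e : ℤ} (he : 0 < e) {u : Eˣ}
    (hu : v.valuation E (u : E) = WithZero.exp (-e)) (a : GL (Fin 2) E) :
    {b : GL (Fin 2) E ⧸ UN (v.valuation E) n | Hyp (v.valuation E) e (a⁻¹ * b.out)}.Finite := by
  set V := v.valuation E
  obtain ⟨s₂, hs₂, hs₂'⟩ := exists_finset_U0_cosetN v n
  obtain ⟨m, hm⟩ := exists_entry_bound V (upMat u 0)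
  obtain ⟨s₁, hs₁, hs₁'⟩ := exists_finset_U0_cosetN v (2 * m + n)
  refine ((s₁ ×ˢ s₂).finite_toSet.image fun p =>
    ((a * p.1 * upMat u 0 * p.2 : GL (Fin 2) E) : GL (Fin 2) E ⧸ UN V n)).subset fun b hb => ?_
  obtain ⟨k₁, hk₁, k₂, hk₂, he'⟩ := (hyp_iff_double he hu _).1 hb
  obtain ⟨r₁, hr₁, hr₁'⟩ := hs₁' k₁ (U0N_le_U0 _ _ hk₁)
  obtain ⟨r₂, hr₂, hr₂'⟩ := hs₂' k₂ (U0N_le_U0 _ _ hk₂)
  refine ⟨(r₁, r₂), Finset.mem_coe.2 (Finset.mk_mem_product hr₁ hr₂), ?_⟩
  conv_rhs => rw [← QuotientGroup.out_eq' b]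
  refine QuotientGroup.eq.2 ?_
  obtain ⟨c, hc⟩ := (UN V (2 * m + n)).inv_mem hr₁'
  have hconj : (upMat u 0)⁻¹ * (r₁⁻¹ * k₁) * upMat u 0 ∈ UN V n := by
    refine ⟨c, ?_⟩
    have := conj_mem_congN V (g := upMat u 0) hm hc.2 ((congN V _).inv_mem hc).2
    rw [show (k₁⁻¹ * r₁)⁻¹ = r₁⁻¹ * k₁ by group] at this
    rwa [show (upMat u 0)⁻¹ * (scal c * (r₁⁻¹ * k₁)) * upMat u 0
      = scal c * ((upMat u 0)⁻¹ * (r₁⁻¹ * k₁) * upMat u 0) by
        rw [← mul_assoc (upMat u 0)⁻¹ (scal c), ← scal_comm]; group] at this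
  have h2 := (UN V n).mul_mem (conj_UN_mem V (hs₂ r₂ hr₂) hconj) ((UN V n).inv_mem hr₂')
  rw [show b.out = a * (a⁻¹ * b.out) by group, he',
    show (a * r₁ * upMat u 0 * r₂)⁻¹ * (a * (k₁ * upMat u 0 * k₂))
      = r₂⁻¹ * ((upMat u 0)⁻¹ * (r₁⁻¹ * k₁) * upMat u 0) * r₂ * (r₂⁻¹ * k₂) by group]
  rwa [show (k₂⁻¹ * r₂)⁻¹ = r₂⁻¹ * k₂ by group] at h2

end Fermat.LTG.Loc
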