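import Fermat.Agent.LTG.LocApprox

/-!
# Matching of supports at a nonsplit place away from three

For a unit `t` of `E` the set of cosets `x` with `x⁻¹ δ σ(x) ∈ diag(t,1) H` is the translate by one
torus element of the set of rational cosets `a` with `a⁻¹ g a ∈ diag(s,1) H'`.
-/

set_option autoImplicit false
open scoped Matrix

namespace Fermat.LTG.Loc

open Fermat.LT

variable {F : Type*} [Field F] {E : Type*} [Field E] {v : Valuation F (WithZero (Multiplicative ℤ))}
  {w : Valuation E (WithZero (Multiplicative ℤ))}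

section Cos

variable (w) (k : ℤ) (m : ℕ)

/-- The class `diag(t,1) · (1 + J)`. -/
def BCos (t : Eˣ) (g : GL (Fin 2) E) : Prop := (dg1 t)⁻¹ * g ∈ boxGrp w k m

/-- The class `diag(t,1) · H`. -/
def Cos (t : Eˣ) (g : GL (Fin 2) E) : Prop := (dg1 t)⁻¹ * g ∈ boxH w k m

variable {w k m}

/-- The small class lies in the class with scalars. -/
lemma BCos.cos {t : Eˣ} {g : GL (Fin 2) E} (h : BCos w k m t g) : Cos w k m t g := boxGrp_le_boxH h

/-- `diag(t,1)` with a unit `t` normalises the group with scalars. -/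
lemma dg1_conj_unit' {t : Eˣ} (ht : w t = 1) {g : GL (Fin 2) E} (hg : g ∈ boxH w k m) :
    (dg1 t)⁻¹ * g * dg1 t ∈ boxH w k m := by
  simpa [map_inv] using dg1_conj_mem_unit (b := t⁻¹) (by simp [ht]) hg

/-- `diag(t,1)` with a unit `t` normalises `1 + J`. -/
lemma dg1_conj_box' {t : Eˣ} (ht : w t = 1) {g : GL (Fin 2) E} (hg : g ∈ boxGrp w k m) :
    (dg1 t)⁻¹ * g * dg1 t ∈ boxGrp w k m := by
  simpa [map_inv] using dg1_conj_box_unit (b := t⁻¹) (by simp [ht]) hg

/-- Classes `diag(t, 1) H` multiply. -/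
lemma Cos.mul {t t' : Eˣ} (ht' : w t' = 1) {a b : GL (Fin 2) E} (ha : Cos w k m t a)
    (hb : Cos w k m t' b) : Cos w k m (t * t') (a * b) := by
  have := (boxH w k m).mul_mem (dg1_conj_unit' ht' ha) hb
  rw [Cos, map_mul, mul_inv_rev]
  rwa [show (dg1 t')⁻¹ * ((dg1 t)⁻¹ * a) * dg1 t' * ((dg1 t')⁻¹ * b) = (dg1 t')⁻¹ *
      (dg1 t)⁻¹ * (a * b) by
    group] at this

/-- Classes `diag(t, 1) (1 + J)` multiply. -/
lemma BCos.mul {t t' : Eˣ} (ht' : w t' = 1) {a b : GL (Fin 2) E} (ha : BCos w k m t a)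
    (hb : BCos w k m t' b) : BCos w k m (t * t') (a * b) := by
  have := (boxGrp w k m).mul_mem (dg1_conj_box' ht' ha) hb
  rw [BCos, map_mul, mul_inv_rev]
  rwa [show (dg1 t')⁻¹ * ((dg1 t)⁻¹ * a) * dg1 t' * ((dg1 t')⁻¹ * b) = (dg1 t')⁻¹ *
      (dg1 t)⁻¹ * (a * b) by
    group] at this

/-- Classes `diag(t, 1) (1 + J)` invert. -/
lemma BCos.inv {t : Eˣ} (ht : w t = 1) {a : GL (Fin 2) E} (ha : BCos w k m t a) :
    BCos w k m t⁻¹ a⁻¹ := by
  have := dg1_conj_box_unit ht ((boxGrp w k m).inv_mem ha)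
  rw [BCos, map_inv, inv_inv]
  rwa [show dg1 t * ((dg1 t)⁻¹ * a)⁻¹ * (dg1 t)⁻¹ = dg1 t * a⁻¹ by group] at this

/-- The trivial class is the group with scalars. -/
lemma cos_one_iff {g : GL (Fin 2) E} : Cos w k m 1 g ↔ g ∈ boxH w k m := by simp [Cos]

/-- The trivial small class is `1 + J`. -/
lemma bcos_one_iff {g : GL (Fin 2) E} : BCos w k m 1 g ↔ g ∈ boxGrp w k m := by simp [BCos]

/-- A class times `b` is the class iff `b` is in the group. -/
lemma Cos.mul_right_iff {t : Eˣ} {a b : GL (Fin 2) E} (ha : Cos w k m t a) :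
    Cos w k m t (a * b) ↔ b ∈ boxH w k m := by
  rw [Cos, ← mul_assoc, (boxH w k m).mul_mem_cancel_left ha]

/-- Classes are stable under the group on the right. -/
lemma cos_mul_iff {t : Eˣ} {a b : GL (Fin 2) E} (hb : b ∈ boxH w k m) :
    Cos w k m t (a * b) ↔ Cos w k m t a := by
  rw [Cos, Cos, ← mul_assoc, (boxH w k m).mul_mem_cancel_right hb]

/-- Classes are stable under scalars. -/
lemma cos_scal_iff {t : Eˣ} (c : Eˣ) {a : GL (Fin 2) E} :
    Cos w k m t (scal c * a) ↔ Cos w k m t a := by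
  rw [Cos, Cos, ← mul_assoc, ← scal_comm, mul_assoc,
    (boxH w k m).mul_mem_cancel_left (scal_mem_boxH c)]

/-- Classes `diag(t, 1) H` are stable under conjugation by `H`. -/
lemma Cos.conj {t : Eˣ} (ht : w t = 1) {a h : GL (Fin 2) E} (ha : Cos w k m t a)
    (hh : h ∈ boxH w k m) : Cos w k m t (h⁻¹ * a * h) := by
  rw [cos_mul_iff hh]
  have h1 : Cos w k m 1 h⁻¹ := cos_one_iff.2 ((boxH w k m).inv_mem hh)
  simpa using h1.mul ht ha

/-- The determinant of a scalar multiple. -/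
lemma det_scal_mul (c : Eˣ) (g : GL (Fin 2) E) :
    ((scal c * g : GL (Fin 2) E) : Matrix (Fin 2) (Fin 2) E).det
      = (c : E) * c * (g : Matrix (Fin 2) (Fin 2) E).det := by
  rw [coe_scal_mul, Matrix.det_smul, Fintype.card_fin, pow_two]

/-- The class depends on `t` only modulo principal units. -/
lemma cos_congr {t t' : Eˣ} (h : w ((t' : E) / t - 1) < 1) {a : GL (Fin 2) E} :
    Cos w k m t' a ↔ Cos w k m t a := by
  have hu : dg1 (t' / t) ∈ boxH w k m := boxGrp_le_boxH (dg1_mem_boxGrp (by simpa using h))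
  rw [Cos, Cos, show (dg1 t)⁻¹ * a = dg1 (t' / t) * ((dg1 t')⁻¹ * a) by
    rw [← mul_assoc, ← map_inv, ← map_inv, ← map_mul, div_mul_eq_mul_div, mul_inv_cancel, one_div],
    (boxH w k m).mul_mem_cancel_left hu]

/-- A valuation preserving map carries classes to classes. -/
lemma Cos.map {s : E →+* E} (hs : ∀ x, w (s x) = w x) {t : Eˣ} {a : GL (Fin 2) E}
    (ha : Cos w k m t a) :
    Cos w k m (Units.map (s : E →* E) t) (Matrix.GeneralLinearGroup.map s a) := by
  have := map_mem_boxH hs ha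
  rwa [map_mul, map_inv, map_dg1] at this

/-- `diag(t,1)` with a unit `t` is integral. -/
lemma near_dg1 {t : Eˣ} (ht : w t = 1) :
    Near w 0 (dg1 t : Matrix (Fin 2) (Fin 2) E) := fun i j => by
  rw [coe_dg1]
  fin_cases i <;> fin_cases j <;> simp [ht]

/-- Elements of `1 + J` are bounded by `exp |k|`. -/
lemma near_box {u : GL (Fin 2) E} (hu : u ∈ boxGrp w k m) :
    Near w |k| (u : Matrix (Fin 2) (Fin 2) E) := by
  have := (InJ.near hu).add (near_one (w := w) (abs_nonneg k))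
  rwa [sub_add_cancel] at this

/-- Elements of a small class are bounded by `exp |k|`. -/
lemma BCos.near {t : Eˣ} (ht : w t = 1) {g : GL (Fin 2) E} (hg : BCos w k m t g) :
    Near w |k| (g : Matrix (Fin 2) (Fin 2) E) := by
  have := (near_dg1 ht).mul (near_box hg)
  rwa [zero_add, ← Units.val_mul, mul_inv_cancel_left] at this

/-- Left multiplication of `J` by a diagonal unit. -/
lemma InJ.dg1_mul {t : Eˣ} (ht : w t = 1) {X : Matrix (Fin 2) (Fin 2) E} (hX : InJ w k m X) :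
    InJ w k m ((dg1 t : Matrix (Fin 2) (Fin 2) E) * X) := by
  obtain ⟨a, d, b, c⟩ := hX
  simp [InJ, coe_dg1, Matrix.mul_apply, Fin.sum_univ_two, ht, a, d, b]
  simpa using c

end Cos

variable (C : CycExt v w)

/-- Units of `F` in `E`. -/
noncomputable abbrev uC : Fˣ →* Eˣ := Units.map (C.ι : F →* E)

/-- The automorphism on units. -/
noncomputable abbrev sU : Eˣ →* Eˣ := Units.map ((C.s : E →+* E) : E →* E)

variable (k : ℤ) (m : ℕ)

/-- The condition on rational supports. -/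
def PPt (s : Fˣ) (g₁ : GL (Fin 2) F) (x : GL (Fin 2) E) : Prop :=
  Cos w k m (uC C s) (x⁻¹ * iG C g₁ * x)

/-- The condition on twisted supports. -/
def LPt (t : Eˣ) (δ x : GL (Fin 2) E) : Prop := Cos w k m t (x⁻¹ * δ * sG C x)

/-- A family of torus elements with the norm of `g₁` to every precision. -/
def Fam (D : F) (s : Fˣ) (t : Eˣ) (g₁ : GL (Fin 2) F) : Prop :=
  ∃ B : ℤ, 0 ≤ B ∧ ∀ η : ℕ, ∃ γ ∈ tTor (C.ι D), Near w B (γ : Matrix (Fin 2) (Fin 2) E) ∧
    Near w B ((γ⁻¹ : GL (Fin 2) E) : Matrix (Fin 2) (Fin 2) E) ∧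
    (∀ x, PPt C k m s g₁ x → Cos w k m t (x⁻¹ * γ * x)) ∧
    ∃ c : Fˣ, Near w (-(η : ℤ))
      (((scal (uC C c) * twN C γ * (iG C g₁)⁻¹ : GL (Fin 2) E) : Matrix (Fin 2) (Fin 2) E) - 1)

variable {C k m}

/-- Units of `F` are units of `E`. -/
lemma w_uC {s : Fˣ} (hs : v s = 1) : w (uC C s : E) = 1 := (C.w_eq_one_iff (s : F)).2 hs

/-- The automorphism is an isometry on units. -/
lemma w_sU (t : Eˣ) : w (sU C t : E) = w t := C.hs t

/-- The automorphism fixes units of `F`. -/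
lemma sU_uC (s : Fˣ) : sU C (uC C s) = uC C s := Units.ext (C.sι s)

/-- The rational support condition is constant on cosets. -/
lemma PPt.mul_right {s : Fˣ} (hs : v s = 1) {g₁ : GL (Fin 2) F} {x h : GL (Fin 2) E}
    (hx : PPt C k m s g₁ x) (hh : h ∈ boxH w k m) : PPt C k m s g₁ (x * h) := by
  have := hx.conj (w_uC hs) hh
  rwa [show h⁻¹ * (x⁻¹ * iG C g₁ * x) * h = (x * h)⁻¹ * iG C g₁ * (x * h) by group] at this

/-- The rational support is stable under the automorphism. -/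
lemma PPt.sG_mem {s : Fˣ} {g₁ : GL (Fin 2) F} {x : GL (Fin 2) E} (hx : PPt C k m s g₁ x) :
    PPt C k m s g₁ (sG C x) := by
  have h := hx.map (s := (C.s : E →+* E)) C.hs
  rw [map_mul, map_mul, map_inv] at h
  change Cos w k m (sU C (uC C s)) ((sG C x)⁻¹ * sG C (iG C g₁) * sG C x) at h
  rwa [sU_uC, sG_iG] at h

/-- The rational support is stable under the torus. -/
lemma ppt_tor_iff {D : F} {s : Fˣ} {g₁ : GL (Fin 2) F} (hg : g₁ ∈ tTor D) {τ x : GL (Fin 2) E}
    (hτ : τ ∈ tTor (C.ι D)) : PPt C k m s g₁ (τ * x) ↔ PPt C k m s g₁ x := by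
  rw [PPt, PPt, show (τ * x)⁻¹ * iG C g₁ * (τ * x) = x⁻¹ * (τ⁻¹ * iG C g₁ * τ) * x by group,
    tTor_comm ((tTor _).inv_mem hτ) (iG_mem_tTor C hg), inv_mul_cancel_right]

/-- The conjugate of a twisted norm is the twisted norm of the twisted conjugate. -/
lemma conj_twN (x δ : GL (Fin 2) E) :
    x⁻¹ * twN C δ * x =
      (x⁻¹ * δ * sG C x) * sG C (x⁻¹ * δ * sG C x) * sG C (sG C (x⁻¹ * δ * sG C x)) := by
  simp only [twN, map_mul, map_inv, sG_three]; group

/-- Twisted supports lie over rational ones. -/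
lemma LPt.ppt {t : Eˣ} {s : Fˣ} (ht : w t = 1) (hts : uC C s = t * sU C t * sU C (sU C t))
    {δ x : GL (Fin 2) E} {g₁ : GL (Fin 2) F} {c₀ : Eˣ} (hN : twN C δ = scal c₀ * iG C g₁)
    (h : LPt C k m t δ x) : PPt C k m s g₁ x := by
  have h1 := h.map (s := (C.s : E →+* E)) C.hs
  have h2 := h1.map (s := (C.s : E →+* E)) C.hs
  have hmul := (h.mul (by rw [w_sU]; exact ht) h1).mul (by rw [w_sU, w_sU]; exact ht) h2
  rw [← conj_twN, hN, show x⁻¹ * (scal c₀ * iG C g₁) * x = scal c₀ * (x⁻¹ * iG C g₁ * x) by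
    rw [← mul_assoc, ← scal_comm]; group, cos_scal_iff] at hmul
  change Cos w k m (t * sU C t * sU C (sU C t)) _ at hmul
  rwa [← hts] at hmul

/-- Torus elements near one fix the cosets of the support. -/
theorem exists_perturb {D : F} {s : Fˣ} (hs : v s = 1) {g₁ : GL (Fin 2) F} (hg : TReg D g₁) :
    ∃ M : ℕ, ∀ κ ∈ tTor (C.ι D), Near w (-(M : ℤ)) ((κ : Matrix (Fin 2) (Fin 2) E) - 1) →
      ∀ x, PPt C k m s g₁ x → x⁻¹ * κ * x ∈ boxGrp w k m := by
  obtain ⟨A, B, hB, hg⟩ := hg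
  obtain ⟨R, hR0, hR⟩ := exists_near (w := w) (iG C g₁ : Matrix (Fin 2) (Fin 2) E)
  obtain ⟨R', hR'0, hR'⟩ := exists_near (w := w)
    (!![C.ι A / C.ι B, (C.ι B)⁻¹; 0, 0] : Matrix (Fin 2) (Fin 2) E)
  set Q : ℤ := R' + (2 * R + |k|) with hQ
  refine ⟨(Q + |k| + m + 2).toNat, fun κ hκ hκ1 x hx => ?_⟩
  obtain ⟨μ, u, hu, hxu⟩ := mem_boxH.1 hx
  have hxg : x⁻¹ * iG C g₁ * x = scal μ * (dg1 (uC C s) * u) := by
    have e : x⁻¹ * iG C g₁ * x = dg1 (uC C s) * ((dg1 (uC C s))⁻¹ * (x⁻¹ * iG C g₁ * x)) :=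
      (mul_inv_cancel_left _ _).symm
    rw [e, hxu, ← mul_assoc, ← scal_comm, mul_assoc]
  -- the scalar is bounded through the determinant
  have hμ : w (μ : E) ≤ WithZero.exp (2 * R) := by
    have hd := congrArg (fun g : GL (Fin 2) E => (g : Matrix (Fin 2) (Fin 2) E).det) hxg
    rw [det_scal_mul] at hd
    simp only [Units.val_mul] at hd
    rw [Matrix.det_units_conj', Matrix.det_mul, coe_dg1, Matrix.det_fin_two_of] at hd
    have hdR := hR.det
    rw [hd, map_mul, map_mul, map_mul, v_eq_one_of_sub_lt (InJ.det_sub_one hu), mul_one,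
      mul_one, mul_zero, sub_zero, w_uC hs, mul_one, ← pow_two] at hdR
    rcases le_or_gt (w (μ : E)) 1 with h1 | h1
    · exact h1.trans (by rw [← WithZero.exp_zero, WithZero.exp_le_exp]; omega)
    · refine le_trans ?_ (hdR.trans_eq (by rw [two_mul]))
      rw [pow_two]
      exact le_mul_of_one_le_left' h1.le
  have hG : Near w (2 * R + |k|) ((x⁻¹ * iG C g₁ * x : GL (Fin 2) E) : Matrix (Fin 2)
      (Fin 2) E) := by
    rw [hxg, coe_scal_mul]
    exact (BCos.near (t := uC C s) (w_uC hs) (by rwa [BCos, inv_mul_cancel_left])).smul hμ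
  obtain ⟨a, b, hab⟩ := hκ
  set M' : ℤ := ((Q + |k| + m + 2).toNat : ℤ)
  have ha : w (a - 1) ≤ WithZero.exp (-M') := by simpa [hab, tmat] using hκ1 0 0
  have hb : w b ≤ WithZero.exp (-M') := by simpa [hab, tmat] using hκ1 1 0
  have hdec : (κ : Matrix (Fin 2) (Fin 2) E) - 1
      = ((a - 1) - b * (C.ι A / C.ι B)) • (1 : Matrix (Fin 2) (Fin 2) E)
        + (b * (C.ι B)⁻¹) • (iG C g₁ : Matrix (Fin 2) (Fin 2) E) := by
    have hB' : C.ι B ≠ 0 := (map_ne_zero _).2 hB
    rw [hab, show (iG C g₁ : Matrix (Fin 2) (Fin 2) E) =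
      (g₁ : Matrix (Fin 2) (Fin 2) F).map C.ι from rfl, hg]
    ext i j
    fin_cases i <;> fin_cases j <;> simp [tmat] <;> field_simp <;> ring
  have e : ((x⁻¹ * κ * x : GL (Fin 2) E) : Matrix (Fin 2) (Fin 2) E) - 1
      = ((a - 1) - b * (C.ι A / C.ι B)) • (1 : Matrix (Fin 2) (Fin 2) E)
        + (b * (C.ι B)⁻¹) • ((x⁻¹ * iG C g₁ * x : GL (Fin 2) E) : Matrix (Fin 2) (Fin 2) E) := by
    rw [Units.val_mul, Units.val_mul, show (κ : Matrix (Fin 2) (Fin 2) E)
      = ((κ : Matrix (Fin 2) (Fin 2) E) - 1) + 1 by rw [sub_add_cancel], hdec]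
    simp [Matrix.mul_add, Matrix.add_mul, Units.val_mul]
  have q1 : w (C.ι A / C.ι B) ≤ WithZero.exp R' := by simpa using hR' 0 0
  have q2 : w (C.ι B)⁻¹ ≤ WithZero.exp R' := by simpa using hR' 0 1
  have a1 := le_abs_self k
  have a2 := neg_abs_le k
  change InJ w k m _
  rw [e]
  refine inJ_of_near (r := -(|k| + m + 1)) ?_ (by omega) (by omega)
  refine (((near_one (w := w) le_rfl).smul (r := -(|k| + m + 1)) ?_).mono (by omega)).add
    ((hG.smul (r := -M' + R') (mul_le_exp hb q2 le_rfl)).mono (by omega))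
  exact (w.map_sub _ _).trans (max_le (le_exp_trans ha (by omega)) (mul_le_exp hb q1 (by omega)))

/-- Dividing by the determinant turns a twisted norm close to a scalar into one close to `1`. -/
lemma near_det_normalised {η : ℕ} (hη : 1 ≤ η) {R : ℤ} {z₀ : GL (Fin 2) E} {c : Eˣ}
    {W' : GL (Fin 2) E} (hz : Near w R (z₀ : Matrix (Fin 2) (Fin 2) E))
    (hz' : Near w R ((z₀⁻¹ : GL (Fin 2) E) : Matrix (Fin 2) (Fin 2) E))
    (hW'0 : Near w 0 (W' : Matrix (Fin 2) (Fin 2) E))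
    (hW' : Near w (-(η : ℤ)) ((W' : Matrix (Fin 2) (Fin 2) E) - 1))
    (hcfix : C.s (c : E) = c) (hNz : twN C z₀ = scal c * W') :
    Near w (2 * R) ((scal (Matrix.GeneralLinearGroup.det z₀ / c) * z₀ : GL (Fin 2) E) :
        Matrix (Fin 2) (Fin 2) E) ∧
      Near w (-(η : ℤ)) ((twN C (scal (Matrix.GeneralLinearGroup.det z₀ / c) * z₀) :
        Matrix (Fin 2) (Fin 2) E) - 1) := by
  set d : Eˣ := Matrix.GeneralLinearGroup.det z₀
  set lam := d / c
  -- the norm of the determinant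
  have hdd : (d : E) * C.s d * C.s (C.s d) =
      (c : E) * c * (W' : Matrix (Fin 2) (Fin 2) E).det := by
    have h := congrArg (fun g : GL (Fin 2) E => (g : Matrix (Fin 2) (Fin 2) E).det) hNz
    rw [det_scal_mul] at h
    simp only [twN, Units.val_mul, Matrix.det_mul] at h
    rw [← h]
    simp only [d, Matrix.GeneralLinearGroup.val_det_apply]
    congr 1
    · congr 1
      exact RingHom.map_det (C.s : E →+* E) _
    · change (C.s : E →+* E) ((C.s : E →+* E) _) = _
      rw [RingHom.map_det, RingHom.map_det]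
      rfl
  set z := scal lam * z₀
  -- the rescaled element stays bounded
  have hzB : Near w (2 * R) (z : Matrix (Fin 2) (Fin 2) E) := by
    have hd' : (w (d : E))⁻¹ ≤ WithZero.exp (R + R) := by
      have := hz'.det
      rwa [Matrix.coe_units_inv, Matrix.det_nonsing_inv, Ring.inverse_eq_inv', map_inv₀] at this
    have hsq : w (lam : E) * w (lam : E) = (w (d : E))⁻¹ := by
      have h := congrArg w hdd
      rw [map_mul, map_mul, C.hs, C.hs, C.hs, map_mul, map_mul, v_eq_one_of_sub_lt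
        (InJ.det_sub_one (k := 0) (m := 0) (inJ_of_near hW' (by omega) (by omega))),
          mul_one] at h
      have hd0 : w (d : E) ≠ 0 := w.ne_zero_iff.2 d.ne_zero
      simp only [lam, Units.val_div_eq_div_val, map_div₀]
      rw [div_mul_div_comm, ← h]
      field_simp
    have hlam : w (lam : E) ≤ WithZero.exp R := by
      rcases le_or_gt (w (lam : E)) (WithZero.exp R) with h | h
      · exact h
      · exfalso
        have h0 : 0 < WithZero.exp R := zero_lt_iff.2 WithZero.exp_ne_zero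
        have h2 := (mul_lt_mul'' h h h0.le h0.le)
        rw [← WithZero.exp_add, hsq] at h2
        exact absurd hd' (not_le.2 h2)
    rw [coe_scal_mul]
    exact (hz.smul hlam).mono (by omega)
  -- and its norm is close to one
  have hzN : Near w (-(η : ℤ)) ((twN C z : Matrix (Fin 2) (Fin 2) E) - 1) := by
    set dW := (W' : Matrix (Fin 2) (Fin 2) E).det with hdW
    have e : (twN C z : Matrix (Fin 2) (Fin 2) E) = dW • (W' : Matrix (Fin 2) (Fin 2) E) := by
      rw [show twN C z = _ from twN_scal C lam z₀, hNz, ← mul_assoc, ← scal_mul, coe_scal_mul]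
      congr 1
      simp only [lam, Units.val_mul, Units.coe_map, MonoidHom.coe_coe,
        Units.val_div_eq_div_val, map_div₀, hcfix]
      field_simp
      linear_combination hdd
    rw [e, show dW • (W' : Matrix (Fin 2) (Fin 2) E) - 1
      = (dW - 1) • (W' : Matrix (Fin 2) (Fin 2) E) + ((W' : Matrix (Fin 2) (Fin 2) E) - 1) by
        rw [sub_smul, one_smul]; abel]
    refine ((hW'0.smul (r := -(η : ℤ)) ?_).mono (by omega)).add hW'
    rw [hdW, show (W' : Matrix (Fin 2) (Fin 2) E).det - 1 =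
      ((W' : Matrix (Fin 2) (Fin 2) E) - 1) 0 0
      + ((W' : Matrix (Fin 2) (Fin 2) E) - 1) 1 1 + ((W' : Matrix (Fin 2) (Fin 2) E) - 1).det by
        simp [Matrix.det_fin_two]; ring]
    exact (w.map_add _ _).trans (max_le ((w.map_add _ _).trans (max_le (hW' 0 0) (hW' 1 1)))
      (le_exp_trans hW'.det (by omega)))
  exact ⟨hzB, hzN⟩

variable (L : LocDat C)

include L in
/-- **The supports differ by one torus element.** -/
theorem exists_tau {D : F} {s : Fˣ} {t : Eˣ} (hs : v s = 1) (ht : w t = 1)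
    (hts : uC C s = t * sU C t * sU C (sU C t)) {g₁ : GL (Fin 2) F} (hg : TReg D g₁)
    (hF : Fam C k m D s t g₁) {δ : GL (Fin 2) E} (hδ : δ ∈ tTor (C.ι D)) {c₀ : Eˣ}
    (hN : twN C δ = scal c₀ * iG C g₁) :
    ∃ τ ∈ tTor (C.ι D), ∀ y, LPt C k m t δ (τ * y) ↔
      (PPt C k m s g₁ y ∧ y⁻¹ * sG C y ∈ boxH w k m) := by
  obtain ⟨B, hB, hfam⟩ := hF
  obtain ⟨M, hM⟩ := exists_perturb (C := C) (k := k) (m := m) hs hg
  obtain ⟨b, hb0, hb⟩ := exists_near (w := w) (δ : Matrix (Fin 2) (Fin 2) E)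
  obtain ⟨b', hb'0, hb'⟩ := exists_near (w := w) ((δ⁻¹ : GL (Fin 2) E) : Matrix (Fin 2) (Fin 2) E)
  set R := b + b' + B with hR
  set η : ℕ := M + (4 * R).toNat + 2 * C.e + 1 with hη
  obtain ⟨γ, hγ, hγB, hγB', hγP, c, hW⟩ := hfam η
  set T := tTor (C.ι D)
  set W := scal (uC C c) * twN C γ * (iG C g₁)⁻¹
  set z₀ := δ * γ⁻¹ with hz₀
  have hz₀T : z₀ ∈ T := T.mul_mem hδ (T.inv_mem hγ)
  set W' := W⁻¹
  obtain ⟨hW'0, hW'⟩ := Near.inv_sub_one (by omega : 1 ≤ η) hW
  set c'' := c₀ * uC C c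
  have hNz : twN C z₀ = scal c'' * W' := by
    have h1 : twN C z₀ * twN C γ = twN C δ := by
      rw [← twN_mul C hz₀T hγ, hz₀, inv_mul_cancel_right]
    rw [eq_mul_inv_of_mul_eq h1, hN, show W' = iG C g₁ * (twN C γ)⁻¹ * (scal (uC C c))⁻¹ by
      simp [W', W, mul_assoc], scal_mul, mul_assoc (scal c₀) (scal (uC C c)),
      scal_comm (uC C c), inv_mul_cancel_right, mul_assoc]
  -- normalise by the determinant
  set lam := Matrix.GeneralLinearGroup.det z₀ / c''
  have hcfix : C.s (c'' : E) = c'' := by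
    have h : sG C (twN C δ) = twN C δ := sG_twN C hδ
    rw [hN, map_mul, map_scal, sG_iG] at h
    have h00 :=
      congrArg (fun g : GL (Fin 2) E => ((g : Matrix (Fin 2) (Fin 2) E) 0 0)) (mul_right_cancel h)
    simp only [scal_coe, Matrix.scalar_apply, Matrix.diagonal_apply_eq] at h00
    change C.s ((c₀ : E) * C.ι c) = _
    rw [map_mul, C.sι]
    exact congrArg (· * C.ι (c : F)) h00
  set z := scal lam * z₀
  have hzT : z ∈ T := T.mul_mem (scal_mem_tTor _ _) hz₀T
  have hZB' : Near w R ((z₀⁻¹ : GL (Fin 2) E) : Matrix (Fin 2) (Fin 2) E) := by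
    rw [hz₀, mul_inv_rev, inv_inv]
    exact (hγB.mul hb').mono (by omega)
  obtain ⟨hzB, hzN⟩ := near_det_normalised (by omega : 1 ≤ η)
    ((hb.mul hγB').mono (by omega) : Near w R (z₀ : Matrix (Fin 2) (Fin 2) E)) hZB' hW'0 hW'
    hcfix hNz
  obtain ⟨τ, hτ, hκ⟩ := exists_twist_near C L hzT (by omega : 0 ≤ 2 * R) hzB hzN
  set κ := τ⁻¹ * z * sG C τ
  have hκT : κ ∈ T := T.mul_mem (T.mul_mem (T.inv_mem hτ) hzT) (sG_mem_tTor C hτ)
  have hκ' := hM κ hκT (hκ.mono (by omega))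
  -- translate the condition
  have hrel : τ⁻¹ * δ * sG C τ = scal lam⁻¹ * (γ * κ) := by
    have e : δ = scal lam⁻¹ * (γ * z) := by
      simp only [z, hz₀]
      rw [← mul_assoc γ (scal lam), ← scal_comm, mul_assoc (scal lam), ← mul_assoc (scal lam⁻¹),
        ← scal_mul, inv_mul_cancel, tTor_comm hδ (T.inv_mem hγ), mul_inv_cancel_left]
      simp [scal]
    rw [e, ← mul_assoc τ⁻¹ (scal lam⁻¹), ← scal_comm, mul_assoc (scal lam⁻¹),
      mul_assoc (scal lam⁻¹)]
    congr 1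
    simp only [κ, ← mul_assoc]
    rw [tTor_comm (T.inv_mem hτ) hγ]
  refine ⟨τ, hτ, fun y => ?_⟩
  have key : PPt C k m s g₁ y → (LPt C k m t δ (τ * y) ↔ y⁻¹ * sG C y ∈ boxH w k m) := fun hy => by
    rw [LPt, map_mul, show (τ * y)⁻¹ * δ * (sG C τ * sG C y) = y⁻¹ * (τ⁻¹ * δ * sG C τ) *
      sG C y by group,
      hrel, show y⁻¹ * (scal lam⁻¹ * (γ * κ)) * sG C y =
        scal lam⁻¹ * ((y⁻¹ * γ * y) * ((y⁻¹ * sG C y)
        * ((sG C y)⁻¹ * κ * sG C y))) by
          rw [← mul_assoc y⁻¹ (scal lam⁻¹), ← scal_comm]; group,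
      cos_scal_iff, (hγP y hy).mul_right_iff,
      (boxH w k m).mul_mem_cancel_right (boxGrp_le_boxH (hκ' _ hy.sG_mem))]
  refine ⟨fun h => ?_, fun h => (key h.1).2 h.2⟩
  have hP := (ppt_tor_iff hg.mem hτ).1 (h.ppt ht hts hN)
  exact ⟨hP, (key hP).1 h⟩

include L in
/-- **Descent of cosets.** A coset fixed by the automorphism contains the image of a rational
matrix. -/
theorem exists_rational {y : GL (Fin 2) E} (hy : y⁻¹ * sG C y ∈ boxH w k m) :
    ∃ a : GL (Fin 2) F, (iG C a)⁻¹ * y ∈ boxH w k m := by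
  obtain ⟨lam, u, hu, h⟩ := mem_boxH.1 hy
  have h1 := conj_twN (C := C) y 1
  rw [mul_one, h, show twN C (1 : GL (Fin 2) E) = 1 by simp [twN], mul_one, inv_mul_cancel,
    show scal lam * u * sG C (scal lam * u) * sG C (sG C (scal lam * u)) =
      twN C (scal lam * u) from rfl,
    twN_scal] at h1
  set μ := (lam * sU C lam * sU C (sU C lam))⁻¹
  -- the norm of `u` is a scalar `μ` near one
  have hμ : twN C u = scal μ := by
    rw [eq_inv_of_mul_eq_one_right (show scal (lam * sU C lam * sU C (sU C lam)) *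
      twN C u = 1 from h1.symm)]
    exact (map_inv _ _).symm
  have hX : twN C u ∈ boxGrp w k m := (boxGrp w k m).mul_mem ((boxGrp w k m).mul_mem hu
    (map_mem_boxGrp C.hs hu)) (map_mem_boxGrp C.hs (map_mem_boxGrp C.hs hu))
  have hμ1 : w ((μ : E) - 1) < 1 := by
    rw [hμ] at hX
    simpa using hX.1
  set d : Eˣ := Matrix.GeneralLinearGroup.det u
  have hd1 : w ((d : E) - 1) < 1 := InJ.det_sub_one hu
  set ν := d / μ
  have hν : w ((ν : E) - 1) < 1 := by
    simp only [ν, Units.val_div_eq_div_val]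
    rw [div_sub_one μ.ne_zero, map_div₀, v_eq_one_of_sub_lt hμ1, div_one,
      show (d : E) - μ = ((d : E) - 1) - ((μ : E) - 1) by ring]
    exact lt_of_le_of_lt (w.map_sub _ _) (max_lt hd1 hμ1)
  have hdd : (d : E) * C.s d * C.s (C.s d) = (μ : E) * μ := by
    have h := congrArg (fun g : GL (Fin 2) E => (g : Matrix (Fin 2) (Fin 2) E).det) hμ
    simp only [twN, Units.val_mul, Matrix.det_mul, scal_coe, Matrix.scalar_apply,
      Matrix.det_diagonal, Fin.prod_univ_two] at h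
    rw [← h]
    simp only [d, Matrix.GeneralLinearGroup.val_det_apply]
    congr 1
    · congr 1
      exact RingHom.map_det (C.s : E →+* E) _
    · change (C.s : E →+* E) ((C.s : E →+* E) _) = _
      rw [RingHom.map_det, RingHom.map_det]
      rfl
  have hμfix : C.s (μ : E) = μ := by
    have e : (μ : E) = ((lam : E) * C.s lam * C.s (C.s lam))⁻¹ := by
      simp [μ, sU, Units.coe_map, mul_assoc, mul_comm, mul_left_comm]
    rw [e, map_inv₀, map_mul, map_mul, C.hs3]; ring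
  obtain ⟨u', hu', hu'e⟩ : ∃ u' ∈ boxGrp w k m, u' = scal ν * u :=
    ⟨_, (boxGrp w k m).mul_mem (by
      simpa [mem_boxGrp, InJ, scal_coe] using hν) hu, rfl⟩
  set lam' := lam / ν
  -- Hilbert 90 for the scalar part
  have hN' : (lam' : E) * C.s lam' * C.s (C.s lam') = 1 := by
    have e : (μ : E) * ((lam : E) * C.s lam * C.s (C.s lam)) = 1 := by
      have := congrArg (Units.val) (inv_mul_cancel (lam * sU C lam * sU C (sU C lam)))
      simpa [μ, sU, Units.coe_map] using this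
    simp only [lam', ν, Units.val_div_eq_div_val, map_div₀, hμfix]
    have h1 := d.ne_zero
    have h2 : C.s (d : E) ≠ 0 := (map_ne_zero C.s).2 h1
    have h3 : C.s (C.s (d : E)) ≠ 0 := (map_ne_zero C.s).2 h2
    field_simp
    linear_combination ((μ : E) * (μ : E)) * e - hdd
  obtain ⟨η, hη0, hη⟩ := exists_h90 C L hN'
  set y' := y * scal (Units.mk0 η hη0)
  -- a fixed translate descends
  obtain ⟨p, hp, hfix⟩ := exists_fixed_translate L.h3 C.s C.hs C.hs3 (y := y') hu' (by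
    change sG C y' = y' * u'
    have hSy : sG C y = y * (scal lam * u) := by rw [← h, mul_inv_cancel_left]
    simp only [y', map_mul, hSy, map_scal, hu'e]
    have hη' : lam * Units.map ((C.s : E →+* E) : E →* E) (Units.mk0 η hη0) =
        Units.mk0 η hη0 * ν := by
      refine Units.ext ?_
      change (lam : E) * C.s η = η * (ν : E)
      have := hη
      simp only [lam', Units.val_div_eq_div_val] at this
      rw [div_mul_eq_mul_div, div_eq_iff ν.ne_zero] at this
      exact this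
    rw [mul_assoc y (scal lam * u), mul_assoc (scal lam) u, ← scal_comm _ u,
      ← mul_assoc (scal lam), ← scal_mul,
      hη', scal_mul, mul_assoc (scal (Units.mk0 η hη0)), ← mul_assoc y])
  obtain ⟨a, ha⟩ := exists_iG C hfix
  refine ⟨a, ?_⟩
  rw [ha, show (y' * p)⁻¹ * y = p⁻¹ * (scal (Units.mk0 η hη0))⁻¹ by simp only [y']; group]
  exact (boxH w k m).mul_mem ((boxH w k m).inv_mem (boxGrp_le_boxH hp))
    ((boxH w k m).inv_mem (scal_mem_boxH _))

end Fermat.LTG.Loc
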