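import Fermat.Agent.LTG.Gal.Data
import Fermat.Agent.LTG.LocBlock

/-!
# The wild places over three of a block

In a quadratic field with cube roots of unity three has valuation two; the Galois data then give the
hypotheses on the wild places asked by `exists_block`.
-/

set_option autoImplicit false
open IsDedekindDomain NumberField Fermat.CFT

namespace Fermat.LTG.Loc

open Fermat.LT

/-- `3` has valuation `2` at its place in a quadratic field with cube roots of unity. -/
theorem valuation_three {K : Type} [Field K] [NumberField K] (h2 : Module.finrank ℚ K = 2) {ζ : K}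
    (hζ : IsPrimitiveRoot ζ 3) (v : Place K) (hv : v.valuation K 3 ≠ 1) :
    (3 : 𝓞 K) ∈ v.asIdeal ∧ v.valuation K 3 = WithZero.exp (-2 : ℤ) := by
  have e3 : ((3 : 𝓞 K) : K) = 3 := map_ofNat (algebraMap (𝓞 K) K) 3
  have hle : v.valuation K 3 ≤ 1 := e3 ▸ v.valuation_le_one (3 : 𝓞 K)
  have hmem : ∀ n : ℕ, v.valuation K 3 ≤ WithZero.exp (-(n : ℤ)) ↔ (3 : 𝓞 K) ∈ v.asIdeal ^ n :=
      fun n => by
    rw [← valuation_le_exp_neg_iff, e3]
  have h1 : (3 : 𝓞 K) ∈ v.asIdeal := by
    rw [← pow_one v.asIdeal, ← hmem, Nat.cast_one, le_exp_neg_one_iff]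
    exact lt_of_le_of_ne hle hv
  -- `3` is a unit times `(ζ - 1) ^ 2`, so its valuation is an even power
  have hsum : ζ ^ 2 + ζ + 1 = 0 := by
    have := hζ.geom_sum_eq_zero (by norm_num)
    rw [Finset.sum_range_succ, Finset.sum_range_succ, Finset.sum_range_one] at this
    linear_combination this
  have hz : v.valuation K ζ = 1 := by
    have hne : v.valuation K ζ ≠ 0 := (Valuation.ne_zero_iff _).2 (hζ.ne_zero three_ne_zero)
    have h := congrArg WithZero.log
      ((map_pow (v.valuation K) ζ 3).symm.trans (by rw [hζ.pow_eq_one, map_one]))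
    rw [WithZero.log_pow, WithZero.log_one, nsmul_eq_mul, mul_eq_zero] at h
    rw [← WithZero.exp_log hne, h.resolve_left (by norm_num), WithZero.exp_zero]
  have hsq : v.valuation K 3 = v.valuation K (ζ - 1) ^ 2 := by
    rw [show (3 : K) = -(ζ ^ 2 * (ζ - 1) ^ 2) by linear_combination (ζ ^ 2 - 3 * ζ + 3) * hsum,
      Valuation.map_neg, map_mul, map_pow, hz, one_pow, one_mul, map_pow]
  have hne : v.valuation K (ζ - 1) ≠ 0 := fun h => by
    rw [h, zero_pow two_ne_zero, Valuation.zero_iff] at hsq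
    norm_num at hsq
  obtain ⟨k, hk⟩ : ∃ k : ℤ, v.valuation K (ζ - 1) = WithZero.exp k :=
    ⟨_, (WithZero.exp_log hne).symm⟩
  rw [hk, ← WithZero.exp_nsmul, nsmul_eq_mul] at hsq
  refine ⟨h1, ?_⟩
  rw [hsq, WithZero.exp_inj]
  rw [hsq] at hle hv
  rw [← WithZero.exp_zero, WithZero.exp_le_exp] at hle
  have hk0 : k ≠ 0 := fun h => hv (by rw [h]; simp)
  -- anything deeper would make the cube of the norm of `v` divide `9`
  by_contra hne'
  have h3 : (3 : 𝓞 K) ∈ v.asIdeal ^ 3 := by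
    rw [← hmem, hsq, WithZero.exp_le_exp]; omega
  have hd := map_dvd Ideal.absNorm ((Ideal.dvd_span_singleton).2 h3)
  rw [map_pow, Ideal.absNorm_span_singleton, show (3 : 𝓞 K) = algebraMap ℤ (𝓞 K) 3 from
    (map_ofNat _ 3).symm, Algebra.norm_algebraMap, RingOfIntegers.rank, h2] at hd
  have h9 : ((3 : ℤ) ^ 2).natAbs = 9 := rfl
  rw [h9] at hd
  have hn0 : Ideal.absNorm v.asIdeal ≠ 1 := fun h => v.isPrime.ne_top (Ideal.absNorm_eq_one_iff.1 h)
  have hdiv : Ideal.absNorm v.asIdeal ∣ 9 := (dvd_pow_self _ three_ne_zero).trans hd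
  have hle9 := Nat.le_of_dvd (by norm_num) hdiv
  interval_cases h : Ideal.absNorm v.asIdeal <;> omega

variable {K L : Type} [Field K] [NumberField K] [Field L] [NumberField L] [Algebra K L]
  {σ : L ≃ₐ[K] L} {ρ : (AlgebraicClosure ℚ ≃ₐ[ℚ] AlgebraicClosure ℚ) →* GL (Fin 2) (ZMod 3)}
  {ι : L →+* AlgebraicClosure ℚ} {lam : Pl L → ℝ} {R : Finset (Pl L)}

/-- **The wild places of the Galois data.** -/
theorem isWild_data (hc : Cyc3 K L σ) (hG : GalData K L ρ ι lam R) {w : Place L} (hw : IsWild σ w) :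
    ramE (below K w) w = 3 ∧ (below K w).valuation K 3 = WithZero.exp (-2 : ℤ) ∧ pnorm w =
      3 ∧ w ∉ R := by
  obtain ⟨ζ, hζ⟩ := hG.zeta3
  obtain ⟨h3, hv⟩ := valuation_three hG.degreeK hζ _ hw.2
  have h3L : (3 : 𝓞 L) ∈ w.asIdeal := by
    have h : algebraMap (𝓞 K) (𝓞 L) 3 ∈ w.asIdeal := h3
    rwa [map_ofNat] at h
  obtain ⟨he, hn, hR⟩ := hG.wild w h3L fun w' hw' => by
    have hover : LiesOver K L w' (below K w) := liesOver_iff_below.2 (by
      exact HeightOneSpectrum.ext (congrArg HeightOneSpectrum.asIdeal hw' :))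
    rcases hc.eq_or_eq_mapPlace (liesOver_below w) hover with rfl | rfl | rfl
    · rfl
    · exact hw.1
    · rw [hw.1, hw.1]
  refine ⟨?_, hv, hn, hR⟩
  have := (liesOver_below (K := K) w).inst
  rw [ramE, Ideal.ramificationIdx'_eq_ramificationIdx _ _ (below K w).ne_bot, ← he, plRamIdx_eq]

end Fermat.LTG.Loc
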