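import Fermat.Agent.LTG.Volume

/-!
# Square integrable functions on a domain; continuity of the automorphic kernels

`DomL2` is the space of square integrable functions and `continuous_kap_left` the continuity in
the variables at infinity.
-/

set_option autoImplicit false
open MeasureTheory Filter Set NumberField
open scoped Classical

namespace Fermat.LTG

open Fermat.LT

variable {F : Type*} [Field F] [NumberField F] {S : Lev F}

/-- The measure on a fundamental domain. -/
noncomputable abbrev domMeasure (D : Set (Pt F S)) : Measure (Pt F S) := ptMeasure.restrict D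

/-- Square integrable functions on the domain. -/
abbrev DomL2 (D : Set (Pt F S)) : Type _ := Pt F S →₂[domMeasure D] ℂ

variable {D : Set (Pt F S)} [IsFiniteMeasure (domMeasure D)]

/-- Square integrable functions are integrable. -/
lemma DomL2.integrable (φ : DomL2 D) : Integrable (fun q => φ q) (domMeasure D) :=
  (Lp.memLp φ).integrable one_le_two

namespace PKer

variable {K L : PKer F S}

/-- Kernels with equal values have equal periodisations. -/
lemma kap_congr (h : ∀ p q, K.val p q = L.val p q) (p q : Pt F S) : K.kap p q = L.kap p q := by
  simp only [kap, h]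

/-- The periodised kernel is measurable in one infinite component. -/
lemma measurable_kap_update (K : PKer F S) (u : InfinitePlace F) (p : Pt F S) :
    Measurable fun z : H3 × Pt F S => K.kap (p.1, Function.update p.2 u z.1) z.2 := by
  refine K.measurable_kap.comp (Measurable.prodMk (measurable_const.prodMk ?_) measurable_snd)
  exact ((measurable_update p.2).comp measurable_fst)

/-- The summed kernel is continuous in the archimedean variables. -/
lemma continuous_kap_left (K : PKer F S) (ν : FinPt F S) (q : Pt F S) :
    Continuous fun x : InfinitePlace F → H3 => K.kap (ν, x) q := by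
  refine continuous_iff_continuousAt.2 fun x₀ => ?_
  set A : ℝ := (∑ w, coshd ((1 : GL (Fin 2) ℂ) : H3) (x₀ w)) + 1
  set B : ℝ := ∑ w, coshd ((1 : GL (Fin 2) ℂ) : H3) (q.2 w)
  set s := (K.finite_seen ν q.1 A B).toFinset
  refine (ContinuousAt.congr (f := fun x => ∑ γ ∈ s, K.val (ν, x) (γ • q)) ?_ ?_)
  · refine (continuous_finsetSum _ fun γ _ => ?_).continuousAt
    have hc : Continuous fun x : InfinitePlace F → H3 => K.inf x (γ • q).2 :=
      K.continuous_inf.comp (continuous_id.prodMk continuous_const)
    exact (continuous_const (y := K.fin ν (γ • q).1)).mul hc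
  · filter_upwards [eventually_coshd_base_le x₀] with x hx
    refine (tsum_eq_sum fun γ hγ => ?_).symm
    by_contra hne
    exact hγ ((Set.Finite.mem_toFinset _).2 ⟨x, q.2, hx, coshd_base_le_sum q.2, hne⟩)

end PKer

omit [IsFiniteMeasure (domMeasure D)] in
/-- The domain has finite measure. -/
lemma isFiniteMeasure_domMeasure [IsTotallyComplex F]
    (hD : IsFundamentalDomain (PG F) D ptMeasure) : IsFiniteMeasure (domMeasure D) :=
  ⟨by rw [Measure.restrict_apply_univ]; exact domain_finite hD⟩

end Fermat.LTG
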