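import Fermat.Agent.LTG.Space
import Fermat.Agent.LT.PGroup

/-!
# `PGL₂(F)` acts properly on the point space

`finite_moving`: only finitely many classes move a bounded set to a bounded set.
-/

set_option autoImplicit false
open MeasureTheory Filter
open scoped Matrix

namespace Fermat.LTG

open Fermat.LT

variable {F : Type*} [Field F] [NumberField F] {S : Lev F}

/-- `PGL₂(F)` acts on the points. -/
noncomputable instance instMulActionPG : MulAction (PG F) (Pt F S) :=
  MulAction.compHom (Pt F S) (QuotientGroup.lift (scalSub F)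
    (MulAction.toPermHom (GL (Fin 2) F) (Pt F S))
    (fun g hg => by
      obtain ⟨c, rfl⟩ := hg
      exact Equiv.ext fun p => Pt.scal_smul c p))

/-- A class acts through any representative. -/
@[simp] lemma PG.mk_smul (g : GL (Fin 2) F) (p : Pt F S) : (g : PG F) • p = g • p := rfl

/-- Only finitely many `γ` move a bounded set at `ω` to a bounded set at `ω'`. -/
theorem finite_moving (ω ω' : FinPt F S) (R : ℝ) :
    {γ : PG F | ∃ g : GL (Fin 2) F, (g : PG F) = γ ∧ g • ω = ω' ∧
      ∀ w, ∃ x : H3, coshd ((1 : GL (Fin 2) ℂ) : H3) x ≤ R ∧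
        coshd ((1 : GL (Fin 2) ℂ) : H3) (atInf w g • x) ≤ R}.Finite := by
  refine (finite_moving_of_lvl
    (fun v => lvl (v.valuation F) (ω.1 v).out + lvl (v.valuation F) (ω'.1 v).out) ?_ R).subset ?_
  · exact (eventually_cofinite.1 (ω.2.and ω'.2)).subset fun v hv h =>
      hv (by simp [h, (lvl_eq_zero_iff _ _).2 (out_one_mem_U0 (lev_le_U0 S v))])
  · rintro _ ⟨g, rfl, rfl, hx⟩
    refine ⟨g, rfl, fun v => lvl_le_add_of_mem_U0 (lev_le_U0 S v ?_), hx⟩
    rw [← QuotientGroup.eq, ← smul_eq_mul, ← MulAction.Quotient.smul_coe, QuotientGroup.out_eq',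
      QuotientGroup.out_eq']
    rfl

end Fermat.LTG
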