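import Fermat.Agent.LTG.SKer
import Fermat.Agent.LTG.SysBasis

/-!
# Integral operators of combinations of product kernels; eigenbases

`exists_sysBasis` gives a Hilbert basis of automorphic eigenfunctions (`SysData`) for a commuting
family of bounded hermitian kernels.
-/

set_option autoImplicit false
open MeasureTheory Filter Set NumberField
open scoped Classical ComplexConjugate InnerProductSpace

namespace Fermat.LTG

open Fermat.LT

variable {F : Type*} [Field F] [NumberField F] {S : Lev F} {D : Set (Pt F S)}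
  [IsFiniteMeasure (domMeasure D)]

namespace SKer

variable {K L : SKer F S}

/-- The value of the operator at a point. -/
noncomputable def appP (K : SKer F S) (φ : DomL2 D) (p : Pt F S) : ℂ :=
  ∫ q, K.kap p q * φ q ∂domMeasure D

omit [IsFiniteMeasure (domMeasure D)] in
/-- The periodised kernel is measurable in the second variable. -/
lemma aesm_kap_right (K : SKer F S) (p : Pt F S) :
    AEStronglyMeasurable (fun q => K.kap p q) (domMeasure D) :=
  (K.measurable_kap.comp measurable_prodMk_left).aestronglyMeasurable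

/-- A bounded kernel times a square integrable function is integrable. -/
lemma integrable_kap_mul (hK : K.Bdd) (φ : DomL2 D) (p : Pt F S) :
    Integrable (fun q => K.kap p q * φ q) (domMeasure D) := by
  obtain ⟨C, hC⟩ := hK
  exact φ.integrable.bdd_mul (c := C) (K.aesm_kap_right p) (Eventually.of_forall (hC p))

omit [IsFiniteMeasure (domMeasure D)] in
/-- The operator values are invariant. -/
lemma appP_smul (K : SKer F S) (φ : DomL2 D) (γ : PG F) (p : Pt F S) :
    K.appP φ (γ • p) = K.appP φ p := by
  simp only [appP, K.kap_smul_left]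

/-- The operator values are bounded. -/
lemma exists_appP_bound (hK : K.Bdd) (φ : DomL2 D) : ∃ C, ∀ p, ‖K.appP φ p‖ ≤ C := by
  obtain ⟨C, hC⟩ := hK
  refine ⟨C * ∫ q, ‖φ q‖ ∂domMeasure D, fun p => ?_⟩
  refine (norm_integral_le_integral_norm _).trans ?_
  rw [← integral_const_mul]
  refine integral_mono_of_nonneg (Eventually.of_forall fun _ => norm_nonneg _)
    (φ.integrable.norm.const_mul _) (Eventually.of_forall fun q => ?_)
  change ‖K.kap p q * φ q‖ ≤ _
  rw [norm_mul]
  exact mul_le_mul_of_nonneg_right (hC p q) (norm_nonneg _)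

/-- The kernel as a square integrable kernel. -/
noncomputable def toSq (K : SKer F S) (hK : K.Bdd) : SqKernel (domMeasure D) where
  toFun := K.kap
  memLp := by
    obtain ⟨C, hC⟩ := hK
    exact MemLp.of_bound K.measurable_kap.aestronglyMeasurable C
      (Eventually.of_forall fun z => hC z.1 z.2)

/-- The integral operator. -/
noncomputable def opK (K : SKer F S) (hK : K.Bdd) : DomL2 D →L[ℂ] DomL2 D := (K.toSq hK).op

/-- The operator is represented by its values. -/
lemma opK_coeFn (hK : K.Bdd) (φ : DomL2 D) : K.opK hK φ =ᵐ[domMeasure D] K.appP φ :=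
  (K.toSq hK).op_coeFn φ

/-- The operator of a bounded kernel is compact. -/
lemma isCompactOperator_opK (hK : K.Bdd) : IsCompactOperator (K.opK (D := D) hK) :=
  (K.toSq hK).compact_op

/-- The composite with a bounded kernel is bounded. -/
lemma Bdd.comp (hD : IsFundamentalDomain (PG F) D ptMeasure) (hK : K.Bdd) (hL : L.Bdd) :
    (K.comp L).Bdd := by
  obtain ⟨C, hC⟩ := hK
  obtain ⟨C', hC'⟩ := hL
  refine ⟨C * C' * (domMeasure D).real univ, fun p r => ?_⟩
  rw [← K.integral_kap_mul L hD]
  refine norm_integral_le_of_norm_le_const (Eventually.of_forall fun q => ?_)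
  rw [norm_mul]
  exact mul_le_mul (hC p q) (hC' q r) (norm_nonneg _) ((norm_nonneg _).trans (hC p q))

/-- Applying `K` after the operator of `L` is applying the composite kernel. -/
lemma appP_opK (hD : IsFundamentalDomain (PG F) D ptMeasure) (hK : K.Bdd) (hL : L.Bdd) (φ : DomL2 D)
    (p : Pt F S) : K.appP (L.opK hL φ) p = (K.comp L).appP φ p := by
  have h1 : K.appP (L.opK hL φ) p = ∫ q, K.kap p q * L.appP φ q ∂domMeasure D :=
    integral_congr_ae (by filter_upwards [opK_coeFn hL φ] with q hq; rw [hq])
  obtain ⟨C, hC⟩ := hK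
  obtain ⟨C', hC'⟩ := hL
  rw [h1]
  simp only [appP, ← integral_const_mul]
  rw [integral_integral_swap ?_]
  · refine integral_congr_ae (Eventually.of_forall fun r => ?_)
    change ∫ q, K.kap p q * (L.kap q r * φ r) ∂domMeasure D = (K.comp L).kap p r * φ r
    rw [← K.integral_kap_mul L hD, ← integral_mul_const]
    simp only [mul_assoc]
  · refine Integrable.mono' (g := fun z : Pt F S × Pt F S => C * (C' * ‖φ z.2‖)) ?_ ?_ ?_
    · exact ((φ.integrable.norm.comp_snd (domMeasure D)).const_mul C').const_mul C
    · exact ((K.aesm_kap_right p).comp_fst).mul (L.measurable_kap.aestronglyMeasurable.mul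
        (Lp.aestronglyMeasurable φ).comp_snd)
    · refine Eventually.of_forall fun z => ?_
      change ‖K.kap p z.1 * (L.kap z.1 z.2 * φ z.2)‖ ≤ C * (C' * ‖φ z.2‖)
      rw [norm_mul, norm_mul]
      exact mul_le_mul (hC p z.1) (mul_le_mul_of_nonneg_right (hC' _ _) (norm_nonneg _))
        (mul_nonneg (norm_nonneg _) (norm_nonneg _)) ((norm_nonneg _).trans (hC p z.1))

/-- Composition of operators. -/
lemma opK_comp (hD : IsFundamentalDomain (PG F) D ptMeasure) (hK : K.Bdd) (hL : L.Bdd)
    (φ : DomL2 D) : K.opK hK (L.opK hL φ) = (K.comp L).opK (hK.comp hD hL) φ := by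
  refine Lp.ext ?_
  filter_upwards [opK_coeFn hK (L.opK hL φ), opK_coeFn (hK.comp hD hL) φ] with p h1 h2
  rw [h1, h2, appP_opK hD hK hL]

/-- Equal periodisations give equal operators. -/
lemma opK_congr {hK : K.Bdd} {hL : L.Bdd} (h : ∀ p q, K.kap p q = L.kap p q) (φ : DomL2 D) :
    K.opK hK φ = L.opK hL φ := by
  refine Lp.ext ?_
  filter_upwards [opK_coeFn hK φ, opK_coeFn hL φ] with p h1 h2
  rw [h1, h2, appP, appP]
  simp only [h]

/-- A hermitian combination has a hermitian sum. -/
lemma kap_conj (h : ∀ p q, K.val q p = conj (K.val p q)) (p q : Pt F S) :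
    K.kap q p = conj (K.kap p q) := by
  rw [kap, kap, Complex.conj_tsum, ← (Equiv.inv (PG F)).tsum_eq fun γ => K.val q (γ • p)]
  refine tsum_congr fun γ => ?_
  rw [Equiv.inv_apply, ← h, ← K.val_smul_PG γ q (γ⁻¹ • p), smul_inv_smul]

/-- The operator of a bounded hermitian combination is symmetric. -/
lemma isSymmetric_opK (hK : K.Bdd) (h : ∀ p q, K.val q p = conj (K.val p q)) :
    (K.opK (D := D) hK).IsSymmetric := by
  intro ψ φ
  obtain ⟨C, hC⟩ := id hK
  change ⟪K.opK hK ψ, φ⟫_ℂ = ⟪ψ, K.opK hK φ⟫_ℂ
  rw [L2.inner_def, L2.inner_def]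
  have h1 : ∫ x, ⟪K.opK hK ψ x, φ x⟫_ℂ ∂domMeasure D
      = ∫ x, ∫ y, K.kap y x * conj (ψ y) * φ x ∂domMeasure D ∂domMeasure D :=
    integral_congr_ae (by
      filter_upwards [opK_coeFn hK ψ] with x hx
      rw [hx, RCLike.inner_apply, appP, ← integral_conj, ← integral_const_mul]
      refine integral_congr_ae (Eventually.of_forall fun y => ?_)
      change φ x * conj (K.kap x y * ψ y) = _
      rw [map_mul, ← kap_conj h]
      ring)
  have h2 : ∫ y, ⟪ψ y, K.opK hK φ y⟫_ℂ ∂domMeasure D
      = ∫ y, ∫ x, K.kap y x * conj (ψ y) * φ x ∂domMeasure D ∂domMeasure D :=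
    integral_congr_ae (by
      filter_upwards [opK_coeFn hK φ] with y hy
      rw [hy, RCLike.inner_apply, appP, mul_comm, ← integral_const_mul]
      refine integral_congr_ae (Eventually.of_forall fun x => ?_)
      change conj (ψ y) * (K.kap y x * φ x) = _
      ring)
  rw [h1, h2, integral_integral_swap ?_]
  refine Integrable.mono' (g := fun z : Pt F S × Pt F S => C * (‖ψ z.2‖ * ‖φ z.1‖)) ?_ ?_ ?_
  · refine Integrable.const_mul ?_ C
    have := φ.integrable.norm.mul_prod ψ.integrable.norm
    simpa [mul_comm] using this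
  · exact ((K.measurable_kap.comp measurable_swap).aestronglyMeasurable.mul
      (Complex.continuous_conj.comp_aestronglyMeasurable (Lp.aestronglyMeasurable ψ).comp_snd)).mul
      (Lp.aestronglyMeasurable φ).comp_fst
  · refine Eventually.of_forall fun z => ?_
    change ‖K.kap z.2 z.1 * conj (ψ z.2) * φ z.1‖ ≤ _
    rw [norm_mul, norm_mul, RCLike.norm_conj, mul_assoc]
    exact mul_le_mul_of_nonneg_right (hC _ _) (mul_nonneg (norm_nonneg _) (norm_nonneg _))

/-- A local kernel acts on the image. -/
lemma locAct_appP (hK : K.Bdd) (v : Place F) (l : LKer S v) (φ : DomL2 D) (p : Pt F S) :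
    locAct v l (fun p => K.appP φ p) p = (K.actLoc v l).appP φ p := by
  simp only [locAct, appP, ← integral_const_mul]
  rw [← integral_finsetSum _ fun y _ => (integrable_kap_mul hK φ _).const_mul _]
  refine integral_congr_ae (Eventually.of_forall fun q => ?_)
  change ∑ y ∈ _, _ * (_ * φ q) = _ * φ q
  rw [K.kap_actLoc, locAct, Finset.sum_mul]
  simp only [mul_assoc]

/-- The periodisation is measurable in one infinite component. -/
lemma measurable_kap_update (K : SKer F S) (u : InfinitePlace F) (p : Pt F S) :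
    Measurable fun z : H3 × Pt F S => K.kap (p.1, Function.update p.2 u z.1) z.2 := by
  simp only [kap_eq_sum]
  exact Finset.measurable_fun_sum _ fun i _ =>
    ((K.ker i).measurable_kap_update u p).const_mul (K.coef i)

/-- An archimedean kernel acts on the image. -/
lemma archAct_appP (hK : K.Bdd) (u : InfinitePlace F) (k : AKer) (φ : DomL2 D) (p : Pt F S) :
    archAct u k (fun p => K.appP φ p) p = (K.actArch u k).appP φ p := by
  obtain ⟨C, hC⟩ := hK
  simp only [archAct, appP, ← integral_const_mul]
  rw [integral_integral_swap ?_]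
  · refine integral_congr_ae (Eventually.of_forall fun q => ?_)
    change ∫ y, _ * (_ * φ q) ∂hmeas = _ * φ q
    rw [K.kap_actArch, archAct, ← integral_mul_const]
    simp only [mul_assoc]
  · refine Integrable.mono' (g := fun z : H3 × Pt F S => ‖k (p.2 u) z.1‖ * (C * ‖φ z.2‖)) ?_ ?_ ?_
    · exact (k.integrable _).norm.mul_prod (φ.integrable.norm.const_mul C)
    · exact ((k.continuous_right _).aestronglyMeasurable.comp_fst).mul
        ((K.measurable_kap_update u p).aestronglyMeasurable.mul
          (Lp.aestronglyMeasurable φ).comp_snd)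
    · refine Eventually.of_forall fun z => ?_
      change ‖k (p.2 u) z.1 * (K.kap _ z.2 * φ z.2)‖ ≤ _
      rw [norm_mul, norm_mul]
      exact mul_le_mul_of_nonneg_left (mul_le_mul_of_nonneg_right (hC _ _) (norm_nonneg _))
        (norm_nonneg _)

/-- The periodisation is continuous in the infinite part. -/
lemma continuous_kap_left (K : SKer F S) (ν : FinPt F S) (q : Pt F S) :
    Continuous fun x : InfinitePlace F → H3 => K.kap (ν, x) q := by
  simp only [kap_eq_sum]
  exact continuous_finsetSum _ fun i _ => ((K.ker i).continuous_kap_left ν q).const_mul (K.coef i)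

/-- The operator values are continuous in the infinite part. -/
lemma continuous_appP (hK : K.Bdd) (φ : DomL2 D) (ν : FinPt F S) :
    Continuous fun x : InfinitePlace F → H3 => K.appP φ (ν, x) := by
  obtain ⟨C, hC⟩ := hK
  refine continuous_of_dominated (bound := fun q => C * ‖φ q‖)
    (fun x => (K.aesm_kap_right (ν, x)).mul (Lp.aestronglyMeasurable φ))
    (fun x => Eventually.of_forall fun q => ?_) (φ.integrable.norm.const_mul C)
    (Eventually.of_forall fun q => (K.continuous_kap_left ν q).mul continuous_const)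
  change ‖K.kap _ q * φ q‖ ≤ _
  rw [norm_mul]
  exact mul_le_mul_of_nonneg_right (hC _ _) (norm_nonneg _)

/-- Hermitian combination. -/
def IsHerm (K : SKer F S) : Prop := ∀ p q, K.val q p = conj (K.val p q)

/-- The composites in both orders have equal kernels. -/
def Comm (K L : SKer F S) : Prop := ∀ p q, (K.comp L).kap p q = (L.comp K).kap p q

omit [IsFiniteMeasure (domMeasure D)] in
/-- Real coefficients and hermitian kernels give a hermitian combination. -/
lemma isHerm_of_forall {K : SKer F S} (hc : ∀ i, conj (K.coef i) = K.coef i)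
    (hk : ∀ i, (K.ker i).IsHerm) : K.IsHerm := fun p q => by
  simp only [val, map_sum, map_mul, hc]
  exact Finset.sum_congr rfl fun i _ => by rw [(hk i).val_eq p q]

omit [IsFiniteMeasure (domMeasure D)] in
/-- Combinations of locally commuting kernels commute. -/
lemma comm_of_locComm {K L : SKer F S} (h : ∀ i j, PKer.LocComm (K.ker i) (L.ker j)) : Comm K L :=
  fun p q => by
  rw [kap_comp, kap_comp, Finset.sum_comm]
  exact Finset.sum_congr rfl fun i _ => Finset.sum_congr rfl fun j _ => by
    rw [PKer.kap_congr (PKer.val_comp_comm (h j i)), mul_comm (K.coef j)]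

/-- Commuting combinations give commuting operators. -/
lemma opK_comm (hD : IsFundamentalDomain (PG F) D ptMeasure) {K L : SKer F S} (hK : K.Bdd)
    (hL : L.Bdd) (h : Comm K L) : Commute (K.opK (D := D) hK) (L.opK hL) := by
  refine ContinuousLinearMap.ext fun φ => ?_
  change K.opK hK (L.opK hL φ) = L.opK hL (K.opK hK φ)
  rw [opK_comp hD, opK_comp hD]
  exact opK_congr h φ

omit [IsFiniteMeasure (domMeasure D)] in
/-- The operator values are linear in the function. -/
lemma appP_const_smul (K : SKer F S) (c : ℂ) (φ : DomL2 D) (p : Pt F S) :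
    K.appP (c • φ) p = c * K.appP φ p := by
  rw [appP, appP, ← integral_const_mul]
  refine integral_congr_ae ?_
  filter_upwards [Lp.coeFn_smul c φ] with q hq
  rw [hq, Pi.smul_apply, smul_eq_mul]
  ring

/-- An automorphic representative of a joint eigenvector. -/
structure SysData {J : Type*} (A : SKer F S) (T : J → SKer F S) (x : DomL2 D) (lam : ℂ)
    (χ : J → ℂ) (Φ : Pt F S → ℂ) : Prop where
  /-- The eigenvalue of `A` is not zero. -/
  lam_ne : lam ≠ 0
  /-- The eigenvalue of `A` is real. -/
  lam_real : conj lam = lam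
  /-- The eigenvalues of the `T j` are real. -/
  chi_real : ∀ j, conj (χ j) = χ j
  /-- `Φ` represents `x` on the domain. -/
  ae_eq : Φ =ᵐ[domMeasure D] x
  /-- The function is invariant under `GL₂(F)`. -/
  invariant : IsInvariant Φ
  /-- The function is continuous in the archimedean variables. -/
  continuous : ∀ ν : FinPt F S, Continuous fun y : InfinitePlace F → H3 => Φ (ν, y)
  /-- The function is bounded. -/
  bounded : ∃ C : ℝ, ∀ p, ‖Φ p‖ ≤ C
  /-- `A` sends `x` to `lam • Φ` at every point. -/
  appA : ∀ p, A.appP x p = lam * Φ p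
  /-- `T j` sends `x` to `χ j • Φ` at every point. -/
  appT : ∀ j p, (T j).appP x p = χ j * Φ p

/-- **The eigenbasis.** For a commuting family of bounded hermitian kernels, `L²` of a fundamental
domain has a Hilbert basis of vectors killed by `A` or joint eigenvectors with automorphic
representatives. -/
theorem exists_sysBasis (hD : IsFundamentalDomain (PG F) D ptMeasure) {J : Type*} (A : SKer F S)
    (T : J → SKer F S) (hA : A.Bdd) (hT : ∀ j, (T j).Bdd) (hAh : A.IsHerm) (hTh : ∀ j, (T j).IsHerm)
    (hAT : ∀ j, Comm A (T j)) (hTT : Pairwise fun i j => Comm (T i) (T j)) :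
    ∃ (w : Set (DomL2 D)) (b : HilbertBasis w ℂ (DomL2 D)), ⇑b = ((↑) : w → DomL2 D) ∧
      ∀ x ∈ w, A.opK hA x = 0 ∨ ∃ lam χ Φ, SysData A T x lam χ Φ := by
  obtain ⟨w, b, hb, hw⟩ := exists_basis_sysVec (A.opK (D := D) hA) (fun j => (T j).opK (hT j))
    (isCompactOperator_opK hA) (isSymmetric_opK hA hAh)
    (fun j => isSymmetric_opK (hT j) (hTh j)) (fun j => opK_comm hD hA (hT j) (hAT j))
    (fun i j h => opK_comm hD (hT i) (hT j) (hTT h))
  refine ⟨w, b, hb, fun x hx => (hw x hx).imp_right ?_⟩
  rintro ⟨lam, χ, hlam, h1, h2⟩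
  have hx0 : x ≠ 0 := by
    have := b.orthonormal.ne_zero ⟨x, hx⟩
    rwa [hb] at this
  have hreal : ∀ (K : SKer F S) (hK : K.Bdd) (_ : K.IsHerm) (c : ℂ), K.opK hK x = c • x →
      conj c = c := by
    intro K hK hKh c hc
    have h3 := isSymmetric_opK (D := D) hK hKh x x
    change ⟪K.opK hK x, x⟫_ℂ = ⟪x, K.opK hK x⟫_ℂ at h3
    rw [hc, inner_smul_left, inner_smul_right] at h3
    exact mul_right_cancel₀ (inner_self_ne_zero.2 hx0) h3
  refine ⟨lam, χ, fun p => lam⁻¹ * A.appP x p, hlam, hreal A hA hAh lam h1,
    fun j => hreal _ (hT j) (hTh j) _ (h2 j), ?_, ?_, ?_, ?_, fun p => ?_, fun j p => ?_⟩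
  · filter_upwards [opK_coeFn hA x, Lp.coeFn_smul lam x] with p e1 e2
    rw [← e1, h1, e2, Pi.smul_apply, smul_eq_mul, inv_mul_cancel_left₀ hlam]
  · exact isInvariant_iff.2 fun g p => by rw [← PG.mk_smul, appP_smul]
  · exact fun ν => continuous_const.mul (continuous_appP hA x ν)
  · obtain ⟨C, hC⟩ := exists_appP_bound hA x
    exact ⟨‖lam⁻¹‖ * C, fun p => by
      rw [norm_mul]; exact mul_le_mul_of_nonneg_left (hC p) (norm_nonneg _)⟩
  · rw [mul_inv_cancel_left₀ hlam]
  · have e1 : (T j).appP (A.opK hA x) p = A.appP ((T j).opK (hT j) x) p := by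
      rw [appP_opK hD (hT j) hA, appP_opK hD hA (hT j), appP, appP]
      simp only [hAT j _ _]
    rw [h1, h2 j, appP_const_smul, appP_const_smul] at e1
    field_simp
    linear_combination e1

end SKer

end Fermat.LTG
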