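import Fermat.Agent.LTG.Setting
import Fermat.Agent.LT.FinSpace

/-!
# The point space: action, countability, measure

`FinPt.base` is the base point and `ptMeasure` the measure, preserved by `GL₂(F)`
(`measurePreserving_smul_pt`).
-/

set_option autoImplicit false
open NumberField MeasureTheory Filter
open scoped Classical

namespace Fermat.LTG

open Fermat.LT

variable {F : Type*} [Field F] [NumberField F]

variable {S : Lev F}

/-- An element fixes almost every base coset. -/
lemma eventually_smul_base (g : GL (Fin 2) F) :
    ∀ᶠ v : Place F in cofinite, g • ((1 : GL (Fin 2) F) : Vert S v) =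
      ((1 : GL (Fin 2) F) : Vert S v) := by
  have hS : ∀ᶠ v : Place F in cofinite, v ∉ S :=
    S.eventually_notMem
  filter_upwards [hS, eventually_mem_intGL g] with v hv hg
  rw [MulAction.Quotient.smul_coe, QuotientGroup.eq, lev_of_not_mem hv]
  simpa using (U0 (v.valuation F)).inv_mem (le_withScalars _ hg)

/-- `GL₂(F)` acts on finite points componentwise. -/
noncomputable instance instMulActionFinPt : MulAction (GL (Fin 2) F) (FinPt F S) where
  smul g ω := ⟨fun v => g • ω.1 v, by
    filter_upwards [ω.2, eventually_smul_base (S := S) g] with v h1 h2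
    rw [h1, h2]⟩
  one_smul ω := Subtype.ext (funext fun v => one_smul _ (ω.1 v))
  mul_smul g h ω := Subtype.ext (funext fun v => mul_smul g h (ω.1 v))

/-- The action on finite points at one place. -/
@[simp] lemma FinPt.smul_apply (g : GL (Fin 2) F) (ω : FinPt F S) (v : Place F) :
    (g • ω).1 v = g • ω.1 v := rfl

/-- The base point. -/
noncomputable def FinPt.base : FinPt F S :=
  ⟨fun v => ((1 : GL (Fin 2) F) : Vert S v), Eventually.of_forall fun _ => rfl⟩

/-- There are countably many finite points. -/
instance countable_finPt : Countable (FinPt F S) := by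
  have : Countable (Σ v : Place F, Vert S v) := by
    have : ∀ v : Place F, Countable (Vert S v) := fun v =>
      Function.Surjective.countable QuotientGroup.mk_surjective
    infer_instance
  let enc : FinPt F S → Finset (Σ v : Place F, Vert S v) := fun ω =>
    (eventually_cofinite.1 ω.2).toFinset.image fun v => ⟨v, ω.1 v⟩
  refine Function.Injective.countable (f := enc) fun ω ω' h => ?_
  apply Subtype.ext
  funext v
  by_cases hv : ω.1 v = ((1 : GL (Fin 2) F) : Vert S v)
  · by_cases hv' : ω'.1 v = ((1 : GL (Fin 2) F) : Vert S v)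
    · rw [hv, hv']
    · have hm : (⟨v, ω'.1 v⟩ : Σ v : Place F, Vert S v) ∈ enc ω := by
        rw [h]; exact Finset.mem_image.2 ⟨v, by simpa using hv', rfl⟩
      obtain ⟨u, hu, he⟩ := Finset.mem_image.1 hm
      obtain rfl : u = v := congrArg Sigma.fst he
      exact eq_of_heq (Sigma.mk.inj he).2
  · have hm : (⟨v, ω.1 v⟩ : Σ v : Place F, Vert S v) ∈ enc ω' := by
      rw [← h]; exact Finset.mem_image.2 ⟨v, by simpa using hv, rfl⟩
    obtain ⟨u, hu, he⟩ := Finset.mem_image.1 hm
    obtain rfl : u = v := congrArg Sigma.fst he
    exact (eq_of_heq (Sigma.mk.inj he).2).symm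

/-- Finite points carry the discrete measurable structure. -/
instance instMeasurableSpaceFinPt : MeasurableSpace (FinPt F S) := ⊤

/-- `GL₂(F)` acts on points. -/
noncomputable instance instMulActionPt : MulAction (GL (Fin 2) F) (Pt F S) where
  smul g p := (g • p.1, fun w => atInf w g • p.2 w)
  one_smul p := Prod.ext (one_smul _ p.1) (funext fun w => by
    change atInf w 1 • p.2 w = p.2 w
    rw [map_one, one_smul])
  mul_smul g h p := Prod.ext (mul_smul g h p.1) (funext fun w => by
    change atInf w (g * h) • p.2 w = atInf w g • (atInf w h • p.2 w)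
    rw [map_mul, mul_smul])

/-- The finite part of a translate. -/
@[simp] lemma Pt.smul_fst (g : GL (Fin 2) F) (p : Pt F S) : (g • p).1 = g • p.1 := rfl

/-- The infinite part of a translate. -/
@[simp] lemma Pt.smul_snd (g : GL (Fin 2) F) (p : Pt F S) (w : InfinitePlace F) :
    (g • p).2 w = atInf w g • p.2 w := rfl

/-- Invariance under `PGL₂(F)` is invariance under `GL₂(F)`. -/
lemma isInvariant_iff {Φ : Pt F S → ℂ} :
    IsInvariant Φ ↔ ∀ (g : GL (Fin 2) F) (p : Pt F S), Φ (g • p) = Φ p := by
  refine ⟨fun h g p => h g p (g • p) (fun v => rfl) (fun w => rfl), fun h g p q h1 h2 => ?_⟩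
  rw [show q = g • p from Prod.ext (Subtype.ext (funext h1)) (funext h2), h]

/-- Scalars act trivially. -/
lemma Pt.scal_smul (c : Fˣ) (p : Pt F S) : scal c • p = p := by
  refine Prod.ext (Subtype.ext (funext fun v => ?_)) (funext fun w => ?_)
  · obtain ⟨g, hg⟩ := QuotientGroup.mk_surjective (p.1.1 v)
    rw [Pt.smul_fst, FinPt.smul_apply, ← hg, MulAction.Quotient.smul_coe, QuotientGroup.eq,
      smul_eq_mul, scal_comm, mul_inv_rev, mul_assoc, inv_mul_cancel, mul_one]
    exact (lev S v).inv_mem (scal_mem_lev S v c)
  · obtain ⟨g, hg⟩ := QuotientGroup.mk_surjective (p.2 w)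
    have e : atInf w (scal c) = scal (Units.map w.embedding.toMonoidHom c) := by
      refine Units.ext ?_
      change (Matrix.scalar (Fin 2) (c : F)).map w.embedding = Matrix.scalar (Fin 2) (w.embedding c)
      rw [Matrix.scalar_apply, Matrix.scalar_apply, Matrix.diagonal_map (map_zero _)]
    rw [Pt.smul_snd, ← hg, MulAction.Quotient.smul_coe, QuotientGroup.eq, smul_eq_mul, e,
      scal_comm, mul_inv_rev, mul_assoc, inv_mul_cancel, mul_one]
    refine UC.inv_mem ⟨(Complex.normSq (w.embedding (c : F)) : ℂ), ?_, ?_⟩
    · simp
    · rw [scal_coe]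
      simp [Matrix.scalar_apply, Complex.normSq_eq_conj_mul_self]

/-- The measure on points. -/
noncomputable def ptMeasure : Measure (Pt F S) :=
  (Measure.count : Measure (FinPt F S)).prod (Measure.pi fun _ => hmeas)

/-- `GL₂(F)` preserves the measure on points. -/
theorem measurePreserving_smul_pt (g : GL (Fin 2) F) :
    MeasurePreserving (fun p : Pt F S => g • p) (ptMeasure (F := F) (S := S))
      (ptMeasure (F := F) (S := S)) := by
  have h1 : MeasurePreserving (fun ω : FinPt F S => g • ω) (Measure.count : Measure (FinPt F S))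
      (Measure.count : Measure (FinPt F S)) := by
    refine ⟨measurable_from_top, Measure.ext fun s hs => ?_⟩
    rw [Measure.map_apply measurable_from_top hs,
      Measure.count_apply (hs.preimage measurable_from_top), Measure.count_apply hs]
    congr 1
    exact Set.encard_preimage_of_bijective (MulAction.bijective (β := FinPt F S) g) s
  have h2 : MeasurePreserving (fun (x : InfinitePlace F → H3) => fun w => atInf w g • x w)
      (Measure.pi fun _ => hmeas) (Measure.pi fun _ => hmeas) :=
    measurePreserving_pi _ _ fun w => measurePreserving_smul_H3 (atInf w g)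
  exact h1.prod h2

end Fermat.LTG
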